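/-
P9 / S28 package (B2): the abstract algebra core of Igusa's theorem.

`A` a UFD with a prime `l`, `K = Frac A`, `F/K` a finite field extension, `O ⊆ F` a subring
containing everything integral over `A`, `ρ : O →+* L` a ring hom to a field with
`ker ρ = l O`, `ρ|_A` with kernel `l A`, and `n ≥ [F : K]` elements of `O` whose `ρ`-images
are linearly independent over `ρ A`.  Then `ρ` restricted to the integral closure `B` of `A`
in `F` has kernel `l B`.
-/
import Mathlib

set_option autoImplicit false
set_option linter.unusedSectionVars false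
set_option linter.unusedVariables false

namespace Fermat.Agent.Igusa

open Polynomial

section UFDDescent

variable {A K F : Type*} [CommRing A] [IsDomain A] [IsIntegrallyClosed A]
  [Field K] [Algebra A K] [IsFractionRing A K]
  [Field F] [Algebra A F] [Algebra K F] [IsScalarTower A K F]

omit [IsDomain A] [IsIntegrallyClosed A] [IsFractionRing A K] in
/-- over a field, the minimal polynomial of `r • y` is the scaled one. -/
theorem minpoly_algebraMap_mul_eq_scaleRoots {r : A} (hr : algebraMap A K r ≠ 0) {y : F}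
    (hy : IsIntegral K y) :
    minpoly K (algebraMap A F r * y) = (minpoly K y).scaleRoots (algebraMap A K r) := by
  have h := IsIntegrallyClosed.minpoly_smul (R := K) (S := F) hr hy
  rwa [Algebra.smul_def, ← IsScalarTower.algebraMap_apply] at h

/-- if `r * y` is integral over the integrally closed domain `A`, the scaled coefficients of
the minimal polynomial of `y` over `K = Frac A` lie in `A`. -/
theorem coeff_minpoly_mul_pow_mem_range {r : A} (hr : r ≠ 0) {y : F}
    (hry : IsIntegral A (algebraMap A F r * y)) (i : ℕ) :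
    (minpoly K y).coeff i * algebraMap A K r ^ ((minpoly K y).natDegree - i) ∈
      Set.range (algebraMap A K) := by
  have hrK : algebraMap A K r ≠ 0 := by
    simpa using (IsFractionRing.injective A K).ne hr
  have hrF : algebraMap A F r ≠ 0 := by
    rw [IsScalarTower.algebraMap_apply A K F]
    simpa using (algebraMap K F).injective.ne hrK
  have hyK : IsIntegral K y := by
    have h1 : IsIntegral K (algebraMap A F r * y) := hry.tower_top
    have h2 : IsIntegral K ((algebraMap A F r)⁻¹) := by
      rw [IsScalarTower.algebraMap_apply A K F, ← map_inv₀]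
      exact isIntegral_algebraMap
    have := h2.mul h1
    rwa [inv_mul_cancel_left₀ hrF] at this
  have h1 := minpoly.isIntegrallyClosed_eq_field_fractions' K hry
  rw [minpoly_algebraMap_mul_eq_scaleRoots hrK hyK] at h1
  have h2 := congrArg (fun p => p.coeff i) h1
  simp only [coeff_scaleRoots, coeff_map] at h2
  exact ⟨_, h2.symm⟩

variable (K) in
include K in
/-- **UFD descent**: `l` prime, `l ∤ t`, `l * y` and `t * y` integral over the integrally closed
domain `A` imply `y` integral over `A`. -/
theorem isIntegral_of_isIntegral_mul_of_prime {l t : A} (hl : Prime l) (hlt : ¬ l ∣ t) {y : F}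
    (hly : IsIntegral A (algebraMap A F l * y)) (hty : IsIntegral A (algebraMap A F t * y)) :
    IsIntegral A y := by
  have hl0 : l ≠ 0 := hl.ne_zero
  have ht0 : t ≠ 0 := fun h => hlt (h ▸ dvd_zero l)
  have hinj : Function.Injective (algebraMap A K) := IsFractionRing.injective A K
  have hlK : algebraMap A K l ≠ 0 := by simpa using hinj.ne hl0
  have hlF : algebraMap A F l ≠ 0 := by
    rw [IsScalarTower.algebraMap_apply A K F]
    simpa using (algebraMap K F).injective.ne hlK
  have hyK : IsIntegral K y := by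
    have h1 : IsIntegral K (algebraMap A F l * y) := hly.tower_top
    have h2 : IsIntegral K ((algebraMap A F l)⁻¹) := by
      rw [IsScalarTower.algebraMap_apply A K F, ← map_inv₀]
      exact isIntegral_algebraMap
    have := h2.mul h1
    rwa [inv_mul_cancel_left₀ hlF] at this
  set m := minpoly K y with hm
  have hcoeff : ∀ i, m.coeff i ∈ Set.range (algebraMap A K) := by
    intro i
    set e := m.natDegree - i with he
    obtain ⟨a, ha⟩ := coeff_minpoly_mul_pow_mem_range (K := K) hl0 hly i
    obtain ⟨a', ha'⟩ := coeff_minpoly_mul_pow_mem_range (K := K) ht0 hty i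
    rw [← hm, ← he] at ha ha'
    -- a * t^e = a' * l^e
    have h3 : a * t ^ e = a' * l ^ e := by
      apply hinj
      rw [map_mul, map_mul, map_pow, map_pow, ha, ha']
      ring
    have h4 : l ^ e ∣ a := hl.pow_dvd_of_dvd_mul_right e (fun h => hlt (hl.dvd_of_dvd_pow h))
      (h3 ▸ Dvd.intro_left a' rfl)
    obtain ⟨c, hc⟩ := h4
    refine ⟨c, ?_⟩
    have h5 : m.coeff i * algebraMap A K l ^ e = algebraMap A K c * algebraMap A K l ^ e := by
      rw [← ha, hc, map_mul, map_pow]; ring
    exact (mul_right_cancel₀ (pow_ne_zero e hlK) h5).symm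
  have hlifts : m ∈ Polynomial.lifts (algebraMap A K) :=
    (Polynomial.lifts_iff_coeff_lifts m).mpr hcoeff
  obtain ⟨q, hqm, -, hqmonic⟩ :=
    Polynomial.lifts_and_natDegree_eq_and_monic hlifts (minpoly.monic hyK)
  refine ⟨q, hqmonic, ?_⟩
  have h6 : Polynomial.aeval y m = 0 := minpoly.aeval K y
  rw [← hqm, Polynomial.aeval_def, Polynomial.eval₂_map, ← IsScalarTower.algebraMap_eq] at h6
  exact h6

end UFDDescent

section Primitive

variable {A : Type*} [CommRing A] [IsDomain A] [WfDvdMonoid A]

/-- a tuple of elements of `A`, not all zero, is `l ^ k` times a tuple not all of whose entries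
are divisible by the prime `l`. -/
theorem exists_primitive_of_prime {ι : Type*} {l : A} (hl : Prime l) (a : ι → A) (i0 : ι)
    (h0 : a i0 ≠ 0) :
    ∃ (k : ℕ) (a' : ι → A), (∀ i, a i = l ^ k * a' i) ∧ ∃ i, ¬ l ∣ a' i := by
  suffices H : ∀ x : A, ∀ a : ι → A, a i0 = x → x ≠ 0 →
      ∃ (k : ℕ) (a' : ι → A), (∀ i, a i = l ^ k * a' i) ∧ ∃ i, ¬ l ∣ a' i from
    H (a i0) a rfl h0
  intro x
  induction x using (wellFounded_dvdNotUnit (α := A)).induction with
  | _ x ih =>
    intro a hax hx
    by_cases hall : ∀ i, l ∣ a i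
    · choose a₁ ha₁ using hall
      have h1 : a₁ i0 ≠ 0 := by
        intro h
        apply hx
        rw [← hax, ha₁ i0, h, mul_zero]
      have h2 : DvdNotUnit (a₁ i0) x :=
        ⟨h1, l, hl.not_isUnit, by rw [← hax, ha₁ i0, mul_comm]⟩
      obtain ⟨k, a', hk, hi⟩ := ih (a₁ i0) h2 a₁ rfl h1
      refine ⟨k + 1, a', fun i => ?_, hi⟩
      rw [ha₁ i, hk i, pow_succ]; ring
    · push Not at hall
      exact ⟨0, a, fun i => by simp, hall⟩

end Primitive

section Core

variable {A K F L : Type*} [CommRing A] [IsDomain A] [WfDvdMonoid A] [IsIntegrallyClosed A]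
  [Field K] [Algebra A K] [IsFractionRing A K]
  [Field F] [Algebra A F] [Algebra K F] [IsScalarTower A K F] [Field L]

/-- The hypotheses of the abstract algebra core: a subring `O` of `F`, a ring hom `ρ : O →+* L`,
a prime `l` of `A`. -/
structure ResidueCore (A F L : Type*) [CommRing A] [Field F] [Algebra A F] [Field L] where
  /-- the (valuation) ring -/
  O : Subring F
  /-- the residue map -/
  ρ : O →+* L
  /-- the prime -/
  l : A
  prime_l : Prime l
  /-- `O` contains everything integral over `A` -/
  mem_of_isIntegral : ∀ x : F, IsIntegral A x → x ∈ O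
  /-- `ρ l = 0` -/
  ρ_l : ρ ⟨algebraMap A F l, mem_of_isIntegral _ isIntegral_algebraMap⟩ = 0
  /-- `ker ρ ⊆ l O` -/
  exists_of_ρ_eq_zero : ∀ x : O, ρ x = 0 → ∃ y : O, (x : F) = algebraMap A F l * y
  /-- `ker ρ|_A ⊆ l A` -/
  dvd_of_ρ_eq_zero : ∀ a : A,
    ρ ⟨algebraMap A F a, mem_of_isIntegral _ isIntegral_algebraMap⟩ = 0 → l ∣ a

namespace ResidueCore

variable (D : ResidueCore A F L)

/-- `A → O`. -/
def incl : A →+* D.O :=
  (algebraMap A F).codRestrict D.O fun a => D.mem_of_isIntegral _ isIntegral_algebraMap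

@[simp] theorem coe_incl (a : A) : ((D.incl a : D.O) : F) = algebraMap A F a := rfl

theorem ρ_incl_l : D.ρ (D.incl D.l) = 0 := D.ρ_l

theorem dvd_of_ρ_incl_eq_zero {a : A} (h : D.ρ (D.incl a) = 0) : D.l ∣ a :=
  D.dvd_of_ρ_eq_zero a h

theorem ρ_incl_eq_zero_of_dvd {a : A} (h : D.l ∣ a) : D.ρ (D.incl a) = 0 := by
  obtain ⟨c, rfl⟩ := h
  rw [map_mul, map_mul, D.ρ_incl_l, zero_mul]

/-- independence of the `ρ (b i)` over `ρ A`. -/
def Indep {n : ℕ} (b : Fin n → D.O) : Prop :=
  ∀ a : Fin n → A, ∑ i, D.ρ (D.incl (a i)) * D.ρ (b i) = 0 → ∀ i, D.ρ (D.incl (a i)) = 0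

variable {D}

include K in
/-- `A → F` is injective. -/
theorem algebraMap_injective' : Function.Injective (algebraMap A F) := by
  rw [IsScalarTower.algebraMap_eq A K F]
  exact (algebraMap K F).injective.comp (IsFractionRing.injective A K)

include K in
/-- a relation with coefficients in `A` among the `b i` has all coefficients zero. -/
theorem eq_zero_of_sum_eq_zero {n : ℕ} {b : Fin n → D.O} (hb : D.Indep b) (a : Fin n → A)
    (h : ∑ i, algebraMap A F (a i) * (b i : F) = 0) : ∀ i, a i = 0 := by
  by_contra hne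
  push Not at hne
  obtain ⟨i0, hi0⟩ := hne
  obtain ⟨k, a', hk, i1, hi1⟩ := exists_primitive_of_prime D.prime_l a i0 hi0
  have hinj := algebraMap_injective' (A := A) (K := K) (F := F)
  have hlF : algebraMap A F D.l ≠ 0 := by simpa using hinj.ne D.prime_l.ne_zero
  have h1 : ∑ i, algebraMap A F (a' i) * (b i : F) = 0 := by
    have : algebraMap A F D.l ^ k * ∑ i, algebraMap A F (a' i) * (b i : F) = 0 := by
      rw [← h, Finset.mul_sum]
      refine Finset.sum_congr rfl fun i _ => ?_
      rw [hk i, map_mul, map_pow]; ring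
    exact (mul_eq_zero.mp this).resolve_left (pow_ne_zero k hlF)
  have h2 : ∑ i, D.incl (a' i) * b i = 0 := by
    apply Subtype.ext
    rw [Subring.coe_zero, ← h1, AddSubmonoidClass.coe_finsetSum]
    simp
  have h3 : ∑ i, D.ρ (D.incl (a' i)) * D.ρ (b i) = 0 := by
    have := congrArg D.ρ h2
    simpa [map_sum] using this
  exact hi1 (D.dvd_of_ρ_incl_eq_zero (hb a' h3 i1))

include K in
/-- the `b i` are linearly independent over `K`. -/
theorem linearIndependent_of_indep {n : ℕ} {b : Fin n → D.O} (hb : D.Indep b) :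
    LinearIndependent K (fun i => (b i : F)) := by
  rw [Fintype.linearIndependent_iff]
  intro c hc i
  obtain ⟨d, hd⟩ := IsLocalization.exist_integer_multiples (nonZeroDivisors A) Finset.univ c
  choose a ha using fun i => hd i (Finset.mem_univ i)
  have hd0 : algebraMap A K (d : A) ≠ 0 := by
    simp
  have h1 : ∑ i, algebraMap A F (a i) * (b i : F) = 0 := by
    have : algebraMap K F (algebraMap A K (d : A)) * ∑ i, c i • (b i : F) = 0 := by
      rw [hc, mul_zero]
    rw [← this, Finset.mul_sum]
    refine Finset.sum_congr rfl fun i _ => ?_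
    rw [IsScalarTower.algebraMap_apply A K F, ha i, Algebra.smul_def, Algebra.smul_def, map_mul]
    ring
  have h2 := eq_zero_of_sum_eq_zero (K := K) hb a h1 i
  have h3 := ha i
  rw [h2, map_zero, Algebra.smul_def] at h3
  exact ((mul_eq_zero.mp h3.symm).resolve_left hd0)

variable [FiniteDimensional K F]

include K in
/-- the `b i` span `F` over `K` when `[F : K] ≤ n`. -/
theorem span_eq_top_of_indep {n : ℕ} {b : Fin n → D.O} (hb : D.Indep b)
    (hn : Module.finrank K F ≤ n) :
    Submodule.span K (Set.range fun i => (b i : F)) = ⊤ := by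
  have hli := linearIndependent_of_indep (K := K) hb
  have h1 : Fintype.card (Fin n) ≤ Module.finrank K F := hli.fintype_card_le_finrank
  have h2 : Fintype.card (Fin n) = Module.finrank K F := by
    rw [Fintype.card_fin] at h1 ⊢; omega
  exact hli.span_eq_top_of_card_eq_finrank' h2

include K in
/-- every element of `O` is an `A_(l)`-combination of the `b i`. -/
theorem exists_mul_eq_sum {n : ℕ} {b : Fin n → D.O} (hb : D.Indep b)
    (hn : Module.finrank K F ≤ n) (x : D.O) :
    ∃ (s : A) (a : Fin n → A), ¬ D.l ∣ s ∧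
      algebraMap A F s * (x : F) = ∑ i, algebraMap A F (a i) * (b i : F) := by
  have hx : (x : F) ∈ Submodule.span K (Set.range fun i => (b i : F)) := by
    rw [span_eq_top_of_indep (K := K) hb hn]; trivial
  obtain ⟨c, hc⟩ := (Submodule.mem_span_range_iff_exists_fun K).mp hx
  obtain ⟨d, hd⟩ := IsLocalization.exist_integer_multiples (nonZeroDivisors A) Finset.univ c
  choose a ha using fun i => hd i (Finset.mem_univ i)
  have hinj := algebraMap_injective' (A := A) (K := K) (F := F)
  have hlF : algebraMap A F D.l ≠ 0 := by simpa using hinj.ne D.prime_l.ne_zero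
  -- `d * x = ∑ a i * b i`
  have h1 : algebraMap A F (d : A) * (x : F) = ∑ i, algebraMap A F (a i) * (b i : F) := by
    rw [← hc, Finset.mul_sum]
    refine Finset.sum_congr rfl fun i _ => ?_
    rw [IsScalarTower.algebraMap_apply A K F (a i), ha i, Algebra.smul_def, Algebra.smul_def,
      map_mul, ← IsScalarTower.algebraMap_apply A K F]
    ring
  -- normalise the tuple `(d, a)`
  let t : Option (Fin n) → A := fun o => o.elim (d : A) a
  obtain ⟨k, t', hk, i1, hi1⟩ := exists_primitive_of_prime D.prime_l t none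
    (nonZeroDivisors.coe_ne_zero d)
  have h2 : algebraMap A F (t' none) * (x : F) =
      ∑ i, algebraMap A F (t' (some i)) * (b i : F) := by
    have : algebraMap A F D.l ^ k * (algebraMap A F (t' none) * (x : F)) =
        algebraMap A F D.l ^ k * ∑ i, algebraMap A F (t' (some i)) * (b i : F) := by
      have e1 : (d : A) = D.l ^ k * t' none := hk none
      have e2 : ∀ i, a i = D.l ^ k * t' (some i) := fun i => hk (some i)
      rw [← mul_assoc, ← map_pow, ← map_mul, ← e1, h1, Finset.mul_sum]
      refine Finset.sum_congr rfl fun i _ => ?_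
      rw [e2 i, map_mul]; ring
    exact mul_left_cancel₀ (pow_ne_zero k hlF) this
  refine ⟨t' none, fun i => t' (some i), ?_, h2⟩
  intro hdvd
  -- apply `ρ`
  have h3 : D.incl (t' none) * x = ∑ i, D.incl (t' (some i)) * b i := by
    apply Subtype.ext
    rw [AddSubmonoidClass.coe_finsetSum]
    simp only [Subring.coe_mul, coe_incl]
    exact h2
  have h4 : ∑ i, D.ρ (D.incl (t' (some i))) * D.ρ (b i) = 0 := by
    have := congrArg D.ρ h3
    rw [map_mul, D.ρ_incl_eq_zero_of_dvd hdvd, zero_mul, map_sum] at this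
    simpa using this.symm
  have h5 := hb _ h4
  rcases i1 with _ | i
  · exact hi1 hdvd
  · exact hi1 (D.dvd_of_ρ_incl_eq_zero (h5 i))

include K in
/-- every element of `O` has a multiple by some `t ∉ l A` which is integral over `A`. -/
theorem exists_isIntegral_mul {n : ℕ} {b : Fin n → D.O} (hb : D.Indep b)
    (hn : Module.finrank K F ≤ n) (y : D.O) :
    ∃ t : A, ¬ D.l ∣ t ∧ IsIntegral A (algebraMap A F t * (y : F)) := by
  classical
  have hinj := algebraMap_injective' (A := A) (K := K) (F := F)
  choose s a hs hsa using fun j : Fin n => exists_mul_eq_sum (K := K) hb hn (y * b j)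
  set M : Submodule A F := Submodule.span A (Set.range fun i => (b i : F)) with hM
  refine ⟨∏ j, s j, ?_, ?_⟩
  · intro h
    obtain ⟨j, -, hj⟩ := (D.prime_l.dvd_finsetProd_iff _).mp h
    exact hs j hj
  · have hbM : ∀ i, (b i : F) ∈ M := fun i => Submodule.subset_span ⟨i, rfl⟩
    have hMne : M ≠ ⊥ := by
      obtain ⟨s1, a1, hs1, h1⟩ := exists_mul_eq_sum (K := K) hb hn (1 : D.O)
      have hs10 : s1 ≠ 0 := fun h => hs1 (h ▸ dvd_zero _)
      intro hbot
      have hmem : algebraMap A F s1 * ((1 : D.O) : F) ∈ M := by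
        rw [h1]
        refine Submodule.sum_mem _ fun i _ => ?_
        rw [← Algebra.smul_def]
        exact M.smul_mem _ (hbM i)
      rw [hbot, Submodule.mem_bot, Subring.coe_one, mul_one] at hmem
      exact hs10 (hinj (by rw [hmem, map_zero]))
    have hMfg : M.FG := Submodule.fg_span (Set.finite_range _)
    refine isIntegral_of_smul_mem_submodule M hMne hMfg _ ?_
    intro m hm
    induction hm using Submodule.span_induction with
    | mem m hm =>
      obtain ⟨j, rfl⟩ := hm
      have e : (algebraMap A F (∏ j, s j) * (y : F)) • (b j : F) =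
          (∏ i ∈ Finset.univ.erase j, s i) •
            (algebraMap A F (s j) * ((y * b j : D.O) : F)) := by
        rw [← Finset.mul_prod_erase Finset.univ s (Finset.mem_univ j), smul_eq_mul,
          Algebra.smul_def, map_mul, Subring.coe_mul]
        ring
      rw [e, hsa j]
      refine M.smul_mem _ (Submodule.sum_mem _ fun i _ => ?_)
      rw [← Algebra.smul_def]
      exact M.smul_mem _ (hbM i)
    | zero => simp
    | add u v _ _ hu hv => rw [smul_add]; exact M.add_mem hu hv
    | smul r u _ hu =>
      rw [smul_comm]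
      exact M.smul_mem r hu

include K in
/-- **The abstract algebra core.**  `ρ` restricted to the integral closure of `A` in `F` has
kernel generated by `l`. -/
theorem exists_isIntegral_of_ρ_eq_zero {n : ℕ} {b : Fin n → D.O} (hb : D.Indep b)
    (hn : Module.finrank K F ≤ n) (x : F) (hx : IsIntegral A x)
    (hρ : D.ρ ⟨x, D.mem_of_isIntegral x hx⟩ = 0) :
    ∃ y : F, IsIntegral A y ∧ x = algebraMap A F D.l * y := by
  obtain ⟨y, hy⟩ := D.exists_of_ρ_eq_zero _ hρ
  obtain ⟨t, ht, hty⟩ := exists_isIntegral_mul (K := K) hb hn y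
  refine ⟨y, ?_, hy⟩
  refine isIntegral_of_isIntegral_mul_of_prime K D.prime_l ht ?_ hty
  rw [← hy]
  exact hx

/-- `ρ` on the integral closure of `A` in `F`. -/
def ρInt (D : ResidueCore A F L) : integralClosure A F →+* L :=
  D.ρ.comp ((integralClosure A F).val.toRingHom.codRestrict D.O
    fun x => D.mem_of_isIntegral x x.2)

theorem ρInt_apply (x : integralClosure A F) :
    D.ρInt x = D.ρ ⟨x, D.mem_of_isIntegral x x.2⟩ := rfl

include K in
/-- the kernel of `ρ` on the integral closure of `A` in `F` is generated by `l`. -/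
theorem ker_ρInt {n : ℕ} {b : Fin n → D.O} (hb : D.Indep b)
    (hn : Module.finrank K F ≤ n) :
    RingHom.ker D.ρInt = Ideal.span {algebraMap A (integralClosure A F) D.l} := by
  apply le_antisymm
  · intro x hx
    rw [RingHom.mem_ker, ρInt_apply] at hx
    obtain ⟨y, hy, hxy⟩ := exists_isIntegral_of_ρ_eq_zero (K := K) hb hn x x.2 hx
    rw [Ideal.mem_span_singleton]
    refine ⟨⟨y, hy⟩, Subtype.ext ?_⟩
    rw [hxy]
    rfl
  · rw [Ideal.span_le, Set.singleton_subset_iff, SetLike.mem_coe, RingHom.mem_ker, ρInt_apply]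
    exact D.ρ_l

omit [IsDomain A] [WfDvdMonoid A] [IsIntegrallyClosed A] [FiniteDimensional K F] in
/-- **glue**: if the subalgebra generated by `ρ G` over a field `κ ⊇ ρ A` has dimension `≥ n`,
then `n` monomials in `G` have `ρ A`-independent images. -/
theorem exists_indep_of_le_finrank {κ : Type*} [Field κ] [Algebra κ L]
    (hκ : ∀ a : A, D.ρ (D.incl a) ∈ Set.range (algebraMap κ L)) (G : Set D.O) {n : ℕ}
    (hn : n ≤ Module.finrank κ (Algebra.adjoin κ (D.ρ '' G))) :
    ∃ b : Fin n → D.O, (∀ i, b i ∈ Submonoid.closure G) ∧ D.Indep b := by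
  classical
  rcases Nat.eq_zero_or_pos n with rfl | hpos
  · exact ⟨Fin.elim0, fun i => i.elim0, fun a _ i => i.elim0⟩
  set T : Set L := (Submonoid.closure (D.ρ '' G) : Set L) with hT
  have hspan : Subalgebra.toSubmodule (Algebra.adjoin κ (D.ρ '' G)) = Submodule.span κ T :=
    Algebra.adjoin_eq_span κ _
  have hfr : Module.finrank κ (Algebra.adjoin κ (D.ρ '' G)) =
      Module.finrank κ (Submodule.span κ T) := by
    rw [← hspan]; rfl
  rw [hfr] at hn
  have : Module.Finite κ (Submodule.span κ T) :=
    Module.finite_of_finrank_pos (lt_of_lt_of_le hpos hn)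
  obtain ⟨f, hfT, -, hfli⟩ := Submodule.exists_fun_fin_finrank_span_eq κ T
  have hmap : ∀ x ∈ T, ∃ g ∈ Submonoid.closure G, D.ρ g = x := by
    intro x hx
    have : x ∈ (Submonoid.closure G).map (D.ρ : D.O →* L) := by
      rw [MonoidHom.map_mclosure]; exact hx
    obtain ⟨g, hg, rfl⟩ := this
    exact ⟨g, hg, rfl⟩
  choose g hgG hg using fun i => hmap (f i) (hfT i)
  refine ⟨fun i => g (Fin.castLE hn i), fun i => hgG _, ?_⟩
  intro a ha i
  choose c hc using hκ
  have hli := hfli.comp (Fin.castLE hn) (Fin.castLE_injective hn)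
  rw [Fintype.linearIndependent_iff] at hli
  have := hli (fun i => c (a i)) (by
    rw [← ha]
    refine Finset.sum_congr rfl fun i _ => ?_
    rw [Function.comp_apply, Algebra.smul_def, hc, hg]) i
  rw [← hc, this, map_zero]

omit [IsDomain A] [WfDvdMonoid A] [IsIntegrallyClosed A] [FiniteDimensional K F] in
/-- the same with the generated subfield. -/
theorem exists_indep_of_le_finrank_field {κ : Type*} [Field κ] [Algebra κ L]
    (hκ : ∀ a : A, D.ρ (D.incl a) ∈ Set.range (algebraMap κ L)) (G : Set D.O) {n : ℕ}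
    (hn : n ≤ Module.finrank κ (IntermediateField.adjoin κ (D.ρ '' G))) :
    ∃ b : Fin n → D.O, (∀ i, b i ∈ Submonoid.closure G) ∧ D.Indep b := by
  rcases Nat.eq_zero_or_pos n with rfl | hpos
  · exact ⟨Fin.elim0, fun i => i.elim0, fun a _ i => i.elim0⟩
  have : FiniteDimensional κ (IntermediateField.adjoin κ (D.ρ '' G)) :=
    Module.finite_of_finrank_pos (lt_of_lt_of_le hpos hn)
  have halg : ∀ x ∈ D.ρ '' G, IsAlgebraic κ x := by
    intro x hx
    have hmem : x ∈ IntermediateField.adjoin κ (D.ρ '' G) :=
      IntermediateField.subset_adjoin κ _ hx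
    have h1 : IsAlgebraic κ (⟨x, hmem⟩ : IntermediateField.adjoin κ (D.ρ '' G)) :=
      Algebra.IsAlgebraic.isAlgebraic _
    exact IntermediateField.isAlgebraic_iff.mp h1
  have heq := IntermediateField.adjoin_toSubalgebra_of_isAlgebraic halg
  refine exists_indep_of_le_finrank hκ G ?_
  rw [← heq]
  exact hn

end ResidueCore

end Core

end Fermat.Agent.Igusa
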