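/-
P9 / S28 (Igusa), package (C4): the degree bound `[ℚ(X₀(N)) : ℚ(j)] ≤ ψ(N)`.

Derived from the geometric statement `[ℚ̄(X₀(N)) : ℚ̄(j)] = ψ(N)` (Lib/S24 `finrank_jBar`) by linear
disjointness: a family of Laurent series over `ℚ` which is linearly independent over `ℚ[j]` stays
linearly independent over `ℚ̄[j]` inside `ℚ̄((q))`.
-/
import Mathlib
import Fermat.Prelude.Def_ModularCurve_IgusaScheme
import Fermat.Agent.Lib.S24.Count

set_option autoImplicit false
set_option linter.unusedSectionVars false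
set_option linter.style.haveILetI false

open ModularCurve Polynomial

namespace Fermat.Agent.Igusa

section LinearDisjoint

variable {L : Type*} [Field L] [Algebra ℚ L]

/-- **Linear disjointness, functional form.**  If `∑ c_t · y_t = 0` in `L((q))` with `c_t ∈ L`
and `y_t ∈ ℚ((q))`, then `∑ φ(c_t) y_t = 0` for every `ℚ`-linear functional `φ` on `L`. -/
lemma sum_smul_eq_zero_of_sum_single_mul_coeffEmb {T : Type*} (s : Finset T) (c : T → L)
    (y : T → LaurentSeries ℚ)
    (h : ∑ t ∈ s, HahnSeries.single 0 (c t) * coeffEmb L (y t) = 0) (φ : L →ₗ[ℚ] ℚ) :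
    ∑ t ∈ s, φ (c t) • y t = 0 := by
  ext n
  have h1 := congrArg (fun z : LaurentSeries L => φ (z.coeff n)) h
  simp only [HahnSeries.coeff_sum, HahnSeries.single_zero_mul_eq_smul, HahnSeries.coeff_smul,
    coeffEmb_coeff, map_sum, smul_eq_mul, HahnSeries.coeff_zero, map_zero] at h1
  rw [HahnSeries.coeff_sum, HahnSeries.coeff_zero, ← h1]
  refine Finset.sum_congr rfl fun t _ => ?_
  rw [HahnSeries.coeff_smul, smul_eq_mul, mul_comm (c t), ← Algebra.smul_def, map_smul,
    smul_eq_mul, mul_comm]

/-- `P(j)` for a polynomial `P` with coefficients in `L`, expanded. -/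
lemma aeval_coeffEmb_eq_sum (j : LaurentSeries ℚ) (P : L[X]) :
    aeval (coeffEmb L j) P =
      ∑ a ∈ P.support, HahnSeries.single 0 (P.coeff a) * coeffEmb L (j ^ a) := by
  rw [aeval_def, eval₂_eq_sum, Polynomial.sum]
  refine Finset.sum_congr rfl fun a _ => ?_
  rw [algebraMap_laurentSeries_eq_single, map_pow]

/-- If all "functional images" of `P(j)` vanish then `P(j) = 0`. -/
lemma aeval_coeffEmb_eq_zero (j : LaurentSeries ℚ) (P : L[X])
    (h : ∀ φ : L →ₗ[ℚ] ℚ, ∑ a ∈ P.support, φ (P.coeff a) • j ^ a = 0) :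
    aeval (coeffEmb L j) P = 0 := by
  ext n
  rw [HahnSeries.coeff_zero, ← Module.forall_dual_apply_eq_zero_iff ℚ]
  intro φ
  have h1 := congrArg (fun z : LaurentSeries ℚ => z.coeff n) (h φ)
  simp only [HahnSeries.coeff_sum, HahnSeries.coeff_smul, smul_eq_mul, HahnSeries.coeff_zero]
    at h1
  rw [aeval_coeffEmb_eq_sum, HahnSeries.coeff_sum, map_sum, ← h1]
  refine Finset.sum_congr rfl fun a _ => ?_
  rw [HahnSeries.single_zero_mul_eq_smul, HahnSeries.coeff_smul, coeffEmb_coeff, smul_eq_mul,
    mul_comm (P.coeff a), ← Algebra.smul_def, map_smul, smul_eq_mul, mul_comm]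

/-- **Linear disjointness.**  A family `x` of Laurent series over `ℚ` which is linearly independent
over `ℚ[j]` stays linearly independent over `L[j]` in `L((q))`. -/
theorem aeval_coeffEmb_eq_zero_of_sum_eq_zero {ι : Type*} (j : LaurentSeries ℚ)
    (x : ι → LaurentSeries ℚ)
    (hx : ∀ (s : Finset ι) (p : ι → ℚ[X]), ∑ i ∈ s, aeval j (p i) * x i = 0 →
      ∀ i ∈ s, aeval j (p i) = 0)
    (s : Finset ι) (P : ι → L[X])
    (h : ∑ i ∈ s, aeval (coeffEmb L j) (P i) * coeffEmb L (x i) = 0) :
    ∀ i ∈ s, aeval (coeffEmb L j) (P i) = 0 := by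
  classical
  intro i hi
  apply aeval_coeffEmb_eq_zero
  intro φ
  -- the polynomial with coefficients `φ (coeff)`
  let p : ι → ℚ[X] := fun i => ∑ a ∈ (P i).support, monomial a (φ ((P i).coeff a))
  have hp : ∀ i, aeval j (p i) = ∑ a ∈ (P i).support, φ ((P i).coeff a) • j ^ a := by
    intro i
    rw [map_sum]
    refine Finset.sum_congr rfl fun a _ => ?_
    rw [aeval_monomial, algebraMap_laurentSeries_eq_single, HahnSeries.single_zero_mul_eq_smul]
  rw [← hp]
  refine hx s p ?_ i hi
  -- apply the functional form to the double sum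
  have h2 : ∑ t ∈ s.sigma (fun i => (P i).support),
      HahnSeries.single 0 ((P t.1).coeff t.2) * coeffEmb L (j ^ t.2 * x t.1) = 0 := by
    rw [Finset.sum_sigma, ← h]
    refine Finset.sum_congr rfl fun i _ => ?_
    rw [aeval_coeffEmb_eq_sum, Finset.sum_mul]
    refine Finset.sum_congr rfl fun a _ => ?_
    rw [map_mul, mul_assoc]
  have h3 := sum_smul_eq_zero_of_sum_single_mul_coeffEmb _ _ _ h2 φ
  rw [Finset.sum_sigma] at h3
  rw [← h3]
  refine Finset.sum_congr rfl fun i _ => ?_
  rw [hp, Finset.sum_mul]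
  refine Finset.sum_congr rfl fun a _ => ?_
  rw [smul_mul_assoc]

end LinearDisjoint

section Degree

open IntermediateField ModularCurve.IgusaScheme Fermat.Agent.S24Lib
open scoped IntermediateField.algebraAdjoinAdjoin

variable (N : ℕ) [NeZero N]

local notation "Kbar" => AlgebraicClosure ℚ

/-- The embedding `ℚ(X₀(N)) → ℚ̄(X₀(N))` (extension of the coefficients of `q`-expansions). -/
noncomputable def embBar : ↥(modularFunctionFieldFull N) →+* ↥(modularFunctionFieldBar N) :=
  ((coeffEmb Kbar).comp (algebraMap ↥(modularFunctionFieldFull N) (LaurentSeries ℚ))).codRestrict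
    (modularFunctionFieldBar N) (fun x => coeffEmb_mem_laurentBaseChange Kbar x.2)

lemma coe_embBar (x : ↥(modularFunctionFieldFull N)) :
    ((embBar N x : ↥(modularFunctionFieldBar N)) : LaurentSeries Kbar) =
      coeffEmb Kbar (x : LaurentSeries ℚ) := rfl

lemma coe_aeval_jFull (p : ℚ[X]) :
    ((aeval (jFull N) p : ↥(modularFunctionFieldFull N)) : LaurentSeries ℚ) = aeval jq p := by
  have h : ((algebraMap ↥(modularFunctionFieldFull N) (LaurentSeries ℚ)).comp
      (aeval (jFull N) : ℚ[X] →ₐ[ℚ] ↥(modularFunctionFieldFull N)).toRingHom) =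
      (aeval jq : ℚ[X] →ₐ[ℚ] LaurentSeries ℚ).toRingHom := by
    apply Polynomial.ringHom_ext
    · intro a
      simp
    · simp
  exact DFunLike.congr_fun h p

lemma coe_aeval_jBar (P : Kbar[X]) :
    ((aeval (jBar N) P : ↥(modularFunctionFieldBar N)) : LaurentSeries Kbar) =
      aeval (coeffEmb Kbar jq) P := by
  have h : ((algebraMap ↥(modularFunctionFieldBar N) (LaurentSeries Kbar)).comp
      (aeval (jBar N) : Kbar[X] →ₐ[Kbar] ↥(modularFunctionFieldBar N)).toRingHom) =
      (aeval (coeffEmb Kbar jq) : Kbar[X] →ₐ[Kbar] LaurentSeries Kbar).toRingHom := by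
    apply Polynomial.ringHom_ext
    · intro a
      simp
    · simp [coe_jBar']
  exact DFunLike.congr_fun h P

/-- **Linear disjointness for the modular function fields.** -/
theorem linearIndependent_embBar {ι : Type*} (x : ι → ↥(modularFunctionFieldFull N))
    (hx : LinearIndependent ↥(IntermediateField.adjoin ℚ {jFull N}) x) :
    LinearIndependent ↥(IntermediateField.adjoin Kbar {jBar N}) (fun i => embBar N (x i)) := by
  rw [← LinearIndependent.iff_fractionRing (R := ↥(Algebra.adjoin ℚ {jFull N}))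
    (K := ↥(IntermediateField.adjoin ℚ {jFull N}))] at hx
  rw [← LinearIndependent.iff_fractionRing (R := ↥(Algebra.adjoin Kbar {jBar N}))
    (K := ↥(IntermediateField.adjoin Kbar {jBar N}))]
  rw [linearIndependent_iff'] at hx ⊢
  intro s g hg i hi
  -- polynomials representing the coefficients
  have hex : ∀ i, ∃ P : Kbar[X], aeval (jBar N) P = (g i : ↥(modularFunctionFieldBar N)) := by
    intro i
    have h1 : (g i : ↥(modularFunctionFieldBar N)) ∈
        (aeval (jBar N) : Kbar[X] →ₐ[Kbar] ↥(modularFunctionFieldBar N)).range := by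
      rw [← Algebra.adjoin_singleton_eq_range_aeval]
      exact (g i).2
    exact h1
  choose P hP using hex
  -- the property of `x` at the level of Laurent series
  have hx' : ∀ (s : Finset ι) (p : ι → ℚ[X]),
      ∑ i ∈ s, aeval jq (p i) * ((x i : ↥(modularFunctionFieldFull N)) : LaurentSeries ℚ) = 0 →
      ∀ i ∈ s, aeval jq (p i) = 0 := by
    intro s p hsum i hi
    have hmem : ∀ p : ℚ[X], aeval (jFull N) p ∈ Algebra.adjoin ℚ {jFull N} := fun p => by
      rw [Algebra.adjoin_singleton_eq_range_aeval]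
      exact AlgHom.mem_range_self _ p
    have h1 := hx s (fun i => ⟨aeval (jFull N) (p i), hmem (p i)⟩) ?_ i hi
    · have h2 := congrArg (fun z : ↥(Algebra.adjoin ℚ {jFull N}) =>
        ((z : ↥(modularFunctionFieldFull N)) : LaurentSeries ℚ)) h1
      simp only [ZeroMemClass.coe_zero] at h2
      rw [← coe_aeval_jFull N]
      exact h2
    · apply Subtype.ext
      rw [ZeroMemClass.coe_zero, ← hsum]
      push_cast
      refine Finset.sum_congr rfl fun i _ => ?_
      rw [← coe_aeval_jFull N]
      rfl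
  -- the relation in `ℚ̄((q))`
  have hE : ∑ i ∈ s, aeval (coeffEmb Kbar jq) (P i) *
      coeffEmb Kbar ((x i : ↥(modularFunctionFieldFull N)) : LaurentSeries ℚ) = 0 := by
    have h1 := congrArg (fun z : ↥(modularFunctionFieldBar N) => (z : LaurentSeries Kbar)) hg
    simp only [ZeroMemClass.coe_zero] at h1
    rw [← h1]
    push_cast
    refine Finset.sum_congr rfl fun i _ => ?_
    rw [← coe_aeval_jBar N, hP]
    rfl
  have key := aeval_coeffEmb_eq_zero_of_sum_eq_zero (L := Kbar) jq
    (fun i => ((x i : ↥(modularFunctionFieldFull N)) : LaurentSeries ℚ)) hx' s P hE i hi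
  apply Subtype.ext
  apply Subtype.ext
  rw [← hP, coe_aeval_jBar N, key]
  rfl

/-- **(C4).**  `[ℚ(X₀(N)) : ℚ(j)] ≤ ψ(N)` as an inequality of ranks. -/
theorem rank_adjoin_jFull_le :
    Module.rank ↥(IntermediateField.adjoin ℚ {jFull N}) ↥(modularFunctionFieldFull N) ≤
      (dedekindPsi N : Cardinal) := by
  apply rank_le
  intro s hs
  have h1 := linearIndependent_embBar N _ hs
  haveI : FiniteDimensional ↥(IntermediateField.adjoin Kbar {jBar N})
      ↥(modularFunctionFieldBar N) := (isFunctionFieldGen_jBar N).finite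
  have h2 := h1.fintype_card_le_finrank
  rw [finrank_jBar, Fintype.card_coe] at h2
  exact h2

instance finiteDimensional_adjoin_jFull :
    FiniteDimensional ↥(IntermediateField.adjoin ℚ {jFull N}) ↥(modularFunctionFieldFull N) := by
  rw [FiniteDimensional, ← Module.rank_lt_aleph0_iff]
  exact lt_of_le_of_lt (rank_adjoin_jFull_le N) Cardinal.natCast_lt_aleph0

/-- **(C4).**  `[ℚ(X₀(N)) : ℚ(j)] ≤ ψ(N)`. -/
theorem finrank_adjoin_jFull_le :
    Module.finrank ↥(IntermediateField.adjoin ℚ {jFull N}) ↥(modularFunctionFieldFull N) ≤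
      dedekindPsi N := by
  have h := rank_adjoin_jFull_le N
  rw [← Module.finrank_eq_rank] at h
  exact_mod_cast h

end Degree

end Fermat.Agent.Igusa
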