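import Mathlib
import Fermat.Prelude.Def_ModularCurve_IgusaScheme
import Fermat.Prelude.Def_ModularCurve_X0ModL

/-!
# S28 (Igusa), package (B1): the `ℓ`-adic Gauss valuation ring of the modular function field

`F = ℚ(j(q^d) : d ∣ N) ⊆ ℚ((q))`.  With `S = ℤ_(ℓ)((q))` and its coefficientwise reduction
`red : S → 𝔽_ℓ((q))` (a ring hom onto a field), the set `O` of all `f ∈ F` of the form `g / h` with
`g, h ∈ S`, `red h ≠ 0`, is a valuation subring of `F`, and `ρ (g / h) = red g / red h` is a ring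
hom `O → 𝔽_ℓ((q))` with kernel `ℓ O`.  The chart algebras of the Igusa scheme lie in `O`.
-/

set_option autoImplicit false

open HahnSeries ModularCurve ModularCurve.IgusaScheme

noncomputable section

namespace Fermat.Agent.Igusa

variable (ℓ : ℕ) [Fact ℓ.Prime]

set_option quotPrecheck false in
local notation "ℤℓ" => ↥(GaloisRep.ratLocalizedAt ℓ)

/-! ### The reduction `ℤ_(ℓ) → 𝔽_ℓ` -/

theorem zl_den_ne_zero (a : ℤℓ) : (((a : ℚ).den : ℕ) : ZMod ℓ) ≠ 0 := by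
  have hp : ℓ.Prime := Fact.out
  have ha : (a : ℚ).den.Coprime ℓ := a.2
  rw [Ne, ZMod.natCast_eq_zero_iff]
  intro hdvd
  have : ℓ ∣ 1 := by
    have := Nat.dvd_gcd hdvd (dvd_refl ℓ)
    rwa [ha] at this
  exact hp.one_lt.ne' (Nat.dvd_one.mp this)

/-- the reduction map `ℤ_(ℓ) → 𝔽_ℓ` -/
def zlRed : ℤℓ →+* ZMod ℓ where
  toFun a := ((a : ℚ) : ZMod ℓ)
  map_one' := by simp
  map_zero' := by simp
  map_mul' a b := by
    simp only [Subring.coe_mul]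
    exact Rat.cast_mul_of_ne_zero (zl_den_ne_zero ℓ a) (zl_den_ne_zero ℓ b)
  map_add' a b := by
    simp only [Subring.coe_add]
    exact Rat.cast_add_of_ne_zero (zl_den_ne_zero ℓ a) (zl_den_ne_zero ℓ b)

theorem zlRed_apply (a : ℤℓ) : zlRed ℓ a = ((a : ℚ) : ZMod ℓ) := rfl

/-- `ℓ` as an element of `ℤ_(ℓ)` -/
def zlEll : ℤℓ := (ℓ : ℤℓ)

omit [Fact ℓ.Prime] in
theorem coe_zlEll : ((zlEll ℓ : ℤℓ) : ℚ) = (ℓ : ℚ) := by
  simp [zlEll]

theorem zlRed_zlEll : zlRed ℓ (zlEll ℓ) = 0 := by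
  rw [zlEll, map_natCast]
  exact ZMod.natCast_self ℓ

omit [Fact ℓ.Prime] in
theorem mem_ratLocalizedAt_iff (q : ℚ) : q ∈ GaloisRep.ratLocalizedAt ℓ ↔ q.den.Coprime ℓ :=
  Iff.rfl

/-- kernel of the reduction -/
theorem zlRed_eq_zero_iff (a : ℤℓ) : zlRed ℓ a = 0 ↔ ∃ b : ℤℓ, a = zlEll ℓ * b := by
  have hp : ℓ.Prime := Fact.out
  constructor
  · intro h
    rw [zlRed_apply, Rat.cast_def, div_eq_zero_iff] at h
    have hden : (((a : ℚ).den : ℕ) : ZMod ℓ) ≠ 0 := zl_den_ne_zero ℓ a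
    have hnum : (((a : ℚ).num : ℤ) : ZMod ℓ) = 0 := h.resolve_right hden
    rw [ZMod.intCast_zmod_eq_zero_iff_dvd] at hnum
    obtain ⟨m, hm⟩ := hnum
    have hb : ((m : ℚ) / ((a : ℚ).den : ℚ)) ∈ GaloisRep.ratLocalizedAt ℓ := by
      rw [mem_ratLocalizedAt_iff]
      have h1 : ((m : ℚ) / ((a : ℚ).den : ℚ)).den ∣ (a : ℚ).den := by
        have := Rat.den_dvd m ((a : ℚ).den : ℤ)
        rw [Rat.divInt_eq_div] at this
        exact_mod_cast this
      exact Nat.Coprime.coprime_dvd_left h1 a.2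
    refine ⟨⟨_, hb⟩, Subtype.ext ?_⟩
    rw [Subring.coe_mul, coe_zlEll]
    have hd0 : ((a : ℚ).den : ℚ) ≠ 0 := by exact_mod_cast (a : ℚ).den_pos.ne'
    have h3 : (a : ℚ) = ((a : ℚ).num : ℚ) / ((a : ℚ).den : ℚ) := (Rat.num_div_den _).symm
    have h4 : (((a : ℚ).num : ℤ) : ℚ) = (ℓ : ℚ) * (m : ℚ) := by rw [hm]; push_cast; ring
    show (a : ℚ) = (ℓ : ℚ) * ((m : ℚ) / ((a : ℚ).den : ℚ))
    rw [← mul_div_assoc, ← h4]
    exact h3
  · rintro ⟨b, rfl⟩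
    rw [map_mul, zlRed_zlEll, zero_mul]

theorem zlRed_surjective : Function.Surjective (zlRed ℓ) := by
  intro x
  obtain ⟨n, rfl⟩ := ZMod.natCast_zmod_surjective x
  exact ⟨(n : ℤℓ), by rw [map_natCast]⟩

/-- the `ℓ`-adic valuation on `ℤ_(ℓ)` is non-negative -/
theorem zl_padicValRat_nonneg (a : ℤℓ) : 0 ≤ padicValRat ℓ (a : ℚ) := by
  have hp : ℓ.Prime := Fact.out
  rw [padicValRat_def]
  have : padicValNat ℓ (a : ℚ).den = 0 := by
    apply padicValNat.eq_zero_of_not_dvd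
    intro hdvd
    have ha : (a : ℚ).den.Coprime ℓ := a.2
    have h1 : ℓ ∣ 1 := by
      have := Nat.dvd_gcd hdvd (dvd_refl ℓ)
      rwa [ha] at this
    exact hp.one_lt.ne' (Nat.dvd_one.mp h1)
  rw [this]
  simp

open Classical in
/-- division by `ℓ` (junk value `0` when not divisible) -/
def zlDiv : ZeroHom ℤℓ ℤℓ where
  toFun a := if h : ∃ b : ℤℓ, a = zlEll ℓ * b then h.choose else 0
  map_zero' := by
    have hp : ℓ.Prime := Fact.out
    have h : ∃ b : ℤℓ, (0 : ℤℓ) = zlEll ℓ * b := ⟨0, by simp⟩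
    rw [dif_pos h]
    have h2 := h.choose_spec
    have hne : zlEll ℓ ≠ 0 := by
      intro h0
      have := congrArg (fun x : ℤℓ => (x : ℚ)) h0
      simp only [coe_zlEll] at this
      have : (ℓ : ℚ) = 0 := by simpa using this
      exact hp.ne_zero (by exact_mod_cast this)
    exact (mul_eq_zero.mp h2.symm).resolve_left hne

theorem zlEll_mul_zlDiv {a : ℤℓ} (h : zlRed ℓ a = 0) : zlEll ℓ * zlDiv ℓ a = a := by
  classical
  have h' : ∃ b : ℤℓ, a = zlEll ℓ * b := (zlRed_eq_zero_iff ℓ a).mp h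
  show zlEll ℓ * (if h : ∃ b : ℤℓ, a = zlEll ℓ * b then h.choose else 0) = a
  rw [dif_pos h']
  exact h'.choose_spec.symm

/-! ### Laurent series over `ℤ_(ℓ)` -/

/-- the inclusion `ℤ_(ℓ)((q)) → ℚ((q))` -/
def inclL : LaurentSeries ℤℓ →+* LaurentSeries ℚ := coeffMap (GaloisRep.ratLocalizedAt ℓ).subtype

/-- the reduction `ℤ_(ℓ)((q)) → 𝔽_ℓ((q))` -/
def redL : LaurentSeries ℤℓ →+* LaurentSeries (ZMod ℓ) := coeffMap (zlRed ℓ)

omit [Fact ℓ.Prime] in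
theorem inclL_coeff (s : LaurentSeries ℤℓ) (k : ℤ) : (inclL ℓ s).coeff k = (s.coeff k : ℚ) :=
  coeffMap_coeff _ s k

theorem redL_coeff (s : LaurentSeries ℤℓ) (k : ℤ) : (redL ℓ s).coeff k = zlRed ℓ (s.coeff k) :=
  coeffMap_coeff _ s k

omit [Fact ℓ.Prime] in
theorem inclL_injective : Function.Injective (inclL ℓ) := by
  intro s t h
  refine HahnSeries.ext (funext fun k => ?_)
  have := congrArg (fun x : LaurentSeries ℚ => x.coeff k) h
  simp only [inclL_coeff] at this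
  exact Subtype.ext this

/-- `ℓ` as a constant Laurent series -/
def ellL : LaurentSeries ℤℓ := HahnSeries.C (zlEll ℓ)

theorem redL_ellL : redL ℓ (ellL ℓ) = 0 := by
  ext k
  rw [redL_coeff, ellL, HahnSeries.C_apply, HahnSeries.coeff_single]
  split_ifs
  · exact zlRed_zlEll ℓ
  · exact map_zero _
  
omit [Fact ℓ.Prime] in
theorem ellL_mul_coeff (s : LaurentSeries ℤℓ) (k : ℤ) :
    (ellL ℓ * s).coeff k = zlEll ℓ * s.coeff k := by
  rw [ellL, HahnSeries.C_apply, HahnSeries.coeff_single_zero_mul]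

omit [Fact ℓ.Prime] in
theorem inclL_ellL : inclL ℓ (ellL ℓ) = HahnSeries.C (ℓ : ℚ) := by
  ext k
  rw [inclL_coeff, ellL, HahnSeries.C_apply, HahnSeries.C_apply, HahnSeries.coeff_single,
    HahnSeries.coeff_single]
  split_ifs
  · exact coe_zlEll ℓ
  · rfl

/-- kernel of the reduction of Laurent series -/
theorem redL_eq_zero_iff (s : LaurentSeries ℤℓ) :
    redL ℓ s = 0 ↔ ∃ s' : LaurentSeries ℤℓ, s = ellL ℓ * s' := by
  constructor
  · intro h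
    refine ⟨s.map (zlDiv ℓ), ?_⟩
    refine HahnSeries.ext (funext fun k => ?_)
    rw [ellL_mul_coeff, HahnSeries.map_coeff]
    have hk : zlRed ℓ (s.coeff k) = 0 := by
      rw [← redL_coeff, h]
      rfl
    exact (zlEll_mul_zlDiv ℓ hk).symm
  · rintro ⟨s', rfl⟩
    rw [map_mul, redL_ellL, zero_mul]

/-- every nonzero Laurent series over `ℤ_(ℓ)` is `ℓ ^ k` times a primitive one -/
theorem exists_pow_mul_primitive {s : LaurentSeries ℤℓ} (hs : s ≠ 0) :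
    ∃ (k : ℕ) (s₀ : LaurentSeries ℤℓ), redL ℓ s₀ ≠ 0 ∧ s = ellL ℓ ^ k * s₀ := by
  have hp : ℓ.Prime := Fact.out
  obtain ⟨n₀, hn₀⟩ : ∃ n₀, s.coeff n₀ ≠ 0 := by
    by_contra hcon
    push Not at hcon
    exact hs (HahnSeries.ext (funext hcon))
  -- induction on the valuation of the coefficient at `n₀`
  have main : ∀ (m : ℕ) (s : LaurentSeries ℤℓ), s.coeff n₀ ≠ 0 →
      padicValRat ℓ ((s.coeff n₀ : ℤℓ) : ℚ) = m →
      ∃ (k : ℕ) (s₀ : LaurentSeries ℤℓ), redL ℓ s₀ ≠ 0 ∧ s = ellL ℓ ^ k * s₀ := by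
    intro m
    induction m with
    | zero =>
      intro s hs0 hv
      refine ⟨0, s, ?_, by rw [pow_zero, one_mul]⟩
      intro hred
      obtain ⟨s', rfl⟩ := (redL_eq_zero_iff ℓ s).mp hred
      rw [ellL_mul_coeff] at hs0 hv
      have h1 : s'.coeff n₀ ≠ 0 := right_ne_zero_of_mul hs0
      have h1' : ((s'.coeff n₀ : ℤℓ) : ℚ) ≠ 0 := fun h => h1 (Subtype.ext h)
      have hl : (ℓ : ℚ) ≠ 0 := by exact_mod_cast hp.ne_zero
      rw [Subring.coe_mul, coe_zlEll, padicValRat.mul hl h1', padicValRat.self hp.one_lt] at hv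
      have := zl_padicValRat_nonneg ℓ (s'.coeff n₀)
      push_cast at hv
      omega
    | succ m ih =>
      intro s hs0 hv
      by_cases hred : redL ℓ s = 0
      · obtain ⟨s', rfl⟩ := (redL_eq_zero_iff ℓ s).mp hred
        rw [ellL_mul_coeff] at hs0 hv
        have h1 : s'.coeff n₀ ≠ 0 := right_ne_zero_of_mul hs0
        have h1' : ((s'.coeff n₀ : ℤℓ) : ℚ) ≠ 0 := fun h => h1 (Subtype.ext h)
        have hl : (ℓ : ℚ) ≠ 0 := by exact_mod_cast hp.ne_zero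
        rw [Subring.coe_mul, coe_zlEll, padicValRat.mul hl h1', padicValRat.self hp.one_lt] at hv
        obtain ⟨k, s₀, hs₀, e⟩ := ih s' h1 (by push_cast at hv; omega)
        exact ⟨k + 1, s₀, hs₀, by rw [e, pow_succ']; ring⟩
      · exact ⟨0, s, hred, by rw [pow_zero, one_mul]⟩
  have hnn := zl_padicValRat_nonneg ℓ (s.coeff n₀)
  obtain ⟨m, hm⟩ := Int.eq_ofNat_of_zero_le hnn
  exact main m s hn₀ hm

/-! ### Fractions of `ℤ_(ℓ)((q))` inside `ℚ((q))` -/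

/-- `f` is a quotient of two Laurent series with coefficients in `ℤ_(ℓ)` -/
def IsFracL (f : LaurentSeries ℚ) : Prop :=
  ∃ g h : LaurentSeries ℤℓ, h ≠ 0 ∧ f * inclL ℓ h = inclL ℓ g

omit [Fact ℓ.Prime] in
theorem inclL_ne_zero {h : LaurentSeries ℤℓ} (hh : h ≠ 0) : inclL ℓ h ≠ 0 := fun h0 =>
  hh (inclL_injective ℓ (by rw [h0, map_zero]))

omit [Fact ℓ.Prime] in
theorem isFracL_inclL (s : LaurentSeries ℤℓ) : IsFracL ℓ (inclL ℓ s) :=
  ⟨s, 1, one_ne_zero, by rw [map_one, mul_one]⟩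

/-- the subfield of `ℚ((q))` of fractions of `ℤ_(ℓ)((q))` -/
def fracSubfield : Subfield (LaurentSeries ℚ) where
  carrier := {f | IsFracL ℓ f}
  mul_mem' := by
    rintro f₁ f₂ ⟨g₁, h₁, hh₁, e₁⟩ ⟨g₂, h₂, hh₂, e₂⟩
    refine ⟨g₁ * g₂, h₁ * h₂, mul_ne_zero hh₁ hh₂, ?_⟩
    rw [map_mul, map_mul, ← e₁, ← e₂]
    ring
  one_mem' := ⟨1, 1, one_ne_zero, by simp⟩
  add_mem' := by
    rintro f₁ f₂ ⟨g₁, h₁, hh₁, e₁⟩ ⟨g₂, h₂, hh₂, e₂⟩
    refine ⟨g₁ * h₂ + g₂ * h₁, h₁ * h₂, mul_ne_zero hh₁ hh₂, ?_⟩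
    rw [map_mul, map_add, map_mul, map_mul, ← e₁, ← e₂]
    ring
  zero_mem' := ⟨0, 1, one_ne_zero, by simp⟩
  neg_mem' := by
    rintro f ⟨g, h, hh, e⟩
    refine ⟨-g, h, hh, ?_⟩
    rw [map_neg, ← e]
    ring
  inv_mem' := by
    rintro f ⟨g, h, hh, e⟩
    by_cases hf : f = 0
    · rw [hf, inv_zero]
      exact ⟨0, 1, one_ne_zero, by simp⟩
    · have hg : g ≠ 0 := by
        rintro rfl
        rw [map_zero] at e
        exact (mul_ne_zero hf (inclL_ne_zero ℓ hh)) e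
      refine ⟨h, g, hg, ?_⟩
      rw [← e]
      field_simp

omit [Fact ℓ.Prime] in
theorem mem_fracSubfield_iff (f : LaurentSeries ℚ) : f ∈ fracSubfield ℓ ↔ IsFracL ℓ f := Iff.rfl

omit [Fact ℓ.Prime] in
theorem inclL_C (a : ℤℓ) : inclL ℓ (HahnSeries.C a) = HahnSeries.C (a : ℚ) := by
  ext k
  rw [inclL_coeff, HahnSeries.C_apply, HahnSeries.C_apply, HahnSeries.coeff_single,
    HahnSeries.coeff_single]
  split_ifs <;> rfl

theorem algebraMap_mem_fracSubfield (c : ℚ) :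
    algebraMap ℚ (LaurentSeries ℚ) c ∈ fracSubfield ℓ := by
  have hp : ℓ.Prime := Fact.out
  have hnum : ((c.num : ℤ) : ℚ) ∈ GaloisRep.ratLocalizedAt ℓ := by
    rw [mem_ratLocalizedAt_iff]; simp
  have hden : ((c.den : ℕ) : ℚ) ∈ GaloisRep.ratLocalizedAt ℓ := by
    rw [mem_ratLocalizedAt_iff]; simp
  refine ⟨HahnSeries.C ⟨_, hnum⟩, HahnSeries.C ⟨_, hden⟩, ?_, ?_⟩
  · intro h0
    have := congrArg (fun x : LaurentSeries ℤℓ => x.coeff 0) h0
    simp only [HahnSeries.C_apply, HahnSeries.coeff_single_same, HahnSeries.coeff_zero] at this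
    have h1 : ((c.den : ℕ) : ℚ) = 0 := congrArg Subtype.val this
    exact c.den_ne_zero (by exact_mod_cast h1)
  · rw [inclL_C, inclL_C, algebraMap_laurentSeries_eq_single, HahnSeries.C_apply,
      HahnSeries.C_apply, HahnSeries.single_mul_single, add_zero]
    congr 1
    exact Rat.mul_den_eq_num c

/-- the same, as an intermediate field -/
def fracField : IntermediateField ℚ (LaurentSeries ℚ) :=
  (fracSubfield ℓ).toIntermediateField (algebraMap_mem_fracSubfield ℓ)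

theorem mem_fracField_iff (f : LaurentSeries ℚ) : f ∈ fracField ℓ ↔ IsFracL ℓ f := Iff.rfl

omit [Fact ℓ.Prime] in
theorem inclL_jqModC : inclL ℓ (jqModC ℤℓ) = jq := by
  rw [inclL, coeffMap_jqModC]
  rfl

omit [Fact ℓ.Prime] in
theorem inclL_qExpand (d : ℕ) [NeZero d] (s : LaurentSeries ℤℓ) :
    inclL ℓ (qExpand ℤℓ d s) = qExpand ℚ d (inclL ℓ s) :=
  coeffMap_qExpand _ d s

theorem modularFunctionFieldFull_le_fracField (N : ℕ) [NeZero N] :
    modularFunctionFieldFull N ≤ fracField ℓ := by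
  rw [modularFunctionFieldFull, IntermediateField.adjoin_le_iff]
  rintro x ⟨d, hd, -, rfl⟩
  have := hd
  rw [SetLike.mem_coe, mem_fracField_iff, ← inclL_jqModC ℓ, ← inclL_qExpand]
  exact isFracL_inclL ℓ _

/-! ### The Gauss ring inside `ℚ((q))` -/

/-- `f = g / h` with `g, h ∈ ℤ_(ℓ)((q))` and `h` primitive -/
def IsGaussL (f : LaurentSeries ℚ) : Prop :=
  ∃ g h : LaurentSeries ℤℓ, redL ℓ h ≠ 0 ∧ f * inclL ℓ h = inclL ℓ g

theorem ne_zero_of_redL_ne_zero {h : LaurentSeries ℤℓ} (hh : redL ℓ h ≠ 0) : h ≠ 0 := by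
  rintro rfl
  exact hh (map_zero _)

theorem IsGaussL.isFracL {f : LaurentSeries ℚ} (hf : IsGaussL ℓ f) : IsFracL ℓ f := by
  obtain ⟨g, h, hh, e⟩ := hf
  exact ⟨g, h, ne_zero_of_redL_ne_zero ℓ hh, e⟩

theorem isGaussL_inclL (s : LaurentSeries ℤℓ) : IsGaussL ℓ (inclL ℓ s) :=
  ⟨s, 1, by rw [map_one]; exact one_ne_zero, by rw [map_one, mul_one]⟩

/-- the Gauss ring as a subring of `ℚ((q))` -/
def gaussSubring : Subring (LaurentSeries ℚ) where
  carrier := {f | IsGaussL ℓ f}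
  mul_mem' := by
    rintro f₁ f₂ ⟨g₁, h₁, hh₁, e₁⟩ ⟨g₂, h₂, hh₂, e₂⟩
    refine ⟨g₁ * g₂, h₁ * h₂, by rw [map_mul]; exact mul_ne_zero hh₁ hh₂, ?_⟩
    rw [map_mul, map_mul, ← e₁, ← e₂]
    ring
  one_mem' := ⟨1, 1, by rw [map_one]; exact one_ne_zero, by simp⟩
  add_mem' := by
    rintro f₁ f₂ ⟨g₁, h₁, hh₁, e₁⟩ ⟨g₂, h₂, hh₂, e₂⟩
    refine ⟨g₁ * h₂ + g₂ * h₁, h₁ * h₂, by rw [map_mul]; exact mul_ne_zero hh₁ hh₂, ?_⟩
    rw [map_mul, map_add, map_mul, map_mul, ← e₁, ← e₂]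
    ring
  zero_mem' := ⟨0, 1, by rw [map_one]; exact one_ne_zero, by simp⟩
  neg_mem' := by
    rintro f ⟨g, h, hh, e⟩
    refine ⟨-g, h, hh, ?_⟩
    rw [map_neg, ← e]
    ring

theorem mem_gaussSubring_iff (f : LaurentSeries ℚ) : f ∈ gaussSubring ℓ ↔ IsGaussL ℓ f := Iff.rfl

theorem inclL_ellL_pow_ne_zero (k : ℕ) : inclL ℓ (ellL ℓ) ^ k ≠ 0 := by
  have hp : ℓ.Prime := Fact.out
  apply pow_ne_zero
  rw [inclL_ellL]
  intro h0
  have := congrArg (fun x : LaurentSeries ℚ => x.coeff 0) h0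
  simp only [HahnSeries.C_apply, HahnSeries.coeff_single_same, HahnSeries.coeff_zero] at this
  exact hp.ne_zero (by exact_mod_cast this)

theorem natCast_ell_ne_zero : ((ℓ : ℕ) : LaurentSeries ℚ) ≠ 0 := by
  have h1 : ((ℓ : ℕ) : LaurentSeries ℚ) = HahnSeries.C (ℓ : ℚ) := by rw [map_natCast]
  have := inclL_ellL_pow_ne_zero ℓ 1
  rwa [pow_one, inclL_ellL, ← h1] at this

/-- **Valuation ring property.** -/
theorem isGaussL_or_inv {f : LaurentSeries ℚ} (hf : IsFracL ℓ f) :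
    IsGaussL ℓ f ∨ IsGaussL ℓ f⁻¹ := by
  by_cases hf0 : f = 0
  · left
    rw [hf0]
    exact (gaussSubring ℓ).zero_mem
  obtain ⟨g, h, hh, e⟩ := hf
  have hg : g ≠ 0 := by
    rintro rfl
    rw [map_zero] at e
    exact (mul_ne_zero hf0 (inclL_ne_zero ℓ hh)) e
  obtain ⟨a, g₀, hg₀, rfl⟩ := exists_pow_mul_primitive ℓ hg
  obtain ⟨b, h₀, hh₀, rfl⟩ := exists_pow_mul_primitive ℓ hh
  rw [map_mul, map_mul, map_pow, map_pow] at e
  set L := inclL ℓ (ellL ℓ) with hL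
  rcases le_total b a with hba | hab
  · left
    obtain ⟨c, rfl⟩ := Nat.exists_eq_add_of_le hba
    refine ⟨ellL ℓ ^ c * g₀, h₀, hh₀, ?_⟩
    have hLb := inclL_ellL_pow_ne_zero ℓ b
    apply mul_left_cancel₀ hLb
    rw [map_mul, map_pow, ← hL]
    rw [_root_.pow_add] at e
    linear_combination e
  · right
    obtain ⟨c, rfl⟩ := Nat.exists_eq_add_of_le hab
    refine ⟨ellL ℓ ^ c * h₀, g₀, hg₀, ?_⟩
    have hLa := inclL_ellL_pow_ne_zero ℓ a
    apply mul_left_cancel₀ hLa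
    apply mul_left_cancel₀ hf0
    rw [map_mul, map_pow, ← hL]
    rw [_root_.pow_add] at e
    have : f * (L ^ a * (f⁻¹ * inclL ℓ g₀)) = L ^ a * inclL ℓ g₀ := by
      field_simp
    rw [this]
    linear_combination -e

/-- well-definedness of `red g / red h` -/
theorem redL_div_eq {f : LaurentSeries ℚ} {g h g' h' : LaurentSeries ℤℓ}
    (hh : redL ℓ h ≠ 0) (hh' : redL ℓ h' ≠ 0) (e : f * inclL ℓ h = inclL ℓ g)
    (e' : f * inclL ℓ h' = inclL ℓ g') :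
    redL ℓ g / redL ℓ h = redL ℓ g' / redL ℓ h' := by
  have key : g * h' = g' * h := by
    apply inclL_injective ℓ
    rw [map_mul, map_mul, ← e, ← e']
    ring
  rw [div_eq_div_iff hh hh', ← map_mul, ← map_mul, key]

open Classical in
/-- the residue map of the Gauss ring -/
def gaussRhoFun (f : LaurentSeries ℚ) : LaurentSeries (ZMod ℓ) :=
  if hf : IsGaussL ℓ f then redL ℓ hf.choose / redL ℓ hf.choose_spec.choose else 0

theorem gaussRhoFun_eq {f : LaurentSeries ℚ} {g h : LaurentSeries ℤℓ}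
    (hh : redL ℓ h ≠ 0) (e : f * inclL ℓ h = inclL ℓ g) :
    gaussRhoFun ℓ f = redL ℓ g / redL ℓ h := by
  have hf : IsGaussL ℓ f := ⟨g, h, hh, e⟩
  rw [gaussRhoFun, dif_pos hf]
  exact redL_div_eq ℓ hf.choose_spec.choose_spec.1 hh hf.choose_spec.choose_spec.2 e

/-- the residue map `O → 𝔽_ℓ((q))` on the Gauss subring of `ℚ((q))` -/
def gaussRhoL : ↥(gaussSubring ℓ) →+* LaurentSeries (ZMod ℓ) where
  toFun f := gaussRhoFun ℓ (f : LaurentSeries ℚ)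
  map_one' := by
    have : (1 : LaurentSeries ℚ) * inclL ℓ 1 = inclL ℓ 1 := by simp
    rw [Subring.coe_one, gaussRhoFun_eq ℓ (by rw [map_one]; exact one_ne_zero) this, map_one,
      div_one]
  map_zero' := by
    have : (0 : LaurentSeries ℚ) * inclL ℓ 1 = inclL ℓ 0 := by simp
    rw [Subring.coe_zero, gaussRhoFun_eq ℓ (by rw [map_one]; exact one_ne_zero) this, map_zero,
      zero_div]
  map_mul' := by
    rintro ⟨f₁, g₁, h₁, hh₁, e₁⟩ ⟨f₂, g₂, h₂, hh₂, e₂⟩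
    have e : f₁ * f₂ * inclL ℓ (h₁ * h₂) = inclL ℓ (g₁ * g₂) := by
      rw [map_mul, map_mul, ← e₁, ← e₂]; ring
    show gaussRhoFun ℓ (f₁ * f₂) = gaussRhoFun ℓ f₁ * gaussRhoFun ℓ f₂
    rw [gaussRhoFun_eq ℓ (by rw [map_mul]; exact mul_ne_zero hh₁ hh₂) e,
      gaussRhoFun_eq ℓ hh₁ e₁, gaussRhoFun_eq ℓ hh₂ e₂, map_mul, map_mul]
    field_simp
  map_add' := by
    rintro ⟨f₁, g₁, h₁, hh₁, e₁⟩ ⟨f₂, g₂, h₂, hh₂, e₂⟩
    have e : (f₁ + f₂) * inclL ℓ (h₁ * h₂) = inclL ℓ (g₁ * h₂ + g₂ * h₁) := by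
      rw [map_mul, map_add, map_mul, map_mul, ← e₁, ← e₂]; ring
    show gaussRhoFun ℓ (f₁ + f₂) = gaussRhoFun ℓ f₁ + gaussRhoFun ℓ f₂
    rw [gaussRhoFun_eq ℓ (by rw [map_mul]; exact mul_ne_zero hh₁ hh₂) e,
      gaussRhoFun_eq ℓ hh₁ e₁, gaussRhoFun_eq ℓ hh₂ e₂, map_add, map_mul, map_mul, map_mul]
    field_simp

theorem gaussRhoL_eq (f : ↥(gaussSubring ℓ)) {g h : LaurentSeries ℤℓ}
    (hh : redL ℓ h ≠ 0) (e : (f : LaurentSeries ℚ) * inclL ℓ h = inclL ℓ g) :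
    gaussRhoL ℓ f = redL ℓ g / redL ℓ h :=
  gaussRhoFun_eq ℓ hh e

theorem gaussRhoL_inclL (s : LaurentSeries ℤℓ) :
    gaussRhoL ℓ ⟨inclL ℓ s, isGaussL_inclL ℓ s⟩ = redL ℓ s := by
  rw [gaussRhoL_eq ℓ _ (g := s) (h := 1) (by rw [map_one]; exact one_ne_zero)
    (by rw [map_one, mul_one]), map_one, div_one]

/-- the kernel of the residue map is `ℓ O` -/
theorem gaussRhoL_eq_zero_iff (f : ↥(gaussSubring ℓ)) :
    gaussRhoL ℓ f = 0 ↔ ∃ f' : ↥(gaussSubring ℓ), f = (ℓ : ↥(gaussSubring ℓ)) * f' := by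
  have hp : ℓ.Prime := Fact.out
  constructor
  · intro h0
    obtain ⟨g, h, hh, e⟩ := f.2
    rw [gaussRhoL_eq ℓ f hh e, div_eq_zero_iff] at h0
    have hg : redL ℓ g = 0 := h0.resolve_right hh
    obtain ⟨g', rfl⟩ := (redL_eq_zero_iff ℓ g).mp hg
    have hl : (HahnSeries.C (ℓ : ℚ) : LaurentSeries ℚ) ≠ 0 := by
      have := inclL_ellL_pow_ne_zero ℓ 1
      rwa [pow_one, inclL_ellL] at this
    have hmem : IsGaussL ℓ ((HahnSeries.C (ℓ : ℚ))⁻¹ * (f : LaurentSeries ℚ)) := by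
      refine ⟨g', h, hh, ?_⟩
      rw [mul_assoc, e, map_mul, inclL_ellL]
      field_simp
    refine ⟨⟨_, hmem⟩, Subtype.ext ?_⟩
    rw [Subring.coe_mul, Subring.coe_natCast]
    have : ((ℓ : ℕ) : LaurentSeries ℚ) = HahnSeries.C (ℓ : ℚ) := by
      rw [map_natCast]
    rw [this]
    field_simp
  · rintro ⟨f', rfl⟩
    rw [map_mul, map_natCast]
    have : ((ℓ : ℕ) : LaurentSeries (ZMod ℓ)) = 0 := by
      rw [← map_natCast (HahnSeries.C : ZMod ℓ →+* LaurentSeries (ZMod ℓ)), ZMod.natCast_self,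
        map_zero]
    rw [this, zero_mul]

/-! ### The Gauss valuation ring of the modular function field -/

section Level

variable (N : ℕ) [NeZero N]

set_option quotPrecheck false in
local notation "F" => ↥(modularFunctionFieldFull N)

/-- **The `ℓ`-adic Gauss valuation ring of `F = ℚ(j(q^d) : d ∣ N)`.** -/
def gaussRing : ValuationSubring F where
  toSubring :=
    { carrier := {f : F | IsGaussL ℓ (f : LaurentSeries ℚ)}
      mul_mem' := fun {a b} ha hb => (gaussSubring ℓ).mul_mem ha hb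
      one_mem' := (gaussSubring ℓ).one_mem
      add_mem' := fun {a b} ha hb => (gaussSubring ℓ).add_mem ha hb
      zero_mem' := (gaussSubring ℓ).zero_mem
      neg_mem' := fun {a} ha => (gaussSubring ℓ).neg_mem ha }
  mem_or_inv_mem' := by
    intro f
    have hf : IsFracL ℓ (f : LaurentSeries ℚ) :=
      (mem_fracField_iff ℓ _).mp (modularFunctionFieldFull_le_fracField ℓ N f.2)
    rcases isGaussL_or_inv ℓ hf with h | h
    · exact Or.inl h
    · right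
      show IsGaussL ℓ ((f⁻¹ : F) : LaurentSeries ℚ)
      simpa using h

theorem mem_gaussRing_iff (f : F) : f ∈ gaussRing ℓ N ↔ IsGaussL ℓ (f : LaurentSeries ℚ) :=
  Iff.rfl

/-- the inclusion of the Gauss valuation ring into the Gauss subring of `ℚ((q))` -/
def gaussRingIncl : ↥(gaussRing ℓ N) →+* ↥(gaussSubring ℓ) where
  toFun f := ⟨((f : F) : LaurentSeries ℚ), f.2⟩
  map_one' := rfl
  map_zero' := rfl
  map_mul' _ _ := rfl
  map_add' _ _ := rfl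

/-- **The residue map `ρ : O → 𝔽_ℓ((q))`.** -/
def gaussRho : ↥(gaussRing ℓ N) →+* LaurentSeries (ZMod ℓ) :=
  (gaussRhoL ℓ).comp (gaussRingIncl ℓ N)

theorem gaussRho_eq (f : ↥(gaussRing ℓ N)) {g h : LaurentSeries ℤℓ}
    (hh : redL ℓ h ≠ 0) (e : ((f : F) : LaurentSeries ℚ) * inclL ℓ h = inclL ℓ g) :
    gaussRho ℓ N f = redL ℓ g / redL ℓ h :=
  gaussRhoL_eq ℓ _ hh e

/-- elements of `F` with `ℓ`-integral `q`-expansion lie in `O` … -/
theorem mem_gaussRing_of_eq_inclL {f : F} {s : LaurentSeries ℤℓ}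
    (hs : (f : LaurentSeries ℚ) = inclL ℓ s) : f ∈ gaussRing ℓ N := by
  rw [mem_gaussRing_iff, hs]
  exact isGaussL_inclL ℓ s

/-- … and `ρ` is the reduction of the `q`-expansion on them. -/
theorem gaussRho_of_eq_inclL {f : ↥(gaussRing ℓ N)} {s : LaurentSeries ℤℓ}
    (hs : ((f : F) : LaurentSeries ℚ) = inclL ℓ s) : gaussRho ℓ N f = redL ℓ s := by
  rw [gaussRho_eq ℓ N f (g := s) (h := 1) (by rw [map_one]; exact one_ne_zero)
    (by rw [map_one, mul_one, hs]), map_one, div_one]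

/-- the kernel of `ρ` is `ℓ O` -/
theorem gaussRho_eq_zero_iff (f : ↥(gaussRing ℓ N)) :
    gaussRho ℓ N f = 0 ↔ ∃ f' : ↥(gaussRing ℓ N), f = (ℓ : ↥(gaussRing ℓ N)) * f' := by
  constructor
  · intro h0
    obtain ⟨f', hf'⟩ := (gaussRhoL_eq_zero_iff ℓ (gaussRingIncl ℓ N f)).mp h0
    -- `f' = f / ℓ` lies in `F`
    have hp : ℓ.Prime := Fact.out
    have hl : ((ℓ : ℕ) : F) ≠ 0 := by exact_mod_cast hp.ne_zero
    have hval : ((((ℓ : ℕ) : F)⁻¹ * (f : F) : F) : LaurentSeries ℚ) = (f' : LaurentSeries ℚ) := by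
      have h1 : (((f : F) : LaurentSeries ℚ)) = ((ℓ : ℕ) : LaurentSeries ℚ) * (f' : LaurentSeries ℚ) := by
        have := congrArg (fun x : ↥(gaussSubring ℓ) => (x : LaurentSeries ℚ)) hf'
        simpa [gaussRingIncl] using this
      have hl' : ((ℓ : ℕ) : LaurentSeries ℚ) ≠ 0 := natCast_ell_ne_zero ℓ
      push_cast
      rw [h1]
      field_simp
    have hmem : (((ℓ : ℕ) : F)⁻¹ * (f : F)) ∈ gaussRing ℓ N := by
      rw [mem_gaussRing_iff, hval]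
      exact f'.2
    refine ⟨⟨_, hmem⟩, Subtype.ext ?_⟩
    show (f : F) = ((ℓ : ↥(gaussRing ℓ N)) : F) * (((ℓ : ℕ) : F)⁻¹ * (f : F))
    have : (((ℓ : ↥(gaussRing ℓ N)) : F)) = ((ℓ : ℕ) : F) := by simp
    rw [this]
    field_simp
  · rintro ⟨f', rfl⟩
    rw [map_mul, map_natCast]
    have : ((ℓ : ℕ) : LaurentSeries (ZMod ℓ)) = 0 := by
      rw [← map_natCast (HahnSeries.C : ZMod ℓ →+* LaurentSeries (ZMod ℓ)), ZMod.natCast_self,
        map_zero]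
    rw [this, zero_mul]

/-! ### The chart algebras lie in the Gauss ring -/

open ModularCurve.IgusaScheme

omit [Fact ℓ.Prime] [NeZero N] in
theorem coe_algebraMap_zl (a : ℤℓ) :
    ((algebraMap ℤℓ F a : F) : LaurentSeries ℚ) = inclL ℓ (HahnSeries.C a) := by
  rw [inclL_C]
  have h1 : algebraMap ℤℓ F a = algebraMap ℚ F (a : ℚ) := rfl
  have h2 : ((algebraMap ℚ F (a : ℚ) : F) : LaurentSeries ℚ) =
      algebraMap ℚ (LaurentSeries ℚ) (a : ℚ) := by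
    simp only [eq_ratCast, SubfieldClass.coe_ratCast]
  rw [h1, h2, algebraMap_laurentSeries_eq_single]
  rfl

theorem algebraMap_zl_mem_gaussRing (a : ℤℓ) : algebraMap ℤℓ F a ∈ gaussRing ℓ N :=
  mem_gaussRing_of_eq_inclL ℓ N (coe_algebraMap_zl ℓ N a)

omit [Fact ℓ.Prime] in
theorem coe_jFull_eq : ((jFull N : F) : LaurentSeries ℚ) = inclL ℓ (jqModC ℤℓ) := by
  rw [inclL_jqModC]
  rfl

theorem jFull_mem_gaussRing : jFull N ∈ gaussRing ℓ N :=
  mem_gaussRing_of_eq_inclL ℓ N (coe_jFull_eq ℓ N)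

theorem jqModC_mul_single_ofPowerSeries_inv (R : Type*) [CommRing R] :
    ∃ w : PowerSeries R, jqModC R * (HahnSeries.single (1 : ℤ) 1 *
      HahnSeries.ofPowerSeries ℤ R w) = 1 := by
  set u : PowerSeries R := jNum.map (Int.castRingHom R) with hu
  have hu0 : PowerSeries.constantCoeff u = 1 := by
    have h1 : PowerSeries.constantCoeff (jNum.map (Int.castRingHom ℚ)) = 1 := constantCoeff_jNumQ
    rw [← PowerSeries.coeff_zero_eq_constantCoeff, PowerSeries.coeff_map] at h1 ⊢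
    have h2 : ((PowerSeries.coeff 0 jNum : ℤ) : ℚ) = 1 := h1
    have h3 : PowerSeries.coeff 0 jNum = 1 := by exact_mod_cast h2
    rw [h3, map_one]
  have hunit : IsUnit u := by
    rw [PowerSeries.isUnit_iff_constantCoeff, hu0]
    exact isUnit_one
  obtain ⟨w, hw⟩ := hunit.exists_right_inv
  refine ⟨w, ?_⟩
  have hss : HahnSeries.single (-1 : ℤ) (1 : R) * HahnSeries.single (1 : ℤ) (1 : R) = 1 := by
    rw [HahnSeries.single_mul_single]
    simp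
  rw [jqModC, ← hu]
  calc HahnSeries.single (-1 : ℤ) (1 : R) * HahnSeries.ofPowerSeries ℤ R u *
        (HahnSeries.single (1 : ℤ) 1 * HahnSeries.ofPowerSeries ℤ R w)
      = (HahnSeries.single (-1 : ℤ) (1 : R) * HahnSeries.single (1 : ℤ) 1) *
        HahnSeries.ofPowerSeries ℤ R (u * w) := by
        rw [(HahnSeries.ofPowerSeries ℤ R).map_mul]; ring
    _ = 1 := by
      rw [hw, (HahnSeries.ofPowerSeries ℤ R).map_one, mul_one, hss]

theorem jqModC_ne_zero (K : Type*) [Field K] : jqModC K ≠ 0 := by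
  obtain ⟨w, hw⟩ := jqModC_mul_single_ofPowerSeries_inv K
  intro h0
  rw [h0, zero_mul] at hw
  exact zero_ne_one hw

omit [Fact ℓ.Prime] in
/-- `1 / j` has an `ℓ`-integral `q`-expansion: it is `q` times the inverse of a unit power series -/
theorem exists_inclL_eq_jFull_inv :
    ∃ s : LaurentSeries ℤℓ, (((jFull N)⁻¹ : F) : LaurentSeries ℚ) = inclL ℓ s := by
  obtain ⟨w, hj⟩ := jqModC_mul_single_ofPowerSeries_inv ℤℓ
  refine ⟨HahnSeries.single (1 : ℤ) 1 * HahnSeries.ofPowerSeries ℤ ℤℓ w, ?_⟩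
  have h2 := congrArg (inclL ℓ) hj
  rw [(inclL ℓ).map_mul, (inclL ℓ).map_one, inclL_jqModC] at h2
  show ((jFull N : F) : LaurentSeries ℚ)⁻¹ = _
  rw [coe_jFull]
  exact DivisionMonoid.inv_eq_of_mul _ _ h2

theorem jFull_inv_mem_gaussRing : (jFull N)⁻¹ ∈ gaussRing ℓ N := by
  obtain ⟨s, hs⟩ := exists_inclL_eq_jFull_inv ℓ N
  exact mem_gaussRing_of_eq_inclL ℓ N hs

/-- the Gauss ring as a `ℤ_(ℓ)`-subalgebra of `F` -/
def gaussAlg : Subalgebra ℤℓ F :=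
  { (gaussRing ℓ N).toSubring with
    algebraMap_mem' := algebraMap_zl_mem_gaussRing ℓ N }

theorem mem_gaussAlg_iff (f : F) : f ∈ gaussAlg ℓ N ↔ f ∈ gaussRing ℓ N := Iff.rfl

/-- anything integral over a subalgebra contained in `O` lies in `O` -/
theorem mem_gaussRing_of_isIntegral {A : Subalgebra ℤℓ F} (hA : A ≤ gaussAlg ℓ N) {x : F}
    (hx : IsIntegral A x) : x ∈ gaussRing ℓ N := by
  let φ : A →+* ↥(gaussRing ℓ N) := (Subalgebra.inclusion hA).toRingHom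
  have h1 : IsIntegral ↥(gaussRing ℓ N) ((RingHom.id F) x) :=
    hx.map_of_comp_eq φ (RingHom.id F) (by ext; rfl)
  obtain ⟨y, hy⟩ := IsIntegrallyClosed.isIntegral_iff.mp h1
  rw [RingHom.id_apply] at hy
  rw [← hy]
  exact y.2

theorem chartAlg_le_gaussRing {S : Set F} (hS : ∀ s ∈ S, s ∈ gaussRing ℓ N) {x : F}
    (hx : x ∈ chartAlg N ℓ S) : x ∈ gaussRing ℓ N :=
  mem_gaussRing_of_isIntegral ℓ N (Algebra.adjoin_le hS) ((mem_chartAlg_iff N ℓ).mp hx)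

theorem chartAlgFin_le_gaussRing {x : F} (hx : x ∈ chartAlgFin N ℓ) : x ∈ gaussRing ℓ N :=
  chartAlg_le_gaussRing ℓ N (by
    intro s hs
    rw [Set.mem_singleton_iff] at hs
    rw [hs]
    exact jFull_mem_gaussRing ℓ N) hx

theorem chartAlgInf_le_gaussRing {x : F} (hx : x ∈ chartAlgInf N ℓ) : x ∈ gaussRing ℓ N :=
  chartAlg_le_gaussRing ℓ N (by
    intro s hs
    rw [Set.mem_singleton_iff] at hs
    rw [hs]
    exact jFull_inv_mem_gaussRing ℓ N) hx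

theorem chartAlgMid_le_gaussRing {x : F} (hx : x ∈ chartAlgMid N ℓ) : x ∈ gaussRing ℓ N :=
  chartAlg_le_gaussRing ℓ N (by
    intro s hs
    rcases hs with rfl | hs
    · exact jFull_mem_gaussRing ℓ N
    · rw [Set.mem_singleton_iff] at hs
      rw [hs]
      exact jFull_inv_mem_gaussRing ℓ N) hx

/-! ### Units of the Gauss ring -/

/-- (h3) an element of `O` with nonzero residue is a unit of `O` -/
theorem inv_mem_gaussRing_of_gaussRho_ne_zero (f : ↥(gaussRing ℓ N))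
    (hf : gaussRho ℓ N f ≠ 0) : ((f : F))⁻¹ ∈ gaussRing ℓ N := by
  obtain ⟨g, h, hh, e⟩ := f.2
  rw [gaussRho_eq ℓ N f hh e] at hf
  have hg : redL ℓ g ≠ 0 := fun h0 => hf (by rw [h0, zero_div])
  rw [mem_gaussRing_iff]
  refine ⟨h, g, hg, ?_⟩
  have hf0 : ((f : F) : LaurentSeries ℚ) ≠ 0 := by
    intro h0
    rw [h0, zero_mul] at e
    exact inclL_ne_zero ℓ (ne_zero_of_redL_ne_zero ℓ hg) e.symm
  have hc : (((f : F)⁻¹ : F) : LaurentSeries ℚ) = ((f : F) : LaurentSeries ℚ)⁻¹ := rfl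
  rw [hc, ← e]
  field_simp

/-! ### Values of `ρ` -/

theorem gaussRho_algebraMap (a : ℤℓ) :
    gaussRho ℓ N ⟨algebraMap ℤℓ F a, algebraMap_zl_mem_gaussRing ℓ N a⟩ =
      HahnSeries.C (zlRed ℓ a) := by
  rw [gaussRho_of_eq_inclL ℓ N (coe_algebraMap_zl ℓ N a), redL]
  exact coeffMap_single _ _ _

theorem gaussRho_jFull :
    gaussRho ℓ N ⟨jFull N, jFull_mem_gaussRing ℓ N⟩ = jqModC (ZMod ℓ) := by
  rw [gaussRho_of_eq_inclL ℓ N (coe_jFull_eq ℓ N), redL, coeffMap_jqModC]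

theorem gaussRho_jFull_inv :
    gaussRho ℓ N ⟨(jFull N)⁻¹, jFull_inv_mem_gaussRing ℓ N⟩ = (jqModC (ZMod ℓ))⁻¹ := by
  have h1 : gaussRho ℓ N ⟨jFull N, jFull_mem_gaussRing ℓ N⟩ *
      gaussRho ℓ N ⟨(jFull N)⁻¹, jFull_inv_mem_gaussRing ℓ N⟩ = 1 := by
    rw [← map_mul]
    have : (⟨jFull N, jFull_mem_gaussRing ℓ N⟩ : ↥(gaussRing ℓ N)) *
        ⟨(jFull N)⁻¹, jFull_inv_mem_gaussRing ℓ N⟩ = 1 :=
      Subtype.ext (mul_inv_cancel₀ (jFull_ne_zero N))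
    rw [this, map_one]
  rw [gaussRho_jFull] at h1
  exact (DivisionMonoid.inv_eq_of_mul _ _ h1).symm

/-- `ρ(j(q^d)) = j̄(q^d)` -/
theorem gaussRho_jqd {d : ℕ} [NeZero d] (hd : d ∣ N) (hmem : (⟨qExpand ℚ d jq, jqd_mem_full N hd⟩ : F) ∈ gaussRing ℓ N) :
    gaussRho ℓ N ⟨⟨qExpand ℚ d jq, jqd_mem_full N hd⟩, hmem⟩ =
      qExpand (ZMod ℓ) d (jqModC (ZMod ℓ)) := by
  have h1 : (((⟨qExpand ℚ d jq, jqd_mem_full N hd⟩ : F)) : LaurentSeries ℚ) =
      inclL ℓ (qExpand ℤℓ d (jqModC ℤℓ)) := by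
    rw [inclL_qExpand, inclL_jqModC]
  rw [gaussRho_of_eq_inclL ℓ N h1, redL, coeffMap_qExpand, coeffMap_jqModC]

theorem jqd_mem_gaussRing {d : ℕ} [NeZero d] (hd : d ∣ N) :
    (⟨qExpand ℚ d jq, jqd_mem_full N hd⟩ : F) ∈ gaussRing ℓ N := by
  apply mem_gaussRing_of_eq_inclL ℓ N (s := qExpand ℤℓ d (jqModC ℤℓ))
  rw [inclL_qExpand, inclL_jqModC]

/-! ### The residue maps on the chart algebras -/

/-- the restriction of `ρ` to a chart algebra whose generators lie in `O` -/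
def chartRho {S : Set F} (hS : ∀ s ∈ S, s ∈ gaussRing ℓ N) :
    ↥(chartAlg N ℓ S) →+* LaurentSeries (ZMod ℓ) :=
  (gaussRho ℓ N).comp
    (Subring.inclusion (S := (chartAlg N ℓ S).toSubring) (T := (gaussRing ℓ N).toSubring)
      (fun _ hx => chartAlg_le_gaussRing ℓ N hS hx))

theorem chartRho_apply {S : Set F} (hS : ∀ s ∈ S, s ∈ gaussRing ℓ N) (x : ↥(chartAlg N ℓ S)) :
    chartRho ℓ N hS x = gaussRho ℓ N ⟨x, chartAlg_le_gaussRing ℓ N hS x.2⟩ := rfl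

theorem sFin_subset_gaussRing : ∀ s ∈ ({jFull N} : Set F), s ∈ gaussRing ℓ N := by
  intro s hs
  rw [Set.mem_singleton_iff] at hs
  rw [hs]
  exact jFull_mem_gaussRing ℓ N

theorem sInf_subset_gaussRing : ∀ s ∈ ({(jFull N)⁻¹} : Set F), s ∈ gaussRing ℓ N := by
  intro s hs
  rw [Set.mem_singleton_iff] at hs
  rw [hs]
  exact jFull_inv_mem_gaussRing ℓ N

/-- `ρ` on the finite chart `B_fin` -/
def rhoFin : ↥(chartAlgFin N ℓ) →+* LaurentSeries (ZMod ℓ) :=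
  chartRho ℓ N (sFin_subset_gaussRing ℓ N)

/-- `ρ` on the chart at infinity `B_inf` -/
def rhoInf : ↥(chartAlgInf N ℓ) →+* LaurentSeries (ZMod ℓ) :=
  chartRho ℓ N (sInf_subset_gaussRing ℓ N)

theorem rhoFin_apply (x : ↥(chartAlgFin N ℓ)) :
    rhoFin ℓ N x = gaussRho ℓ N ⟨x, chartAlgFin_le_gaussRing ℓ N x.2⟩ := rfl

theorem rhoInf_apply (x : ↥(chartAlgInf N ℓ)) :
    rhoInf ℓ N x = gaussRho ℓ N ⟨x, chartAlgInf_le_gaussRing ℓ N x.2⟩ := rfl

theorem rhoFin_jChartFin : rhoFin ℓ N (jChartFin N ℓ) = jqModC (ZMod ℓ) :=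
  gaussRho_jFull ℓ N

theorem rhoFin_jChartFin_ne_zero : rhoFin ℓ N (jChartFin N ℓ) ≠ 0 := by
  rw [rhoFin_jChartFin]
  exact jqModC_ne_zero _

theorem rhoInf_jInvChartInf : rhoInf ℓ N (jInvChartInf N ℓ) = (jqModC (ZMod ℓ))⁻¹ :=
  gaussRho_jFull_inv ℓ N

/-- `ker ρ|_B = B ∩ ℓ O` for a chart algebra `B` -/
theorem chartRho_eq_zero_iff {S : Set F} (hS : ∀ s ∈ S, s ∈ gaussRing ℓ N)
    (x : ↥(chartAlg N ℓ S)) :
    chartRho ℓ N hS x = 0 ↔ ∃ y : F, y ∈ gaussRing ℓ N ∧ (x : F) = (ℓ : F) * y := by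
  rw [chartRho_apply, gaussRho_eq_zero_iff]
  constructor
  · rintro ⟨f', hf'⟩
    refine ⟨f', f'.2, ?_⟩
    have := congrArg (fun z : ↥(gaussRing ℓ N) => (z : F)) hf'
    simpa using this
  · rintro ⟨y, hy, e⟩
    refine ⟨⟨y, hy⟩, Subtype.ext ?_⟩
    simpa using e

end Level

end Fermat.Agent.Igusa
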