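/-
P9 / S28 (Igusa), package (B0): "geometric integrality is free".

If `B` is an algebra over `ℤ_(ℓ)` with a ring homomorphism `ρ : B → 𝔽_ℓ((q))` whose kernel is `ℓ B`,
then for EVERY field `K` of characteristic `ℓ` the base change `B ⊗ K` embeds into `K((q))`; in
particular it is a domain.
-/
import Mathlib
import Fermat.Prelude.Def_ModularCurve_LaurentCoeff
import Fermat.Prelude.Def_GaloisRep_Flat

set_option autoImplicit false
set_option linter.style.haveILetI false

open TensorProduct ModularCurve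

namespace Fermat.Agent.Igusa

section Abstract

variable {R B K F ι : Type*} [CommRing R] [CommRing B] [Field K] [Field F] [Algebra R B]
  [Algebra R K] [Algebra F K] [Algebra R F] [IsScalarTower R F K]

/-- The linear map `(ι →₀ B) → B ⊗ K`, `c ↦ ∑ c i ⊗ 𝔟 i`. -/
noncomputable def tensorOfFinsupp (𝔟 : ι → K) : (ι →₀ B) →ₗ[R] B ⊗[R] K :=
  Finsupp.lsum R (fun i => (TensorProduct.mk R B K).flip (𝔟 i))

lemma tensorOfFinsupp_apply (𝔟 : ι → K) (c : ι →₀ B) :
    tensorOfFinsupp (R := R) 𝔟 c = c.sum (fun i b => b ⊗ₜ[R] 𝔟 i) := by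
  rw [tensorOfFinsupp, Finsupp.lsum_apply]
  rfl

/-- Every element of `B ⊗[R] K` is of the form `∑ bᵢ ⊗ 𝔟ᵢ` for a basis `𝔟` of `K` over a quotient
field `F` of `R`. -/
lemma tensorOfFinsupp_surjective (hsurj : Function.Surjective (algebraMap R F))
    (𝔟 : Module.Basis ι F K) : Function.Surjective (tensorOfFinsupp (R := R) (B := B) 𝔟) := by
  intro t
  induction t using TensorProduct.induction_on with
  | zero => exact ⟨0, map_zero _⟩
  | add x y hx hy =>
    obtain ⟨c, rfl⟩ := hx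
    obtain ⟨d, rfl⟩ := hy
    exact ⟨c + d, map_add _ _ _⟩
  | tmul b k =>
    classical
    choose r hr using hsurj
    refine ⟨(𝔟.repr k).sum (fun i a => Finsupp.single i (r a • b)), ?_⟩
    rw [Finsupp.sum, map_sum]
    have h1 : ∀ i ∈ (𝔟.repr k).support,
        tensorOfFinsupp (R := R) (B := B) 𝔟 (Finsupp.single i (r (𝔟.repr k i) • b)) =
          b ⊗ₜ[R] ((𝔟.repr k i) • 𝔟 i) := by
      intro i _
      rw [tensorOfFinsupp_apply, Finsupp.sum_single_index (by simp)]
      rw [TensorProduct.smul_tmul, ← algebraMap_smul F (r (𝔟.repr k i)) (𝔟 i), hr]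
    rw [Finset.sum_congr rfl h1, ← TensorProduct.tmul_sum]
    congr 1
    have h2 := 𝔟.linearCombination_repr k
    rw [Finsupp.linearCombination_apply, Finsupp.sum] at h2
    exact h2

lemma coeffMap_C' {S T : Type*} [CommRing S] [CommRing T] (f : S →+* T) (a : S) :
    coeffMap f (HahnSeries.C a) = HahnSeries.C (f a) := by
  exact coeffMap_single f 0 a

omit [Field K] in
lemma laurent_smul_eq_C_mul {K : Type*} [Field K] [Algebra R K] (r : R) (x : LaurentSeries K) :
    r • x = HahnSeries.C (algebraMap R K r) * x := by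
  ext n
  rw [HahnSeries.C_mul_eq_smul, HahnSeries.coeff_smul, HahnSeries.coeff_smul, Algebra.smul_def,
    smul_eq_mul]

variable (K) in
/-- The comparison map `B ⊗[R] K → K((q))`, `b ⊗ k ↦ k · ρ(b)`, as a linear map. -/
noncomputable def tensorToLaurent (ρ : B →+* LaurentSeries F)
    (hρ : ∀ r : R, ρ (algebraMap R B r) = HahnSeries.C (algebraMap R F r)) :
    B ⊗[R] K →ₗ[R] LaurentSeries K :=
  TensorProduct.lift (LinearMap.mk₂ R
    (fun b k => coeffMap (algebraMap F K) (ρ b) * HahnSeries.C k)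
    (fun b b' k => by rw [map_add, map_add, add_mul])
    (fun r b k => by
      rw [Algebra.smul_def, map_mul, map_mul, hρ, coeffMap_C', ← IsScalarTower.algebraMap_apply,
        laurent_smul_eq_C_mul, mul_assoc])
    (fun b k k' => by rw [map_add, mul_add])
    (fun r b k => by
      rw [Algebra.smul_def, map_mul, laurent_smul_eq_C_mul]
      ring))

lemma tensorToLaurent_tmul (ρ : B →+* LaurentSeries F)
    (hρ : ∀ r : R, ρ (algebraMap R B r) = HahnSeries.C (algebraMap R F r)) (b : B) (k : K) :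
    tensorToLaurent K ρ hρ (b ⊗ₜ[R] k) = coeffMap (algebraMap F K) (ρ b) * HahnSeries.C k := by
  rw [tensorToLaurent, TensorProduct.lift.tmul]
  rfl

lemma tensorToLaurent_one (ρ : B →+* LaurentSeries F)
    (hρ : ∀ r : R, ρ (algebraMap R B r) = HahnSeries.C (algebraMap R F r)) :
    tensorToLaurent K ρ hρ 1 = 1 := by
  rw [Algebra.TensorProduct.one_def, tensorToLaurent_tmul, map_one, map_one, map_one, one_mul]

lemma tensorToLaurent_mul (ρ : B →+* LaurentSeries F)
    (hρ : ∀ r : R, ρ (algebraMap R B r) = HahnSeries.C (algebraMap R F r)) (x y : B ⊗[R] K) :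
    tensorToLaurent K ρ hρ (x * y) = tensorToLaurent K ρ hρ x * tensorToLaurent K ρ hρ y := by
  induction x using TensorProduct.induction_on with
  | zero => rw [zero_mul, map_zero, zero_mul]
  | add x x' hx hx' => rw [add_mul, map_add, hx, hx', map_add, add_mul]
  | tmul b k =>
    induction y using TensorProduct.induction_on with
    | zero => rw [mul_zero, map_zero, mul_zero]
    | add y y' hy hy' => rw [mul_add, map_add, hy, hy', map_add, mul_add]
    | tmul b' k' =>
      rw [Algebra.TensorProduct.tmul_mul_tmul, tensorToLaurent_tmul, tensorToLaurent_tmul,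
        tensorToLaurent_tmul, map_mul, map_mul, map_mul]
      ring

lemma tensorToLaurent_tmul_coeff (ρ : B →+* LaurentSeries F)
    (hρ : ∀ r : R, ρ (algebraMap R B r) = HahnSeries.C (algebraMap R F r)) (b : B) (k : K)
    (n : ℤ) :
    (tensorToLaurent K ρ hρ (b ⊗ₜ[R] k)).coeff n = ((ρ b).coeff n) • k := by
  rw [tensorToLaurent_tmul, mul_comm, HahnSeries.C_mul_eq_smul, HahnSeries.coeff_smul,
    coeffMap_coeff, Algebra.smul_def (R := F), smul_eq_mul, mul_comm]

/-- **Geometric integrality is free** (abstract form): if `ker ρ = π B` where `π` dies in `F`, the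
comparison map `B ⊗[R] K → K((q))` is injective. -/
theorem tensorToLaurent_injective (hsurj : Function.Surjective (algebraMap R F))
    (ρ : B →+* LaurentSeries F)
    (hρ : ∀ r : R, ρ (algebraMap R B r) = HahnSeries.C (algebraMap R F r))
    (π : R) (hπ : algebraMap R F π = 0) (hker : ∀ b : B, ρ b = 0 → ∃ c : B, b = π • c) :
    Function.Injective (tensorToLaurent K ρ hρ) := by
  classical
  rw [injective_iff_map_eq_zero]
  intro t ht
  let 𝔟 := Module.Basis.ofVectorSpace F K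
  obtain ⟨c, rfl⟩ := tensorOfFinsupp_surjective (R := R) (B := B) hsurj 𝔟 t
  rw [tensorOfFinsupp_apply, Finsupp.sum] at ht ⊢
  rw [map_sum] at ht
  -- all `ρ (c i)` vanish
  have hzero : ∀ i ∈ c.support, ρ (c i) = 0 := by
    intro i hi
    ext n
    have h1 := congrArg (fun x : LaurentSeries K => x.coeff n) ht
    simp only [HahnSeries.coeff_sum, tensorToLaurent_tmul_coeff, HahnSeries.coeff_zero] at h1
    exact linearIndependent_iff'.1 𝔟.linearIndependent c.support
      (fun j => (ρ (c j)).coeff n) h1 i hi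
  refine Finset.sum_eq_zero fun i hi => ?_
  obtain ⟨d, hd⟩ := hker (c i) (hzero i hi)
  rw [hd, TensorProduct.smul_tmul, ← algebraMap_smul F π (𝔟 i), hπ, zero_smul,
    TensorProduct.tmul_zero]

/-- **Geometric integrality is free** (abstract form): `B ⊗[R] K` is a domain. -/
theorem isDomain_tensor_of_ker (hsurj : Function.Surjective (algebraMap R F))
    (ρ : B →+* LaurentSeries F)
    (hρ : ∀ r : R, ρ (algebraMap R B r) = HahnSeries.C (algebraMap R F r))
    (π : R) (hπ : algebraMap R F π = 0) (hker : ∀ b : B, ρ b = 0 → ∃ c : B, b = π • c) :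
    IsDomain (B ⊗[R] K) := by
  have hinj := tensorToLaurent_injective (K := K) hsurj ρ hρ π hπ hker
  haveI : Nontrivial (B ⊗[R] K) := by
    refine ⟨⟨0, 1, fun h => ?_⟩⟩
    have h1 := congrArg (tensorToLaurent K ρ hρ) h
    rw [map_zero, tensorToLaurent_one] at h1
    exact zero_ne_one h1
  haveI : NoZeroDivisors (B ⊗[R] K) :=
    hinj.noZeroDivisors _ (map_zero _) (tensorToLaurent_mul ρ hρ)
  exact NoZeroDivisors.to_isDomain _

/-- An element with nonzero residue stays nonzero in `B ⊗[R] K`. -/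
theorem tmul_one_ne_zero_of_ne_zero (ρ : B →+* LaurentSeries F)
    (hρ : ∀ r : R, ρ (algebraMap R B r) = HahnSeries.C (algebraMap R F r)) {b : B}
    (hb : ρ b ≠ 0) : (b ⊗ₜ[R] (1 : K) : B ⊗[R] K) ≠ 0 := by
  intro h0
  apply hb
  ext n
  have h1 := congrArg (fun x : LaurentSeries K => x.coeff n)
    (congrArg (tensorToLaurent K ρ hρ) h0)
  simp only [tensorToLaurent_tmul_coeff, map_zero, HahnSeries.coeff_zero] at h1
  rw [Algebra.smul_def, mul_one] at h1
  rw [HahnSeries.coeff_zero]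
  exact (algebraMap F K).injective (by rw [h1, map_zero])

end Abstract

section Zl

variable (ℓ : ℕ) [hℓ : Fact ℓ.Prime]

set_option quotPrecheck false in
local notation "ℤℓ" => ↥(GaloisRep.ratLocalizedAt ℓ)

omit hℓ in
lemma den_coprime_of_mem (x : ℤℓ) : (x : ℚ).den.Coprime ℓ := x.2

lemma den_cast_ne_zero (x : ℤℓ) : (((x : ℚ).den : ℕ) : ZMod ℓ) ≠ 0 := by
  rw [Ne, ZMod.natCast_eq_zero_iff]
  exact (Nat.Prime.coprime_iff_not_dvd hℓ.out).1 (den_coprime_of_mem ℓ x).symm

/-- The residue map `ℤ_(ℓ) → 𝔽_ℓ`. -/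
noncomputable def resZl : ℤℓ →+* ZMod ℓ where
  toFun x := ((x : ℚ) : ZMod ℓ)
  map_one' := by simp
  map_zero' := by simp
  map_add' x y := by
    change (((x + y : ℤℓ) : ℚ) : ZMod ℓ) = _
    rw [Subring.coe_add]
    exact Rat.cast_add_of_ne_zero (den_cast_ne_zero ℓ x) (den_cast_ne_zero ℓ y)
  map_mul' x y := by
    change (((x * y : ℤℓ) : ℚ) : ZMod ℓ) = _
    rw [Subring.coe_mul]
    exact Rat.cast_mul_of_ne_zero (den_cast_ne_zero ℓ x) (den_cast_ne_zero ℓ y)

lemma resZl_surjective : Function.Surjective (resZl ℓ) := by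
  intro a
  refine ⟨(a.val : ℤℓ), ?_⟩
  rw [map_natCast, ZMod.natCast_zmod_val]

lemma resZl_natCast_self : resZl ℓ (ℓ : ℤℓ) = 0 := by
  rw [map_natCast, ZMod.natCast_self]

omit hℓ in
/-- Ring homomorphisms out of `ℤ_(ℓ)` are unique. -/
lemma ringHom_ext_ratLocalizedAt {S : Type*} [Ring S] (f g : ℤℓ →+* S) : f = g := by
  ext x
  have hd0 : (x : ℚ).den ≠ 0 := (x : ℚ).den_ne_zero
  have hu : ((x : ℚ).den : ℚ)⁻¹ ∈ GaloisRep.ratLocalizedAt ℓ := by
    change (((x : ℚ).den : ℚ)⁻¹).den.Coprime ℓ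
    rw [Rat.inv_natCast_den_of_pos (Nat.pos_of_ne_zero hd0)]
    exact x.2
  let u : ℤℓ := ⟨_, hu⟩
  have hud : u * ((x : ℚ).den : ℤℓ) = 1 := by
    apply Subtype.ext
    push_cast
    exact inv_mul_cancel₀ (Nat.cast_ne_zero.2 hd0)
  have hx : x = ((x : ℚ).num : ℤℓ) * u := by
    apply Subtype.ext
    push_cast
    change (x : ℚ) = ((x : ℚ).num : ℚ) * ((x : ℚ).den : ℚ)⁻¹
    rw [← div_eq_mul_inv, Rat.num_div_den]
  have hfu : f u * (((x : ℚ).den : ℕ) : S) = 1 := by
    rw [← map_natCast f, ← map_mul, hud, map_one]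
  have hgu : (((x : ℚ).den : ℕ) : S) * g u = 1 := by
    rw [← map_natCast g, ← map_mul, mul_comm, hud, map_one]
  have hfg : f u = g u := by
    calc f u = f u * ((((x : ℚ).den : ℕ) : S) * g u) := by rw [hgu, mul_one]
      _ = (f u * (((x : ℚ).den : ℕ) : S)) * g u := by rw [mul_assoc]
      _ = g u := by rw [hfu, one_mul]
  rw [hx, map_mul, map_mul, map_intCast, map_intCast, hfg]

variable (K : Type*) [Field K] [CharP K ℓ] [Algebra ↥(GaloisRep.ratLocalizedAt ℓ) K]
  {B : Type*} [CommRing B] [Algebra ↥(GaloisRep.ratLocalizedAt ℓ) B]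

/-- **Geometric integrality is free.**  If `ρ : B → 𝔽_ℓ((q))` has kernel `ℓ B`, then `B ⊗ K` is a
domain for every field `K` of characteristic `ℓ`. -/
theorem isDomain_tensor_of_residue (ρ : B →+* LaurentSeries (ZMod ℓ))
    (hker : ∀ b : B, ρ b = 0 → ∃ c : B, b = (ℓ : B) * c) : IsDomain (B ⊗[ℤℓ] K) := by
  letI : Algebra (ZMod ℓ) K := ZMod.algebra K ℓ
  letI : Algebra ℤℓ (ZMod ℓ) := (resZl ℓ).toAlgebra
  haveI : IsScalarTower ℤℓ (ZMod ℓ) K := IsScalarTower.of_algebraMap_eq' (by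
    exact ringHom_ext_ratLocalizedAt ℓ _ _)
  have hρ : ∀ r : ℤℓ, ρ (algebraMap ℤℓ B r) = HahnSeries.C (algebraMap ℤℓ (ZMod ℓ) r) := by
    intro r
    exact DFunLike.congr_fun (ringHom_ext_ratLocalizedAt ℓ (ρ.comp (algebraMap ℤℓ B))
      ((HahnSeries.C : ZMod ℓ →+* LaurentSeries (ZMod ℓ)).comp (algebraMap ℤℓ (ZMod ℓ)))) r
  refine isDomain_tensor_of_ker (F := ZMod ℓ) (resZl_surjective ℓ) ρ hρ (ℓ : ℤℓ)
    (resZl_natCast_self ℓ) ?_
  intro b hb
  obtain ⟨c, hc⟩ := hker b hb
  refine ⟨c, ?_⟩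
  rw [hc, Algebra.smul_def, map_natCast]

/-- An element with nonzero residue stays nonzero in `B ⊗ K`. -/
theorem tmul_one_ne_zero_of_residue (ρ : B →+* LaurentSeries (ZMod ℓ)) {b : B} (hb : ρ b ≠ 0) :
    (b ⊗ₜ[ℤℓ] (1 : K) : B ⊗[ℤℓ] K) ≠ 0 := by
  letI : Algebra (ZMod ℓ) K := ZMod.algebra K ℓ
  letI : Algebra ℤℓ (ZMod ℓ) := (resZl ℓ).toAlgebra
  haveI : IsScalarTower ℤℓ (ZMod ℓ) K := IsScalarTower.of_algebraMap_eq' (by
    exact ringHom_ext_ratLocalizedAt ℓ _ _)
  have hρ : ∀ r : ℤℓ, ρ (algebraMap ℤℓ B r) = HahnSeries.C (algebraMap ℤℓ (ZMod ℓ) r) := by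
    intro r
    exact DFunLike.congr_fun (ringHom_ext_ratLocalizedAt ℓ (ρ.comp (algebraMap ℤℓ B))
      ((HahnSeries.C : ZMod ℓ →+* LaurentSeries (ZMod ℓ)).comp (algebraMap ℤℓ (ZMod ℓ)))) r
  exact tmul_one_ne_zero_of_ne_zero (F := ZMod ℓ) ρ hρ hb

end Zl

end Fermat.Agent.Igusa
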