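/-
P9 / S28 (Igusa), package (A): scheme glue.

The base change of the Igusa model `IgusaScheme N ℓ` (glued from `Spec` of the two chart algebras
`chartAlgFin`, `chartAlgInf` along `Spec chartAlgMid`) to a field `K` over `ℤ_(ℓ)` is integral as soon
as the two tensor products `chartAlgFin ⊗ K`, `chartAlgInf ⊗ K` are domains and
`chartAlgMid ⊗ K` is nontrivial.
-/
import Mathlib
import Fermat.Prelude.Def_ModularCurve_IgusaScheme

set_option autoImplicit false
set_option linter.style.haveILetI false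

open AlgebraicGeometry CategoryTheory CategoryTheory.Limits ModularCurve ModularCurve.IgusaScheme
open TensorProduct

namespace Fermat.Agent.Igusa

universe u

/-- A scheme covered by two integral open subschemes which meet is integral. -/
theorem isIntegral_of_two_openImmersions {X U V : Scheme.{u}} (f : U ⟶ X) (g : V ⟶ X)
    [IsOpenImmersion f] [IsOpenImmersion g] [IsIntegral U] [IsIntegral V]
    (hcov : ∀ x : X, x ∈ Set.range f ∨ x ∈ Set.range g)
    (hmeet : (Set.range f ∩ Set.range g).Nonempty) : IsIntegral X := by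
  -- reducedness
  have hred : IsReduced X := by
    let 𝒰 : X.OpenCover := Scheme.Cover.mkOfCovers Bool (fun b => if b then U else V)
      (fun b => match b with
        | true => f
        | false => g)
      (fun x => by
        rcases hcov x with ⟨y, hy⟩ | ⟨y, hy⟩
        · exact ⟨true, y, hy⟩
        · exact ⟨false, y, hy⟩)
      (fun b => by
        cases b
        · exact (inferInstance : IsOpenImmersion g)
        · exact (inferInstance : IsOpenImmersion f))
    have : ∀ i, IsReduced (𝒰.X i) := by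
      intro b
      cases b
      · exact (inferInstance : IsReduced V)
      · exact (inferInstance : IsReduced U)
    exact IsReduced.of_openCover X 𝒰
  -- irreducibility
  have hU : IsIrreducible (Set.range f) := by
    rw [← Set.image_univ]
    exact (IrreducibleSpace.isIrreducible_univ U).image _ f.continuous.continuousOn
  have hV : IsIrreducible (Set.range g) := by
    rw [← Set.image_univ]
    exact (IrreducibleSpace.isIrreducible_univ V).image _ g.continuous.continuousOn
  have hUo : IsOpen (Set.range f) := f.isOpenEmbedding.isOpen_range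
  have hcl : closure (Set.range f) = Set.univ := by
    rw [Set.eq_univ_iff_forall]
    intro x
    rcases hcov x with hx | hx
    · exact subset_closure hx
    · rw [mem_closure_iff]
      intro O hO hxO
      obtain ⟨z, hz1, hz2, hz3⟩ := hV.2 O (Set.range f) hO hUo ⟨x, hx, hxO⟩
        (by obtain ⟨y, hy1, hy2⟩ := hmeet; exact ⟨y, hy2, hy1⟩)
      exact ⟨z, hz2, hz3⟩
  have hirr : IrreducibleSpace X := by
    rw [irreducibleSpace_def]
    have := hU.closure
    rw [hcl] at this
    exact this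
  exact isIntegral_of_irreducibleSpace_of_isReduced X

/-- If `B` is the localisation of `A` at `x` and `A ⊗ K` is a domain in which `x ⊗ 1 ≠ 0`, then
`B ⊗ K` is nontrivial. -/
theorem nontrivial_tensor_of_isLocalization_away {R A B K : Type*} [CommRing R] [CommRing A]
    [CommRing B] [Field K] [Algebra R A] [Algebra R B] [Algebra R K] (i : A →ₐ[R] B) (x : A)
    (hloc : letI := i.toRingHom.toAlgebra; IsLocalization.Away x B) [IsDomain (A ⊗[R] K)]
    (hx : (x ⊗ₜ[R] (1 : K) : A ⊗[R] K) ≠ 0) : Nontrivial (B ⊗[R] K) := by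
  classical
  let f : A →ₐ[R] FractionRing (A ⊗[R] K) :=
    (IsScalarTower.toAlgHom R (A ⊗[R] K) (FractionRing (A ⊗[R] K))).comp
      Algebra.TensorProduct.includeLeft
  have hfj : IsUnit (f x) := by
    rw [isUnit_iff_ne_zero]
    intro h0
    apply hx
    have h1 : algebraMap (A ⊗[R] K) (FractionRing (A ⊗[R] K)) (x ⊗ₜ[R] (1 : K)) = 0 := h0
    exact (IsFractionRing.injective (A ⊗[R] K) (FractionRing (A ⊗[R] K)))
      (by rw [h1, map_zero])
  letI := i.toRingHom.toAlgebra
  haveI := hloc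
  let g0 : B →+* FractionRing (A ⊗[R] K) :=
    IsLocalization.Away.lift (S := B) x (g := (f : A →+* FractionRing (A ⊗[R] K))) hfj
  have hg0 : ∀ a : A, g0 (i a) = f a := fun a =>
    IsLocalization.Away.lift_eq (S := B) x (g := (f : A →+* FractionRing (A ⊗[R] K))) hfj a
  let g : B →ₐ[R] FractionRing (A ⊗[R] K) :=
    { g0 with
      commutes' := fun a => by
        have h1 : algebraMap R B a = i (algebraMap R A a) := (i.commutes a).symm
        change g0 (algebraMap R B a) = _
        rw [h1, hg0, f.commutes] }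
  let k : K →ₐ[R] FractionRing (A ⊗[R] K) :=
    (IsScalarTower.toAlgHom R (A ⊗[R] K) (FractionRing (A ⊗[R] K))).comp
      Algebra.TensorProduct.includeRight
  let φ : B ⊗[R] K →ₐ[R] FractionRing (A ⊗[R] K) :=
    Algebra.TensorProduct.lift g k (fun _ _ => Commute.all _ _)
  exact φ.toRingHom.domain_nontrivial

section Igusa

variable (N : ℕ) [NeZero N] (ℓ : ℕ) [Fact ℓ.Prime]
  (K : Type) [Field K] [Algebra ↥(GaloisRep.ratLocalizedAt ℓ) K]

set_option quotPrecheck false in
local notation "ℤℓ" => ↥(GaloisRep.ratLocalizedAt ℓ)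

/-- The base change morphism `Spec K ⟶ Spec ℤ_(ℓ)`. -/
noncomputable abbrev glueToBase : Spec (CommRingCat.of K) ⟶ Spec (CommRingCat.of ℤℓ) :=
  Spec.map (CommRingCat.ofHom (algebraMap ℤℓ K))

/-- The finite chart of the base change. -/
noncomputable def glueMapFin :
    pullback (Spec.map (CommRingCat.ofHom (algebraMap ℤℓ (chartAlgFin N ℓ)))) (glueToBase ℓ K) ⟶
      pullback (igusaTo N ℓ) (glueToBase ℓ K) :=
  pullback.map _ _ _ _ (ιFin N ℓ) (𝟙 _) (𝟙 _) (by simp) (by simp)

/-- The chart at infinity of the base change. -/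
noncomputable def glueMapInf :
    pullback (Spec.map (CommRingCat.ofHom (algebraMap ℤℓ (chartAlgInf N ℓ)))) (glueToBase ℓ K) ⟶
      pullback (igusaTo N ℓ) (glueToBase ℓ K) :=
  pullback.map _ _ _ _ (ιInf N ℓ) (𝟙 _) (𝟙 _) (by simp) (by simp)

instance isOpenImmersion_glueMapFin : IsOpenImmersion (glueMapFin N ℓ K) := by
  unfold glueMapFin; infer_instance

instance isOpenImmersion_glueMapInf : IsOpenImmersion (glueMapInf N ℓ K) := by
  unfold glueMapInf; infer_instance

lemma range_glueMapFin :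
    Set.range (glueMapFin N ℓ K) = pullback.fst (igusaTo N ℓ) (glueToBase ℓ K) ⁻¹' Set.range (ιFin N ℓ) := by
  unfold glueMapFin
  rw [Scheme.Pullback.range_map]
  simp

lemma range_glueMapInf :
    Set.range (glueMapInf N ℓ K) = pullback.fst (igusaTo N ℓ) (glueToBase ℓ K) ⁻¹' Set.range (ιInf N ℓ) := by
  unfold glueMapInf
  rw [Scheme.Pullback.range_map]
  simp

lemma mem_range_glueMapFin_or_glueMapInf (x : ↑(pullback (igusaTo N ℓ) (glueToBase ℓ K))) :
    x ∈ Set.range (glueMapFin N ℓ K) ∨ x ∈ Set.range (glueMapInf N ℓ K) := by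
  rw [range_glueMapFin, range_glueMapInf]
  exact mem_range_ιFin_or_mem_range_ιInf N ℓ _

/-- The two charts of the base change meet as soon as `chartAlgMid ⊗ K` is nontrivial. -/
lemma range_glueMapFin_inter_glueMapInf_nonempty
    (hMid : Nontrivial (↥(chartAlgMid N ℓ) ⊗[ℤℓ] K)) :
    (Set.range (glueMapFin N ℓ K) ∩ Set.range (glueMapInf N ℓ K)).Nonempty := by
  obtain ⟨y⟩ : Nonempty (PrimeSpectrum (↥(chartAlgMid N ℓ) ⊗[ℤℓ] K)) := inferInstance
  let y0 : ↑(Spec (CommRingCat.of (↥(chartAlgMid N ℓ) ⊗[ℤℓ] K))) := y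
  let iL : ↥(chartAlgMid N ℓ) →+* ↥(chartAlgMid N ℓ) ⊗[ℤℓ] K :=
    Algebra.TensorProduct.includeLeftRingHom
  let iR : K →+* ↥(chartAlgMid N ℓ) ⊗[ℤℓ] K :=
    (Algebra.TensorProduct.includeRight : K →ₐ[ℤℓ] ↥(chartAlgMid N ℓ) ⊗[ℤℓ] K).toRingHom
  -- the corresponding point of `XMid`
  let y1 : ↑(XMid N ℓ) := Spec.map (CommRingCat.ofHom iL) y0
  let y2 : ↑(Spec (CommRingCat.of K)) := Spec.map (CommRingCat.ofHom iR) y0
  let w : ↑(ModularCurve.IgusaScheme N ℓ) := (fFin N ℓ ≫ ιFin N ℓ) y1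
  -- `w` lies over the image of `y2`
  have hmor : Spec.map (CommRingCat.ofHom iL) ≫ (fFin N ℓ ≫ ιFin N ℓ) ≫ igusaTo N ℓ =
      Spec.map (CommRingCat.ofHom (R := K) (S := ↥(chartAlgMid N ℓ) ⊗[ℤℓ] K) iR) ≫
        glueToBase ℓ K := by
    rw [Category.assoc, ιFin_igusaTo, ← Spec.map_comp, ← Spec.map_comp, ← Spec.map_comp,
      ← CommRingCat.ofHom_comp, ← CommRingCat.ofHom_comp, ← CommRingCat.ofHom_comp]
    congr 2
    ext a
    simp [iL, iR]
  have hw : igusaTo N ℓ w = glueToBase ℓ K y2 := by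
    have h1 : (Spec.map (CommRingCat.ofHom iL) ≫ (fFin N ℓ ≫ ιFin N ℓ) ≫ igusaTo N ℓ) y0 =
        (Spec.map (CommRingCat.ofHom (R := K) (S := ↥(chartAlgMid N ℓ) ⊗[ℤℓ] K) iR) ≫
          glueToBase ℓ K) y0 := by rw [hmor]
    rw [Scheme.Hom.comp_apply, Scheme.Hom.comp_apply, Scheme.Hom.comp_apply] at h1
    exact h1
  have hmem : w ∈ Set.range (pullback.fst (igusaTo N ℓ) (glueToBase ℓ K)) := by
    rw [Scheme.Pullback.range_fst]
    exact ⟨y2, hw.symm⟩
  obtain ⟨x, hx⟩ := hmem
  refine ⟨x, ?_, ?_⟩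
  · rw [range_glueMapFin, Set.mem_preimage, hx]
    exact ⟨fFin N ℓ y1, by rw [← Scheme.Hom.comp_apply]⟩
  · rw [range_glueMapInf, Set.mem_preimage, hx]
    refine ⟨fInf N ℓ y1, ?_⟩
    rw [← Scheme.Hom.comp_apply, ← glue_condition]

/-- **S28, scheme glue.**  The base change of the Igusa model to `K` is integral provided the base
changes of the two chart algebras are domains and that of the middle chart algebra is nontrivial. -/
theorem isIntegral_pullback_igusaTo
    (hFin : IsDomain (↥(chartAlgFin N ℓ) ⊗[ℤℓ] K)) (hInf : IsDomain (↥(chartAlgInf N ℓ) ⊗[ℤℓ] K))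
    (hMid : Nontrivial (↥(chartAlgMid N ℓ) ⊗[ℤℓ] K)) :
    IsIntegral ↑(pullback (igusaTo N ℓ)
      (Spec.map (CommRingCat.ofHom (algebraMap ℤℓ K)))) := by
  haveI : IsIntegral (Spec (CommRingCat.of (↥(chartAlgFin N ℓ) ⊗[ℤℓ] K))) := inferInstance
  haveI : IsIntegral (Spec (CommRingCat.of (↥(chartAlgInf N ℓ) ⊗[ℤℓ] K))) := inferInstance
  haveI : IsIntegral
      ↑(pullback (Spec.map (CommRingCat.ofHom (algebraMap ℤℓ (chartAlgFin N ℓ)))) (glueToBase ℓ K)) :=
    IsIntegral.of_isIso (pullbackSpecIso ℤℓ (chartAlgFin N ℓ) K).inv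
  haveI : IsIntegral
      ↑(pullback (Spec.map (CommRingCat.ofHom (algebraMap ℤℓ (chartAlgInf N ℓ)))) (glueToBase ℓ K)) :=
    IsIntegral.of_isIso (pullbackSpecIso ℤℓ (chartAlgInf N ℓ) K).inv
  exact isIntegral_of_two_openImmersions (glueMapFin N ℓ K) (glueMapInf N ℓ K)
    (mem_range_glueMapFin_or_glueMapInf N ℓ K)
    (range_glueMapFin_inter_glueMapInf_nonempty N ℓ K hMid)

/-- `chartAlgMid ⊗ K` is nontrivial as soon as `chartAlgFin ⊗ K` is a domain in which `j ⊗ 1` is
nonzero (`chartAlgMid` is the localisation of `chartAlgFin` at `j`). -/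
theorem nontrivial_chartAlgMid_tensor (hFin : IsDomain (↥(chartAlgFin N ℓ) ⊗[ℤℓ] K))
    (hj : (jChartFin N ℓ ⊗ₜ[ℤℓ] (1 : K) : ↥(chartAlgFin N ℓ) ⊗[ℤℓ] K) ≠ 0) :
    Nontrivial (↥(chartAlgMid N ℓ) ⊗[ℤℓ] K) :=
  nontrivial_tensor_of_isLocalization_away (inclFin N ℓ) (jChartFin N ℓ)
    (isLocalization_away_inclFin N ℓ) hj

/-- **S28, scheme glue, second form.** -/
theorem isIntegral_pullback_igusaTo'
    (hFin : IsDomain (↥(chartAlgFin N ℓ) ⊗[ℤℓ] K)) (hInf : IsDomain (↥(chartAlgInf N ℓ) ⊗[ℤℓ] K))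
    (hj : (jChartFin N ℓ ⊗ₜ[ℤℓ] (1 : K) : ↥(chartAlgFin N ℓ) ⊗[ℤℓ] K) ≠ 0) :
    IsIntegral ↑(pullback (igusaTo N ℓ)
      (Spec.map (CommRingCat.ofHom (algebraMap ℤℓ K)))) :=
  isIntegral_pullback_igusaTo N ℓ K hFin hInf (nontrivial_chartAlgMid_tensor N ℓ K hFin hj)

end Igusa

end Fermat.Agent.Igusa
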