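/-
P9 / S28 package (B4): instantiation of the abstract algebra core (`AlgCore.lean`) for
`A = ℤ_(ℓ)[j]` and `A = ℤ_(ℓ)[1/j]` with the Gauss valuation ring of `GaussRing.lean`, and the
final reduction of S28 to Igusa's degree bound.
-/
import Mathlib
import Fermat.Agent.Lib.Igusa.AlgCore
import Fermat.Agent.Lib.Igusa.GaussRing
import Fermat.Agent.Lib.Igusa.DegreeBound
import Fermat.Agent.Lib.Igusa.GeomIntegral
import Fermat.Agent.Lib.Igusa.Glue

set_option autoImplicit false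
set_option linter.unusedSectionVars false
set_option linter.unusedVariables false
set_option linter.style.haveILetI false

open HahnSeries ModularCurve ModularCurve.IgusaScheme Polynomial

noncomputable section

namespace Fermat.Agent.Igusa

variable (ℓ : ℕ) [Fact ℓ.Prime]

set_option quotPrecheck false in
local notation "ℤℓ" => ↥(GaloisRep.ratLocalizedAt ℓ)

/-! ### `ℤ_(ℓ)` is a discrete valuation ring -/

theorem zlEll_ne_zero : zlEll ℓ ≠ 0 := by
  have hp : ℓ.Prime := Fact.out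
  intro h0
  have := congrArg (fun x : ℤℓ => (x : ℚ)) h0
  simp only [coe_zlEll] at this
  have : (ℓ : ℚ) = 0 := by simpa using this
  exact hp.ne_zero (by exact_mod_cast this)

/-- elements with nonzero residue are units -/
theorem zl_isUnit_of_zlRed_ne_zero {a : ℤℓ} (ha : zlRed ℓ a ≠ 0) : IsUnit a := by
  have hp : ℓ.Prime := Fact.out
  have ha0 : (a : ℚ) ≠ 0 := by
    intro h
    apply ha
    rw [zlRed_apply, h]; simp
  have hnum : ¬ (ℓ : ℤ) ∣ (a : ℚ).num := by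
    intro hdvd
    apply ha
    rw [zlRed_apply, Rat.cast_def]
    have : (((a : ℚ).num : ℤ) : ZMod ℓ) = 0 := (ZMod.intCast_zmod_eq_zero_iff_dvd _ _).mpr hdvd
    rw [this, zero_div]
  have hmem : (a : ℚ)⁻¹ ∈ GaloisRep.ratLocalizedAt ℓ := by
    rw [mem_ratLocalizedAt_iff, Rat.den_inv_of_ne_zero ha0]
    rw [Nat.coprime_comm, Nat.Prime.coprime_iff_not_dvd hp]
    intro h
    exact hnum (Int.natCast_dvd.mpr h)
  refine IsUnit.of_mul_eq_one ⟨_, hmem⟩ (Subtype.ext ?_)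
  rw [Subring.coe_mul, Subring.coe_one]
  exact mul_inv_cancel₀ ha0

theorem zlEll_prime : Prime (zlEll ℓ) := by
  refine ⟨zlEll_ne_zero ℓ, ?_, ?_⟩
  · intro hu
    have := hu.map (zlRed ℓ)
    rw [zlRed_zlEll] at this
    exact not_isUnit_zero this
  · intro a b hab
    obtain ⟨c, hc⟩ := hab
    have h1 : zlRed ℓ (a * b) = 0 := (zlRed_eq_zero_iff ℓ _).mpr ⟨c, hc⟩
    rw [map_mul, mul_eq_zero] at h1
    rcases h1 with h | h
    · left
      obtain ⟨d, hd⟩ := (zlRed_eq_zero_iff ℓ _).mp h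
      exact ⟨d, hd⟩
    · right
      obtain ⟨d, hd⟩ := (zlRed_eq_zero_iff ℓ _).mp h
      exact ⟨d, hd⟩

theorem zl_associated_pow {a : ℤℓ} (ha : a ≠ 0) : ∃ n : ℕ, Associated (zlEll ℓ ^ n) a := by
  have hp : ℓ.Prime := Fact.out
  suffices H : ∀ k : ℕ, ∀ a : ℤℓ, a ≠ 0 → padicValRat ℓ (a : ℚ) = k →
      ∃ n : ℕ, Associated (zlEll ℓ ^ n) a by
    have h0 := zl_padicValRat_nonneg ℓ a
    obtain ⟨k, hk⟩ := Int.eq_ofNat_of_zero_le h0
    exact H k a ha hk
  intro k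
  induction k with
  | zero =>
    intro a ha hk
    by_cases hr : zlRed ℓ a = 0
    · exfalso
      obtain ⟨b, hb⟩ := (zlRed_eq_zero_iff ℓ a).mp hr
      have hb0 : b ≠ 0 := by
        rintro rfl
        exact ha (by rw [hb, mul_zero])
      have hbq : (b : ℚ) ≠ 0 := fun h => hb0 (Subtype.ext h)
      have hlq : (ℓ : ℚ) ≠ 0 := by exact_mod_cast hp.ne_zero
      have h1 : padicValRat ℓ (a : ℚ) = padicValRat ℓ (ℓ : ℚ) + padicValRat ℓ (b : ℚ) := by
        rw [hb, Subring.coe_mul, coe_zlEll]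
        exact padicValRat.mul hlq hbq
      rw [padicValRat.self hp.one_lt] at h1
      have h2 := zl_padicValRat_nonneg ℓ b
      rw [hk] at h1
      simp only [Nat.cast_zero] at h1
      omega
    · exact ⟨0, by
        rw [pow_zero]
        exact (associated_one_iff_isUnit.mpr (zl_isUnit_of_zlRed_ne_zero ℓ hr)).symm⟩
  | succ k ih =>
    intro a ha hk
    by_cases hr : zlRed ℓ a = 0
    · obtain ⟨b, hb⟩ := (zlRed_eq_zero_iff ℓ a).mp hr
      have hb0 : b ≠ 0 := by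
        rintro rfl
        exact ha (by rw [hb, mul_zero])
      have hbq : (b : ℚ) ≠ 0 := fun h => hb0 (Subtype.ext h)
      have hlq : (ℓ : ℚ) ≠ 0 := by exact_mod_cast hp.ne_zero
      have h1 : padicValRat ℓ (a : ℚ) = padicValRat ℓ (ℓ : ℚ) + padicValRat ℓ (b : ℚ) := by
        rw [hb, Subring.coe_mul, coe_zlEll]
        exact padicValRat.mul hlq hbq
      rw [padicValRat.self hp.one_lt, hk] at h1
      have h2 : padicValRat ℓ (b : ℚ) = k := by push_cast at h1; omega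
      obtain ⟨n, hn⟩ := ih b hb0 h2
      refine ⟨n + 1, ?_⟩
      rw [hb, pow_succ']
      exact hn.mul_left _
    · exact ⟨0, by
        rw [pow_zero]
        exact (associated_one_iff_isUnit.mpr (zl_isUnit_of_zlRed_ne_zero ℓ hr)).symm⟩

instance zl_isDiscreteValuationRing : IsDiscreteValuationRing ℤℓ :=
  IsDiscreteValuationRing.ofHasUnitMulPowIrreducibleFactorization
    ⟨zlEll ℓ, (zlEll_prime ℓ).irreducible, fun hx => zl_associated_pow ℓ hx⟩

/-! ### Transcendence of `j` -/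

/-- `j̄ = 1/q + …` is transcendental over the coefficient field. -/
theorem igInst_transcendental_jqModC (K : Type*) [Field K] :
    Transcendental K (jqModC K) := by
  rw [transcendental_iff]
  intro P hP
  by_contra hne
  have hsm : ∀ (c : K) (f : LaurentSeries K) (a : ℤ),
      (algebraMap K (LaurentSeries K) c * f).coeff a = c * f.coeff a := by
    intro c f a
    rw [algebraMap_laurentSeries_eq_single, HahnSeries.coeff_single_zero_mul]
  have h1 : (aeval (jqModC K) P).coeff (-(P.natDegree : ℤ)) = P.leadingCoeff := by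
    rw [aeval_eq_sum_range, HahnSeries.coeff_sum]
    rw [Finset.sum_eq_single_of_mem P.natDegree (Finset.mem_range.mpr (Nat.lt_succ_self _))]
    · rw [Algebra.smul_def, hsm, coeff_jqModC_pow_self, mul_one]
      rfl
    · intro i hi hne'
      have hlt : i < P.natDegree :=
        lt_of_le_of_ne (Nat.lt_succ_iff.mp (Finset.mem_range.mp hi)) hne'
      rw [Algebra.smul_def, hsm, coeff_jqModC_pow_of_lt K (by omega), mul_zero]
  rw [hP, HahnSeries.coeff_zero] at h1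
  exact hne (leadingCoeff_eq_zero.mp h1.symm)

section Level

variable (N : ℕ) [NeZero N]

set_option quotPrecheck false in
local notation "F" => ↥(modularFunctionFieldFull N)

theorem transcendental_rat_jFull : Transcendental ℚ (jFull N) := by
  intro h
  obtain ⟨p, hp0, hp⟩ := h
  apply igInst_transcendental_jqModC ℚ
  refine ⟨p, hp0, ?_⟩
  have h1 := congrArg (fun z : F => (z : LaurentSeries ℚ)) hp
  simp only [ZeroMemClass.coe_zero] at h1
  rw [← h1, aeval_def, aeval_def]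
  have h2 := Polynomial.hom_eval₂ p (algebraMap ℚ F)
    ((modularFunctionFieldFull N).toSubfield.subtype) (jFull N)
  have h3 : ((modularFunctionFieldFull N).toSubfield.subtype).comp (algebraMap ℚ F) =
      algebraMap ℚ (LaurentSeries ℚ) := Subsingleton.elim _ _
  rw [h3] at h2
  exact h2.symm

theorem transcendental_zl_jFull : Transcendental ℤℓ (jFull N) :=
  (transcendental_rat_jFull N).restrictScalars
    (FaithfulSMul.algebraMap_injective ℤℓ ℚ)

theorem transcendental_zl_jFull_inv : Transcendental ℤℓ (jFull N)⁻¹ := by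
  intro h
  exact transcendental_zl_jFull ℓ N (IsAlgebraic.inv_iff.mp h)

/-! ### The polynomial ring `ℤ_(ℓ)[x]` for a transcendental `x` -/

section Adjoin

variable {N}

theorem ufm_adjoin {x : F} (hx : Transcendental ℤℓ x) :
    UniqueFactorizationMonoid ↥(Algebra.adjoin ℤℓ {x}) :=
  hx.uniqueFactorizationMonoid_adjoin

/-- the prime `ℓ` of `ℤ_(ℓ)[x]` -/
def ellA (x : F) : ↥(Algebra.adjoin ℤℓ {x}) := algebraMap ℤℓ _ (zlEll ℓ)

theorem ellA_prime {x : F} (hx : Transcendental ℤℓ x) : Prime (ellA ℓ x) := by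
  have h1 : Prime (C (zlEll ℓ) : ℤℓ[X]) := prime_C_iff.mpr (zlEll_prime ℓ)
  have h2 := (MulEquiv.prime_iff (Polynomial.algEquivOfTranscendental ℤℓ x hx).toMulEquiv).mpr h1
  have h3 : (Polynomial.algEquivOfTranscendental ℤℓ x hx).toMulEquiv (C (zlEll ℓ)) = ellA ℓ x := by
    show (Polynomial.algEquivOfTranscendental ℤℓ x hx) (C (zlEll ℓ)) = _
    rw [← Polynomial.algebraMap_eq, AlgEquiv.commutes]
    rfl
  rwa [h3] at h2

theorem coe_ellA (x : F) : ((ellA ℓ x : ↥(Algebra.adjoin ℤℓ {x})) : F) = ((ℓ : ℕ) : F) := by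
  show algebraMap ℤℓ F (zlEll ℓ) = _
  rw [zlEll, map_natCast]

theorem algebraMap_ellA (x : F) :
    algebraMap ↥(Algebra.adjoin ℤℓ {x}) F (ellA ℓ x) = ((ℓ : ℕ) : F) := coe_ellA ℓ x

theorem igInst_adjoin_le_gaussAlg {x : F} (hxO : x ∈ gaussRing ℓ N) :
    Algebra.adjoin ℤℓ {x} ≤ gaussAlg ℓ N :=
  Algebra.adjoin_le (by
    intro y hy
    rw [Set.mem_singleton_iff] at hy
    rw [hy]
    exact hxO)

theorem mem_gaussRing_of_mem_adjoin {x : F} (hxO : x ∈ gaussRing ℓ N)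
    (a : ↥(Algebra.adjoin ℤℓ {x})) : (a : F) ∈ gaussRing ℓ N :=
  igInst_adjoin_le_gaussAlg ℓ hxO a.2

/-- `ℤ_(ℓ)[x] → O` -/
def adjoinToGauss {x : F} (hxO : x ∈ gaussRing ℓ N) :
    ↥(Algebra.adjoin ℤℓ {x}) →+* ↥(gaussRing ℓ N) where
  toFun a := ⟨(a : F), mem_gaussRing_of_mem_adjoin ℓ hxO a⟩
  map_one' := rfl
  map_mul' _ _ := rfl
  map_zero' := rfl
  map_add' _ _ := rfl

theorem algebraMap_zl_eq_C :
    (algebraMap (ZMod ℓ) (LaurentSeries (ZMod ℓ))) = (HahnSeries.C : ZMod ℓ →+* _) := by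
  ext c : 1
  rw [algebraMap_laurentSeries_eq_single]
  rfl

/-- `ρ (P(x)) = P̄ (ρ x)`. -/
theorem gaussRho_adjoinToGauss_aeval {x : F} (hxO : x ∈ gaussRing ℓ N) (P : ℤℓ[X]) :
    gaussRho ℓ N (adjoinToGauss ℓ hxO
      (aeval (⟨x, Algebra.self_mem_adjoin_singleton ℤℓ x⟩ : ↥(Algebra.adjoin ℤℓ {x})) P)) =
      aeval (gaussRho ℓ N ⟨x, hxO⟩) (P.map (zlRed ℓ)) := by
  have key : ((gaussRho ℓ N).comp (adjoinToGauss ℓ hxO)).comp
      (aeval (⟨x, Algebra.self_mem_adjoin_singleton ℤℓ x⟩ :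
        ↥(Algebra.adjoin ℤℓ {x}))).toRingHom =
      ((aeval (gaussRho ℓ N ⟨x, hxO⟩)).toRingHom).comp (Polynomial.mapRingHom (zlRed ℓ)) := by
    apply Polynomial.ringHom_ext
    · intro a
      simp only [RingHom.comp_apply, AlgHom.toRingHom_eq_coe, RingHom.coe_coe, aeval_C,
        coe_mapRingHom, Polynomial.map_C]
      rw [algebraMap_zl_eq_C]
      exact gaussRho_algebraMap ℓ N a
    · simp only [RingHom.comp_apply, AlgHom.toRingHom_eq_coe, RingHom.coe_coe, aeval_X,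
        coe_mapRingHom, Polynomial.map_X]
      rfl
  exact congrArg (fun f : ℤℓ[X] →+* LaurentSeries (ZMod ℓ) => f P) key

/-- (h4): the kernel of `ρ` on `ℤ_(ℓ)[x]` is generated by `ℓ`. -/
theorem ellA_dvd_of_gaussRho_eq_zero {x : F} (hx : Transcendental ℤℓ x)
    (hxO : x ∈ gaussRing ℓ N)
    (hρx : Transcendental (ZMod ℓ) (gaussRho ℓ N ⟨x, hxO⟩))
    (a : ↥(Algebra.adjoin ℤℓ {x})) (ha : gaussRho ℓ N (adjoinToGauss ℓ hxO a) = 0) :
    ellA ℓ x ∣ a := by
  set e := Polynomial.algEquivOfTranscendental ℤℓ x hx with he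
  obtain ⟨P, rfl⟩ := e.surjective a
  rw [he, Polynomial.algEquivOfTranscendental_apply, gaussRho_adjoinToGauss_aeval] at ha
  have hP : P.map (zlRed ℓ) = 0 := (transcendental_iff.mp hρx) _ ha
  have hdvd : C (zlEll ℓ) ∣ P := by
    rw [Polynomial.C_dvd_iff_dvd_coeff]
    intro i
    have h1 := congrArg (fun Q => Q.coeff i) hP
    simp only [Polynomial.coeff_map, Polynomial.coeff_zero] at h1
    obtain ⟨b, hb⟩ := (zlRed_eq_zero_iff ℓ _).mp h1
    exact ⟨b, hb⟩
  obtain ⟨Q, rfl⟩ := hdvd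
  refine ⟨e Q, ?_⟩
  rw [map_mul]
  congr 1
  rw [← Polynomial.algebraMap_eq, AlgEquiv.commutes]
  rfl

/-- **The abstract algebra core instantiated** for `A = ℤ_(ℓ)[x]`, `O` the Gauss valuation ring,
`ρ` the Gauss residue map. -/
def coreOf {x : F} (hx : Transcendental ℤℓ x) (hxO : x ∈ gaussRing ℓ N)
    (hρx : Transcendental (ZMod ℓ) (gaussRho ℓ N ⟨x, hxO⟩)) :
    ResidueCore ↥(Algebra.adjoin ℤℓ {x}) F (LaurentSeries (ZMod ℓ)) where
  O := (gaussRing ℓ N).toSubring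
  ρ := gaussRho ℓ N
  l := ellA ℓ x
  prime_l := ellA_prime ℓ hx
  mem_of_isIntegral := fun y hy => mem_gaussRing_of_isIntegral ℓ N (igInst_adjoin_le_gaussAlg ℓ hxO) hy
  ρ_l := by
    have h := gaussRho_algebraMap ℓ N (zlEll ℓ)
    rw [zlRed_zlEll, map_zero] at h
    exact h
  exists_of_ρ_eq_zero := by
    intro f hf
    obtain ⟨f', hf'⟩ := (gaussRho_eq_zero_iff ℓ N f).mp hf
    refine ⟨f', ?_⟩
    have := congrArg (fun z : ↥(gaussRing ℓ N) => (z : F)) hf'
    rw [algebraMap_ellA]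
    simpa using this
  dvd_of_ρ_eq_zero := fun a ha => ellA_dvd_of_gaussRho_eq_zero ℓ hx hxO hρx a ha

/-! ### `ℚ(j)` is the fraction field of `ℤ_(ℓ)[x]` -/

/-- every element of `ℚ(j)` is a quotient of two elements of `ℤ_(ℓ)[x]`, provided `j` is. -/
theorem exists_div_of_mem_adjoin_jFull {x : F}
    (hjx : jFull N ∈ Subfield.closure ((Algebra.adjoin ℤℓ {x} : Subalgebra ℤℓ F) : Set F))
    {z : F} (hz : z ∈ IntermediateField.adjoin ℚ {jFull N}) :
    ∃ a s : ↥(Algebra.adjoin ℤℓ {x}), z = (a : F) / (s : F) := by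
  have h1 : (IntermediateField.adjoin ℚ {jFull N}).toSubfield ≤
      Subfield.closure ((Algebra.adjoin ℤℓ {x} : Subalgebra ℤℓ F) : Set F) := by
    rw [IntermediateField.adjoin_toSubfield, Subfield.closure_le]
    rintro y (⟨q, rfl⟩ | hy)
    · -- rationals
      have hq : algebraMap ℚ F q = ((q.num : ℤ) : F) / ((q.den : ℕ) : F) := by
        rw [eq_ratCast]
        exact_mod_cast (Rat.num_div_den q).symm
      rw [hq]
      refine div_mem (Subfield.subset_closure ?_) (Subfield.subset_closure ?_)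
      · show ((q.num : ℤ) : F) ∈ (Algebra.adjoin ℤℓ {x} : Subalgebra ℤℓ F)
        exact intCast_mem _ _
      · show ((q.den : ℕ) : F) ∈ (Algebra.adjoin ℤℓ {x} : Subalgebra ℤℓ F)
        exact natCast_mem _ _
    · rw [Set.mem_singleton_iff] at hy
      rw [hy]
      exact hjx
  have h2 : z ∈ Subfield.closure ((Algebra.adjoin ℤℓ {x} : Subalgebra ℤℓ F) : Set F) := h1 hz
  rw [Subfield.mem_closure_iff] at h2
  obtain ⟨y, hy, w, hw, rfl⟩ := h2
  have hcl : Subring.closure ((Algebra.adjoin ℤℓ {x} : Subalgebra ℤℓ F) : Set F) =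
      (Algebra.adjoin ℤℓ {x}).toSubring := Subring.closure_eq (Algebra.adjoin ℤℓ {x}).toSubring
  have hy' : y ∈ (Algebra.adjoin ℤℓ {x}).toSubring := hcl ▸ hy
  have hw' : w ∈ (Algebra.adjoin ℤℓ {x}).toSubring := hcl ▸ hw
  exact ⟨⟨y, hy'⟩, ⟨w, hw'⟩, rfl⟩

/-- `ℤ_(ℓ)[x] → ℚ(j)` -/
def adjoinToQj {x : F} (hxK : x ∈ IntermediateField.adjoin ℚ {jFull N}) :
    ↥(Algebra.adjoin ℤℓ {x}) →+* ↥(IntermediateField.adjoin ℚ {jFull N}) where
  toFun a := ⟨(a : F), by
    have hle : Algebra.adjoin ℤℓ {x} ≤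
        (IntermediateField.adjoin ℚ {jFull N}).toSubalgebra.restrictScalars ℤℓ :=
      Algebra.adjoin_le (by
        intro y hy
        rw [Set.mem_singleton_iff] at hy
        rw [hy]
        exact hxK)
    exact hle a.2⟩
  map_one' := rfl
  map_mul' _ _ := rfl
  map_zero' := rfl
  map_add' _ _ := rfl

/-- **Kernel of `ρ` on the integral closure of `ℤ_(ℓ)[x]`**, from `n ≥ [F : ℚ(j)]` elements of `O`
with independent residues. -/
theorem exists_isIntegral_of_gaussRho_eq_zero {x : F} (hx : Transcendental ℤℓ x)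
    (hxO : x ∈ gaussRing ℓ N)
    (hρx : Transcendental (ZMod ℓ) (gaussRho ℓ N ⟨x, hxO⟩))
    (hxK : x ∈ IntermediateField.adjoin ℚ {jFull N})
    (hjx : jFull N ∈ Subfield.closure ((Algebra.adjoin ℤℓ {x} : Subalgebra ℤℓ F) : Set F))
    {n : ℕ} {b : Fin n → ↥(gaussRing ℓ N)} (hb : (coreOf ℓ hx hxO hρx).Indep b)
    (hn : Module.finrank ↥(IntermediateField.adjoin ℚ {jFull N}) F ≤ n)
    (y : F) (hy : IsIntegral ↥(Algebra.adjoin ℤℓ {x}) y)
    (hρ : gaussRho ℓ N
      ⟨y, mem_gaussRing_of_isIntegral ℓ N (igInst_adjoin_le_gaussAlg ℓ hxO) hy⟩ = 0) :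
    ∃ z : F, IsIntegral ↥(Algebra.adjoin ℤℓ {x}) z ∧ y = ((ℓ : ℕ) : F) * z := by
  letI : Algebra ↥(Algebra.adjoin ℤℓ {x}) ↥(IntermediateField.adjoin ℚ {jFull N}) :=
    (adjoinToQj ℓ hxK).toAlgebra
  haveI : IsScalarTower ↥(Algebra.adjoin ℤℓ {x}) ↥(IntermediateField.adjoin ℚ {jFull N}) F :=
    IsScalarTower.of_algebraMap_eq (fun a => rfl)
  haveI : FaithfulSMul ↥(Algebra.adjoin ℤℓ {x}) ↥(IntermediateField.adjoin ℚ {jFull N}) := by
    rw [faithfulSMul_iff_algebraMap_injective]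
    intro a a' h
    apply Subtype.ext
    exact congrArg (fun z : ↥(IntermediateField.adjoin ℚ {jFull N}) => (z : F)) h
  haveI : IsFractionRing ↥(Algebra.adjoin ℤℓ {x}) ↥(IntermediateField.adjoin ℚ {jFull N}) := by
    apply IsFractionRing.of_field
    intro z
    obtain ⟨a, s, h⟩ := exists_div_of_mem_adjoin_jFull ℓ hjx z.2
    exact ⟨a, s, Subtype.ext h⟩
  haveI : UniqueFactorizationMonoid ↥(Algebra.adjoin ℤℓ {x}) := ufm_adjoin ℓ hx
  haveI : FiniteDimensional ↥(IntermediateField.adjoin ℚ {jFull N}) F :=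
    finiteDimensional_adjoin_jFull N
  obtain ⟨z, hz, hyz⟩ := ResidueCore.exists_isIntegral_of_ρ_eq_zero
    (K := ↥(IntermediateField.adjoin ℚ {jFull N})) (D := coreOf ℓ hx hxO hρx) hb hn y hy hρ
  refine ⟨z, hz, ?_⟩
  rw [hyz]
  congr 1

end Adjoin

/-! ### The two charts -/

theorem igInst_transcendental_gaussRho_jFull :
    Transcendental (ZMod ℓ) (gaussRho ℓ N ⟨jFull N, jFull_mem_gaussRing ℓ N⟩) := by
  rw [gaussRho_jFull]
  exact igInst_transcendental_jqModC (ZMod ℓ)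

theorem igInst_transcendental_gaussRho_jFull_inv :
    Transcendental (ZMod ℓ) (gaussRho ℓ N ⟨(jFull N)⁻¹, jFull_inv_mem_gaussRing ℓ N⟩) := by
  rw [gaussRho_jFull_inv]
  intro h
  exact igInst_transcendental_jqModC (ZMod ℓ) (IsAlgebraic.inv_iff.mp h)

/-- the algebra core for `A = ℤ_(ℓ)[j]` -/
def coreFin : ResidueCore ↥(Algebra.adjoin ℤℓ {jFull N}) F (LaurentSeries (ZMod ℓ)) :=
  coreOf ℓ (transcendental_zl_jFull ℓ N) (jFull_mem_gaussRing ℓ N)
    (igInst_transcendental_gaussRho_jFull ℓ N)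

/-- the algebra core for `A = ℤ_(ℓ)[1/j]` -/
def coreInf : ResidueCore ↥(Algebra.adjoin ℤℓ {(jFull N)⁻¹}) F (LaurentSeries (ZMod ℓ)) :=
  coreOf ℓ (transcendental_zl_jFull_inv ℓ N) (jFull_inv_mem_gaussRing ℓ N)
    (igInst_transcendental_gaussRho_jFull_inv ℓ N)

/-- **`ker ρ|_{B_fin} = ℓ B_fin`** from `n ≥ [F : ℚ(j)]` elements of `O` with residues independent
over `𝔽_ℓ[j̄]`. -/
theorem ker_rhoFin {n : ℕ} {b : Fin n → ↥(gaussRing ℓ N)} (hb : (coreFin ℓ N).Indep b)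
    (hn : Module.finrank ↥(IntermediateField.adjoin ℚ {jFull N}) F ≤ n)
    (x : ↥(chartAlgFin N ℓ)) (hx : rhoFin ℓ N x = 0) :
    ∃ c : ↥(chartAlgFin N ℓ), x = ((ℓ : ℕ) : ↥(chartAlgFin N ℓ)) * c := by
  have hint : IsIntegral ↥(Algebra.adjoin ℤℓ {jFull N}) (x : F) := (mem_chartAlg_iff N ℓ).mp x.2
  obtain ⟨z, hz, hxz⟩ := exists_isIntegral_of_gaussRho_eq_zero ℓ
    (transcendental_zl_jFull ℓ N) (jFull_mem_gaussRing ℓ N) (igInst_transcendental_gaussRho_jFull ℓ N)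
    (IntermediateField.mem_adjoin_simple_self ℚ (jFull N))
    (Subfield.subset_closure (Algebra.self_mem_adjoin_singleton ℤℓ (jFull N)))
    hb hn (x : F) hint hx
  refine ⟨⟨z, (mem_chartAlg_iff N ℓ).mpr hz⟩, Subtype.ext ?_⟩
  rw [Subalgebra.coe_mul, hxz]
  congr 1

/-- **`ker ρ|_{B_inf} = ℓ B_inf`**. -/
theorem ker_rhoInf {n : ℕ} {b : Fin n → ↥(gaussRing ℓ N)} (hb : (coreInf ℓ N).Indep b)
    (hn : Module.finrank ↥(IntermediateField.adjoin ℚ {jFull N}) F ≤ n)
    (x : ↥(chartAlgInf N ℓ)) (hx : rhoInf ℓ N x = 0) :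
    ∃ c : ↥(chartAlgInf N ℓ), x = ((ℓ : ℕ) : ↥(chartAlgInf N ℓ)) * c := by
  have hint : IsIntegral ↥(Algebra.adjoin ℤℓ {(jFull N)⁻¹}) (x : F) :=
    (mem_chartAlg_iff N ℓ).mp x.2
  have hjK : (jFull N)⁻¹ ∈ IntermediateField.adjoin ℚ {jFull N} :=
    inv_mem (IntermediateField.mem_adjoin_simple_self ℚ (jFull N))
  have hjx : jFull N ∈ Subfield.closure
      ((Algebra.adjoin ℤℓ {(jFull N)⁻¹} : Subalgebra ℤℓ F) : Set F) := by
    have h1 : (jFull N)⁻¹ ∈ Subfield.closure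
        ((Algebra.adjoin ℤℓ {(jFull N)⁻¹} : Subalgebra ℤℓ F) : Set F) :=
      Subfield.subset_closure (Algebra.self_mem_adjoin_singleton ℤℓ (jFull N)⁻¹)
    have h2 := inv_mem h1
    rwa [inv_inv] at h2
  obtain ⟨z, hz, hxz⟩ := exists_isIntegral_of_gaussRho_eq_zero ℓ
    (transcendental_zl_jFull_inv ℓ N) (jFull_inv_mem_gaussRing ℓ N)
    (igInst_transcendental_gaussRho_jFull_inv ℓ N) hjK hjx hb hn (x : F) hint hx
  refine ⟨⟨z, (mem_chartAlg_iff N ℓ).mpr hz⟩, Subtype.ext ?_⟩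
  rw [Subalgebra.coe_mul, hxz]
  congr 1

/-! ### The residue field `κ = 𝔽_ℓ(j̄)` of the Gauss valuation on `ℚ(j)` -/

/-- `κ = 𝔽_ℓ(j̄) ⊆ 𝔽_ℓ((q))` -/
abbrev kappa : IntermediateField (ZMod ℓ) (LaurentSeries (ZMod ℓ)) :=
  IntermediateField.adjoin (ZMod ℓ) {jqModC (ZMod ℓ)}

theorem aeval_mem_kappa {y : LaurentSeries (ZMod ℓ)} (hy : y ∈ kappa ℓ) (P : (ZMod ℓ)[X]) :
    aeval y P ∈ kappa ℓ := by
  rw [aeval_eq_sum_range]
  refine sum_mem fun i _ => ?_
  exact IntermediateField.smul_mem _ (pow_mem hy i)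

theorem gaussRho_coreOf_incl_mem_kappa {x : F} (hx : Transcendental ℤℓ x)
    (hxO : x ∈ gaussRing ℓ N)
    (hρx : Transcendental (ZMod ℓ) (gaussRho ℓ N ⟨x, hxO⟩))
    (hκ : gaussRho ℓ N ⟨x, hxO⟩ ∈ kappa ℓ) (a : ↥(Algebra.adjoin ℤℓ {x})) :
    (coreOf ℓ hx hxO hρx).ρ ((coreOf ℓ hx hxO hρx).incl a) ∈
      Set.range (algebraMap ↥(kappa ℓ) (LaurentSeries (ZMod ℓ))) := by
  obtain ⟨P, rfl⟩ := (Polynomial.algEquivOfTranscendental ℤℓ x hx).surjective a
  have h1 : (coreOf ℓ hx hxO hρx).ρ ((coreOf ℓ hx hxO hρx).incl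
      ((Polynomial.algEquivOfTranscendental ℤℓ x hx) P)) =
      aeval (gaussRho ℓ N ⟨x, hxO⟩) (P.map (zlRed ℓ)) := by
    rw [Polynomial.algEquivOfTranscendental_apply]
    exact gaussRho_adjoinToGauss_aeval ℓ hxO P
  rw [h1]
  exact ⟨⟨_, aeval_mem_kappa ℓ hκ _⟩, rfl⟩

theorem gaussRho_jFull_mem_kappa :
    gaussRho ℓ N ⟨jFull N, jFull_mem_gaussRing ℓ N⟩ ∈ kappa ℓ := by
  rw [gaussRho_jFull]
  exact IntermediateField.mem_adjoin_simple_self _ _

theorem gaussRho_jFull_inv_mem_kappa :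
    gaussRho ℓ N ⟨(jFull N)⁻¹, jFull_inv_mem_gaussRing ℓ N⟩ ∈ kappa ℓ := by
  rw [gaussRho_jFull_inv]
  exact inv_mem (IntermediateField.mem_adjoin_simple_self _ _)

/-- a family in `O` whose residues are `κ`-linearly independent is independent for both charts -/
theorem indep_fin_of_linearIndependent {n : ℕ} {b : Fin n → ↥(gaussRing ℓ N)}
    (hb : LinearIndependent ↥(kappa ℓ) (fun i => gaussRho ℓ N (b i))) :
    (coreFin ℓ N).Indep b := by
  intro a ha i
  choose c hc using fun i => gaussRho_coreOf_incl_mem_kappa ℓ N (transcendental_zl_jFull ℓ N)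
    (jFull_mem_gaussRing ℓ N) (igInst_transcendental_gaussRho_jFull ℓ N)
    (gaussRho_jFull_mem_kappa ℓ N) (a i)
  rw [Fintype.linearIndependent_iff] at hb
  have := hb c (by
    rw [← ha]
    refine Finset.sum_congr rfl fun i _ => ?_
    rw [Algebra.smul_def, hc]
    rfl) i
  have h2 := hc i
  rw [this, map_zero] at h2
  exact h2.symm

theorem indep_inf_of_linearIndependent {n : ℕ} {b : Fin n → ↥(gaussRing ℓ N)}
    (hb : LinearIndependent ↥(kappa ℓ) (fun i => gaussRho ℓ N (b i))) :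
    (coreInf ℓ N).Indep b := by
  intro a ha i
  choose c hc using fun i => gaussRho_coreOf_incl_mem_kappa ℓ N (transcendental_zl_jFull_inv ℓ N)
    (jFull_inv_mem_gaussRing ℓ N) (igInst_transcendental_gaussRho_jFull_inv ℓ N)
    (gaussRho_jFull_inv_mem_kappa ℓ N) (a i)
  rw [Fintype.linearIndependent_iff] at hb
  have := hb c (by
    rw [← ha]
    refine Finset.sum_congr rfl fun i _ => ?_
    rw [Algebra.smul_def, hc]
    rfl) i
  have h2 := hc i
  rw [this, map_zero] at h2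
  exact h2.symm

/-! ### S28 from Igusa's degree bound -/

open AlgebraicGeometry CategoryTheory CategoryTheory.Limits TensorProduct in
/-- **S28 from two independent families** (one for each chart). -/
theorem isIntegral_pullback_of_indep (K : Type) [Field K] [CharP K ℓ]
    [Algebra ↥(GaloisRep.ratLocalizedAt ℓ) K]
    {b : Fin (dedekindPsi N) → ↥(gaussRing ℓ N)} (hb : (coreFin ℓ N).Indep b)
    {b' : Fin (dedekindPsi N) → ↥(gaussRing ℓ N)} (hb' : (coreInf ℓ N).Indep b') :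
    IsIntegral ↑(pullback (igusaTo N ℓ)
      (Spec.map (CommRingCat.ofHom (algebraMap ↥(GaloisRep.ratLocalizedAt ℓ) K)))) := by
  have hn := finrank_adjoin_jFull_le N
  refine isIntegral_pullback_igusaTo' N ℓ K
    (isDomain_tensor_of_residue ℓ K (rhoFin ℓ N) fun x hx => ?_)
    (isDomain_tensor_of_residue ℓ K (rhoInf ℓ N) fun x hx => ?_)
    (tmul_one_ne_zero_of_residue ℓ K (rhoFin ℓ N) (rhoFin_jChartFin_ne_zero ℓ N))
  · obtain ⟨c, hc⟩ := ker_rhoFin ℓ N hb hn x hx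
    exact ⟨c, hc⟩
  · obtain ⟨c, hc⟩ := ker_rhoInf ℓ N hb' hn x hx
    exact ⟨c, hc⟩

open AlgebraicGeometry CategoryTheory CategoryTheory.Limits TensorProduct in
/-- **S28 from `ψ(N)` elements of the Gauss ring with `𝔽_ℓ(j̄)`-linearly independent residues.** -/
theorem isIntegral_pullback_of_linearIndependent (K : Type) [Field K] [CharP K ℓ]
    [Algebra ↥(GaloisRep.ratLocalizedAt ℓ) K]
    {b : Fin (dedekindPsi N) → ↥(gaussRing ℓ N)}
    (hb : LinearIndependent ↥(kappa ℓ) (fun i => gaussRho ℓ N (b i))) :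
    IsIntegral ↑(pullback (igusaTo N ℓ)
      (Spec.map (CommRingCat.ofHom (algebraMap ↥(GaloisRep.ratLocalizedAt ℓ) K)))) :=
  isIntegral_pullback_of_indep ℓ N K (indep_fin_of_linearIndependent ℓ N hb)
    (indep_inf_of_linearIndependent ℓ N hb)

open AlgebraicGeometry CategoryTheory CategoryTheory.Limits TensorProduct in
/-- **S28 from Igusa's degree bound**: if the residues of a set `G` of elements of the Gauss ring
generate an extension of `κ = 𝔽_ℓ(j̄)` of degree at least `ψ(N)`. -/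
theorem isIntegral_pullback_of_le_finrank (K : Type) [Field K] [CharP K ℓ]
    [Algebra ↥(GaloisRep.ratLocalizedAt ℓ) K] (G : Set ↥(gaussRing ℓ N))
    (hG : dedekindPsi N ≤ Module.finrank ↥(kappa ℓ)
      ↥(IntermediateField.adjoin ↥(kappa ℓ) (gaussRho ℓ N '' G))) :
    IsIntegral ↑(pullback (igusaTo N ℓ)
      (Spec.map (CommRingCat.ofHom (algebraMap ↥(GaloisRep.ratLocalizedAt ℓ) K)))) := by
  obtain ⟨b, -, hb⟩ := ResidueCore.exists_indep_of_le_finrank_field (D := coreFin ℓ N)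
    (κ := ↥(kappa ℓ)) (gaussRho_coreOf_incl_mem_kappa ℓ N (transcendental_zl_jFull ℓ N)
      (jFull_mem_gaussRing ℓ N) (igInst_transcendental_gaussRho_jFull ℓ N)
      (gaussRho_jFull_mem_kappa ℓ N)) G hG
  obtain ⟨b', -, hb'⟩ := ResidueCore.exists_indep_of_le_finrank_field (D := coreInf ℓ N)
    (κ := ↥(kappa ℓ)) (gaussRho_coreOf_incl_mem_kappa ℓ N (transcendental_zl_jFull_inv ℓ N)
      (jFull_inv_mem_gaussRing ℓ N) (igInst_transcendental_gaussRho_jFull_inv ℓ N)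
      (gaussRho_jFull_inv_mem_kappa ℓ N)) G hG
  exact isIntegral_pullback_of_indep ℓ N K hb hb'

end Level

end Fermat.Agent.Igusa
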