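/-
P9 / S28 (Igusa), add-on to package (B1): the residue map `ρ` on the polynomial subrings
`ℤ_(ℓ)[j]`, `ℤ_(ℓ)[1/j]` of the Gauss ring.

* `transcendental_jqModC`, `transcendental_jqModC_inv` : `j̄` and `1/j̄` are transcendental over
  the coefficient field,
* `gaussRho_eval₂` : `ρ (P(x)) = P̄(ρ x)`,
* `exists_eq_ell_mul_of_gaussRho_eq_zero` (h4) : `a ∈ ℤ_(ℓ)[x]`, `ρ a = 0` ⟹ `a ∈ ℓ ℤ_(ℓ)[x]`
  when `ρ x` is transcendental over `𝔽_ℓ`,
* `ell_dvd_or_of_mul` : `ℓ` is a prime element of `ℤ_(ℓ)[x]`.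
-/
import Mathlib
import Fermat.Agent.Lib.Igusa.GaussRing

set_option autoImplicit false

open HahnSeries ModularCurve ModularCurve.IgusaScheme Polynomial

noncomputable section

namespace Fermat.Agent.Igusa

/-! ### Transcendence of `j̄` -/

/-- a nonzero power series without constant term over a domain is transcendental -/
theorem transcendental_powerSeries {K : Type*} [CommRing K] [IsDomain K] {t : PowerSeries K}
    (ht : t ≠ 0) (h0 : PowerSeries.constantCoeff t = 0) : Transcendental K t := by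
  rw [transcendental_iff]
  intro P hP
  by_contra hne
  obtain ⟨Q, hPQ, hQ⟩ := exists_eq_pow_rootMultiplicity_mul_and_not_dvd P hne 0
  rw [map_zero, sub_zero] at hPQ hQ
  apply hQ
  rw [X_dvd_iff]
  have h1 : aeval t Q = 0 := by
    rw [hPQ, map_mul, map_pow, aeval_X] at hP
    rcases mul_eq_zero.mp hP with h | h
    · exact absurd (pow_eq_zero_iff' |>.mp h).1 ht
    · exact h
  have h2 := congrArg PowerSeries.constantCoeff h1
  rw [aeval_def, hom_eval₂, h0, map_zero] at h2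
  have h3 : (PowerSeries.constantCoeff.comp (algebraMap K (PowerSeries K))) = RingHom.id K := by
    ext a
    simp
  rw [h3, eval₂_id, ← coeff_zero_eq_eval_zero] at h2
  exact h2

/-- `1 / j̄` is transcendental over the coefficient field -/
theorem transcendental_jqModC_inv (K : Type*) [Field K] : Transcendental K (jqModC K)⁻¹ := by
  obtain ⟨w, hw⟩ := jqModC_mul_single_ofPowerSeries_inv K
  have h1 : (jqModC K)⁻¹ = HahnSeries.single (1 : ℤ) 1 * HahnSeries.ofPowerSeries ℤ K w :=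
    DivisionMonoid.inv_eq_of_mul _ _ hw
  have h2 : (jqModC K)⁻¹ = HahnSeries.ofPowerSeries ℤ K (PowerSeries.X * w) := by
    rw [h1, ← HahnSeries.ofPowerSeries_X, ← (HahnSeries.ofPowerSeries ℤ K).map_mul]
  have hne : (PowerSeries.X * w : PowerSeries K) ≠ 0 := by
    intro h0
    rw [h0, map_zero] at h2
    exact inv_ne_zero (jqModC_ne_zero K) h2
  have htr : Transcendental K (PowerSeries.X * w : PowerSeries K) :=
    transcendental_powerSeries hne (by simp)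
  rw [h2, transcendental_iff]
  intro P hP
  have h3 : HahnSeries.ofPowerSeries ℤ K (aeval (PowerSeries.X * w : PowerSeries K) P) =
      aeval (HahnSeries.ofPowerSeries ℤ K (PowerSeries.X * w)) P := by
    rw [aeval_def, aeval_def, hom_eval₂]
    rfl
  rw [← h3] at hP
  have h4 : aeval (PowerSeries.X * w : PowerSeries K) P = 0 :=
    HahnSeries.ofPowerSeries_injective (by rw [hP, map_zero])
  exact transcendental_iff.mp htr P h4

/-- `j̄` is transcendental over the coefficient field -/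
theorem transcendental_jqModC (K : Type*) [Field K] : Transcendental K (jqModC K) := by
  have h := transcendental_jqModC_inv K
  rw [Transcendental, IsAlgebraic.inv_iff] at h
  exact h

/-! ### `ρ` on polynomial expressions -/

variable (ℓ : ℕ) [Fact ℓ.Prime] (N : ℕ) [NeZero N]

set_option quotPrecheck false in
local notation "ℤℓ" => ↥(GaloisRep.ratLocalizedAt ℓ)

set_option quotPrecheck false in
local notation "F" => ↥(modularFunctionFieldFull N)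

/-- the structure map `ℤ_(ℓ) → O` -/
def zlToGauss : ℤℓ →+* ↥(gaussRing ℓ N) :=
  (algebraMap ℤℓ F).codRestrict (gaussRing ℓ N).toSubring (algebraMap_zl_mem_gaussRing ℓ N)

theorem coe_zlToGauss (a : ℤℓ) : ((zlToGauss ℓ N a : ↥(gaussRing ℓ N)) : F) = algebraMap ℤℓ F a :=
  rfl

theorem gaussRho_zlToGauss (a : ℤℓ) :
    gaussRho ℓ N (zlToGauss ℓ N a) = algebraMap (ZMod ℓ) (LaurentSeries (ZMod ℓ)) (zlRed ℓ a) := by
  rw [algebraMap_laurentSeries_eq_single]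
  exact gaussRho_algebraMap ℓ N a

theorem coe_eval₂_zlToGauss (x : ↥(gaussRing ℓ N)) (P : Polynomial ℤℓ) :
    ((P.eval₂ (zlToGauss ℓ N) x : ↥(gaussRing ℓ N)) : F) = aeval (x : F) P := by
  have h := hom_eval₂ P (zlToGauss ℓ N) (gaussRing ℓ N).subtype x
  rw [aeval_def]
  exact h

/-- `ρ (P(x)) = P̄ (ρ x)` -/
theorem gaussRho_eval₂ (x : ↥(gaussRing ℓ N)) (P : Polynomial ℤℓ) :
    gaussRho ℓ N (P.eval₂ (zlToGauss ℓ N) x) = aeval (gaussRho ℓ N x) (P.map (zlRed ℓ)) := by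
  rw [hom_eval₂, aeval_def, eval₂_map]
  congr 1
  exact RingHom.ext (fun a => gaussRho_zlToGauss ℓ N a)

theorem aeval_mem_gaussRing {x : F} (hx : x ∈ gaussRing ℓ N) (P : Polynomial ℤℓ) :
    aeval x P ∈ gaussRing ℓ N := by
  rw [← coe_eval₂_zlToGauss ℓ N ⟨x, hx⟩ P]
  exact Subtype.property _

theorem gaussRho_aeval {x : F} (hx : x ∈ gaussRing ℓ N) (P : Polynomial ℤℓ) :
    gaussRho ℓ N ⟨aeval x P, aeval_mem_gaussRing ℓ N hx P⟩ =
      aeval (gaussRho ℓ N ⟨x, hx⟩) (P.map (zlRed ℓ)) := by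
  rw [← gaussRho_eval₂]
  congr 1
  exact Subtype.ext (coe_eval₂_zlToGauss ℓ N ⟨x, hx⟩ P).symm

theorem adjoin_le_gaussAlg {x : F} (hx : x ∈ gaussRing ℓ N) :
    Algebra.adjoin ℤℓ {x} ≤ gaussAlg ℓ N :=
  Algebra.adjoin_le (by
    intro s hs
    rw [Set.mem_singleton_iff] at hs
    rw [hs]
    exact hx)

/-- a polynomial over `ℤ_(ℓ)` vanishing mod `ℓ` is divisible by `ℓ` -/
theorem exists_eq_C_mul_of_map_zlRed_eq_zero {P : Polynomial ℤℓ} (hP : P.map (zlRed ℓ) = 0) :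
    ∃ Q : Polynomial ℤℓ, P = Polynomial.C (zlEll ℓ) * Q := by
  have h1 : P ∈ RingHom.ker (mapRingHom (zlRed ℓ)) := hP
  rw [ker_mapRingHom] at h1
  have h2 : RingHom.ker (zlRed ℓ) = Ideal.span {zlEll ℓ} := by
    ext a
    rw [RingHom.mem_ker, zlRed_eq_zero_iff, Ideal.mem_span_singleton]
    rfl
  rw [h2, Ideal.map_span, Set.image_singleton, Ideal.mem_span_singleton] at h1
  exact h1

/-- **(h4)**: the kernel of `ρ` on `ℤ_(ℓ)[x]` is `ℓ ℤ_(ℓ)[x]`, when `ρ x` is transcendental. -/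
theorem exists_eq_ell_mul_of_gaussRho_eq_zero {x : F} (hx : x ∈ gaussRing ℓ N)
    (htr : Transcendental (ZMod ℓ) (gaussRho ℓ N ⟨x, hx⟩)) (a : F)
    (ha : a ∈ Algebra.adjoin ℤℓ {x}) (hmem : a ∈ gaussRing ℓ N)
    (h0 : gaussRho ℓ N ⟨a, hmem⟩ = 0) :
    ∃ b ∈ Algebra.adjoin ℤℓ {x}, a = (ℓ : F) * b := by
  rw [Algebra.adjoin_singleton_eq_range_aeval] at ha
  obtain ⟨P, hP⟩ := ha
  have hP' : aeval x P = a := hP
  subst hP'
  have h1 := gaussRho_aeval ℓ N hx P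
  rw [h0] at h1
  obtain ⟨Q, rfl⟩ := exists_eq_C_mul_of_map_zlRed_eq_zero ℓ (transcendental_iff.mp htr _ h1.symm)
  refine ⟨aeval x Q, ?_, ?_⟩
  · rw [Algebra.adjoin_singleton_eq_range_aeval]
    exact ⟨Q, rfl⟩
  · show (aeval x) (Polynomial.C (zlEll ℓ) * Q) = _
    rw [map_mul, aeval_C, zlEll, map_natCast]

theorem transcendental_gaussRho_jFull :
    Transcendental (ZMod ℓ) (gaussRho ℓ N ⟨jFull N, jFull_mem_gaussRing ℓ N⟩) := by
  rw [gaussRho_jFull]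
  exact transcendental_jqModC _

theorem transcendental_gaussRho_jFull_inv :
    Transcendental (ZMod ℓ) (gaussRho ℓ N ⟨(jFull N)⁻¹, jFull_inv_mem_gaussRing ℓ N⟩) := by
  rw [gaussRho_jFull_inv]
  exact transcendental_jqModC_inv _

/-- (h4) for `A = ℤ_(ℓ)[j]` -/
theorem exists_eq_ell_mul_of_gaussRho_eq_zero_fin (a : F)
    (ha : a ∈ Algebra.adjoin ℤℓ {jFull N}) (hmem : a ∈ gaussRing ℓ N)
    (h0 : gaussRho ℓ N ⟨a, hmem⟩ = 0) :
    ∃ b ∈ Algebra.adjoin ℤℓ {jFull N}, a = (ℓ : F) * b :=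
  exists_eq_ell_mul_of_gaussRho_eq_zero ℓ N (jFull_mem_gaussRing ℓ N)
    (transcendental_gaussRho_jFull ℓ N) a ha hmem h0

/-- (h4) for `A = ℤ_(ℓ)[1/j]` -/
theorem exists_eq_ell_mul_of_gaussRho_eq_zero_inf (a : F)
    (ha : a ∈ Algebra.adjoin ℤℓ {(jFull N)⁻¹}) (hmem : a ∈ gaussRing ℓ N)
    (h0 : gaussRho ℓ N ⟨a, hmem⟩ = 0) :
    ∃ b ∈ Algebra.adjoin ℤℓ {(jFull N)⁻¹}, a = (ℓ : F) * b :=
  exists_eq_ell_mul_of_gaussRho_eq_zero ℓ N (jFull_inv_mem_gaussRing ℓ N)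
    (transcendental_gaussRho_jFull_inv ℓ N) a ha hmem h0

/-- `ρ ℓ = 0` -/
theorem gaussRho_ell (hmem : ((ℓ : ℕ) : F) ∈ gaussRing ℓ N) :
    gaussRho ℓ N ⟨((ℓ : ℕ) : F), hmem⟩ = 0 := by
  rw [gaussRho_eq_zero_iff]
  exact ⟨1, Subtype.ext (by simp)⟩

/-- `ℓ` is a prime element of `ℤ_(ℓ)[x]` (elementwise form) -/
theorem ell_dvd_or_of_mul {x : F} (hx : x ∈ gaussRing ℓ N)
    (htr : Transcendental (ZMod ℓ) (gaussRho ℓ N ⟨x, hx⟩)) {a b c : F}
    (ha : a ∈ Algebra.adjoin ℤℓ {x}) (hb : b ∈ Algebra.adjoin ℤℓ {x})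
    (hc : c ∈ Algebra.adjoin ℤℓ {x}) (h : a * b = (ℓ : F) * c) :
    (∃ a' ∈ Algebra.adjoin ℤℓ {x}, a = (ℓ : F) * a') ∨
      (∃ b' ∈ Algebra.adjoin ℤℓ {x}, b = (ℓ : F) * b') := by
  have hA := adjoin_le_gaussAlg ℓ N hx
  have hma : a ∈ gaussRing ℓ N := hA ha
  have hmb : b ∈ gaussRing ℓ N := hA hb
  have hmc : c ∈ gaussRing ℓ N := hA hc
  have hml : ((ℓ : ℕ) : F) ∈ gaussRing ℓ N := natCast_mem _ ℓ
  have h1 : gaussRho ℓ N ⟨a, hma⟩ * gaussRho ℓ N ⟨b, hmb⟩ = 0 := by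
    rw [← map_mul]
    have : (⟨a, hma⟩ : ↥(gaussRing ℓ N)) * ⟨b, hmb⟩ = ⟨((ℓ : ℕ) : F), hml⟩ * ⟨c, hmc⟩ :=
      Subtype.ext h
    rw [this, map_mul, gaussRho_ell, zero_mul]
  rcases mul_eq_zero.mp h1 with h2 | h2
  · exact Or.inl (exists_eq_ell_mul_of_gaussRho_eq_zero ℓ N hx htr a ha hma h2)
  · exact Or.inr (exists_eq_ell_mul_of_gaussRho_eq_zero ℓ N hx htr b hb hmb h2)

/-- `ℓ` is not a unit of `ℤ_(ℓ)[x]` (elementwise form): `ℓ * a ≠ 1` in `O` -/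
theorem ell_mul_ne_one {a : F} (ha : a ∈ gaussRing ℓ N) : (ℓ : F) * a ≠ 1 := by
  intro h
  have hml : ((ℓ : ℕ) : F) ∈ gaussRing ℓ N := natCast_mem _ ℓ
  have h1 : gaussRho ℓ N (⟨((ℓ : ℕ) : F), hml⟩ * ⟨a, ha⟩) = 1 := by
    have : (⟨((ℓ : ℕ) : F), hml⟩ * ⟨a, ha⟩ : ↥(gaussRing ℓ N)) = 1 := Subtype.ext h
    rw [this, map_one]
  rw [map_mul, gaussRho_ell, zero_mul] at h1
  exact zero_ne_one h1

end Fermat.Agent.Igusa
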