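import Fermat.Agent.Lib.S24.ProjLineCard

/-!
# P9 (D-g): the Dedekind psi function along `M ↦ M * r` (`r` prime)

`ψ(M r) = ψ(M) (r + 1)` if `r ∤ M`, and `ψ(M r) = ψ(M) r` if `r ∣ M`.
-/

set_option autoImplicit false

namespace Fermat.Agent.Igusa

open ModularCurve Fermat.Agent.S24Lib

theorem igPsi_prime {r : ℕ} (hr : r.Prime) : dedekindPsi r = r + 1 := by
  have h := dedekindPsi_prime_pow hr one_ne_zero
  simpa using h

theorem igPsi_mul_prime_of_not_dvd {M r : ℕ} (hr : r.Prime) (h : ¬ r ∣ M) :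
    dedekindPsi (M * r) = dedekindPsi M * (r + 1) := by
  have hc : M.Coprime r := ((Nat.Prime.coprime_iff_not_dvd hr).mpr h).symm
  rw [dedekindPsi_mul hc, igPsi_prime hr]

theorem igPsi_mul_prime_of_dvd {M r : ℕ} (hr : r.Prime) (hM : M ≠ 0) (h : r ∣ M) :
    dedekindPsi (M * r) = dedekindPsi M * r := by
  -- write `M = r ^ f * M'` with `r ∤ M'`, `f ≥ 1`
  obtain ⟨f, M', hM', rfl⟩ := Nat.exists_eq_pow_mul_and_not_dvd hM r hr.ne_one
  have hf : f ≠ 0 := by
    rintro rfl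
    rw [pow_zero, one_mul] at h
    exact hM' h
  have hc : ∀ k : ℕ, (r ^ k).Coprime M' := fun k =>
    Nat.Coprime.pow_left k ((Nat.Prime.coprime_iff_not_dvd hr).mpr hM')
  have e : r ^ f * M' * r = r ^ (f + 1) * M' := by ring
  rw [e, dedekindPsi_mul (hc _), dedekindPsi_mul (hc _), dedekindPsi_prime_pow hr hf,
    dedekindPsi_prime_pow hr (Nat.succ_ne_zero f)]
  obtain ⟨j, rfl⟩ := Nat.exists_eq_succ_of_ne_zero hf
  simp only [Nat.succ_eq_add_one, Nat.add_sub_cancel]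
  ring

theorem igPsi_pos {N : ℕ} (hN : N ≠ 0) : 0 < dedekindPsi N := by
  rw [dedekindPsi]
  apply Finset.sum_pos'
  · intro d _; exact Nat.zero_le _
  · refine ⟨1, ?_, ?_⟩
    · simp [hN]
    · simpa using Nat.pos_of_ne_zero hN

end Fermat.Agent.Igusa
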