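/-
P9 / S28 (D-e): base change of residue degrees.

Abstract part: for field extensions `L0 / K0`, `L / K`, a ring homomorphism `ι : L0 →+* L`
mapping `K0` into `K`, and a set `G ⊆ L0` with `K0(G) / K0` finite, the degree can only drop:
`[K(ι G) : K] ≤ [K0(G) : K0]`; and it is preserved if `K` is exactly the image of `K0`.

Specialisations: coefficient extension `lsMapHom φ : k0((q)) → k((q))` over `k0(j̄) → k(j̄)`,
and the variable change `qExpand k N : k((q)) → k((t))`, `q = t ^ N`.
-/
import Fermat.Agent.Lib.Igusa.ModPolyIntegral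
import Fermat.Prelude.Def_ModularCurve_X0ModL

set_option autoImplicit false

noncomputable section

open IntermediateField ModularCurve

namespace Fermat.Agent.Igusa

section Abstract

variable {K0 L0 K L : Type*} [Field K0] [Field L0] [Field K] [Field L]
  [Algebra K0 L0] [Algebra K L]

/-- the preimage of an intermediate field of `L / K` under a ring homomorphism `L0 →+* L`
mapping `K0` into `K`, as an intermediate field of `L0 / K0` -/
def bcdComap (ι : L0 →+* L)
    (hι : ∀ a : K0, ι (algebraMap K0 L0 a) ∈ Set.range (algebraMap K L))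
    (E : IntermediateField K L) : IntermediateField K0 L0 :=
  (E.toSubfield.comap ι).toIntermediateField (fun a => by
    obtain ⟨b, hb⟩ := hι a
    show ι (algebraMap K0 L0 a) ∈ E.toSubfield
    rw [← hb]
    exact E.algebraMap_mem b)

lemma mem_bcdComap (ι : L0 →+* L)
    (hι : ∀ a : K0, ι (algebraMap K0 L0 a) ∈ Set.range (algebraMap K L))
    (E : IntermediateField K L) (x : L0) : x ∈ bcdComap ι hι E ↔ ι x ∈ E := Iff.rfl

/-- `ι` maps `K0(G)` into `K(ι G)` -/
theorem bcd_map_mem_adjoin (ι : L0 →+* L)
    (hι : ∀ a : K0, ι (algebraMap K0 L0 a) ∈ Set.range (algebraMap K L)) (G : Set L0)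
    {x : L0} (hx : x ∈ IntermediateField.adjoin K0 G) :
    ι x ∈ IntermediateField.adjoin K (ι '' G) := by
  have hle : IntermediateField.adjoin K0 G ≤
      bcdComap ι hι (IntermediateField.adjoin K (ι '' G)) := by
    rw [IntermediateField.adjoin_le_iff]
    intro g hg
    exact IntermediateField.subset_adjoin K _ ⟨g, hg, rfl⟩
  exact hle hx

/-- the `K`-span of the image of a `K0`-basis of `K0(G)` contains `ι (K0(G))` -/
lemma bcd_map_mem_span (ι : L0 →+* L)
    (hι : ∀ a : K0, ι (algebraMap K0 L0 a) ∈ Set.range (algebraMap K L)) (G : Set L0)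
    [FiniteDimensional K0 ↥(IntermediateField.adjoin K0 G)]
    {x : L0} (hx : x ∈ IntermediateField.adjoin K0 G) :
    ι x ∈ Submodule.span K (Set.range fun i =>
      ι ((Module.finBasis K0 ↥(IntermediateField.adjoin K0 G) i : ↥(IntermediateField.adjoin K0 G)) : L0)) := by
  set b := Module.finBasis K0 ↥(IntermediateField.adjoin K0 G) with hb
  have hrepr := b.sum_repr ⟨x, hx⟩
  have hx' : x = ∑ i, algebraMap K0 L0 (b.repr ⟨x, hx⟩ i) * ((b i : ↥(IntermediateField.adjoin K0 G)) : L0) := by
    have := congrArg (fun y : ↥(IntermediateField.adjoin K0 G) => (y : L0)) hrepr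
    simp only [AddSubmonoidClass.coe_finsetSum, IntermediateField.coe_smul] at this
    refine this.symm.trans (Finset.sum_congr rfl fun i _ => ?_)
    rw [Algebra.smul_def]
  rw [hx', map_sum]
  refine Submodule.sum_mem _ fun i _ => ?_
  rw [map_mul]
  obtain ⟨c, hc⟩ := hι (b.repr ⟨x, hx⟩ i)
  rw [← hc, ← Algebra.smul_def]
  exact Submodule.smul_mem _ _ (Submodule.subset_span ⟨i, rfl⟩)

/-- the `K`-subalgebra generated by `ι (K0(G))` -/
def bcdAlg (ι : L0 →+* L) (G : Set L0) : Subalgebra K L :=
  Algebra.adjoin K (ι '' (IntermediateField.adjoin K0 G : Set L0))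

lemma bcdAlg_toSubmodule_le (ι : L0 →+* L)
    (hι : ∀ a : K0, ι (algebraMap K0 L0 a) ∈ Set.range (algebraMap K L)) (G : Set L0)
    [FiniteDimensional K0 ↥(IntermediateField.adjoin K0 G)] :
    Subalgebra.toSubmodule (bcdAlg (K0 := K0) (K := K) ι G) ≤
      Submodule.span K (Set.range fun i =>
        ι ((Module.finBasis K0 ↥(IntermediateField.adjoin K0 G) i :
          ↥(IntermediateField.adjoin K0 G)) : L0)) := by
  have hclos : (Submonoid.closure (ι '' (IntermediateField.adjoin K0 G : Set L0)) : Set L) =
      ι '' (IntermediateField.adjoin K0 G : Set L0) := by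
    have : (ι '' (IntermediateField.adjoin K0 G : Set L0)) =
        ((IntermediateField.adjoin K0 G).toSubfield.toSubring.toSubmonoid.map
          (ι : L0 →* L) : Set L) := rfl
    rw [this, Submonoid.closure_eq]
  rw [bcdAlg, Algebra.adjoin_eq_span, hclos, Submodule.span_le]
  rintro _ ⟨x, hx, rfl⟩
  exact bcd_map_mem_span ι hι G hx

/-- **degrees drop under base change** -/
theorem bcd_finrank_adjoin_image_le (ι : L0 →+* L)
    (hι : ∀ a : K0, ι (algebraMap K0 L0 a) ∈ Set.range (algebraMap K L)) (G : Set L0)
    [FiniteDimensional K0 ↥(IntermediateField.adjoin K0 G)] :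
    Module.finrank K ↥(IntermediateField.adjoin K (ι '' G)) ≤
      Module.finrank K0 ↥(IntermediateField.adjoin K0 G) ∧
    FiniteDimensional K ↥(IntermediateField.adjoin K (ι '' G)) := by
  set b := Module.finBasis K0 ↥(IntermediateField.adjoin K0 G) with hb
  set V : Submodule K L := Submodule.span K (Set.range fun i =>
        ι ((b i : ↥(IntermediateField.adjoin K0 G)) : L0)) with hV
  have hVfin : FiniteDimensional K ↥V := FiniteDimensional.span_of_finite K (Set.finite_range _)
  have hVrank : Module.finrank K ↥V ≤ Module.finrank K0 ↥(IntermediateField.adjoin K0 G) := by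
    have h1 := finrank_range_le_card (R := K) (fun i =>
        ι ((b i : ↥(IntermediateField.adjoin K0 G)) : L0))
    rw [Fintype.card_fin] at h1
    exact h1
  have hA : Subalgebra.toSubmodule (bcdAlg (K0 := K0) (K := K) ι G) ≤ V :=
    bcdAlg_toSubmodule_le ι hι G
  have hAfg : (Subalgebra.toSubmodule (bcdAlg (K0 := K0) (K := K) ι G)).FG := by
    have : IsNoetherian K ↥V := IsNoetherian.iff_fg.mpr hVfin
    have hsub : (Subalgebra.toSubmodule (bcdAlg (K0 := K0) (K := K) ι G)) =
        ((Subalgebra.toSubmodule (bcdAlg (K0 := K0) (K := K) ι G)).comap V.subtype).map V.subtype := by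
      rw [Submodule.map_comap_subtype, inf_eq_right.mpr hA]
    rw [hsub]
    exact ((isNoetherian_def.mp this) _).map _
  have hGA : ι '' G ⊆ (bcdAlg (K0 := K0) (K := K) ι G : Set L) := by
    rintro _ ⟨g, hg, rfl⟩
    exact Algebra.subset_adjoin ⟨g, IntermediateField.subset_adjoin K0 G hg, rfl⟩
  have halg : ∀ x ∈ ι '' G, IsAlgebraic K x := fun x hx =>
    (IsIntegral.of_mem_of_fg _ hAfg x (hGA hx)).isAlgebraic
  have hsub : (IntermediateField.adjoin K (ι '' G)).toSubalgebra ≤ bcdAlg (K0 := K0) (K := K) ι G := by
    rw [IntermediateField.adjoin_toSubalgebra_of_isAlgebraic halg]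
    exact Algebra.adjoin_le hGA
  have hle : Subalgebra.toSubmodule (IntermediateField.adjoin K (ι '' G)).toSubalgebra ≤ V :=
    le_trans (fun x hx => hsub hx) hA
  have hfin : FiniteDimensional K
      ↥(Subalgebra.toSubmodule (IntermediateField.adjoin K (ι '' G)).toSubalgebra) :=
    Submodule.finiteDimensional_of_le hle
  refine ⟨le_trans ?_ hVrank, hfin⟩
  exact Submodule.finrank_mono hle

theorem bcd_finiteDimensional_adjoin_image (ι : L0 →+* L)
    (hι : ∀ a : K0, ι (algebraMap K0 L0 a) ∈ Set.range (algebraMap K L)) (G : Set L0)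
    [FiniteDimensional K0 ↥(IntermediateField.adjoin K0 G)] :
    FiniteDimensional K ↥(IntermediateField.adjoin K (ι '' G)) :=
  (bcd_finrank_adjoin_image_le ι hι G).2

/-! ### The reverse inequality when `K` is exactly the image of `K0` -/

/-- linear independence is preserved if every scalar of `K` comes from `K0` -/
theorem bcd_linearIndependent_map (ι : L0 →+* L)
    (hsurj : ∀ b : K, ∃ a : K0, ι (algebraMap K0 L0 a) = algebraMap K L b)
    {σ : Type*} (v : σ → L0) (hv : LinearIndependent K0 v) :
    LinearIndependent K (fun i => ι (v i)) := by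
  rw [linearIndependent_iff']
  intro t g hg i hi
  choose a ha using hsurj
  have h1 : ι (∑ i ∈ t, a (g i) • v i) = 0 := by
    rw [map_sum, ← hg]
    refine Finset.sum_congr rfl fun i _ => ?_
    rw [Algebra.smul_def, map_mul, ha, Algebra.smul_def]
  have h2 : ∑ i ∈ t, a (g i) • v i = 0 := by
    have := ι.injective (a₁ := ∑ i ∈ t, a (g i) • v i) (a₂ := 0)
    exact this (by rw [h1, map_zero])
  have h3 := linearIndependent_iff'.mp hv t (fun i => a (g i)) h2 i hi
  have h4 : algebraMap K L (g i) = 0 := by
    rw [← ha, h3, map_zero, map_zero]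
  exact (map_eq_zero_iff _ (algebraMap K L).injective).mp h4

/-- a `K0`-independent family of `K0(G)` gives a `K`-independent family of `K(ι G)` -/
lemma bcd_card_le_finrank (ι : L0 →+* L)
    (hι : ∀ a : K0, ι (algebraMap K0 L0 a) ∈ Set.range (algebraMap K L))
    (hsurj : ∀ b : K, ∃ a : K0, ι (algebraMap K0 L0 a) = algebraMap K L b) (G : Set L0)
    [FiniteDimensional K ↥(IntermediateField.adjoin K (ι '' G))]
    {σ : Type*} [Fintype σ] (v : σ → ↥(IntermediateField.adjoin K0 G))
    (hv : LinearIndependent K0 v) :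
    Fintype.card σ ≤ Module.finrank K ↥(IntermediateField.adjoin K (ι '' G)) := by
  have hv' : LinearIndependent K0 (fun i => ((v i : ↥(IntermediateField.adjoin K0 G)) : L0)) :=
    hv.map' (IntermediateField.adjoin K0 G).val.toLinearMap
      (LinearMap.ker_eq_bot.mpr Subtype.val_injective)
  have h1 := bcd_linearIndependent_map (K := K) ι hsurj _ hv'
  set w : σ → ↥(IntermediateField.adjoin K (ι '' G)) := fun i =>
    ⟨ι ((v i : ↥(IntermediateField.adjoin K0 G)) : L0), bcd_map_mem_adjoin ι hι G (v i).2⟩ with hw
  have h2 : LinearIndependent K w := by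
    refine LinearIndependent.of_comp (IntermediateField.adjoin K (ι '' G)).val.toLinearMap ?_
    exact h1
  exact h2.fintype_card_le_finrank

/-- **degrees are preserved** if `K` is exactly the image of `K0` -/
theorem bcd_finiteDimensional_adjoin_image_iff (ι : L0 →+* L)
    (hι : ∀ a : K0, ι (algebraMap K0 L0 a) ∈ Set.range (algebraMap K L))
    (hsurj : ∀ b : K, ∃ a : K0, ι (algebraMap K0 L0 a) = algebraMap K L b) (G : Set L0) :
    FiniteDimensional K ↥(IntermediateField.adjoin K (ι '' G)) ↔
      FiniteDimensional K0 ↥(IntermediateField.adjoin K0 G) := by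
  constructor
  · intro h
    have hrk : Module.rank K0 ↥(IntermediateField.adjoin K0 G) ≤
        (Module.finrank K ↥(IntermediateField.adjoin K (ι '' G)) : ℕ) := by
      refine rank_le fun s hs => ?_
      have := bcd_card_le_finrank ι hι hsurj G (fun i : s => (i : ↥(IntermediateField.adjoin K0 G))) hs
      rwa [Fintype.card_coe] at this
    exact Module.rank_lt_aleph0_iff.mp (lt_of_le_of_lt hrk (Cardinal.natCast_lt_aleph0))
  · intro h
    exact bcd_finiteDimensional_adjoin_image ι hι G

theorem bcd_finrank_adjoin_image_eq (ι : L0 →+* L)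
    (hι : ∀ a : K0, ι (algebraMap K0 L0 a) ∈ Set.range (algebraMap K L))
    (hsurj : ∀ b : K, ∃ a : K0, ι (algebraMap K0 L0 a) = algebraMap K L b) (G : Set L0) :
    Module.finrank K ↥(IntermediateField.adjoin K (ι '' G)) =
      Module.finrank K0 ↥(IntermediateField.adjoin K0 G) := by
  by_cases hfin : FiniteDimensional K0 ↥(IntermediateField.adjoin K0 G)
  · have hfin' := bcd_finiteDimensional_adjoin_image (K := K) ι hι G
    refine le_antisymm (bcd_finrank_adjoin_image_le ι hι G).1 ?_
    have := bcd_card_le_finrank ι hι hsurj G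
      (Module.finBasis K0 ↥(IntermediateField.adjoin K0 G))
      (Module.finBasis K0 ↥(IntermediateField.adjoin K0 G)).linearIndependent
    rwa [Fintype.card_fin] at this
  · have hfin' : ¬ FiniteDimensional K ↥(IntermediateField.adjoin K (ι '' G)) := fun h =>
      hfin ((bcd_finiteDimensional_adjoin_image_iff ι hι hsurj G).mp h)
    rw [Module.finrank_of_not_finite hfin, Module.finrank_of_not_finite hfin']

end Abstract

/-! ### Base fields generated over a field of constants -/

section OverConstants

variable {k0 k L0 L : Type*} [Field k0] [Field k] [Field L0] [Field L]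
  [Algebra k0 L0] [Algebra k L]

/-- if `ι` maps constants to constants and `S0` into `k(S)`, it maps `k0(S0)` into `k(S)` -/
theorem bcd_map_algebraMap_mem_range (ι : L0 →+* L)
    (hbase : ∀ c : k0, ι (algebraMap k0 L0 c) ∈ Set.range (algebraMap k L))
    (S0 : Set L0) (S : Set L) (hS : ∀ s ∈ S0, ι s ∈ IntermediateField.adjoin k S)
    (a : ↥(IntermediateField.adjoin k0 S0)) :
    ι (algebraMap ↥(IntermediateField.adjoin k0 S0) L0 a) ∈
      Set.range (algebraMap ↥(IntermediateField.adjoin k S) L) := by
  have hle : IntermediateField.adjoin k0 S0 ≤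
      bcdComap ι hbase (IntermediateField.adjoin k S) := by
    rw [IntermediateField.adjoin_le_iff]
    exact hS
  exact ⟨⟨ι (a : L0), hle a.2⟩, rfl⟩

/-- degrees drop: `[k(S)(ι G0) : k(S)] ≤ [k0(S0)(G0) : k0(S0)]` -/
theorem bcd_finrank_ringHom_le (ι : L0 →+* L)
    (hbase : ∀ c : k0, ι (algebraMap k0 L0 c) ∈ Set.range (algebraMap k L))
    (S0 G0 : Set L0) (S G : Set L) (hS : ∀ s ∈ S0, ι s ∈ IntermediateField.adjoin k S)
    (hG : G = ι '' G0)
    [FiniteDimensional ↥(IntermediateField.adjoin k0 S0)
      ↥(IntermediateField.adjoin ↥(IntermediateField.adjoin k0 S0) G0)] :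
    Module.finrank ↥(IntermediateField.adjoin k S)
        ↥(IntermediateField.adjoin ↥(IntermediateField.adjoin k S) G) ≤
      Module.finrank ↥(IntermediateField.adjoin k0 S0)
        ↥(IntermediateField.adjoin ↥(IntermediateField.adjoin k0 S0) G0) ∧
    FiniteDimensional ↥(IntermediateField.adjoin k S)
        ↥(IntermediateField.adjoin ↥(IntermediateField.adjoin k S) G) := by
  subst hG
  exact bcd_finrank_adjoin_image_le ι (bcd_map_algebraMap_mem_range ι hbase S0 S hS) G0

/-- degrees are preserved by an algebra homomorphism over the same field of constants -/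
theorem bcd_finrank_algHom_eq {k L0 L : Type*} [Field k] [Field L0] [Field L]
    [Algebra k L0] [Algebra k L] (f : L0 →ₐ[k] L)
    (S0 G0 : Set L0) (S G : Set L) (hS : S = f '' S0) (hG : G = f '' G0) :
    Module.finrank ↥(IntermediateField.adjoin k S)
        ↥(IntermediateField.adjoin ↥(IntermediateField.adjoin k S) G) =
      Module.finrank ↥(IntermediateField.adjoin k S0)
        ↥(IntermediateField.adjoin ↥(IntermediateField.adjoin k S0) G0) := by
  subst hS hG
  have hbase : ∀ c : k, (f : L0 →+* L) (algebraMap k L0 c) ∈ Set.range (algebraMap k L) :=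
    fun c => ⟨c, (f.commutes c).symm⟩
  have hS : ∀ s ∈ S0, (f : L0 →+* L) s ∈ IntermediateField.adjoin k (f '' S0) :=
    fun s hs => IntermediateField.subset_adjoin k _ ⟨s, hs, rfl⟩
  refine bcd_finrank_adjoin_image_eq (f : L0 →+* L)
    (bcd_map_algebraMap_mem_range (f : L0 →+* L) hbase S0 (f '' S0) hS) ?_ G0
  rintro ⟨b, hb⟩
  rw [← IntermediateField.adjoin_map] at hb
  obtain ⟨a, ha, rfl⟩ := hb
  exact ⟨⟨a, ha⟩, rfl⟩

/-- bridge to `IntermediateField.relfinrank`: `[k(S ∪ G) : k(S)]` as a `finrank` over the
subtype `↥k(S)` -/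
theorem bcd_relfinrank_adjoin_eq {k Ω : Type*} [Field k] [Field Ω] [Algebra k Ω]
    (S G : Set Ω) :
    IntermediateField.relfinrank (IntermediateField.adjoin k S)
        (IntermediateField.adjoin k (S ∪ G)) =
      Module.finrank ↥(IntermediateField.adjoin k S)
        ↥(IntermediateField.adjoin ↥(IntermediateField.adjoin k S) G) := by
  have hle : IntermediateField.adjoin k S ≤ IntermediateField.adjoin k (S ∪ G) :=
    IntermediateField.adjoin.mono k _ _ Set.subset_union_left
  rw [IntermediateField.relfinrank_eq_finrank_of_le hle]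
  have hE : IntermediateField.extendScalars hle =
      IntermediateField.adjoin ↥(IntermediateField.adjoin k S) G := by
    apply IntermediateField.restrictScalars_injective k
    rw [IntermediateField.extendScalars_restrictScalars, IntermediateField.adjoin_adjoin_left]
  rw [hE]

/-- monotonicity of the degree in the generating set -/
theorem bcd_finrank_adjoin_mono {K Ω : Type*} [Field K] [Field Ω] [Algebra K Ω]
    {G G' : Set Ω} (h : G ⊆ G') [FiniteDimensional K ↥(IntermediateField.adjoin K G')] :
    Module.finrank K ↥(IntermediateField.adjoin K G) ≤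
      Module.finrank K ↥(IntermediateField.adjoin K G') :=
  IntermediateField.finrank_le_of_le_right (IntermediateField.adjoin.mono K _ _ h)

end OverConstants

/-! ### Laurent series: coefficient extension and `q ↦ t ^ N` -/

section Laurent

variable {k0 k : Type*} [Field k0] [Field k]

lemma bcd_lsMapHom_algebraMap (φ : k0 →+* k) (c : k0) :
    lsMapHom φ (algebraMap k0 (LaurentSeries k0) c) = algebraMap k (LaurentSeries k) (φ c) := by
  rw [algebraMap_laurentSeries_eq_single, algebraMap_laurentSeries_eq_single, lsMapHom_single]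

lemma bcd_lsMapHom_jqModC (φ : k0 →+* k) : lsMapHom φ (jqModC k0) = jqModC k :=
  map_jqModC φ

/-- coefficient extension `k0 → k`, base fields `k0(J0)`, `k(J)` with `J = J0 ⊗ k` -/
theorem bcd_finrank_lsMapHom_le' (φ : k0 →+* k) {J0 : LaurentSeries k0} {J : LaurentSeries k}
    (hJ : lsMapHom φ J0 = J) (G0 : Set (LaurentSeries k0))
    [FiniteDimensional ↥(IntermediateField.adjoin k0 {J0})
      ↥(IntermediateField.adjoin ↥(IntermediateField.adjoin k0 {J0}) G0)] :
    Module.finrank ↥(IntermediateField.adjoin k {J})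
        ↥(IntermediateField.adjoin ↥(IntermediateField.adjoin k {J}) (lsMapHom φ '' G0)) ≤
      Module.finrank ↥(IntermediateField.adjoin k0 {J0})
        ↥(IntermediateField.adjoin ↥(IntermediateField.adjoin k0 {J0}) G0) ∧
    FiniteDimensional ↥(IntermediateField.adjoin k {J})
        ↥(IntermediateField.adjoin ↥(IntermediateField.adjoin k {J}) (lsMapHom φ '' G0)) := by
  refine bcd_finrank_ringHom_le (lsMapHom φ)
    (fun c => ⟨φ c, (bcd_lsMapHom_algebraMap φ c).symm⟩) {J0} G0 {J} _ ?_ rfl
  intro s hs
  rw [Set.mem_singleton_iff] at hs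
  rw [hs, hJ]
  exact IntermediateField.mem_adjoin_simple_self k J

/-- **(D-e)** coefficient extension `k0 → k` over `k0(j̄) → k(j̄)` -/
theorem bcd_finrank_lsMapHom_le (φ : k0 →+* k) (G0 : Set (LaurentSeries k0))
    [FiniteDimensional ↥(IntermediateField.adjoin k0 {jqModC k0})
      ↥(IntermediateField.adjoin ↥(IntermediateField.adjoin k0 {jqModC k0}) G0)] :
    Module.finrank ↥(IntermediateField.adjoin k {jqModC k})
        ↥(IntermediateField.adjoin ↥(IntermediateField.adjoin k {jqModC k})
          (lsMapHom φ '' G0)) ≤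
      Module.finrank ↥(IntermediateField.adjoin k0 {jqModC k0})
        ↥(IntermediateField.adjoin ↥(IntermediateField.adjoin k0 {jqModC k0}) G0) :=
  (bcd_finrank_lsMapHom_le' φ (bcd_lsMapHom_jqModC φ) G0).1

theorem bcd_finiteDimensional_lsMapHom (φ : k0 →+* k) (G0 : Set (LaurentSeries k0))
    [FiniteDimensional ↥(IntermediateField.adjoin k0 {jqModC k0})
      ↥(IntermediateField.adjoin ↥(IntermediateField.adjoin k0 {jqModC k0}) G0)] :
    FiniteDimensional ↥(IntermediateField.adjoin k {jqModC k})
        ↥(IntermediateField.adjoin ↥(IntermediateField.adjoin k {jqModC k})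
          (lsMapHom φ '' G0)) :=
  (bcd_finrank_lsMapHom_le' φ (bcd_lsMapHom_jqModC φ) G0).2

/-- variable change `q = t ^ N`: degrees over `k(J)` and over `k(J(t ^ N))` agree -/
theorem bcd_finrank_qExpand_eq' (N : ℕ) [NeZero N] (J : LaurentSeries k)
    (G0 : Set (LaurentSeries k)) :
    Module.finrank ↥(IntermediateField.adjoin k {qExpand k N J})
        ↥(IntermediateField.adjoin ↥(IntermediateField.adjoin k {qExpand k N J})
          (qExpand k N '' G0)) =
      Module.finrank ↥(IntermediateField.adjoin k {J})
        ↥(IntermediateField.adjoin ↥(IntermediateField.adjoin k {J}) G0) :=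
  bcd_finrank_algHom_eq (qExpandAlgHomC k N) {J} G0 _ _ (Set.image_singleton).symm rfl

/-- variable change `q = t ^ N` over `k(j̄)` -/
theorem bcd_finrank_qExpand_eq (N : ℕ) [NeZero N] (G0 : Set (LaurentSeries k)) :
    Module.finrank ↥(IntermediateField.adjoin k {qExpand k N (jqModC k)})
        ↥(IntermediateField.adjoin ↥(IntermediateField.adjoin k {qExpand k N (jqModC k)})
          (qExpand k N '' G0)) =
      Module.finrank ↥(IntermediateField.adjoin k {jqModC k})
        ↥(IntermediateField.adjoin ↥(IntermediateField.adjoin k {jqModC k}) G0) :=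
  bcd_finrank_qExpand_eq' N (jqModC k) G0

/-- variable change `q = t ^ N`, general base sets -/
theorem bcd_finrank_qExpand_eq_set (N : ℕ) [NeZero N] (S0 G0 : Set (LaurentSeries k)) :
    Module.finrank ↥(IntermediateField.adjoin k (qExpand k N '' S0))
        ↥(IntermediateField.adjoin ↥(IntermediateField.adjoin k (qExpand k N '' S0))
          (qExpand k N '' G0)) =
      Module.finrank ↥(IntermediateField.adjoin k S0)
        ↥(IntermediateField.adjoin ↥(IntermediateField.adjoin k S0) G0) :=
  bcd_finrank_algHom_eq (qExpandAlgHomC k N) S0 G0 _ _ rfl rfl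

end Laurent

end Fermat.Agent.Igusa
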