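/-
P9 / S28 (Igusa), package (C3): `Δ`-quotients lie in the function field `ℚ(X₀(N))`.

* `deltaSeries_mul_eq : Δ · j⁴ · (j - 1728)³ = (θ j)⁶` in `ℚ((q))`, `θ = q d/dq` (from the analytic
  identity `D j = c E₄² E₆ / Δ`, `j Δ = E₄³`, `(j - 1728) Δ = E₆²`, compared at the leading
  coefficient, then descended from `ℂ` to `ℚ`);
* `θ` is a derivation of `K((q))` (`qThetaDer`), and implicit differentiation inside an intermediate
  field (`exists_deriv_eq_mul`): if `F` is algebraic over `K(y)` then `D x ∈ F · D y` for `x ∈ F`;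
* `deltaSeriesN_div_mem_full : Δ(q^e)/Δ(q^d) ∈ ℚ(X₀(N))` for `d, e ∣ N`, and corollaries for the
  modular unit `Δ(q)/Δ(q^r)` and `r¹² Δ(q^r)/Δ(q)`.
-/
import Mathlib
import Fermat.Prelude.Def_ModularCurve_ModularUnit
import Fermat.Agent.Lib.S23.ThetaJ
import Fermat.Agent.Lib.S24.JDeriv
import Fermat.Agent.Lib.S24.JLaurent
import Fermat.Agent.Lib.Igusa.DegreeBound

set_option autoImplicit false
set_option linter.unusedSectionVars false

namespace Fermat.Agent.Igusa

open ModularCurve UpperHalfPlane Fermat.Agent.ES Fermat.Agent.S24Lib Fermat.Agent.S23Lib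
open Polynomial IntermediateField ModularCurve.IgusaScheme
open scoped ModularForm

local notation "Δ" => ModularForm.discriminant



section Analytic

open Derivative

/-! ## The analytic identity `(D j)⁶ = c · Δ j⁴ (j - 1728)³` -/

theorem exists_D_jFun_pow_six : ∃ c : ℂ, ∀ τ : ℍ,
    D jFun τ ^ 6 = c * (Δ τ * jFun τ ^ 4 * (jFun τ - 1728) ^ 3) := by
  obtain ⟨c, -, hc⟩ := exists_D_jFun
  refine ⟨c ^ 6, fun τ => ?_⟩
  have hΔ := ModularForm.discriminant_ne_zero τ
  rw [hc τ, jFun_sub_1728, jFun]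
  field_simp

/-! ## Leading coefficients -/

section Monic

/-- a series with coefficient `1` at `m` and `0` below is monic of order `m` -/
theorem isMonicOfOrder_of_coeff {f : LaurentSeries ℚ} {m : ℤ} (h1 : f.coeff m = 1)
    (h0 : ∀ k < m, f.coeff k = 0) : IsMonicOfOrder f m := by
  have hne0 : f.coeff m ≠ 0 := by rw [h1]; exact one_ne_zero
  have hne : f ≠ 0 := HahnSeries.ne_zero_of_coeff_ne_zero hne0
  have horder : f.order = m := by
    refine le_antisymm (HahnSeries.order_le_of_coeff_ne_zero hne0) ?_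
    by_contra hlt
    rw [not_le] at hlt
    exact hne (HahnSeries.coeff_order_eq_zero.mp (h0 _ hlt))
  exact ⟨horder, by rw [HahnSeries.leadingCoeff_eq, horder, h1]⟩

theorem isMonicOfOrder_one : IsMonicOfOrder (1 : LaurentSeries ℚ) 0 :=
  isMonicOfOrder_of_coeff (by simp) (fun _ hk => by
    rw [HahnSeries.coeff_one, if_neg hk.ne])

theorem isMonicOfOrder_pow {f : LaurentSeries ℚ} {m : ℤ} (hf : IsMonicOfOrder f m) (n : ℕ) :
    IsMonicOfOrder (f ^ n) (n * m) := by
  induction n with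
  | zero => simpa using isMonicOfOrder_one
  | succ n ih =>
    rw [pow_succ]
    have := ih.mul hf
    convert this using 1
    push_cast
    ring

theorem isMonicOfOrder_jq : IsMonicOfOrder jq (-1) :=
  isMonicOfOrder_of_coeff coeff_jq_neg_one (fun _ hk => coeff_jq_of_lt hk)

theorem coeff_natCast_laurent (n : ℕ) (k : ℤ) (hk : k ≠ 0) :
    ((n : LaurentSeries ℚ)).coeff k = 0 := by
  have : (n : LaurentSeries ℚ) = HahnSeries.C (n : ℚ) := by simp
  rw [this, HahnSeries.C_apply, HahnSeries.coeff_single_of_ne hk]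

theorem isMonicOfOrder_jq_sub : IsMonicOfOrder (jq - 1728) (-1) := by
  have h : (1728 : LaurentSeries ℚ) = ((1728 : ℕ) : LaurentSeries ℚ) := by norm_num
  refine isMonicOfOrder_of_coeff ?_ (fun k hk => ?_)
  · rw [HahnSeries.coeff_sub, coeff_jq_neg_one, h, coeff_natCast_laurent _ _ (by norm_num), sub_zero]
  · rw [HahnSeries.coeff_sub, coeff_jq_of_lt hk, h, coeff_natCast_laurent _ _ (by omega), sub_zero]

theorem isMonicOfOrder_neg_qTheta_jq : IsMonicOfOrder (-qTheta jq) (-1) := by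
  refine isMonicOfOrder_of_coeff ?_ (fun k hk => ?_)
  · rw [HahnSeries.coeff_neg, qTheta_coeff, coeff_jq_neg_one]
    norm_num
  · rw [HahnSeries.coeff_neg, qTheta_coeff, coeff_jq_of_lt hk, mul_zero, neg_zero]

end Monic



/-! ## Coefficient maps -/

theorem coeffMap_ofPowerSeries {R S : Type*} [CommRing R] [CommRing S] (f : R →+* S)
    (u : PowerSeries R) :
    coeffMap f (HahnSeries.ofPowerSeries ℤ R u) = HahnSeries.ofPowerSeries ℤ S (u.map f) := by
  ext k
  rw [coeffMap_coeff]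
  rcases le_or_gt 0 k with hk | hk
  · lift k to ℕ using hk
    rw [HahnSeries.ofPowerSeries_apply_coeff, HahnSeries.ofPowerSeries_apply_coeff,
      PowerSeries.coeff_map]
  · rw [ofPowerSeries_coeff_of_neg _ hk, ofPowerSeries_coeff_of_neg _ hk, map_zero]

theorem coeffMap_injective {R S : Type*} [CommRing R] [CommRing S] (f : R →+* S)
    (hf : Function.Injective f) : Function.Injective (coeffMap f) := by
  intro x y h
  ext k
  apply hf
  rw [← coeffMap_coeff, ← coeffMap_coeff, h]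

theorem coeffMap_jq : coeffMap (algebraMap ℚ ℂ) jq = jqModC ℂ :=
  map_jqModC (algebraMap ℚ ℂ)

theorem coeffMap_deltaSeries : coeffMap (algebraMap ℚ ℂ) deltaSeries = qLaurent 1 (Δ : ℍ → ℂ) := by
  have hΔ := isNice_discriminant 1
  rw [qLaurent_of_nice hΔ]
  have hc1 : (((1 : ℕ) : ℝ)) = 1 := Nat.cast_one
  rw [hc1, qExpansion_discriminant, map_mul, HahnSeries.ofPowerSeries_X, deltaSeries, map_mul,
    coeffMap_single, map_one, coeffMap_ofPowerSeries, dedekindEtaUnitQ]
  congr 2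

/-! ## The identity `Δ j⁴ (j - 1728)³ = (θ j)⁶` -/

/-- the `q`-expansion over `ℂ` of the analytic identity -/
theorem thetaJ_pow_six_eq : ∃ c : ℂ, thetaJ ℂ ^ 6 =
    HahnSeries.C c * (qLaurent 1 (Δ : ℍ → ℂ) * jqModC ℂ ^ 4 *
      (jqModC ℂ - HahnSeries.C 1728) ^ 3) := by
  obtain ⟨c, hc⟩ := exists_D_jFun_pow_six
  refine ⟨c, ?_⟩
  have hj := isQLaurentable_jFun
  have hD := isQLaurentable_D_jFun
  have hΔ := (isNice_discriminant 1).isQLaurentable
  have h1728 : IsQLaurentable 1 (fun _ : ℍ => (1728 : ℂ)) := IsQLaurentable.const 1 1728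
  have hcc : IsQLaurentable 1 (fun _ : ℍ => c) := IsQLaurentable.const 1 c
  have hL : qLaurent 1 (fun τ => D jFun τ ^ 6) = thetaJ ℂ ^ 6 := by
    rw [qLaurent_pow hD 6, qLaurent_D_jFun]
  have hR : qLaurent 1 (fun τ => c * (Δ τ * jFun τ ^ 4 * (jFun τ - 1728) ^ 3)) =
      HahnSeries.C c * (qLaurent 1 (Δ : ℍ → ℂ) * jqModC ℂ ^ 4 *
        (jqModC ℂ - HahnSeries.C 1728) ^ 3) := by
    rw [qLaurent_mul hcc ((hΔ.mul (hj.pow 4)).mul ((hj.sub h1728).pow 3)), qLaurent_const,
      qLaurent_mul (hΔ.mul (hj.pow 4)) ((hj.sub h1728).pow 3), qLaurent_mul hΔ (hj.pow 4),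
      qLaurent_pow hj 4, qLaurent_pow (hj.sub h1728) 3, qLaurent_sub hj h1728, qLaurent_const,
      qLaurent_jFun]
  have hfun : (fun τ => D jFun τ ^ 6) =
      fun τ => c * (Δ τ * jFun τ ^ 4 * (jFun τ - 1728) ^ 3) := funext hc
  rw [← hL, hfun, hR]

theorem coeff_qTheta_jq_pow_six : (qTheta jq ^ 6).coeff (-6) = 1 := by
  have h := (isMonicOfOrder_pow isMonicOfOrder_neg_qTheta_jq 6).coeff_self
  have e : (-qTheta jq) ^ 6 = qTheta jq ^ 6 := Even.neg_pow (by decide) _
  rw [e] at h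
  exact h

theorem coeff_deltaSeries_mul : (deltaSeries * jq ^ 4 * (jq - 1728) ^ 3).coeff (-6) = 1 :=
  ((isMonicOfOrder_deltaSeries.mul (isMonicOfOrder_pow isMonicOfOrder_jq 4)).mul
      (isMonicOfOrder_pow isMonicOfOrder_jq_sub 3)).coeff_self

/-- **`Δ · j⁴ · (j - 1728)³ = (q dj/dq)⁶`** in `ℚ((q))`. -/
theorem deltaSeries_mul_eq :
    deltaSeries * jq ^ 4 * (jq - 1728) ^ 3 = qTheta jq ^ 6 := by
  obtain ⟨c, hc⟩ := thetaJ_pow_six_eq
  have hXm : coeffMap (algebraMap ℚ ℂ) (qTheta jq ^ 6) = thetaJ ℂ ^ 6 := by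
    rw [map_pow, coeffMap_qTheta, coeffMap_jq, thetaJ]
  have hYm : coeffMap (algebraMap ℚ ℂ) (deltaSeries * jq ^ 4 * (jq - 1728) ^ 3) =
      qLaurent 1 (Δ : ℍ → ℂ) * jqModC ℂ ^ 4 * (jqModC ℂ - HahnSeries.C 1728) ^ 3 := by
    rw [map_mul, map_mul, map_pow, map_pow, map_sub, coeffMap_jq, coeffMap_deltaSeries,
      map_ofNat, ← map_ofNat (HahnSeries.C (Γ := ℤ) (R := ℂ)) 1728]
  rw [← hXm, ← hYm] at hc
  have hc1 : c = 1 := by
    have h := congrArg (fun z : LaurentSeries ℂ => z.coeff (-6)) hc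
    simp only [HahnSeries.C_mul_eq_smul, HahnSeries.coeff_smul, coeffMap_coeff,
      coeff_qTheta_jq_pow_six, coeff_deltaSeries_mul, map_one, smul_eq_mul, mul_one] at h
    exact h.symm
  rw [hc1, map_one, one_mul] at hc
  exact (coeffMap_injective _ (algebraMap ℚ ℂ).injective hc).symm


end Analytic

/-! ## `θ = q d/dq` is a derivation -/

section Theta

variable {R : Type*} [CommRing R]

theorem qTheta_support_subset (x : LaurentSeries R) : (qTheta x).support ⊆ x.support := by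
  intro m hm h0
  apply hm
  show (qTheta x).coeff m = 0
  rw [qTheta_coeff, h0, mul_zero]

theorem qTheta_zero : qTheta (0 : LaurentSeries R) = 0 := by
  ext m
  simp

theorem qTheta_add (x y : LaurentSeries R) : qTheta (x + y) = qTheta x + qTheta y := by
  ext m
  simp only [qTheta_coeff, HahnSeries.coeff_add, mul_add]

theorem qTheta_mul (x y : LaurentSeries R) :
    qTheta (x * y) = qTheta x * y + x * qTheta y := by
  ext n
  rw [qTheta_coeff, HahnSeries.coeff_add, HahnSeries.coeff_mul,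
    HahnSeries.coeff_mul_left' x.isPWO_support (qTheta_support_subset x),
    HahnSeries.coeff_mul_right' y.isPWO_support (qTheta_support_subset y),
    Finset.mul_sum, ← Finset.sum_add_distrib]
  refine Finset.sum_congr rfl fun ij hij => ?_
  rw [Finset.mem_antidiagonal] at hij
  rw [qTheta_coeff, qTheta_coeff, ← hij.2.2]
  push_cast
  ring

theorem qTheta_single (k : ℤ) (r : R) :
    qTheta (HahnSeries.single k r) = HahnSeries.single k ((k : R) * r) := by
  ext m
  rw [qTheta_coeff]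
  rcases eq_or_ne m k with rfl | hm
  · rw [HahnSeries.coeff_single_same, HahnSeries.coeff_single_same]
  · rw [HahnSeries.coeff_single_of_ne hm, HahnSeries.coeff_single_of_ne hm, mul_zero]

theorem qTheta_C (r : R) : qTheta (HahnSeries.C r : LaurentSeries R) = 0 := by
  rw [HahnSeries.C_apply, qTheta_single]
  simp

theorem qTheta_smul (r : R) (x : LaurentSeries R) : qTheta (r • x) = r • qTheta x := by
  ext m
  simp only [qTheta_coeff, HahnSeries.coeff_smul, smul_eq_mul]
  ring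

end Theta

/-- a derivation of a field extension from an additive map satisfying the Leibniz rule and
killing the constants -/
noncomputable def derivationOfLeibniz {K L : Type*} [Field K] [Field L] [Algebra K L] (D : L → L)
    (hadd : ∀ a b, D (a + b) = D a + D b) (hmul : ∀ a b, D (a * b) = D a * b + a * D b)
    (hK : ∀ r : K, D (algebraMap K L r) = 0) : Derivation K L L where
  toFun := D
  map_add' := hadd
  map_smul' r x := by
    rw [RingHom.id_apply, Algebra.smul_def, hmul, hK, zero_mul, zero_add, Algebra.smul_def]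
  map_one_eq_zero' := by
    show D 1 = 0
    rw [← map_one (algebraMap K L), hK]
  leibniz' x y := by
    show D (x * y) = x • D y + y • D x
    rw [hmul, smul_eq_mul, smul_eq_mul]
    ring

@[simp]
theorem derivationOfLeibniz_apply {K L : Type*} [Field K] [Field L] [Algebra K L] (D : L → L)
    (hadd : ∀ a b, D (a + b) = D a + D b) (hmul : ∀ a b, D (a * b) = D a * b + a * D b)
    (hK : ∀ r : K, D (algebraMap K L r) = 0) (x : L) :
    derivationOfLeibniz D hadd hmul hK x = D x := rfl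

/-- `θ` as a derivation of `K((q))` over `K` -/
noncomputable def qThetaDer (K : Type*) [Field K] :=
  derivationOfLeibniz (K := K) (L := LaurentSeries K) qTheta qTheta_add qTheta_mul (fun r => by
    rw [algebraMap_laurentSeries_eq_single K r, ← HahnSeries.C_apply, qTheta_C])

@[simp]
theorem qThetaDer_apply {K : Type*} [Field K] (x : LaurentSeries K) :
    qThetaDer K x = qTheta x := rfl


/-! ## Implicit differentiation inside an intermediate field -/

section Implicit

variable {K L : Type*} [Field K] [Field L] [Algebra K L] [CharZero K]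
  (D : Derivation K L L) (F : IntermediateField K L) (y : L)

/-- the elements of `F` whose derivative is an `F`-multiple of `D y` -/
def derivClosed : IntermediateField K L where
  carrier := {x | x ∈ F ∧ ∃ z ∈ F, D x = z * D y}
  mul_mem' := by
    rintro a b ⟨ha, za, hza, ea⟩ ⟨hb, zb, hzb, eb⟩
    refine ⟨F.mul_mem ha hb, a * zb + b * za,
      F.add_mem (F.mul_mem ha hzb) (F.mul_mem hb hza), ?_⟩
    rw [D.leibniz, smul_eq_mul, smul_eq_mul, ea, eb]
    ring
  one_mem' := ⟨F.one_mem, 0, F.zero_mem, by rw [D.map_one_eq_zero, zero_mul]⟩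
  add_mem' := by
    rintro a b ⟨ha, za, hza, ea⟩ ⟨hb, zb, hzb, eb⟩
    refine ⟨F.add_mem ha hb, za + zb, F.add_mem hza hzb, ?_⟩
    rw [map_add, ea, eb]
    ring
  zero_mem' := ⟨F.zero_mem, 0, F.zero_mem, by rw [map_zero, zero_mul]⟩
  algebraMap_mem' r := ⟨F.algebraMap_mem r, 0, F.zero_mem, by
    rw [D.map_algebraMap, zero_mul]⟩
  inv_mem' := by
    rintro a ⟨ha, za, hza, ea⟩
    refine ⟨F.inv_mem ha, -(a⁻¹) ^ 2 * za,
      F.mul_mem (F.neg_mem (pow_mem (F.inv_mem ha) 2)) hza, ?_⟩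
    by_cases h0 : a = 0
    · subst h0
      rw [inv_zero, map_zero]
      ring
    · rw [D.leibniz_inv, smul_eq_mul, ea]
      field_simp

theorem mem_derivClosed {x : L} :
    x ∈ derivClosed D F y ↔ x ∈ F ∧ ∃ z ∈ F, D x = z * D y := Iff.rfl

theorem derivClosed_le : derivClosed D F y ≤ F := fun _ hx => hx.1

theorem self_mem_derivClosed (hy : y ∈ F) : y ∈ derivClosed D F y :=
  ⟨hy, 1, F.one_mem, (one_mul _).symm⟩

/-- the chain rule for polynomials with coefficients in `derivClosed` -/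
theorem exists_deriv_aeval {x : L} (hx : x ∈ F) (p : (derivClosed D F y)[X]) :
    ∃ w ∈ F, ∃ v ∈ F, v = aeval x (derivative p) ∧ D (aeval x p) = w * D y + v * D x := by
  induction p using Polynomial.induction_on' with
  | add p q hp hq =>
    obtain ⟨w₁, hw₁, v₁, hv₁, e₁, d₁⟩ := hp
    obtain ⟨w₂, hw₂, v₂, hv₂, e₂, d₂⟩ := hq
    refine ⟨w₁ + w₂, F.add_mem hw₁ hw₂, v₁ + v₂, F.add_mem hv₁ hv₂, ?_, ?_⟩
    · rw [derivative_add, map_add, e₁, e₂]
    · rw [map_add, map_add, d₁, d₂]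
      ring
  | monomial n c =>
    obtain ⟨hc, z, hz, ez⟩ := c.2
    refine ⟨z * x ^ n, F.mul_mem hz (pow_mem hx n),
      (c : L) * n * x ^ (n - 1),
      F.mul_mem (F.mul_mem hc (_root_.natCast_mem F n)) (pow_mem hx _), ?_, ?_⟩
    · rw [derivative_monomial, aeval_monomial, map_mul, map_natCast]
      rfl
    · rw [aeval_monomial, D.leibniz, D.leibniz_pow, smul_eq_mul, smul_eq_mul, smul_eq_mul]
      have : D (algebraMap (derivClosed D F y) L c) = z * D y := ez
      rw [this]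
      have e : algebraMap (derivClosed D F y) L c = (c : L) := rfl
      rw [e]
      simp only [nsmul_eq_mul]
      ring

/-- an element of `F` that is algebraic over `derivClosed` lies in it -/
theorem mem_derivClosed_of_isAlgebraic {x : L} (hx : x ∈ F)
    (halg : IsAlgebraic (derivClosed D F y) x) : x ∈ derivClosed D F y := by
  have hint : IsIntegral (derivClosed D F y) x := halg.isIntegral
  set p := minpoly (derivClosed D F y) x with hp
  have hsep : p.Separable := (minpoly.irreducible hint).separable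
  have hroot : aeval x p = 0 := minpoly.aeval _ _
  have hne := hsep.aeval_derivative_ne_zero hroot
  obtain ⟨w, hw, v, hv, ev, ed⟩ := exists_deriv_aeval D F y hx p
  rw [hroot, map_zero] at ed
  rw [← ev] at hne
  refine ⟨hx, -w / v, F.div_mem (F.neg_mem hw) hv, ?_⟩
  field_simp
  linear_combination -ed

/-- **Implicit differentiation**: if `F` is algebraic over `K(y)`, `y ∈ F`, then `D x ∈ F · D y`
for all `x ∈ F`. -/
theorem exists_deriv_eq_mul (hy : y ∈ F) (halg : ∀ x ∈ F, IsAlgebraic K⟮y⟯ x) {x : L}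
    (hx : x ∈ F) : ∃ z ∈ F, D x = z * D y := by
  have hle : K⟮y⟯ ≤ derivClosed D F y := by
    rw [adjoin_simple_le_iff]
    exact self_mem_derivClosed D F y hy
  have h1 : IsAlgebraic (derivClosed D F y) x := by
    obtain ⟨p, hp0, hp⟩ := halg x hx
    refine ⟨p.map (IntermediateField.inclusion hle).toRingHom, ?_, ?_⟩
    · exact (Polynomial.map_ne_zero_iff (RingHom.injective _)).2 hp0
    · rw [aeval_def, eval₂_map]
      rw [aeval_def] at hp
      exact hp
  exact (mem_derivClosed_of_isAlgebraic D F y hx h1).2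

end Implicit


/-! ## `θ` and `q ↦ q^d` -/

theorem qTheta_qExpand {R : Type*} [CommRing R] (d : ℕ) [NeZero d] (f : LaurentSeries R) :
    qTheta (qExpand R d f) = (d : LaurentSeries R) * qExpand R d (qTheta f) := by
  have hd : (d : LaurentSeries R) = HahnSeries.C (d : R) := by simp
  rw [hd, HahnSeries.C_mul_eq_smul]
  ext m
  rw [qTheta_coeff, HahnSeries.coeff_smul, smul_eq_mul]
  by_cases hm : (d : ℤ) ∣ m
  · obtain ⟨k, rfl⟩ := hm
    rw [qExpand_coeff_mul, qExpand_coeff_mul, qTheta_coeff]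
    push_cast
    ring
  · rw [qExpand_coeff_of_not_dvd d f hm, qExpand_coeff_of_not_dvd d _ hm, mul_zero, mul_zero]

theorem qTheta_jq_ne_zero : qTheta jq ≠ 0 := thetaJ_ne_zero ℚ

theorem natCast_laurent_ne_zero (d : ℕ) [NeZero d] : (d : LaurentSeries ℚ) ≠ 0 := by
  rw [← map_natCast (HahnSeries.C (Γ := ℤ) (R := ℚ)) d]
  refine (map_ne_zero_iff _ HahnSeries.C_injective).2 ?_
  exact_mod_cast NeZero.ne d

theorem qTheta_qExpand_jq_ne_zero (d : ℕ) [NeZero d] : qTheta (qExpand ℚ d jq) ≠ 0 := by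
  rw [qTheta_qExpand]
  refine mul_ne_zero (natCast_laurent_ne_zero d) ?_
  intro h
  exact qTheta_jq_ne_zero (qExpand_injective d (by rw [h, map_zero]))

/-- the identity `Δ j⁴ (j-1728)³ = (θ j)⁶` at `q^d` -/
theorem deltaSeriesN_mul_eq (d : ℕ) [NeZero d] :
    (d : LaurentSeries ℚ) ^ 6 * (deltaSeriesN d *
      (qExpand ℚ d jq ^ 4 * (qExpand ℚ d jq - 1728) ^ 3)) = qTheta (qExpand ℚ d jq) ^ 6 := by
  have h := congrArg (qExpand ℚ d) deltaSeries_mul_eq
  rw [map_mul, map_mul, map_pow, map_pow, map_pow, map_sub, map_ofNat] at h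
  rw [qTheta_qExpand, mul_pow, ← h, deltaSeriesN]
  ring

/-! ## `Δ`-quotients lie in the function field -/

section Main

variable (N : ℕ) [NeZero N]

/-- `θ x ∈ F · θ j` for `x` in the function field `F` of `X₀(N)` over `ℚ` -/
theorem exists_qTheta_eq_mul
    (halg : ∀ x ∈ modularFunctionFieldFull N, IsAlgebraic ℚ⟮jq⟯ x) {x : LaurentSeries ℚ}
    (hx : x ∈ modularFunctionFieldFull N) :
    ∃ z ∈ modularFunctionFieldFull N, qTheta x = z * qTheta jq := by
  have hj : jq ∈ modularFunctionFieldFull N :=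
    modularFunctionField_le_full N (jq_mem N)
  exact exists_deriv_eq_mul (qThetaDer ℚ) (modularFunctionFieldFull N) jq hj halg hx

/-- **`Δ(q^e)/Δ(q^d) ∈ F`** for `d, e ∣ N`. -/
theorem deltaSeriesN_div_mem
    (halg : ∀ x ∈ modularFunctionFieldFull N, IsAlgebraic ℚ⟮jq⟯ x) {d e : ℕ} [NeZero d]
    [NeZero e] (hd : d ∣ N) (he : e ∣ N) :
    deltaSeriesN e / deltaSeriesN d ∈ modularFunctionFieldFull N := by
  set F := modularFunctionFieldFull N with hF
  have hjd : qExpand ℚ d jq ∈ F := jqd_mem_full N hd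
  have hje : qExpand ℚ e jq ∈ F := jqd_mem_full N he
  obtain ⟨zd, hzd, ezd⟩ := exists_qTheta_eq_mul N halg hjd
  obtain ⟨ze, hze, eze⟩ := exists_qTheta_eq_mul N halg hje
  have h1 := deltaSeriesN_mul_eq d
  have h2 := deltaSeriesN_mul_eq e
  have hθd := qTheta_qExpand_jq_ne_zero d
  have hθe := qTheta_qExpand_jq_ne_zero e
  have hθ := qTheta_jq_ne_zero
  have hdd := natCast_laurent_ne_zero d
  have hee := natCast_laurent_ne_zero e
  obtain ⟨Ad, hAd⟩ : ∃ Ad : LaurentSeries ℚ,
      Ad = qExpand ℚ d jq ^ 4 * (qExpand ℚ d jq - 1728) ^ 3 := ⟨_, rfl⟩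
  obtain ⟨Ae, hAe⟩ : ∃ Ae : LaurentSeries ℚ,
      Ae = qExpand ℚ e jq ^ 4 * (qExpand ℚ e jq - 1728) ^ 3 := ⟨_, rfl⟩
  rw [← hAd] at h1
  rw [← hAe] at h2
  have h1728 : (1728 : LaurentSeries ℚ) ∈ F := by
    have : (1728 : LaurentSeries ℚ) = ((1728 : ℕ) : LaurentSeries ℚ) := by norm_num
    rw [this]
    exact _root_.natCast_mem F 1728
  have hAdF : Ad ∈ F := by
    rw [hAd]; exact F.mul_mem (pow_mem hjd 4) (pow_mem (F.sub_mem hjd h1728) 3)
  have hAeF : Ae ∈ F := by
    rw [hAe]; exact F.mul_mem (pow_mem hje 4) (pow_mem (F.sub_mem hje h1728) 3)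
  have hAd0 : Ad ≠ 0 := by
    intro h0
    rw [h0, mul_zero, mul_zero] at h1
    exact hθd (pow_eq_zero_iff (by norm_num) |>.1 h1.symm)
  have hAe0 : Ae ≠ 0 := by
    intro h0
    rw [h0, mul_zero, mul_zero] at h2
    exact hθe (pow_eq_zero_iff (by norm_num) |>.1 h2.symm)
  have hΔd := deltaSeriesN_ne_zero d
  have hzd0 : zd ≠ 0 := by
    rintro rfl
    rw [zero_mul] at ezd
    exact hθd ezd
  -- the explicit formula
  have key : deltaSeriesN e / deltaSeriesN d =
      (ze ^ 6 * (d : LaurentSeries ℚ) ^ 6 * Ad) / (zd ^ 6 * (e : LaurentSeries ℚ) ^ 6 * Ae) := by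
    rw [ezd] at h1
    rw [eze] at h2
    rw [div_eq_div_iff hΔd (mul_ne_zero (mul_ne_zero (pow_ne_zero 6 hzd0) (pow_ne_zero 6 hee)) hAe0)]
    have hθ6 : qTheta jq ^ 6 ≠ 0 := pow_ne_zero 6 hθ
    apply mul_left_cancel₀ hθ6
    linear_combination (-((e : LaurentSeries ℚ) ^ 6 * deltaSeriesN e * Ae)) * h1 +
      ((d : LaurentSeries ℚ) ^ 6 * deltaSeriesN d * Ad) * h2
  rw [key]
  exact F.div_mem
    (F.mul_mem (F.mul_mem (pow_mem hze 6) (pow_mem (_root_.natCast_mem F d) 6)) hAdF)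
    (F.mul_mem (F.mul_mem (pow_mem hzd 6) (pow_mem (_root_.natCast_mem F e) 6)) hAeF)

end Main


section Final

variable (N : ℕ) [NeZero N]

/-- the function field of `X₀(N)` over `ℚ` is algebraic over `ℚ(j)` (from (C4)) -/
theorem isAlgebraic_adjoin_jq {x : LaurentSeries ℚ} (hx : x ∈ modularFunctionFieldFull N) :
    IsAlgebraic ℚ⟮jq⟯ x := by
  set F := modularFunctionFieldFull N with hF
  set K₁ : IntermediateField ℚ ↥F := IntermediateField.adjoin ℚ {jFull N} with hK₁
  have hmem' : ∀ c : ↥F, c ∈ K₁ → (c : LaurentSeries ℚ) ∈ ℚ⟮jq⟯ := by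
    intro c hc
    rw [hK₁] at hc
    induction hc using IntermediateField.adjoin_induction with
    | mem y hy =>
      rw [Set.mem_singleton_iff] at hy
      rw [hy, coe_jFull]
      exact IntermediateField.mem_adjoin_simple_self ℚ jq
    | algebraMap r =>
      rw [eq_ratCast]
      have : (((r : ↥F) : ↥F) : LaurentSeries ℚ) = (r : LaurentSeries ℚ) := rfl
      rw [this]
      exact SubfieldClass.ratCast_mem _ r
    | add y z _ _ hy hz => exact add_mem hy hz
    | mul y z _ _ hy hz => exact mul_mem hy hz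
    | inv y _ hy => exact inv_mem hy
  have hmem : ∀ c : ↥K₁, ((c : ↥F) : LaurentSeries ℚ) ∈ ℚ⟮jq⟯ := fun c => hmem' c c.2
  let φ : ↥K₁ →+* ↥ℚ⟮jq⟯ :=
    { toFun := fun c => ⟨((c : ↥F) : LaurentSeries ℚ), hmem c⟩
      map_one' := rfl
      map_mul' := fun _ _ => rfl
      map_zero' := rfl
      map_add' := fun _ _ => rfl }
  have hφinj : Function.Injective φ := φ.injective
  have halg : IsAlgebraic ↥K₁ (⟨x, hx⟩ : ↥F) := Algebra.IsAlgebraic.isAlgebraic _
  obtain ⟨p, hp0, hp⟩ := halg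
  refine ⟨p.map φ, (Polynomial.map_ne_zero_iff hφinj).2 hp0, ?_⟩
  rw [aeval_def, eval₂_map]
  have hcomp : (algebraMap ↥ℚ⟮jq⟯ (LaurentSeries ℚ)).comp φ =
      (F.val : ↥F →+* LaurentSeries ℚ).comp (algebraMap ↥K₁ ↥F) := rfl
  rw [hcomp]
  show eval₂ ((F.val : ↥F →+* LaurentSeries ℚ).comp (algebraMap ↥K₁ ↥F))
    ((F.val : ↥F →+* LaurentSeries ℚ) ⟨x, hx⟩) p = 0
  rw [← Polynomial.hom_eval₂]
  rw [aeval_def] at hp
  rw [hp, map_zero]

/-- **`Δ(q^e)/Δ(q^d) ∈ ℚ(X₀(N))`** for `d, e ∣ N` (unconditional). -/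
theorem deltaSeriesN_div_mem_full {d e : ℕ} [NeZero d] [NeZero e] (hd : d ∣ N) (he : e ∣ N) :
    deltaSeriesN e / deltaSeriesN d ∈ modularFunctionFieldFull N :=
  deltaSeriesN_div_mem N (fun _ hx => isAlgebraic_adjoin_jq N hx) hd he

/-- `Δ(q^r)/Δ(q) ∈ ℚ(X₀(N))` for `r ∣ N` -/
theorem deltaSeriesN_div_deltaSeries_mem {r : ℕ} [NeZero r] (hr : r ∣ N) :
    deltaSeriesN r / deltaSeries ∈ modularFunctionFieldFull N := by
  have h := deltaSeriesN_div_mem_full N (one_dvd N) hr
  rwa [deltaSeriesN_one] at h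

/-- the modular unit `Δ(q)/Δ(q^r)` lies in `ℚ(X₀(N))` for `r ∣ N` -/
theorem modularUnitSeries_mem {r : ℕ} [NeZero r] (hr : r ∣ N) :
    modularUnitSeries r ∈ modularFunctionFieldFull N := by
  have h := deltaSeriesN_div_mem_full N hr (one_dvd N)
  rwa [deltaSeriesN_one, div_eq_mul_inv] at h

/-- `r¹² Δ(q^r)/Δ(q) ∈ ℚ(X₀(N))` for `r ∣ N` -/
theorem natCast_pow_mul_deltaSeriesN_div_mem {r : ℕ} [NeZero r] (hr : r ∣ N) :
    (r : LaurentSeries ℚ) ^ 12 * (deltaSeriesN r / deltaSeries) ∈ modularFunctionFieldFull N :=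
  (modularFunctionFieldFull N).mul_mem
    (pow_mem (_root_.natCast_mem (modularFunctionFieldFull N) r) 12)
    (deltaSeriesN_div_deltaSeries_mem N hr)

/-- `θ x / θ j ∈ ℚ(X₀(N))` for `x ∈ ℚ(X₀(N))` -/
theorem qTheta_div_qTheta_jq_mem {x : LaurentSeries ℚ} (hx : x ∈ modularFunctionFieldFull N) :
    qTheta x / qTheta jq ∈ modularFunctionFieldFull N := by
  obtain ⟨z, hz, e⟩ := exists_qTheta_eq_mul N (fun _ hx => isAlgebraic_adjoin_jq N hx) hx
  rw [e, mul_div_assoc, div_self qTheta_jq_ne_zero, mul_one]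
  exact hz

end Final

end Fermat.Agent.Igusa
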