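import Fermat.Agent.Lib.Igusa.ModPoly
import Fermat.Agent.Lib.Igusa.GaussRing
import Fermat.Agent.Lib.Igusa.DeltaQuot

/-!
# P9 (D-f): the generators `X_d = j(q ^ d)` (`d ∣ N`) and `U_r = r ^ 12 Δ(q ^ r) / Δ(q)`
(`r ∣ N` prime)

* `igGenSet K N`: the generator set, as a set of Laurent series over an arbitrary commutative
  ring `K`; finiteness, monotonicity, compatibility with coefficient maps;
* every generator is integral over `K[j]` (in the instance-free form
  `(evalJ K).IsIntegralElem x`), hence the field they generate over `K(j)` is finite-dimensional;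
* bridge to the Gauss ring: every generator over `𝔽_ℓ` is in the range of `gaussRho`.
-/

set_option autoImplicit false

open HahnSeries ModularCurve Polynomial

namespace Fermat.Agent.Igusa

/-! ### The generator set -/

section GenSet

variable (K : Type*) [CommRing K]

/-- the generators: `j(q ^ d)` for `d ∣ N`, and `r ^ 12 Δ(q ^ r) / Δ(q)` for primes `r ∣ N` -/
def igGenSet (N : ℕ) : Set (LaurentSeries K) :=
  {x | ∃ (d : ℕ) (_ : NeZero d), d ∣ N ∧ x = qExpand K d (jqModC K)} ∪
    {x | ∃ (r : ℕ) (_ : NeZero r), r.Prime ∧ r ∣ N ∧ x = unitInfLS K r}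

variable {K}

theorem qExpand_jqModC_mem_igGenSet {N d : ℕ} [NeZero d] (hd : d ∣ N) :
    qExpand K d (jqModC K) ∈ igGenSet K N :=
  Or.inl ⟨d, inferInstance, hd, rfl⟩

theorem unitInfLS_mem_igGenSet {N r : ℕ} [NeZero r] (hr : r.Prime) (hd : r ∣ N) :
    unitInfLS K r ∈ igGenSet K N :=
  Or.inr ⟨r, inferInstance, hr, hd, rfl⟩

theorem jqModC_mem_igGenSet (N : ℕ) : jqModC K ∈ igGenSet K N := by
  have h := qExpand_jqModC_mem_igGenSet (K := K) (N := N) (d := 1) (one_dvd N)
  rwa [qExpand_one_apply] at h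

theorem igGenSet_mono {M N : ℕ} (h : M ∣ N) : igGenSet K M ⊆ igGenSet K N := by
  rintro x (⟨d, hd0, hd, rfl⟩ | ⟨r, hr0, hr, hd, rfl⟩)
  · exact Or.inl ⟨d, hd0, hd.trans h, rfl⟩
  · exact Or.inr ⟨r, hr0, hr, hd.trans h, rfl⟩

variable (K) in
theorem igGenSet_finite (N : ℕ) [NeZero N] : (igGenSet K N).Finite := by
  classical
  have h1 : {x : LaurentSeries K | ∃ (d : ℕ) (_ : NeZero d), d ∣ N ∧ x = qExpand K d (jqModC K)} ⊆
      (fun d : ℕ => if h : d = 0 then (0 : LaurentSeries K)
        else @qExpand K _ d ⟨h⟩ (jqModC K)) '' (N.divisors : Set ℕ) := by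
    rintro x ⟨d, hd0, hd, rfl⟩
    refine ⟨d, ?_, ?_⟩
    · exact Finset.mem_coe.mpr (Nat.mem_divisors.mpr ⟨hd, NeZero.ne N⟩)
    · simp only [dif_neg (NeZero.ne d)]
  have h2 : {x : LaurentSeries K | ∃ (r : ℕ) (_ : NeZero r), r.Prime ∧ r ∣ N ∧ x = unitInfLS K r} ⊆
      (fun d : ℕ => if h : d = 0 then (0 : LaurentSeries K)
        else @unitInfLS K _ d ⟨h⟩) '' (N.divisors : Set ℕ) := by
    rintro x ⟨r, hr0, -, hd, rfl⟩
    refine ⟨r, ?_, ?_⟩
    · exact Finset.mem_coe.mpr (Nat.mem_divisors.mpr ⟨hd, NeZero.ne N⟩)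
    · simp only [dif_neg (NeZero.ne r)]
  exact (((N.divisors.finite_toSet).image _).subset h1).union
    (((N.divisors.finite_toSet).image _).subset h2)

theorem image_lsMapHom_igGenSet {S : Type*} [CommRing S] (φ : K →+* S) (N : ℕ) :
    lsMapHom φ '' igGenSet K N = igGenSet S N := by
  ext y
  constructor
  · rintro ⟨x, (⟨d, hd0, hd, rfl⟩ | ⟨r, hr0, hr, hd, rfl⟩), rfl⟩
    · rw [lsMapHom_qExpand, lsMapHom_jqModC]
      exact Or.inl ⟨d, hd0, hd, rfl⟩
    · rw [lsMapHom_unitInfLS]
      exact Or.inr ⟨r, hr0, hr, hd, rfl⟩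
  · rintro (⟨d, hd0, hd, rfl⟩ | ⟨r, hr0, hr, hd, rfl⟩)
    · exact ⟨qExpand K d (jqModC K), Or.inl ⟨d, hd0, hd, rfl⟩, by
        rw [lsMapHom_qExpand, lsMapHom_jqModC]⟩
    · exact ⟨unitInfLS K r, Or.inr ⟨r, hr0, hr, hd, rfl⟩, lsMapHom_unitInfLS φ r⟩

end GenSet

/-! ### Integrality of the generators over `K[j]` -/

section Integral

variable {K : Type*} [CommRing K]

/-- a monic polynomial whose coefficients lie in a subalgebra `A` makes its roots integral
over `A` -/
theorem isIntegral_subalgebra_of_coeff_mem {R L : Type*} [CommRing R] [CommRing L] [Algebra R L]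
    (A : Subalgebra R L) (q : Polynomial L) (hq : q.Monic) (hc : ∀ i, q.coeff i ∈ A) (x : L)
    (hx : q.eval x = 0) : IsIntegral A x := by
  have hl : q ∈ Polynomial.lifts (algebraMap A L) := by
    rw [Polynomial.lifts_iff_coeff_lifts]
    intro i
    exact ⟨⟨q.coeff i, hc i⟩, rfl⟩
  obtain ⟨q', hq', -, hm⟩ := Polynomial.lifts_and_natDegree_eq_and_monic hl hq
  refine ⟨q', hm, ?_⟩
  rw [Polynomial.eval₂_eq_eval_map, hq', hx]

/-- `P(y)` for `P ∈ K[Y]` and `y` in a subring containing the constants -/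
theorem eval₂_C_mem_subring (A : Subring (LaurentSeries K))
    (hC : ∀ c : K, (HahnSeries.C c : LaurentSeries K) ∈ A) {y : LaurentSeries K} (hy : y ∈ A)
    (P : Polynomial K) :
    P.eval₂ (HahnSeries.C : K →+* LaurentSeries K) y ∈ A := by
  rw [Polynomial.eval₂_eq_sum_range]
  exact A.sum_mem fun i _ => A.mul_mem (hC _) (A.pow_mem hy i)

/-- `qExpand` of a polynomial in `j` is the polynomial in `j(q ^ d)` -/
theorem qExpand_evalJ (d : ℕ) [NeZero d] (P : Polynomial K) :
    qExpand K d (evalJ K P) =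
      P.eval₂ (HahnSeries.C : K →+* LaurentSeries K) (qExpand K d (jqModC K)) := by
  rw [evalJ_apply, Polynomial.hom_eval₂]
  congr 1
  ext c : 1
  simp

/-- `j(q ^ d)` is integral over `K[j]`, for every `d ≥ 1` -/
theorem isIntegralElem_qExpand_jqModC (d : ℕ) [NeZero d] :
    (evalJ K).IsIntegralElem (qExpand K d (jqModC K)) := by
  let _ : Algebra (Polynomial K) (LaurentSeries K) := (evalJ K).toAlgebra
  -- the integral closure of `K[j]`
  set A : Subalgebra (Polynomial K) (LaurentSeries K) :=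
    integralClosure (Polynomial K) (LaurentSeries K) with hA
  have hCmem : ∀ c : K, (HahnSeries.C c : LaurentSeries K) ∈ A.toSubring := by
    intro c
    have : (HahnSeries.C c : LaurentSeries K) = algebraMap (Polynomial K) (LaurentSeries K)
        (Polynomial.C c) := (evalJ_C c).symm
    rw [this]
    exact A.algebraMap_mem _
  suffices h : ∀ (n : ℕ) (d : ℕ) (hd : NeZero d), d.primeFactorsList.length = n →
      @qExpand K _ d hd (jqModC K) ∈ A from
    h _ d inferInstance rfl
  intro n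
  induction n with
  | zero =>
    intro d hd hlen
    have hd1 : d = 1 := by
      rcases (Nat.primeFactorsList_eq_nil d).mp (List.length_eq_zero_iff.mp hlen) with h | h
      · exact absurd h (NeZero.ne d)
      · exact h
    subst hd1
    rw [qExpand_one_apply]
    have : jqModC K = algebraMap (Polynomial K) (LaurentSeries K) Polynomial.X :=
      (evalJ_X (K := K)).symm
    rw [this]
    exact A.algebraMap_mem _
  | succ n ih =>
    intro d hd hlen
    have hd1 : d ≠ 1 := by
      intro h1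
      rw [h1] at hlen
      simp at hlen
    obtain ⟨r, hr, hrd⟩ := Nat.exists_prime_and_dvd hd1
    obtain ⟨d', rfl⟩ := hrd
    have hd'0 : d' ≠ 0 := by
      rintro rfl
      exact (NeZero.ne (r * 0)) (mul_zero r)
    have : NeZero d' := ⟨hd'0⟩
    have : NeZero r := ⟨hr.ne_zero⟩
    have hlen' : d'.primeFactorsList.length = n := by
      have h1 := Nat.perm_primeFactorsList_mul hr.ne_zero hd'0
      have h2 := h1.length_eq
      rw [List.length_append, Nat.primeFactorsList_prime hr] at h2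
      simp only [List.length_cons, List.length_nil] at h2
      omega
    have hX' : qExpand K d' (jqModC K) ∈ A := ih d' inferInstance hlen'
    -- the polynomial `Φ_r(X, j(q ^ d'))`
    set q : Polynomial (LaurentSeries K) :=
      (modPhiK r hr K).map ((qExpand K d').comp (evalJ K)) with hq
    have hqm : q.Monic := (modPhiK_monic r hr K).map _
    have hqc : ∀ i, q.coeff i ∈ A := by
      intro i
      rw [hq, Polynomial.coeff_map, RingHom.comp_apply, qExpand_evalJ]
      exact eval₂_C_mem_subring A.toSubring hCmem hX' _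
    have hroot : q.eval (qExpand K (r * d') (jqModC K)) = 0 := by
      have h1 := congrArg (qExpand K d') (modPhiK_eval_left r hr K)
      rw [map_zero, Polynomial.hom_eval₂, qExpand_qExpand] at h1
      rw [hq, ← Polynomial.eval₂_eq_eval_map]
      have e : qExpand K (d' * r) (jqModC K) = qExpand K (r * d') (jqModC K) :=
        qExpand_congr (mul_comm d' r) _
      rw [← e]
      exact h1
    have hint : IsIntegral A (qExpand K (r * d') (jqModC K)) :=
      isIntegral_subalgebra_of_coeff_mem A q hqm hqc _ hroot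
    exact isIntegral_trans _ hint

/-- `r ^ 12 Δ(q ^ r) / Δ(q)` is integral over `K[j]` (`r` prime) -/
theorem isIntegralElem_unitInfLS (r : ℕ) [NeZero r] (hr : r.Prime) :
    (evalJ K).IsIntegralElem (unitInfLS K r) :=
  ⟨modPsiK r hr K, modPsiK_monic r hr K, modPsiK_eval_left r hr K⟩

/-- every generator is integral over `K[j]` -/
theorem isIntegralElem_of_mem_igGenSet {N : ℕ} {x : LaurentSeries K} (hx : x ∈ igGenSet K N) :
    (evalJ K).IsIntegralElem x := by
  rcases hx with ⟨d, hd0, -, rfl⟩ | ⟨r, hr0, hr, -, rfl⟩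
  · exact isIntegralElem_qExpand_jqModC d
  · exact isIntegralElem_unitInfLS r hr

end Integral

/-! ### Consequences over a field: integrality over `K(j)`, finite-dimensionality -/

section Field

variable (K : Type*) [Field K]

/-- `K(j) ⊆ K((q))` -/
noncomputable abbrev kappaJ : IntermediateField K (LaurentSeries K) :=
  IntermediateField.adjoin K {jqModC K}

variable {K}

theorem evalJ_mem_kappaJ (P : Polynomial K) : evalJ K P ∈ kappaJ K := by
  rw [evalJ_apply, Polynomial.eval₂_eq_sum_range]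
  refine (kappaJ K).sum_mem fun i _ => (kappaJ K).mul_mem ?_ ((kappaJ K).pow_mem ?_ i)
  · rw [← LaurentSeries.algebraMap_apply]
    exact (kappaJ K).algebraMap_mem _
  · exact IntermediateField.mem_adjoin_simple_self K _

/-- `evalJ` as a ring hom into `K(j)` -/
noncomputable def evalJKappa : Polynomial K →+* ↥(kappaJ K) where
  toFun P := ⟨evalJ K P, evalJ_mem_kappaJ P⟩
  map_one' := Subtype.ext (map_one (evalJ K))
  map_mul' P Q := Subtype.ext (map_mul (evalJ K) P Q)
  map_zero' := Subtype.ext (map_zero (evalJ K))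
  map_add' P Q := Subtype.ext (map_add (evalJ K) P Q)

theorem algebraMap_comp_evalJKappa :
    (algebraMap ↥(kappaJ K) (LaurentSeries K)).comp evalJKappa = evalJ K :=
  RingHom.ext fun _ => rfl

/-- integral over `K[j]` implies integral over `K(j)` -/
theorem isIntegral_kappaJ_of_isIntegralElem {x : LaurentSeries K}
    (hx : (evalJ K).IsIntegralElem x) : IsIntegral ↥(kappaJ K) x := by
  obtain ⟨p, hp, hpx⟩ := hx
  refine ⟨p.map evalJKappa, hp.map _, ?_⟩
  rw [Polynomial.eval₂_map, algebraMap_comp_evalJKappa, hpx]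

theorem isIntegral_kappaJ_of_mem_igGenSet {N : ℕ} {x : LaurentSeries K} (hx : x ∈ igGenSet K N) :
    IsIntegral ↥(kappaJ K) x :=
  isIntegral_kappaJ_of_isIntegralElem (isIntegralElem_of_mem_igGenSet hx)

/-- the field generated by the generators over `K(j)` is finite-dimensional -/
theorem finiteDimensional_adjoin_igGenSet (N : ℕ) [NeZero N] :
    FiniteDimensional ↥(kappaJ K) ↥(IntermediateField.adjoin ↥(kappaJ K) (igGenSet K N)) := by
  have : Finite (igGenSet K N) := (igGenSet_finite K N).to_subtype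
  exact IntermediateField.finiteDimensional_adjoin
    (fun x hx => isIntegral_kappaJ_of_mem_igGenSet hx)

end Field


/-! ### (C3) in the Prelude's vocabulary -/

section C3Bridge

theorem C_mem_intermediateField (F' : IntermediateField ℚ (LaurentSeries ℚ)) (c : ℚ) :
    (HahnSeries.C c : LaurentSeries ℚ) ∈ F' := by
  have h := F'.algebraMap_mem c
  rwa [algebraMap_apply_eq_single] at h

/-- (C3) in the Prelude's vocabulary is equivalent to (C3) in the `unitInfLS` vocabulary -/
theorem unitInfLS_rat_mem_iff (F' : IntermediateField ℚ (LaurentSeries ℚ)) (r : ℕ) [NeZero r] :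
    unitInfLS ℚ r ∈ F' ↔ modularUnitSeries r ∈ F' := by
  have hr : ((r : ℚ) ^ 12) ≠ 0 := pow_ne_zero _ (by exact_mod_cast NeZero.ne r)
  have hC : (HahnSeries.C ((r : ℚ) ^ 12) : LaurentSeries ℚ) ≠ 0 := by
    intro h0
    have h1 := congrArg (fun x : LaurentSeries ℚ => x.coeff 0) h0
    simp only [HahnSeries.C_apply, HahnSeries.coeff_single_same, HahnSeries.coeff_zero] at h1
    exact hr h1
  rw [unitInfLS_rat]
  constructor
  · intro h
    have h1 : (modularUnitSeries r)⁻¹ ∈ F' := by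
      have h2 := F'.mul_mem (F'.inv_mem (C_mem_intermediateField F' ((r : ℚ) ^ 12))) h
      rwa [← mul_assoc, inv_mul_cancel₀ hC, one_mul] at h2
    have := F'.inv_mem h1
    rwa [inv_inv] at this
  · intro h
    exact F'.mul_mem (C_mem_intermediateField F' _) (F'.inv_mem h)

end C3Bridge

section FieldAdjoin

variable {K : Type*} [Field K]

theorem evalJ_mem_adjoin (P : Polynomial K) : evalJ K P ∈ Algebra.adjoin K {jqModC K} := by
  rw [evalJ_apply, Polynomial.eval₂_eq_sum_range]
  refine (Algebra.adjoin K {jqModC K}).sum_mem fun i _ =>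
    (Algebra.adjoin K {jqModC K}).mul_mem ?_ ((Algebra.adjoin K {jqModC K}).pow_mem ?_ i)
  · rw [← LaurentSeries.algebraMap_apply]
    exact (Algebra.adjoin K {jqModC K}).algebraMap_mem _
  · exact Algebra.subset_adjoin rfl

/-- `evalJ` as a ring hom into `K[j]` -/
noncomputable def evalJAdjoin : Polynomial K →+* ↥(Algebra.adjoin K {jqModC K}) where
  toFun P := ⟨evalJ K P, evalJ_mem_adjoin P⟩
  map_one' := Subtype.ext (map_one (evalJ K))
  map_mul' P Q := Subtype.ext (map_mul (evalJ K) P Q)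
  map_zero' := Subtype.ext (map_zero (evalJ K))
  map_add' P Q := Subtype.ext (map_add (evalJ K) P Q)

/-- integral over `K[j]` in the `Algebra.adjoin` form -/
theorem isIntegral_adjoin_of_isIntegralElem {x : LaurentSeries K}
    (hx : (evalJ K).IsIntegralElem x) : IsIntegral ↥(Algebra.adjoin K {jqModC K}) x := by
  obtain ⟨p, hp, hpx⟩ := hx
  refine ⟨p.map evalJAdjoin, hp.map _, ?_⟩
  rw [Polynomial.eval₂_map]
  have : (algebraMap ↥(Algebra.adjoin K {jqModC K}) (LaurentSeries K)).comp evalJAdjoin =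
      evalJ K := RingHom.ext fun _ => rfl
  rw [this, hpx]

end FieldAdjoin

/-! ### Bridge to the Gauss ring -/

section Bridge

theorem lsMapHom_eq_coeffMap {R S : Type*} [CommRing R] [CommRing S] (φ : R →+* S) :
    lsMapHom φ = coeffMap φ :=
  RingHom.ext fun _ => rfl

variable (ℓ : ℕ) [Fact ℓ.Prime]

set_option quotPrecheck false in
local notation "ℤℓ" => ↥(GaloisRep.ratLocalizedAt ℓ)

omit [Fact ℓ.Prime] in
theorem inclL_eq_lsMapHom : inclL ℓ = lsMapHom (GaloisRep.ratLocalizedAt ℓ).subtype :=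
  (lsMapHom_eq_coeffMap _).symm

theorem redL_eq_lsMapHom : redL ℓ = lsMapHom (zlRed ℓ) :=
  (lsMapHom_eq_coeffMap _).symm

omit [Fact ℓ.Prime] in
theorem inclL_deltaLS : inclL ℓ (deltaLS ℤℓ) = deltaLS ℚ := by
  rw [inclL_eq_lsMapHom, lsMapHom_deltaLS]

omit [Fact ℓ.Prime] in
theorem inclL_deltaInvLS : inclL ℓ (deltaInvLS ℤℓ) = deltaInvLS ℚ := by
  rw [inclL_eq_lsMapHom, lsMapHom_deltaInvLS]

omit [Fact ℓ.Prime] in
theorem inclL_unitInfLS (r : ℕ) [NeZero r] : inclL ℓ (unitInfLS ℤℓ r) = unitInfLS ℚ r := by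
  rw [inclL_eq_lsMapHom, lsMapHom_unitInfLS]

omit [Fact ℓ.Prime] in
theorem inclL_unitFinLS (r : ℕ) [NeZero r] : inclL ℓ (unitFinLS ℤℓ r) = unitFinLS ℚ r := by
  rw [inclL_eq_lsMapHom, lsMapHom_unitFinLS]

theorem redL_deltaLS : redL ℓ (deltaLS ℤℓ) = deltaLS (ZMod ℓ) := by
  rw [redL_eq_lsMapHom, lsMapHom_deltaLS]

theorem redL_deltaInvLS : redL ℓ (deltaInvLS ℤℓ) = deltaInvLS (ZMod ℓ) := by
  rw [redL_eq_lsMapHom, lsMapHom_deltaInvLS]

theorem redL_unitInfLS (r : ℕ) [NeZero r] :
    redL ℓ (unitInfLS ℤℓ r) = unitInfLS (ZMod ℓ) r := by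
  rw [redL_eq_lsMapHom, lsMapHom_unitInfLS]

theorem redL_unitFinLS (r : ℕ) [NeZero r] :
    redL ℓ (unitFinLS ℤℓ r) = unitFinLS (ZMod ℓ) r := by
  rw [redL_eq_lsMapHom, lsMapHom_unitFinLS]

variable (N : ℕ) [NeZero N]

set_option quotPrecheck false in
local notation "F" => ↥(modularFunctionFieldFull N)

/-- an element of `F` whose expansion is `r ^ 12 Δ(q ^ r) / Δ(q)` lies in the Gauss ring … -/
theorem mem_gaussRing_of_eq_unitInfLS {f : F} (r : ℕ) [NeZero r]
    (hf : (f : LaurentSeries ℚ) = unitInfLS ℚ r) : f ∈ gaussRing ℓ N :=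
  mem_gaussRing_of_eq_inclL ℓ N (s := unitInfLS ℤℓ r) (by rw [inclL_unitInfLS, hf])

/-- … and its residue is `r ^ 12 Δ̄(q ^ r) / Δ̄(q)` -/
theorem gaussRho_of_eq_unitInfLS {f : ↥(gaussRing ℓ N)} (r : ℕ) [NeZero r]
    (hf : ((f : F) : LaurentSeries ℚ) = unitInfLS ℚ r) :
    gaussRho ℓ N f = unitInfLS (ZMod ℓ) r := by
  rw [gaussRho_of_eq_inclL ℓ N (s := unitInfLS ℤℓ r) (by rw [inclL_unitInfLS, hf]),
    redL_unitInfLS]

/-- **(f2)** every generator over `𝔽_ℓ` is the residue of an element of the Gauss ring, given that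
the modular units lie in `F` (package (C3)) -/
theorem igGenSet_subset_range_gaussRho
    (hC3 : ∀ (r : ℕ) [NeZero r], r.Prime → r ∣ N → unitInfLS ℚ r ∈ modularFunctionFieldFull N) :
    igGenSet (ZMod ℓ) N ⊆ Set.range (gaussRho ℓ N) := by
  rintro x (⟨d, hd0, hd, rfl⟩ | ⟨r, hr0, hr, hd, rfl⟩)
  · exact ⟨⟨⟨qExpand ℚ d jq, jqd_mem_full N hd⟩, jqd_mem_gaussRing ℓ N hd⟩,
      gaussRho_jqd ℓ N hd _⟩
  · have hmem : (⟨unitInfLS ℚ r, hC3 r hr hd⟩ : F) ∈ gaussRing ℓ N :=
      mem_gaussRing_of_eq_unitInfLS ℓ N r rfl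
    exact ⟨⟨⟨unitInfLS ℚ r, hC3 r hr hd⟩, hmem⟩, gaussRho_of_eq_unitInfLS ℓ N r rfl⟩

/-- (C3), from `DeltaQuot.lean`, in the `unitInfLS` vocabulary -/
theorem unitInfLS_rat_mem_full {r : ℕ} [NeZero r] (hr : r ∣ N) :
    unitInfLS ℚ r ∈ modularFunctionFieldFull N :=
  (unitInfLS_rat_mem_iff _ r).mpr (modularUnitSeries_mem N hr)

theorem unitFinLS_rat_mem_full {r : ℕ} [NeZero r] (hr : r ∣ N) :
    unitFinLS ℚ r ∈ modularFunctionFieldFull N := by
  rw [unitFinLS_rat]
  exact modularUnitSeries_mem N hr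

/-- **(f2), unconditional**: every generator over `𝔽_ℓ` is the residue of an element of the Gauss
ring -/
theorem igGenSet_subset_range_gaussRho_full :
    igGenSet (ZMod ℓ) N ⊆ Set.range (gaussRho ℓ N) :=
  igGenSet_subset_range_gaussRho ℓ N (fun _ _ _ hd => unitInfLS_rat_mem_full N hd)

/-- the form consumed by the final assembly: the generators are exactly the residues of their
preimage -/
theorem gaussRho_image_preimage_igGenSet :
    gaussRho ℓ N '' (gaussRho ℓ N ⁻¹' igGenSet (ZMod ℓ) N) = igGenSet (ZMod ℓ) N :=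
  Set.image_preimage_eq_of_subset (igGenSet_subset_range_gaussRho_full ℓ N)

end Bridge

end Fermat.Agent.Igusa
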