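import Fermat.Agent.Lib.Igusa.TowerInst
import Fermat.Agent.Lib.Igusa.BaseChangeDeg
import Fermat.Agent.Lib.Igusa.ModPolyGauss

/-!
# P9 (D-g): from the abstract tower bound to the degree bound over `k(j̄) ⊆ k((q))`

`TowerData.dedekindPsi_le` for the concrete tower `pzTowerData k N hN` lives in `k((t))`, `q = t^N`,
and is a `relfinrank` of two fields generated over `k`.  We turn it into
`ψ(N) ≤ [k(j̄)(igGenSet k N) : k(j̄)]` inside `k((q))`.
-/

set_option autoImplicit false

open HahnSeries ModularCurve IntermediateField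

namespace Fermat.Agent.Igusa

variable (k : Type*) [Field k] [IsAlgClosed k] (N : ℕ) [NeZero N] (hN : (N : k) ≠ 0)

/-- the tower bound (in `k((t))`, `t ^ N = q`) implies the degree bound over `k(j̄)` in `k((q))` -/
theorem ig_tower_bound_of_relfinrank
    (h : dedekindPsi N ≤
      (adjoin k {(pzTowerData k N hN).J 1 (pzTowerData k N hN).N}).relfinrank
        (adjoin k ((pzTowerData k N hN).towerGens (pzTowerData k N hN).N))) :
    dedekindPsi N ≤ Module.finrank ↥(kappaJ k) ↥(adjoin ↥(kappaJ k) (igGenSet k N)) := by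
  rw [pzTowerData_J_one_self, pzTowerData_N] at h
  set T : Set (LaurentSeries k) := (pzTowerData k N hN).towerGens N with hT
  -- `T` is the image of a subset `T₀` of `igGenSet k N`
  set T₀ : Set (LaurentSeries k) := qExpand k N ⁻¹' T ∩ igGenSet k N with hT₀
  have hTim : qExpand k N '' T₀ = T := by
    rw [hT₀, Set.image_preimage_inter]
    exact Set.inter_eq_left.mpr (pzTowerData_towerGens_subset N hN N)
  have hST : ({qExpand k N (jqModC k)} : Set (LaurentSeries k)) ⊆ T := by
    rw [Set.singleton_subset_iff, ← pzTowerData_xj_one (k := k) N hN]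
    exact (pzTowerData k N hN).xj_one_mem_towerGens N
  have hTu : ({qExpand k N (jqModC k)} : Set (LaurentSeries k)) ∪ T = T :=
    Set.union_eq_self_of_subset_left hST
  have h1 := bcd_relfinrank_adjoin_eq (k := k) ({qExpand k N (jqModC k)} : Set (LaurentSeries k)) T
  rw [hTu] at h1
  rw [h1, ← hTim, bcd_finrank_qExpand_eq] at h
  have := finiteDimensional_adjoin_igGenSet (K := k) N
  exact h.trans (bcd_finrank_adjoin_mono (K := ↥(kappaJ k)) Set.inter_subset_right)

end Fermat.Agent.Igusa
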