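/-
P9 / S28 (Igusa), package (D-d0): the abstract Puiseux tower.

`TowerData k Ω` packages everything the degree count `ψ(N) ≤ [k(j̄)(X_d, U_r) : k(j̄)]` needs from
the field `Ω = k((t))`, `t^N = q`:

* `J c n = j̄(c tⁿ)`, `G r c n = ḡ_r(c tⁿ)`, `Fq r c n = f̄_r(c tⁿ)` with `ḡ_r = r¹² Δ(Tʳ)/Δ(T)`,
  `f̄_r = Δ(T)/Δ(Tʳ)`;
* `lev m = k((t^m))`, the twists `tw ω : t ↦ ω t`;
* the root structure of the modular polynomials `Φ_r(X, J(cʳ, n))`, `Ψ_r(X, J(cʳ, n))`.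
-/
import Mathlib

set_option autoImplicit false

open Polynomial IntermediateField

noncomputable section

namespace Fermat.Agent.Igusa

/-- evaluation `k[Y] → Ω`, `Y ↦ y` -/
def twEv {k Ω : Type*} [Field k] [Field Ω] [Algebra k Ω] (y : Ω) : Polynomial k →+* Ω :=
  (Polynomial.aeval y : Polynomial k →ₐ[k] Ω).toRingHom

/-- The abstract Puiseux tower at level `N`. -/
structure TowerData (k : Type*) [Field k] (Ω : Type*) [Field Ω] [Algebra k Ω] where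
  /-- the level; `q = t ^ N` -/
  N : ℕ
  N_pos : 0 < N
  /-- `J c n = j̄(c tⁿ)` -/
  J : kˣ → ℕ → Ω
  /-- `G r c n = ḡ_r(c tⁿ)`, `ḡ_r = r¹² Δ(Tʳ)/Δ(T)` -/
  G : ℕ → kˣ → ℕ → Ω
  /-- `Fq r c n = f̄_r(c tⁿ)`, `f̄_r = Δ(T)/Δ(Tʳ)` -/
  Fq : ℕ → kˣ → ℕ → Ω
  /-- `lev m = k((t^m))` -/
  lev : ℕ → IntermediateField k Ω
  /-- the twist `t ↦ ω t` -/
  tw : kˣ → (Ω ≃ₐ[k] Ω)
  /-- the modular polynomials `Φ_r ∈ k[Y][X]` -/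
  Phi : ℕ → Polynomial (Polynomial k)
  /-- the polynomials `Ψ_r ∈ k[Y][X]` of the modular units -/
  Psi : ℕ → Polynomial (Polynomial k)
  lev_anti : ∀ {m m' : ℕ}, m ∣ m' → lev m' ≤ lev m
  J_mem : ∀ (c : kˣ) {m n : ℕ}, m ∣ n → J c n ∈ lev m
  G_mem : ∀ (r : ℕ) (c : kˣ) {m n : ℕ}, m ∣ n → G r c n ∈ lev m
  Fq_mem : ∀ (r : ℕ) (c : kˣ) {m n : ℕ}, m ∣ n → Fq r c n ∈ lev m
  /-- orders: `ord_t J(c,n) = -n`, leading coefficient `c⁻¹` -/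
  J_inj : ∀ {c c' : kˣ} {n n' : ℕ}, 0 < n → 0 < n' → J c n = J c' n' → n = n' ∧ c = c'
  /-- `ord_t F_r(c,n) = (1-r) n` is divisible by `m` if `F_r(c,n) ∈ k((t^m))` -/
  dvd_of_Fq_mem : ∀ {r : ℕ} (c : kˣ) {m n : ℕ}, r.Prime → r ∣ N → Fq r c n ∈ lev m →
    m ∣ (r - 1) * n
  /-- `ord_t G_r(c,n) = (r-1) n` is divisible by `m` if `G_r(c,n) ∈ k((t^m))` -/
  dvd_of_G_mem : ∀ {r : ℕ} (c : kˣ) {m n : ℕ}, r.Prime → r ∣ N → G r c n ∈ lev m →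
    m ∣ (r - 1) * n
  /-- leading coefficient of `F_r(c,n)` is `c^(1-r)` -/
  Fq_inj : ∀ {r : ℕ} {c c' : kˣ} {n : ℕ}, r.Prime → r ∣ N → 0 < n → c ^ r = 1 → c' ^ r = 1 →
    Fq r c n = Fq r c' n → c = c'
  G_mul_Fq : ∀ {r : ℕ} (c : kˣ) (n : ℕ), r.Prime → r ∣ N → G r c n * Fq r c n = (r : Ω) ^ 12
  natCast_ne_zero : ∀ {r : ℕ}, r.Prime → r ∣ N → (r : Ω) ≠ 0
  tw_J : ∀ (ω c : kˣ) (n : ℕ), tw ω (J c n) = J (c * ω ^ n) n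
  tw_Fq : ∀ (r : ℕ) (ω c : kˣ) (n : ℕ), tw ω (Fq r c n) = Fq r (c * ω ^ n) n
  tw_lev : ∀ (ω : kˣ) {m : ℕ}, ω ^ m = 1 → ∀ x ∈ lev m, tw ω x = x
  /-- roots of `Φ_r(X, j̄(s))`, `s = cʳ tⁿ`: `j̄(sʳ)` and `j̄(ζᵇ s^{1/r})` -/
  Phi_roots : ∀ {r : ℕ} (c : kˣ) {ζ : kˣ} {n : ℕ}, r.Prime → r ∣ N → IsPrimitiveRoot ζ r →
    r ∣ n → 0 < n →
    (Phi r).map (twEv (J (c ^ r) n)) =
      (X - C (J (c ^ (r ^ 2)) (n * r))) * ∏ b ∈ Finset.range r, (X - C (J (ζ ^ b * c) (n / r)))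
  /-- roots of `Ψ_r(X, j̄(s))`, `s = cʳ tⁿ`: `ḡ_r(s)` and `f̄_r(ζᵇ s^{1/r})` -/
  Psi_roots : ∀ {r : ℕ} (c : kˣ) {ζ : kˣ} {n : ℕ}, r.Prime → r ∣ N → IsPrimitiveRoot ζ r →
    r ∣ n → 0 < n →
    (Psi r).map (twEv (J (c ^ r) n)) =
      (X - C (G r (c ^ r) n)) * ∏ b ∈ Finset.range r, (X - C (Fq r (ζ ^ b * c) (n / r)))
  /-- `k` contains a primitive `N`-th root of unity … -/
  exists_primitiveRoot : ∃ ω : kˣ, IsPrimitiveRoot ω N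
  /-- … and `r`-th roots of all its units -/
  exists_root : ∀ {r : ℕ} (c : kˣ), r.Prime → r ∣ N → ∃ c₀ : kˣ, c₀ ^ r = c
  /-- prime level (3a): the unit `U_r = ḡ_r(q)` is not a rational function of `j̄(q)` -/
  U_not_mem : ∀ {r : ℕ}, r.Prime → r ∣ N → G r 1 N ∉ IntermediateField.adjoin k {J 1 N}

end Fermat.Agent.Igusa
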