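/-
P9 / S28 (Igusa), package (D-d0): general lemmas on partial field embeddings
(`IntermediateField.Lifts k Ω Ω`) used by the abstract Puiseux tower.
-/
import Mathlib
import Fermat.Agent.Lib.Igusa.TowerData

set_option autoImplicit false

open Polynomial IntermediateField

noncomputable section

namespace Fermat.Agent.Igusa

variable {k Ω : Type*} [Field k] [Field Ω] [Algebra k Ω]

/-! ### Values of a lift -/

open Classical in
/-- the value of a partial embedding, `0` outside its domain -/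
def twVal (σ : Lifts k Ω Ω) (x : Ω) : Ω :=
  if h : x ∈ σ.carrier then σ.emb ⟨x, h⟩ else 0

theorem twVal_eq (σ : Lifts k Ω Ω) {x : Ω} (h : x ∈ σ.carrier) : twVal σ x = σ.emb ⟨x, h⟩ := by
  rw [twVal, dif_pos h]

theorem twVal_mono {σ τ : Lifts k Ω Ω} (h : σ ≤ τ) {x : Ω} (hx : x ∈ σ.carrier) :
    twVal τ x = twVal σ x := by
  rw [twVal_eq τ (h.1 hx), twVal_eq σ hx]
  exact h.2 ⟨x, hx⟩

theorem twVal_algebraMap (σ : Lifts k Ω Ω) (c : k) :
    twVal σ (algebraMap k Ω c) = algebraMap k Ω c := by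
  rw [twVal_eq σ (σ.carrier.algebraMap_mem c)]
  exact σ.emb.commutes c

theorem twVal_mul (σ : Lifts k Ω Ω) {x y : Ω} (hx : x ∈ σ.carrier) (hy : y ∈ σ.carrier) :
    twVal σ (x * y) = twVal σ x * twVal σ y := by
  rw [twVal_eq σ hx, twVal_eq σ hy, twVal_eq σ (mul_mem hx hy), ← map_mul]
  rfl

theorem twVal_natCast (σ : Lifts k Ω Ω) (n : ℕ) : twVal σ (n : Ω) = (n : Ω) := by
  have h := twVal_algebraMap σ (n : k)
  rwa [map_natCast] at h

theorem twVal_pow (σ : Lifts k Ω Ω) {x : Ω} (hx : x ∈ σ.carrier) (n : ℕ) :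
    twVal σ (x ^ n) = twVal σ x ^ n := by
  rw [twVal_eq σ hx, twVal_eq σ (pow_mem hx n), ← map_pow]
  rfl

theorem twVal_injective (σ : Lifts k Ω Ω) {x y : Ω} (hx : x ∈ σ.carrier) (hy : y ∈ σ.carrier)
    (h : twVal σ x = twVal σ y) : x = y := by
  rw [twVal_eq σ hx, twVal_eq σ hy] at h
  have := σ.emb.injective h
  exact congrArg Subtype.val this

/-- the evaluation `k[Y] → σ.carrier` -/
def twEvIn (σ : Lifts k Ω Ω) {x : Ω} (hx : x ∈ σ.carrier) : Polynomial k →+* σ.carrier :=
  (Polynomial.aeval (⟨x, hx⟩ : σ.carrier) : Polynomial k →ₐ[k] σ.carrier).toRingHom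

theorem twEvIn_comp_val (σ : Lifts k Ω Ω) {x : Ω} (hx : x ∈ σ.carrier) :
    (σ.carrier.val : σ.carrier →+* Ω).comp (twEvIn σ hx) = twEv x := by
  apply Polynomial.ringHom_ext
  · intro a
    simp [twEvIn, twEv]
  · simp [twEvIn, twEv]

theorem twEvIn_comp_emb (σ : Lifts k Ω Ω) {x : Ω} (hx : x ∈ σ.carrier) :
    (σ.emb : σ.carrier →+* Ω).comp (twEvIn σ hx) = twEv (twVal σ x) := by
  apply Polynomial.ringHom_ext
  · intro a
    simp [twEvIn, twEv]
  · simp [twEvIn, twEv, twVal_eq σ hx]

/-- a bivariate relation `P(s, x) = 0` is transported by a partial embedding -/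
theorem twVal_biv (σ : Lifts k Ω Ω) {x s : Ω} (hx : x ∈ σ.carrier) (hs : s ∈ σ.carrier)
    (P : Polynomial (Polynomial k)) (h : (P.map (twEv x)).eval s = 0) :
    (P.map (twEv (twVal σ x))).eval (twVal σ s) = 0 := by
  rw [eval_map] at h ⊢
  rw [← twEvIn_comp_val σ hx] at h
  rw [← twEvIn_comp_emb σ hx, twVal_eq σ hs]
  have h1 : (σ.carrier.val : σ.carrier →+* Ω) (P.eval₂ (twEvIn σ hx) ⟨s, hs⟩) = 0 := by
    rw [Polynomial.hom_eval₂]
    exact h
  have h2 : P.eval₂ (twEvIn σ hx) (⟨s, hs⟩ : σ.carrier) = 0 := by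
    apply Subtype.ext
    exact h1
  have h3 := congrArg (σ.emb : σ.carrier →+* Ω) h2
  rw [Polynomial.hom_eval₂, map_zero] at h3
  exact h3

/-! ### Extending partial embeddings -/

/-- extension of a partial embedding to a simple algebraic extension, with a prescribed root
(general form, source and target fields distinct) -/
theorem exists_lift_of_root_aux {F E K : Type*} [Field F] [Field E] [Field K] [Algebra F E]
    [Algebra F K] (x : Lifts F E K) {s : E} (h1 : IsIntegral x.carrier s) {y : K}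
    (hy : ((minpoly x.carrier s).map x.emb.toRingHom).eval y = 0) :
    ∃ z : Lifts F E K, x ≤ z ∧ ∃ hs : s ∈ z.carrier, z.emb ⟨s, hs⟩ = y := by
  let _ : Algebra x.carrier K := x.emb.toRingHom.toAlgebra
  let carrier := x.carrier⟮s⟯.restrictScalars F
  let _ : Algebra x.carrier carrier := x.carrier⟮s⟯.toSubalgebra.algebra
  let φ : carrier →ₐ[x.carrier] K := ((algHomAdjoinIntegralEquiv x.carrier h1).symm
    ⟨y, by
      rw [mem_aroots, and_iff_right (minpoly.ne_zero h1)]
      exact (eval_map _ _).symm.trans hy⟩)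
  refine ⟨⟨carrier, (@algHomEquivSigma F x.carrier carrier K _ _ _ _ _ _ _ _
      (IsScalarTower.of_algebraMap_eq fun _ ↦ rfl)).symm ⟨x.emb, φ⟩⟩,
    ⟨fun z hz ↦ IntermediateField.algebraMap_mem x.carrier⟮s⟯ ⟨z, hz⟩, φ.commutes⟩,
    mem_adjoin_simple_self x.carrier s, ?_⟩
  exact algHomAdjoinIntegralEquiv_symm_apply_gen x.carrier h1 _

/-- extension of a partial embedding to a simple algebraic extension, with a prescribed root -/
theorem exists_lift_of_root (x : Lifts k Ω Ω) {s : Ω} (h1 : IsIntegral x.carrier s) {y : Ω}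
    (hy : ((minpoly x.carrier s).map x.emb.toRingHom).eval y = 0) :
    ∃ z : Lifts k Ω Ω, x ≤ z ∧ s ∈ z.carrier ∧ twVal z s = y := by
  obtain ⟨z, hz, hs, hzs⟩ := exists_lift_of_root_aux x h1 hy
  exact ⟨z, hz, hs, by rw [twVal_eq z hs, hzs]⟩

/-- the polynomial `P(X, x)` with coefficients in the domain of `σ` -/
def twPolyIn (σ : Lifts k Ω Ω) {x : Ω} (hx : x ∈ σ.carrier) (P : Polynomial (Polynomial k)) :
    Polynomial σ.carrier :=
  P.map (twEvIn σ hx)

theorem twPolyIn_map_val (σ : Lifts k Ω Ω) {x : Ω} (hx : x ∈ σ.carrier)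
    (P : Polynomial (Polynomial k)) :
    (twPolyIn σ hx P).map (algebraMap σ.carrier Ω) = P.map (twEv x) := by
  rw [twPolyIn, Polynomial.map_map]
  congr 1
  exact twEvIn_comp_val σ hx

theorem twPolyIn_map_emb (σ : Lifts k Ω Ω) {x : Ω} (hx : x ∈ σ.carrier)
    (P : Polynomial (Polynomial k)) :
    (twPolyIn σ hx P).map σ.emb.toRingHom = P.map (twEv (twVal σ x)) := by
  rw [twPolyIn, Polynomial.map_map]
  congr 1
  exact twEvIn_comp_emb σ hx

theorem twPolyIn_ne_zero (σ : Lifts k Ω Ω) {x : Ω} (hx : x ∈ σ.carrier)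
    (P : Polynomial (Polynomial k)) (hP : P.map (twEv x) ≠ 0) : twPolyIn σ hx P ≠ 0 := by
  intro h0
  apply hP
  rw [← twPolyIn_map_val σ hx, h0, Polynomial.map_zero]

theorem twPolyIn_aeval (σ : Lifts k Ω Ω) {x s : Ω} (hx : x ∈ σ.carrier)
    (P : Polynomial (Polynomial k)) (h : (P.map (twEv x)).eval s = 0) :
    aeval s (twPolyIn σ hx P) = 0 := by
  rw [aeval_def, ← eval_map, twPolyIn_map_val]
  exact h

/-- `s` is integral over the domain of `σ` if it is a root of `P(X, x)` -/
theorem isIntegral_of_biv (σ : Lifts k Ω Ω) {x s : Ω} (hx : x ∈ σ.carrier)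
    (P : Polynomial (Polynomial k)) (hP : P.map (twEv x) ≠ 0)
    (h : (P.map (twEv x)).eval s = 0) : IsIntegral σ.carrier s :=
  IsAlgebraic.isIntegral ⟨twPolyIn σ hx P, twPolyIn_ne_zero σ hx P hP, twPolyIn_aeval σ hx P h⟩

theorem minpoly_map_dvd_of_biv (σ : Lifts k Ω Ω) {x s : Ω} (hx : x ∈ σ.carrier)
    (P : Polynomial (Polynomial k)) (h : (P.map (twEv x)).eval s = 0) :
    (minpoly σ.carrier s).map σ.emb.toRingHom ∣ P.map (twEv (twVal σ x)) := by
  rw [← twPolyIn_map_emb σ hx]
  exact Polynomial.map_dvd _ (minpoly.dvd _ _ (twPolyIn_aeval σ hx P h))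

/-- extension of a partial embedding to a root of `P(X, x)` when `P(X, σ x)` splits -/
theorem exists_lift_of_biv_splits (σ : Lifts k Ω Ω) {x s : Ω} (hx : x ∈ σ.carrier)
    (P : Polynomial (Polynomial k)) (hP : P.map (twEv x) ≠ 0)
    (h : (P.map (twEv x)).eval s = 0) (hP' : P.map (twEv (twVal σ x)) ≠ 0)
    (hsplit : (P.map (twEv (twVal σ x))).Splits) :
    ∃ τ : Lifts k Ω Ω, σ ≤ τ ∧ s ∈ τ.carrier :=
  σ.exists_lift_of_splits' (isIntegral_of_biv σ hx P hP h)
    (hsplit.of_dvd hP' (minpoly_map_dvd_of_biv σ hx P h))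

/-! ### Degrees -/

/-- `[K(s) : K] = deg minpoly` in terms of `relfinrank` -/
theorem relfinrank_sup_adjoin_simple (K : IntermediateField k Ω) {s : Ω} (hs : IsIntegral K s) :
    K.relfinrank (K ⊔ k⟮s⟯) = (minpoly K s).natDegree := by
  rw [relfinrank_eq_finrank_of_le le_sup_left]
  have h1 : extendScalars (le_sup_left : K ≤ K ⊔ k⟮s⟯) = K⟮s⟯ := by
    apply restrictScalars_injective k
    rw [extendScalars_restrictScalars, restrictScalars_adjoin_eq_sup]
  rw [h1]
  exact adjoin.finrank hs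

/-- the restriction of a partial embedding to a subfield of its domain, as a ring hom -/
def twRes (σ : Lifts k Ω Ω) {K : IntermediateField k Ω} (hK : K ≤ σ.carrier) : K →+* Ω :=
  (σ.emb : σ.carrier →+* Ω).comp (inclusion hK : K →+* σ.carrier)

theorem twRes_apply (σ : Lifts k Ω Ω) {K : IntermediateField k Ω} (hK : K ≤ σ.carrier) (x : K) :
    twRes σ hK x = twVal σ (x : Ω) := by
  rw [twVal_eq σ (hK x.2)]
  rfl

/-- `σ s` is a root of the image of the minimal polynomial of `s` -/
theorem eval_minpoly_map_twRes (σ : Lifts k Ω Ω) {K : IntermediateField k Ω}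
    (hK : K ≤ σ.carrier) {s : Ω} (hs : s ∈ σ.carrier) :
    ((minpoly K s).map (twRes σ hK)).eval (twVal σ s) = 0 := by
  have h0 : aeval s (minpoly K s) = 0 := minpoly.aeval K s
  rw [aeval_def] at h0
  have h1 : (minpoly K s).eval₂ (inclusion hK : K →+* σ.carrier) (⟨s, hs⟩ : σ.carrier) = 0 := by
    apply Subtype.ext
    have := Polynomial.hom_eval₂ (minpoly K s) (inclusion hK : K →+* σ.carrier)
      (σ.carrier.val : σ.carrier →+* Ω) ⟨s, hs⟩
    rw [ZeroMemClass.coe_zero]
    refine Eq.trans ?_ h0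
    exact this
  have h2 := congrArg (σ.emb : σ.carrier →+* Ω) h1
  rw [Polynomial.hom_eval₂, map_zero] at h2
  rw [eval_map, twVal_eq σ hs]
  exact h2

/-- **Counting conjugates.**  If ring endomorphisms `τ i` of `Ω` fix `σ(K)` pointwise and move
`σ(s)` to pairwise distinct elements, then `[K(s) : K] ≥ #{τ i}`. -/
theorem card_le_natDegree_minpoly (σ : Lifts k Ω Ω) {K : IntermediateField k Ω}
    (hK : K ≤ σ.carrier) {s : Ω} (hs : s ∈ σ.carrier) (hint : IsIntegral K s)
    {ι : Type*} (T : Finset ι) (τ : ι → Ω →+* Ω)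
    (hfix : ∀ i ∈ T, ∀ x ∈ K, τ i (twVal σ x) = twVal σ x)
    (hinj : Set.InjOn (fun i => τ i (twVal σ s)) T) :
    T.card ≤ (minpoly K s).natDegree := by
  classical
  set q := (minpoly K s).map (twRes σ hK) with hq
  have hq0 : q ≠ 0 := by
    rw [hq, Ne, Polynomial.map_eq_zero]
    exact minpoly.ne_zero hint
  have hdeg : q.natDegree = (minpoly K s).natDegree := natDegree_map _
  have hroot : ∀ i ∈ T, q.eval (τ i (twVal σ s)) = 0 := by
    intro i hi
    have h1 := eval_minpoly_map_twRes σ hK hs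
    have h2 := congrArg (τ i) h1
    rw [map_zero, ← Polynomial.eval₂_at_apply, eval₂_map] at h2
    rw [hq, eval_map]
    have h3 : (τ i).comp (twRes σ hK) = twRes σ hK := by
      ext x
      rw [RingHom.comp_apply, twRes_apply]
      exact hfix i hi x x.2
    rw [h3] at h2
    exact h2
  have hsub : (T.image (fun i => τ i (twVal σ s))).val ⊆ q.roots := by
    intro y hy
    rw [Finset.mem_val, Finset.mem_image] at hy
    obtain ⟨i, hi, rfl⟩ := hy
    rw [mem_roots hq0]
    exact hroot i hi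
  have := Polynomial.card_le_degree_of_subset_roots hsub
  rw [Finset.card_image_of_injOn hinj, hdeg] at this
  exact this

/-! ### The twist lemma -/

/-- **Twist lemma.**  `K` is fixed pointwise by `τ`, `P ∈ K[X]` is monic with roots `x'` and
`y 0, …, y (r-1)`, the latter pairwise distinct, different from `x'` and permuted cyclically by
`τ`.  If `x' ∉ K` then `P` is the minimal polynomial of `x'` over `K`. -/
theorem twMinpoly_eq_of_twist (K : IntermediateField k Ω) (τ : Ω →+* Ω) (hτ : ∀ x ∈ K, τ x = x)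
    (P : Polynomial K) (hPm : P.Monic) {r : ℕ} (hr : 0 < r) (x' : Ω) (y : ℕ → Ω)
    (hfac : P.map (algebraMap K Ω) = (X - C x') * ∏ b ∈ Finset.range r, (X - C (y b)))
    (hstep : ∀ b, b < r → τ (y b) = y ((b + 1) % r))
    (hinj : Set.InjOn y (Finset.range r)) (hxy : ∀ b, b < r → x' ≠ y b) (hx' : x' ∉ K) :
    minpoly K x' = P := by
  classical
  have hroot : aeval x' P = 0 := by
    rw [aeval_def, ← eval_map, hfac, eval_mul, eval_sub, eval_X, eval_C, sub_self, zero_mul]
  have hint : IsIntegral K x' := ⟨P, hPm, hroot⟩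
  set m := minpoly K x' with hm
  have hmP : m ∣ P := minpoly.dvd K x' hroot
  have hmm : m.Monic := minpoly.monic hint
  set mΩ := m.map (algebraMap K Ω) with hmΩ
  have hmΩm : mΩ.Monic := hmm.map _
  have hmΩ0 : mΩ ≠ 0 := hmΩm.ne_zero
  have hdegm : mΩ.natDegree = m.natDegree := natDegree_map _
  have hdvd : mΩ ∣ (X - C x') * ∏ b ∈ Finset.range r, (X - C (y b)) := by
    rw [← hfac]
    exact Polynomial.map_dvd _ hmP
  -- `τ` permutes the roots of `mΩ`
  have hτroot : ∀ z, mΩ.eval z = 0 → mΩ.eval (τ z) = 0 := by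
    intro z hz
    have h1 := congrArg τ hz
    rw [map_zero, ← Polynomial.eval₂_at_apply, hmΩ, eval₂_map] at h1
    rw [hmΩ, eval_map]
    have h2 : τ.comp (algebraMap K Ω) = algebraMap K Ω := by
      ext x
      exact hτ _ x.2
    rw [h2] at h1
    exact h1
  have hx'root : mΩ.eval x' = 0 := by
    rw [hmΩ, eval_map, ← aeval_def]
    exact minpoly.aeval K x'
  -- degree at least two
  have hdeg2 : 2 ≤ m.natDegree := by
    have h1 : m.natDegree ≠ 1 := by
      intro h1
      rw [hm, minpoly.natDegree_eq_one_iff] at h1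
      obtain ⟨z, hz⟩ := h1
      apply hx'
      rw [← hz]
      exact z.2
    have h0 : 0 < m.natDegree := minpoly.natDegree_pos hint
    omega
  -- some `y b` is a root
  have hex : ∃ b, b < r ∧ mΩ.eval (y b) = 0 := by
    by_contra hne
    have hne : ∀ b, b < r → ¬ mΩ.eval (y b) = 0 := fun b hb h0 => hne ⟨b, hb, h0⟩
    have hcop : IsCoprime mΩ (∏ b ∈ Finset.range r, (X - C (y b))) := by
      apply IsCoprime.prod_right
      intro b hb
      rw [Finset.mem_range] at hb
      apply IsCoprime.symm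
      rw [(irreducible_X_sub_C (y b)).coprime_iff_not_dvd, dvd_iff_isRoot]
      exact hne b hb
    have h1 : mΩ ∣ X - C x' := hcop.dvd_of_dvd_mul_right hdvd
    have h2 := natDegree_le_of_dvd h1 (X_sub_C_ne_zero x')
    rw [natDegree_X_sub_C, hdegm] at h2
    omega
  obtain ⟨b, hb, hyb⟩ := hex
  have hall : ∀ j, mΩ.eval (y ((b + j) % r)) = 0 := by
    intro j
    induction j with
    | zero => rw [add_zero, Nat.mod_eq_of_lt hb]; exact hyb
    | succ j ih =>
      have h1 := hτroot _ ih
      rw [hstep _ (Nat.mod_lt _ hr)] at h1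
      have h2 : ((b + j) % r + 1) % r = (b + (j + 1)) % r := by
        rw [Nat.add_mod, Nat.mod_mod, ← Nat.add_mod, add_assoc]
      rw [h2] at h1
      exact h1
  have hallc : ∀ c, c < r → mΩ.eval (y c) = 0 := by
    intro c hc
    have h1 := hall (c + r - b)
    have h2 : (b + (c + r - b)) % r = c := by
      have : b + (c + r - b) = c + r := by omega
      rw [this, Nat.add_mod_right, Nat.mod_eq_of_lt hc]
    rw [h2] at h1
    exact h1
  -- count the roots
  set Z : Finset Ω := insert x' ((Finset.range r).image y) with hZ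
  have hZsub : Z.val ⊆ mΩ.roots := by
    intro z hz
    rw [Finset.mem_val, hZ, Finset.mem_insert, Finset.mem_image] at hz
    rw [mem_roots hmΩ0]
    rcases hz with rfl | ⟨c, hc, rfl⟩
    · exact hx'root
    · exact hallc c (Finset.mem_range.mp hc)
  have hZcard : Z.card = r + 1 := by
    rw [hZ, Finset.card_insert_of_notMem, Finset.card_image_of_injOn hinj, Finset.card_range]
    intro hmem
    rw [Finset.mem_image] at hmem
    obtain ⟨c, hc, hcx⟩ := hmem
    exact hxy c (Finset.mem_range.mp hc) hcx.symm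
  have hcard := Polynomial.card_le_degree_of_subset_roots hZsub
  rw [hZcard, hdegm] at hcard
  -- degree of `P`
  have hdegP : P.natDegree = r + 1 := by
    have h1 := congrArg natDegree hfac
    rw [hPm.natDegree_map, natDegree_mul (X_sub_C_ne_zero x')
      (Finset.prod_ne_zero_iff.mpr fun b _ => X_sub_C_ne_zero (y b)), natDegree_X_sub_C,
      natDegree_prod_of_monic _ _ (fun b _ => monic_X_sub_C (y b))] at h1
    simp only [natDegree_X_sub_C, Finset.sum_const, Finset.card_range, smul_eq_mul, mul_one] at h1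
    omega
  exact (Polynomial.eq_of_monic_of_dvd_of_natDegree_le hmm hPm hmP (by omega)).symm

end Fermat.Agent.Igusa
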