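/-
P9 / S28 (Igusa), package (D-d0): the abstract Puiseux tower — the degree count
`ψ(N) ≤ [k(j̄)(X_{r^i}, U_r) : k(j̄)]` from `TowerData`.
-/
import Mathlib
import Fermat.Agent.Lib.Igusa.TowerData
import Fermat.Agent.Lib.Igusa.TowerLifts

set_option autoImplicit false

open Polynomial IntermediateField

noncomputable section

namespace Fermat.Agent.Igusa

namespace TowerData

variable {k Ω : Type*} [Field k] [Field Ω] [Algebra k Ω] (D : TowerData k Ω)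

/-- `X d = j̄(q^d)` -/
def xj (d : ℕ) : Ω := D.J 1 (D.N * d)

/-- `U r = r¹² Δ̄(qʳ)/Δ̄(q)` -/
def ur (r : ℕ) : Ω := D.G r 1 D.N

/-- the generators of the tower at level `M` -/
def towerGens (M : ℕ) : Set Ω :=
  {D.xj 1} ∪ {x | ∃ r i : ℕ, r.Prime ∧ 0 < i ∧ r ^ i ∣ M ∧ x = D.xj (r ^ i)} ∪
    {x | ∃ r : ℕ, r.Prime ∧ r ∣ M ∧ x = D.ur r}

/-- the field `K_M` -/
def KM (M : ℕ) : IntermediateField k Ω := adjoin k (D.towerGens M)

theorem xj_one_mem_towerGens (M : ℕ) : D.xj 1 ∈ D.towerGens M :=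
  Or.inl (Or.inl rfl)

theorem xj_pow_mem_towerGens {M r i : ℕ} (hr : r.Prime) (hi : 0 < i) (h : r ^ i ∣ M) :
    D.xj (r ^ i) ∈ D.towerGens M :=
  Or.inl (Or.inr ⟨r, i, hr, hi, h, rfl⟩)

theorem ur_mem_towerGens {M r : ℕ} (hr : r.Prime) (h : r ∣ M) : D.ur r ∈ D.towerGens M :=
  Or.inr ⟨r, hr, h, rfl⟩

theorem xj_one_mem_KM (M : ℕ) : D.xj 1 ∈ D.KM M := subset_adjoin k _ (D.xj_one_mem_towerGens M)

theorem xj_pow_mem_KM {M r i : ℕ} (hr : r.Prime) (h : r ^ i ∣ M) : D.xj (r ^ i) ∈ D.KM M := by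
  rcases Nat.eq_zero_or_pos i with rfl | hi
  · rw [pow_zero]; exact D.xj_one_mem_KM M
  · exact subset_adjoin k _ (D.xj_pow_mem_towerGens hr hi h)

theorem ur_mem_KM {M r : ℕ} (hr : r.Prime) (h : r ∣ M) : D.ur r ∈ D.KM M :=
  subset_adjoin k _ (D.ur_mem_towerGens hr h)

theorem towerGens_mono {M M' : ℕ} (h : M ∣ M') : D.towerGens M ⊆ D.towerGens M' := by
  rintro x ((hx | ⟨r, i, hr, hi, hri, rfl⟩) | ⟨r, hr, hrM, rfl⟩)
  · exact Or.inl (Or.inl hx)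
  · exact D.xj_pow_mem_towerGens hr hi (hri.trans h)
  · exact D.ur_mem_towerGens hr (hrM.trans h)

theorem KM_mono {M M' : ℕ} (h : M ∣ M') : D.KM M ≤ D.KM M' :=
  adjoin.mono k _ _ (D.towerGens_mono h)

theorem towerGens_one : D.towerGens 1 = {D.xj 1} := by
  ext x
  constructor
  · rintro ((hx | ⟨r, i, hr, hi, hri, rfl⟩) | ⟨r, hr, hrM, rfl⟩)
    · exact hx
    · exfalso
      have := Nat.dvd_one.mp hri
      have h2 : r = 1 := by
        rcases Nat.pow_eq_one.mp this with h | h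
        · exact h
        · omega
      exact hr.one_lt.ne' h2
    · exfalso
      exact hr.one_lt.ne' (Nat.dvd_one.mp hrM)
  · intro hx
    exact Or.inl (Or.inl hx)

/-- generators at a product of coprime levels -/
theorem towerGens_mul {a b : ℕ} (hab : a.Coprime b) :
    D.towerGens (a * b) = D.towerGens a ∪ D.towerGens b := by
  apply Set.Subset.antisymm
  · rintro x ((hx | ⟨r, i, hr, hi, hri, rfl⟩) | ⟨r, hr, hrM, rfl⟩)
    · rw [Set.mem_singleton_iff] at hx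
      rw [hx]
      exact Or.inl (D.xj_one_mem_towerGens a)
    · rcases (Nat.Coprime.isPrimePow_dvd_mul hab (hr.isPrimePow.pow hi.ne')).mp hri with h | h
      · exact Or.inl (D.xj_pow_mem_towerGens hr hi h)
      · exact Or.inr (D.xj_pow_mem_towerGens hr hi h)
    · rcases (Nat.Prime.dvd_mul hr).mp hrM with h | h
      · exact Or.inl (D.ur_mem_towerGens hr h)
      · exact Or.inr (D.ur_mem_towerGens hr h)
  · exact Set.union_subset (D.towerGens_mono (Dvd.intro _ rfl)) (D.towerGens_mono (Dvd.intro_left _ rfl))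

theorem KM_mul {a b : ℕ} (hab : a.Coprime b) : D.KM (a * b) = D.KM a ⊔ D.KM b := by
  rw [KM, towerGens_mul D hab, adjoin_union]
  rfl

/-! ### Roots of unity, root lists -/

theorem exists_primitiveRoot_of_dvd {r : ℕ} (hrN : r ∣ D.N) : ∃ ζ : kˣ, IsPrimitiveRoot ζ r := by
  obtain ⟨ω, hω⟩ := D.exists_primitiveRoot
  obtain ⟨a, ha⟩ := hrN
  refine ⟨ω ^ a, hω.pow D.N_pos ?_⟩
  rw [ha, mul_comm]

theorem Phi_root_cases (c₀ : kˣ) {ζ : kˣ} {r n : ℕ} (hr : r.Prime) (hrN : r ∣ D.N)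
    (hζ : IsPrimitiveRoot ζ r) (hrn : r ∣ n) (hn : 0 < n) {z : Ω}
    (hz : ((D.Phi r).map (twEv (D.J (c₀ ^ r) n))).eval z = 0) :
    z = D.J (c₀ ^ (r ^ 2)) (n * r) ∨ ∃ b, b < r ∧ z = D.J (ζ ^ b * c₀) (n / r) := by
  rw [D.Phi_roots c₀ hr hrN hζ hrn hn, eval_mul, eval_prod, mul_eq_zero,
    Finset.prod_eq_zero_iff] at hz
  rcases hz with hz | ⟨b, hb, hz⟩
  · left
    rwa [eval_sub, eval_X, eval_C, sub_eq_zero] at hz
  · right
    rw [eval_sub, eval_X, eval_C, sub_eq_zero] at hz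
    exact ⟨b, Finset.mem_range.mp hb, hz⟩

theorem Psi_root_cases (c₀ : kˣ) {ζ : kˣ} {r n : ℕ} (hr : r.Prime) (hrN : r ∣ D.N)
    (hζ : IsPrimitiveRoot ζ r) (hrn : r ∣ n) (hn : 0 < n) {z : Ω}
    (hz : ((D.Psi r).map (twEv (D.J (c₀ ^ r) n))).eval z = 0) :
    z = D.G r (c₀ ^ r) n ∨ ∃ b, b < r ∧ z = D.Fq r (ζ ^ b * c₀) (n / r) := by
  rw [D.Psi_roots c₀ hr hrN hζ hrn hn, eval_mul, eval_prod, mul_eq_zero,
    Finset.prod_eq_zero_iff] at hz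
  rcases hz with hz | ⟨b, hb, hz⟩
  · left
    rwa [eval_sub, eval_X, eval_C, sub_eq_zero] at hz
  · right
    rw [eval_sub, eval_X, eval_C, sub_eq_zero] at hz
    exact ⟨b, Finset.mem_range.mp hb, hz⟩

theorem twSplits_prod {ι : Type*} (s : Finset ι) (a : Ω) (f : ι → Ω) :
    ((X - C a) * ∏ b ∈ s, (X - C (f b))).Splits :=
  (Splits.X_sub_C a).mul (Splits.prod fun b _ => Splits.X_sub_C (f b))

theorem twMonic_prod {ι : Type*} (s : Finset ι) (a : Ω) (f : ι → Ω) :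
    ((X - C a) * ∏ b ∈ s, (X - C (f b))).Monic :=
  (monic_X_sub_C a).mul (monic_prod_of_monic _ _ fun b _ => monic_X_sub_C (f b))

theorem Phi_map_splits (c : kˣ) {r n : ℕ} (hr : r.Prime) (hrN : r ∣ D.N) (hrn : r ∣ n)
    (hn : 0 < n) : ((D.Phi r).map (twEv (D.J c n))).Splits := by
  obtain ⟨c₀, rfl⟩ := D.exists_root c hr hrN
  obtain ⟨ζ, hζ⟩ := D.exists_primitiveRoot_of_dvd hrN
  rw [D.Phi_roots c₀ hr hrN hζ hrn hn]
  exact twSplits_prod _ _ _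

theorem Phi_map_monic (c : kˣ) {r n : ℕ} (hr : r.Prime) (hrN : r ∣ D.N) (hrn : r ∣ n)
    (hn : 0 < n) : ((D.Phi r).map (twEv (D.J c n))).Monic := by
  obtain ⟨c₀, rfl⟩ := D.exists_root c hr hrN
  obtain ⟨ζ, hζ⟩ := D.exists_primitiveRoot_of_dvd hrN
  rw [D.Phi_roots c₀ hr hrN hζ hrn hn]
  exact twMonic_prod _ _ _

theorem Psi_map_splits (c : kˣ) {r n : ℕ} (hr : r.Prime) (hrN : r ∣ D.N) (hrn : r ∣ n)
    (hn : 0 < n) : ((D.Psi r).map (twEv (D.J c n))).Splits := by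
  obtain ⟨c₀, rfl⟩ := D.exists_root c hr hrN
  obtain ⟨ζ, hζ⟩ := D.exists_primitiveRoot_of_dvd hrN
  rw [D.Psi_roots c₀ hr hrN hζ hrn hn]
  exact twSplits_prod _ _ _

theorem Psi_map_monic (c : kˣ) {r n : ℕ} (hr : r.Prime) (hrN : r ∣ D.N) (hrn : r ∣ n)
    (hn : 0 < n) : ((D.Psi r).map (twEv (D.J c n))).Monic := by
  obtain ⟨c₀, rfl⟩ := D.exists_root c hr hrN
  obtain ⟨ζ, hζ⟩ := D.exists_primitiveRoot_of_dvd hrN
  rw [D.Psi_roots c₀ hr hrN hζ hrn hn]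
  exact twMonic_prod _ _ _

/-! ### The four relations -/

/-- `Φ_r(X_{dr}, X_d) = 0` -/
theorem Phi_rel_up {r : ℕ} (hr : r.Prime) (hrN : r ∣ D.N) {d : ℕ} (hd : 0 < d) :
    ((D.Phi r).map (twEv (D.xj d))).eval (D.xj (d * r)) = 0 := by
  obtain ⟨ζ, hζ⟩ := D.exists_primitiveRoot_of_dvd hrN
  have h := D.Phi_roots 1 hr hrN hζ (Dvd.dvd.mul_right hrN d) (Nat.mul_pos D.N_pos hd)
  rw [one_pow] at h
  unfold xj
  rw [h, eval_mul, eval_sub, eval_X, eval_C, one_pow, mul_assoc, sub_self, zero_mul]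

/-- `Φ_r(X_d, X_{dr}) = 0` -/
theorem Phi_rel_down {r : ℕ} (hr : r.Prime) (hrN : r ∣ D.N) {d : ℕ} (hd : 0 < d) :
    ((D.Phi r).map (twEv (D.xj (d * r)))).eval (D.xj d) = 0 := by
  obtain ⟨ζ, hζ⟩ := D.exists_primitiveRoot_of_dvd hrN
  have h := D.Phi_roots 1 hr hrN hζ (n := D.N * (d * r))
    (Dvd.dvd.mul_left (Dvd.intro_left d rfl) D.N) (Nat.mul_pos D.N_pos (Nat.mul_pos hd hr.pos))
  rw [one_pow] at h
  unfold xj
  rw [h, eval_mul, eval_prod]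
  have h0 : (0 : ℕ) ∈ Finset.range r := Finset.mem_range.mpr hr.pos
  rw [Finset.prod_eq_zero h0, mul_zero]
  rw [eval_sub, eval_X, eval_C, pow_zero, one_mul, ← mul_assoc, Nat.mul_div_cancel _ hr.pos,
    sub_self]

/-- `Ψ_r(U_r, X_1) = 0` -/
theorem Psi_rel {r : ℕ} (hr : r.Prime) (hrN : r ∣ D.N) :
    ((D.Psi r).map (twEv (D.xj 1))).eval (D.ur r) = 0 := by
  obtain ⟨ζ, hζ⟩ := D.exists_primitiveRoot_of_dvd hrN
  have h := D.Psi_roots 1 hr hrN hζ (n := D.N * 1) (Dvd.dvd.mul_right hrN 1)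
    (Nat.mul_pos D.N_pos one_pos)
  rw [one_pow] at h
  unfold xj ur
  rw [h, eval_mul, eval_sub, eval_X, eval_C, mul_one, sub_self, zero_mul]

/-- `Ψ_r(r¹²/U_r, X_r) = 0` -/
theorem Psi_rel' {r : ℕ} (hr : r.Prime) (hrN : r ∣ D.N) :
    ((D.Psi r).map (twEv (D.xj r))).eval (D.Fq r 1 D.N) = 0 := by
  obtain ⟨ζ, hζ⟩ := D.exists_primitiveRoot_of_dvd hrN
  have h := D.Psi_roots 1 hr hrN hζ (n := D.N * r) (Dvd.intro_left _ rfl)
    (Nat.mul_pos D.N_pos hr.pos)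
  rw [one_pow] at h
  unfold xj
  rw [h, eval_mul, eval_prod]
  have h0 : (0 : ℕ) ∈ Finset.range r := Finset.mem_range.mpr hr.pos
  rw [Finset.prod_eq_zero h0, mul_zero]
  rw [eval_sub, eval_X, eval_C, pow_zero, one_mul, Nat.mul_div_cancel _ hr.pos, sub_self]

/-! ### Embeddings over `κ = k(X_1)` and their shape -/

/-- `σ` is an embedding over `κ = k(X_1)` -/
def IsKappa (σ : Lifts k Ω Ω) : Prop := D.xj 1 ∈ σ.carrier ∧ twVal σ (D.xj 1) = D.xj 1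

theorem IsKappa.mono {σ τ : Lifts k Ω Ω} (hσ : D.IsKappa σ) (h : σ ≤ τ) : D.IsKappa τ :=
  ⟨h.1 hσ.1, by rw [twVal_mono h hσ.1]; exact hσ.2⟩

/-- `σ(X_{r^j}) = j̄(c t^n)` with `n = N a / b`, `a b = r^j` -/
def Shape (σ : Lifts k Ω Ω) (r j : ℕ) : Prop :=
  ∃ (c : kˣ) (a b n : ℕ), a * b = r ^ j ∧ n * b = D.N * a ∧ twVal σ (D.xj (r ^ j)) = D.J c n

theorem shape_dvd {r j a b n : ℕ} (hr : r.Prime) (hrj : r ^ (j + 1) ∣ D.N)
    (hab : a * b = r ^ j) (hn : n * b = D.N * a) : r ∣ n ∧ 0 < n := by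
  have hpos : 0 < r ^ j := pow_pos hr.pos j
  have ha : 0 < a := Nat.pos_of_ne_zero (by rintro rfl; simp at hab; omega)
  have hb : 0 < b := Nat.pos_of_ne_zero (by rintro rfl; simp at hab; omega)
  have hbr : b * r ∣ D.N := by
    refine Dvd.dvd.trans ?_ hrj
    rw [pow_succ]
    exact Nat.mul_dvd_mul_right (Dvd.intro_left a hab) r
  obtain ⟨N₂, hN₂⟩ := hbr
  have h1 : n = r * N₂ * a := by
    apply Nat.eq_of_mul_eq_mul_right hb
    rw [hn, hN₂]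
    ring
  refine ⟨⟨N₂ * a, by rw [h1]; ring⟩, ?_⟩
  rw [h1]
  have hN₂pos : 0 < N₂ := Nat.pos_of_ne_zero (by
    rintro rfl
    have := D.N_pos
    rw [hN₂] at this
    simp at this)
  exact Nat.mul_pos (Nat.mul_pos hr.pos hN₂pos) ha

theorem xj_mem_lev (d : ℕ) {m : ℕ} (hm : m ∣ D.N) : D.xj d ∈ D.lev m :=
  D.J_mem 1 (Dvd.dvd.mul_right hm d)

theorem ur_mem_lev (r : ℕ) {m : ℕ} (hm : m ∣ D.N) : D.ur r ∈ D.lev m :=
  D.G_mem r 1 hm

theorem shape_succ (σ : Lifts k Ω Ω) {r j : ℕ} (hr : r.Prime) (hrj : r ^ (j + 1) ∣ D.N)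
    (h1 : D.xj (r ^ j) ∈ σ.carrier) (h2 : D.xj (r ^ (j + 1)) ∈ σ.carrier)
    (hs : D.Shape σ r j) : D.Shape σ r (j + 1) := by
  obtain ⟨c, a, b, n, hab, hn, hσ⟩ := hs
  have hrN : r ∣ D.N := Dvd.dvd.trans (dvd_pow_self r (Nat.succ_ne_zero j)) hrj
  obtain ⟨hrn, hnpos⟩ := D.shape_dvd hr hrj hab hn
  obtain ⟨c₀, rfl⟩ := D.exists_root c hr hrN
  obtain ⟨ζ, hζ⟩ := D.exists_primitiveRoot_of_dvd hrN
  have hrel := D.Phi_rel_up hr hrN (d := r ^ j) (pow_pos hr.pos j)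
  rw [← pow_succ] at hrel
  have h3 := twVal_biv σ h1 h2 (D.Phi r) hrel
  rw [hσ] at h3
  rcases D.Phi_root_cases c₀ hr hrN hζ hrn hnpos h3 with h4 | ⟨b', -, h4⟩
  · refine ⟨c₀ ^ (r ^ 2), a * r, b, n * r, ?_, ?_, h4⟩
    · rw [pow_succ, ← hab]; ring
    · rw [mul_assoc, mul_comm r b, ← mul_assoc, hn]; ring
  · refine ⟨ζ ^ b' * c₀, a, b * r, n / r, ?_, ?_, h4⟩
    · rw [pow_succ, ← hab]; ring
    · rw [mul_comm b r, ← mul_assoc, Nat.div_mul_cancel hrn, hn]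

theorem shape_zero (σ : Lifts k Ω Ω) (hσ : D.IsKappa σ) (r : ℕ) : D.Shape σ r 0 := by
  refine ⟨1, 1, 1, D.N * 1, by simp, by simp, ?_⟩
  rw [pow_zero, hσ.2]
  rfl

theorem shape_all (σ : Lifts k Ω Ω) (hσ : D.IsKappa σ) {r e : ℕ} (hr : r.Prime)
    (hre : r ^ e ∣ D.N) (hmem : ∀ j, j ≤ e → D.xj (r ^ j) ∈ σ.carrier) :
    ∀ j, j ≤ e → D.Shape σ r j := by
  intro j
  induction j with
  | zero => intro _; exact D.shape_zero σ hσ r
  | succ j ih =>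
    intro hj
    exact D.shape_succ σ hr (Dvd.dvd.trans (pow_dvd_pow r hj) hre) (hmem j (by omega))
      (hmem (j + 1) hj) (ih (by omega))

/-- the image of `X_{r^j}` lies in `k((t^m))` if `m r^e = N`, `j ≤ e` -/
theorem Shape.mem_lev {σ : Lifts k Ω Ω} {r j : ℕ} (hs : D.Shape σ r j) {M m : ℕ}
    (hrM : r ^ j ∣ M) (hm : m * M = D.N) : twVal σ (D.xj (r ^ j)) ∈ D.lev m := by
  obtain ⟨c, a, b, n, hab, hn, hσ⟩ := hs
  rw [hσ]
  apply D.J_mem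
  obtain ⟨M₂, hM₂⟩ := hrM
  have hpos : 0 < r ^ j := by
    rcases Nat.eq_zero_or_pos (r ^ j) with h0 | h0
    · exfalso
      rw [h0, zero_mul] at hM₂
      rw [hM₂, mul_zero] at hm
      exact D.N_pos.ne hm
    · exact h0
  have hb : 0 < b := Nat.pos_of_ne_zero (by rintro rfl; simp at hab; omega)
  refine ⟨a * M₂ * a, ?_⟩
  apply Nat.eq_of_mul_eq_mul_right hb
  rw [hn, ← hm, hM₂, ← hab]
  ring

/-! ### Extending embeddings over `κ` to the tower -/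

theorem xj_eq_J (d : ℕ) : D.xj d = D.J ((1 : kˣ)) (D.N * d) := rfl

/-- adjoin `U_r` -/
theorem exists_lift_ur (σ : Lifts k Ω Ω) (hσ : D.IsKappa σ) {r : ℕ} (hr : r.Prime)
    (hrN : r ∣ D.N) : ∃ τ : Lifts k Ω Ω, σ ≤ τ ∧ D.ur r ∈ τ.carrier := by
  have hdvd : r ∣ D.N * 1 := Dvd.dvd.mul_right hrN 1
  have hpos : 0 < D.N * 1 := Nat.mul_pos D.N_pos one_pos
  have hmonic : ((D.Psi r).map (twEv (D.xj 1))).Monic := D.Psi_map_monic 1 hr hrN hdvd hpos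
  refine exists_lift_of_biv_splits σ hσ.1 (D.Psi r) hmonic.ne_zero (D.Psi_rel hr hrN) ?_ ?_
  · rw [hσ.2]; exact hmonic.ne_zero
  · rw [hσ.2]; exact D.Psi_map_splits 1 hr hrN hdvd hpos

/-- adjoin `X_{r^(j+1)}` -/
theorem exists_lift_xj_succ (σ : Lifts k Ω Ω) (hσ : D.IsKappa σ) {r j : ℕ} (hr : r.Prime)
    (hrj : r ^ (j + 1) ∣ D.N) (hmem : ∀ i, i ≤ j → D.xj (r ^ i) ∈ σ.carrier) :
    ∃ τ : Lifts k Ω Ω, σ ≤ τ ∧ D.xj (r ^ (j + 1)) ∈ τ.carrier := by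
  have hrN : r ∣ D.N := Dvd.dvd.trans (dvd_pow_self r (Nat.succ_ne_zero j)) hrj
  have hrjN : r ^ j ∣ D.N := Dvd.dvd.trans (pow_dvd_pow r (Nat.le_succ j)) hrj
  obtain ⟨c, a, b, n, hab, hn, hs⟩ := D.shape_all σ hσ hr hrjN hmem j le_rfl
  obtain ⟨hrn, hnpos⟩ := D.shape_dvd hr hrj hab hn
  have hdvd : r ∣ D.N * r ^ j := Dvd.dvd.mul_right hrN _
  have hpos : 0 < D.N * r ^ j := Nat.mul_pos D.N_pos (pow_pos hr.pos j)
  have hmonic : ((D.Phi r).map (twEv (D.xj (r ^ j)))).Monic :=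
    D.Phi_map_monic 1 hr hrN hdvd hpos
  have hrel := D.Phi_rel_up hr hrN (d := r ^ j) (pow_pos hr.pos j)
  rw [← pow_succ] at hrel
  refine exists_lift_of_biv_splits σ (hmem j le_rfl) (D.Phi r) hmonic.ne_zero hrel ?_ ?_
  · rw [hs]; exact (D.Phi_map_monic c hr hrN hrn hnpos).ne_zero
  · rw [hs]; exact D.Phi_map_splits c hr hrN hrn hnpos

/-- adjoin the whole chain `U_r, X_r, …, X_{r^e}` -/
theorem exists_lift_primePow (σ : Lifts k Ω Ω) (hσ : D.IsKappa σ) {r e : ℕ} (hr : r.Prime)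
    (he : 0 < e) (hre : r ^ e ∣ D.N) :
    ∃ τ : Lifts k Ω Ω, σ ≤ τ ∧ D.ur r ∈ τ.carrier ∧ ∀ j, j ≤ e → D.xj (r ^ j) ∈ τ.carrier := by
  have hrN : r ∣ D.N := Dvd.dvd.trans (dvd_pow_self r he.ne') hre
  obtain ⟨τ₀, h0, hU⟩ := D.exists_lift_ur σ hσ hr hrN
  have key : ∀ j, j ≤ e → ∃ τ : Lifts k Ω Ω, τ₀ ≤ τ ∧ ∀ i, i ≤ j → D.xj (r ^ i) ∈ τ.carrier := by
    intro j
    induction j with
    | zero =>
      intro _
      refine ⟨τ₀, le_rfl, fun i hi => ?_⟩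
      have : i = 0 := by omega
      rw [this, pow_zero]
      exact h0.1 hσ.1
    | succ j ih =>
      intro hj
      obtain ⟨τ, hτ, hmem⟩ := ih (by omega)
      have hτκ : D.IsKappa τ := (hσ.mono D h0).mono D hτ
      obtain ⟨τ', hτ', hnew⟩ := D.exists_lift_xj_succ τ hτκ hr
        (Dvd.dvd.trans (pow_dvd_pow r hj) hre) hmem
      refine ⟨τ', hτ.trans hτ', fun i hi => ?_⟩
      rcases Nat.lt_or_ge i (j + 1) with h | h
      · exact hτ'.1 (hmem i (by omega))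
      · have : i = j + 1 := by omega
        rw [this]; exact hnew
  obtain ⟨τ, hτ, hmem⟩ := key e le_rfl
  exact ⟨τ, h0.trans hτ, hτ.1 hU, hmem⟩

theorem towerGens_primePow_subset {p n : ℕ} (hp : p.Prime) {S : Set Ω} (h1 : D.xj 1 ∈ S)
    (hU : D.ur p ∈ S) (hX : ∀ j, j ≤ n → D.xj (p ^ j) ∈ S) : D.towerGens (p ^ n) ⊆ S := by
  rintro x ((hx | ⟨r, i, hr, hi, hri, rfl⟩) | ⟨r, hr, hrM, rfl⟩)
  · rw [Set.mem_singleton_iff] at hx
    rw [hx]; exact h1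
  · have hrp : r = p := by
      have h2 : r ∣ p ^ n := Dvd.dvd.trans (dvd_pow_self r hi.ne') hri
      exact (Nat.prime_dvd_prime_iff_eq hr hp).mp (hr.dvd_of_dvd_pow h2)
    subst hrp
    exact hX i ((Nat.pow_dvd_pow_iff_le_right hr.one_lt).mp hri)
  · have hrp : r = p := (Nat.prime_dvd_prime_iff_eq hr hp).mp (hr.dvd_of_dvd_pow hrM)
    subst hrp
    exact hU

/-- **Extension lemma.**  Every embedding over `κ` extends to `K_M`. -/
theorem exists_lift_KM {M : ℕ} (hM : M ∣ D.N) :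
    ∀ σ : Lifts k Ω Ω, D.IsKappa σ → ∃ τ : Lifts k Ω Ω, σ ≤ τ ∧ D.KM M ≤ τ.carrier := by
  induction M using Nat.recOnPrimePow with
  | zero =>
    exfalso
    exact D.N_pos.ne' (Nat.eq_zero_of_zero_dvd hM)
  | one =>
    intro σ hσ
    refine ⟨σ, le_rfl, ?_⟩
    rw [KM, towerGens_one, adjoin_simple_le_iff]
    exact hσ.1
  | prime_pow_mul a p n hp hpa hn ih =>
    intro σ hσ
    obtain ⟨τ₁, h1, hK1⟩ := ih (Dvd.dvd.trans (Dvd.intro_left _ rfl) hM) σ hσ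
    obtain ⟨τ₂, h2, hU, hX⟩ := D.exists_lift_primePow τ₁ (hσ.mono D h1) hp hn
      (Dvd.dvd.trans (Dvd.intro _ rfl) hM)
    refine ⟨τ₂, h1.trans h2, ?_⟩
    have hcop : (p ^ n).Coprime a := Nat.Coprime.pow_left n ((Nat.Prime.coprime_iff_not_dvd hp).mpr hpa)
    rw [D.KM_mul hcop, sup_le_iff]
    refine ⟨?_, hK1.trans h2.1⟩
    rw [KM, adjoin_le_iff]
    exact D.towerGens_primePow_subset hp ((h1.trans h2).1 hσ.1) hU hX

end TowerData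

end Fermat.Agent.Igusa
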