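/-
P9 / S28 (Igusa), package (D-d0), leaf L2: the image of `K_M` under an embedding over `κ`
lies in `k((t^m))`, `m M = N`.
-/
import Mathlib
import Fermat.Agent.Lib.Igusa.Tower

set_option autoImplicit false

open Polynomial IntermediateField

noncomputable section

namespace Fermat.Agent.Igusa

namespace TowerData

variable {k Ω : Type*} [Field k] [Field Ω] [Algebra k Ω] (D : TowerData k Ω)

/-- the elements of the domain of `σ` whose image lies in `L`, as an intermediate field -/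
def twlPre (σ : Lifts k Ω Ω) (L : IntermediateField k Ω) : IntermediateField k Ω :=
  IntermediateField.lift (L.comap σ.emb)

theorem twl_mem_pre_iff (σ : Lifts k Ω Ω) (L : IntermediateField k Ω) (x : Ω) :
    x ∈ twlPre σ L ↔ ∃ hx : x ∈ σ.carrier, σ.emb ⟨x, hx⟩ ∈ L := by
  unfold twlPre
  constructor
  · intro h
    have hx : x ∈ σ.carrier := IntermediateField.lift_le _ h
    refine ⟨hx, ?_⟩
    have h2 := (IntermediateField.mem_lift (⟨x, hx⟩ : σ.carrier)).mp h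
    exact h2
  · rintro ⟨hx, h⟩
    exact (IntermediateField.mem_lift (⟨x, hx⟩ : σ.carrier)).mpr h

theorem twl_mem_pre_of_twVal (σ : Lifts k Ω Ω) (L : IntermediateField k Ω) {x : Ω}
    (hx : x ∈ σ.carrier) (h : twVal σ x ∈ L) : x ∈ twlPre σ L := by
  rw [twl_mem_pre_iff]
  refine ⟨hx, ?_⟩
  rw [← twVal_eq σ hx]
  exact h

theorem twl_twVal_mem_of_mem_pre (σ : Lifts k Ω Ω) (L : IntermediateField k Ω) {x : Ω}
    (h : x ∈ twlPre σ L) : twVal σ x ∈ L := by
  rw [twl_mem_pre_iff] at h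
  obtain ⟨hx, h⟩ := h
  rw [twVal_eq σ hx]
  exact h

/-- image of `U_r` under an embedding over `κ` lies in `k((t^m))` if `m ∣ N / r` -/
theorem twl_twVal_ur_mem_lev (σ : Lifts k Ω Ω) (hσ : D.IsKappa σ) {r : ℕ} (hr : r.Prime)
    (hU : D.ur r ∈ σ.carrier) {M m : ℕ} (hm : m * M = D.N) (hrM : r ∣ M) :
    twVal σ (D.ur r) ∈ D.lev m := by
  have hrN : r ∣ D.N := by
    rw [← hm]
    exact Dvd.dvd.mul_left hrM m
  obtain ⟨ζ, hζ⟩ := D.exists_primitiveRoot_of_dvd hrN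
  have h3 := twVal_biv σ hσ.1 hU (D.Psi r) (D.Psi_rel hr hrN)
  rw [hσ.2] at h3
  have hx1 : D.xj 1 = D.J ((1 : kˣ) ^ r) (D.N * 1) := by
    rw [one_pow]
    rfl
  rw [hx1] at h3
  rcases D.Psi_root_cases 1 hr hrN hζ (Dvd.dvd.mul_right hrN 1) (Nat.mul_pos D.N_pos one_pos) h3
    with h4 | ⟨b, -, h4⟩
  · rw [h4]
    apply D.G_mem
    rw [mul_one, ← hm]
    exact Dvd.intro _ rfl
  · rw [h4]
    apply D.Fq_mem
    obtain ⟨M₂, rfl⟩ := hrM
    rw [mul_one, ← hm]
    have : m * (r * M₂) / r = m * M₂ := by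
      rw [mul_left_comm, Nat.mul_div_cancel_left _ hr.pos]
    rw [this]
    exact Dvd.intro _ rfl

/-- **Leaf L2.**  An embedding over `κ` defined on `K_M` maps it into `k((t^m))`, `m M = N`. -/
theorem twVal_mem_lev_of_mem_KM (σ : Lifts k Ω Ω) (hσ : D.IsKappa σ) {M m : ℕ}
    (hm : m * M = D.N) (hK : D.KM M ≤ σ.carrier) {x : Ω} (hx : x ∈ D.KM M) :
    twVal σ x ∈ D.lev m := by
  have hmN : m ∣ D.N := Dvd.intro _ hm
  have hMN : M ∣ D.N := Dvd.intro_left _ hm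
  have hle : D.KM M ≤ twlPre σ (D.lev m) := by
    rw [KM, adjoin_le_iff]
    rintro y ((hy | ⟨r, i, hr, hi, hri, rfl⟩) | ⟨r, hr, hrM, rfl⟩)
    · rw [Set.mem_singleton_iff] at hy
      rw [hy]
      apply twl_mem_pre_of_twVal σ _ hσ.1
      rw [hσ.2]
      exact D.xj_mem_lev 1 hmN
    · have hmem : ∀ j, j ≤ i → D.xj (r ^ j) ∈ σ.carrier := fun j hj =>
        hK (D.xj_pow_mem_KM hr (Dvd.dvd.trans (pow_dvd_pow r hj) hri))
      have hs := D.shape_all σ hσ hr (Dvd.dvd.trans hri hMN) hmem i le_rfl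
      exact twl_mem_pre_of_twVal σ _ (hmem i le_rfl) (hs.mem_lev D hri hm)
    · have hU : D.ur r ∈ σ.carrier := hK (D.ur_mem_KM hr hrM)
      exact twl_mem_pre_of_twVal σ _ hU (D.twl_twVal_ur_mem_lev σ hσ hr hU hm hrM)
  exact twl_twVal_mem_of_mem_pre σ _ (hle hx)

end TowerData

end Fermat.Agent.Igusa
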