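/-
P9 / S28 (Igusa), package (D-d0): Steps A and B of the abstract Puiseux tower.
-/
import Mathlib
import Fermat.Agent.Lib.Igusa.Tower

set_option autoImplicit false

open Polynomial IntermediateField

noncomputable section

namespace Fermat.Agent.Igusa

variable {k Ω : Type*} [Field k] [Field Ω] [Algebra k Ω]

/-! ### The identity lift and preimages -/

/-- the inclusion of an intermediate field as a partial embedding -/
def twId (K : IntermediateField k Ω) : Lifts k Ω Ω := ⟨K, K.val⟩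

theorem twId_carrier (K : IntermediateField k Ω) : (twId K).carrier = K := rfl

theorem twVal_twId (K : IntermediateField k Ω) {x : Ω} (hx : x ∈ K) : twVal (twId K) x = x := by
  rw [twVal_eq (twId K) (show x ∈ (twId K).carrier from hx)]
  rfl

theorem twVal_of_twId_le {K : IntermediateField k Ω} {σ : Lifts k Ω Ω} (h : twId K ≤ σ) {x : Ω}
    (hx : x ∈ K) : twVal σ x = x := by
  rw [twVal_mono h (show x ∈ (twId K).carrier from hx), twVal_twId K hx]

/-- the elements of the domain of `σ` which `σ` maps into `L` -/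
def twPre (σ : Lifts k Ω Ω) (L : IntermediateField k Ω) : IntermediateField k Ω :=
  IntermediateField.lift (L.comap σ.emb)

theorem mem_twPre (σ : Lifts k Ω Ω) (L : IntermediateField k Ω) {x : Ω} :
    x ∈ twPre σ L ↔ x ∈ σ.carrier ∧ twVal σ x ∈ L := by
  constructor
  · intro hx
    have hx' : x ∈ σ.carrier := IntermediateField.lift_le _ hx
    refine ⟨hx', ?_⟩
    rw [twVal_eq σ hx']
    have h1 : (⟨x, hx'⟩ : σ.carrier) ∈ L.comap σ.emb :=
      (IntermediateField.mem_lift (⟨x, hx'⟩ : σ.carrier)).mp hx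
    exact h1
  · rintro ⟨hx', hL⟩
    rw [twVal_eq σ hx'] at hL
    exact (IntermediateField.mem_lift (⟨x, hx'⟩ : σ.carrier)).mpr hL

namespace TowerData

variable (D : TowerData k Ω)

/-! ### Step A -/

theorem KM_le_lev (M : ℕ) : D.KM M ≤ D.lev D.N := by
  rw [KM, adjoin_le_iff]
  rintro x ((hx | ⟨r, i, hr, hi, hri, rfl⟩) | ⟨r, hr, hrM, rfl⟩)
  · rw [Set.mem_singleton_iff] at hx
    rw [hx]
    exact D.xj_mem_lev 1 dvd_rfl
  · exact D.xj_mem_lev _ dvd_rfl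
  · exact D.ur_mem_lev r dvd_rfl

theorem KM_one : D.KM 1 = IntermediateField.adjoin k {D.J 1 D.N} := by
  rw [KM, towerGens_one, xj, mul_one]

/-- the polynomial `Ψ_r(X, X_1)` over a field `K ∋ X_1` -/
def psiOver (K : IntermediateField k Ω) (h1 : D.xj 1 ∈ K) (r : ℕ) : Polynomial K :=
  twPolyIn (twId K) (show D.xj 1 ∈ (twId K).carrier from h1) (D.Psi r)

theorem psiOver_map (K : IntermediateField k Ω) (h1 : D.xj 1 ∈ K) (r : ℕ) :
    (D.psiOver K h1 r).map (algebraMap K Ω) = (D.Psi r).map (twEv (D.xj 1)) :=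
  twPolyIn_map_val (twId K) _ (D.Psi r)

/-- the conjugates `y_b = f̄_r(ζ^b q^{1/r})` of `U_r` -/
def yb (r : ℕ) (ζ : kˣ) (b : ℕ) : Ω := D.Fq r (ζ ^ b * 1) (D.N / r)

theorem psi_map_eq {r : ℕ} (hr : r.Prime) (hrN : r ∣ D.N) {ζ : kˣ} (hζ : IsPrimitiveRoot ζ r) :
    (D.Psi r).map (twEv (D.xj 1)) =
      (X - C (D.ur r)) * ∏ b ∈ Finset.range r, (X - C (D.yb r ζ b)) := by
  have h := D.Psi_roots 1 hr hrN hζ (n := D.N * 1) (Dvd.dvd.mul_right hrN 1)
    (Nat.mul_pos D.N_pos one_pos)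
  rw [one_pow] at h
  rw [xj, h, ur, mul_one]
  rfl

/-- **Step A, part 1**: if `U_r ∉ K` (`X_1 ∈ K ⊆ k((q))`) then `Ψ_r(X, X_1)` is the minimal
polynomial of `U_r` over `K`. -/
theorem minpoly_ur (K : IntermediateField k Ω) (h1 : D.xj 1 ∈ K) (hK : K ≤ D.lev D.N) {r : ℕ}
    (hr : r.Prime) (hrN : r ∣ D.N) (hU : D.ur r ∉ K) :
    minpoly K (D.ur r) = D.psiOver K h1 r := by
  obtain ⟨ω, hω⟩ := D.exists_primitiveRoot
  obtain ⟨a, ha⟩ := hrN
  have hapos : 0 < a := Nat.pos_of_ne_zero (by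
    rintro rfl
    have := D.N_pos
    rw [ha, mul_zero] at this
    exact lt_irrefl _ this)
  have hζ : IsPrimitiveRoot (ω ^ a) r := hω.pow D.N_pos (by rw [ha, mul_comm])
  set ζ := ω ^ a with hζdef
  have hrN : r ∣ D.N := ⟨a, ha⟩
  have hNr : D.N / r = a := by rw [ha, Nat.mul_div_cancel_left _ hr.pos]
  have hfac := D.psi_map_eq hr hrN hζ
  rw [← D.psiOver_map K h1 r] at hfac
  have hmonic : (D.psiOver K h1 r).Monic := by
    apply Polynomial.monic_of_injective (algebraMap K Ω).injective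
    rw [hfac]
    exact twMonic_prod _ _ _
  have hstep : ∀ b, b < r → (D.tw ω : Ω →+* Ω) (D.yb r ζ b) = D.yb r ζ ((b + 1) % r) := by
    intro b _
    show D.tw ω (D.Fq r (ζ ^ b * 1) (D.N / r)) = D.Fq r (ζ ^ ((b + 1) % r) * 1) (D.N / r)
    rw [D.tw_Fq, hNr, ← hζdef, ← pow_eq_pow_mod (b + 1) hζ.pow_eq_one, pow_succ]
    congr 1
    rw [mul_one, mul_one]
  have hinj : Set.InjOn (D.yb r ζ) (Finset.range r) := by
    intro b hb b' hb' hbb'
    rw [Finset.mem_coe, Finset.mem_range] at hb hb'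
    have h2 : ζ ^ b * 1 = ζ ^ b' * 1 := by
      apply D.Fq_inj hr hrN (n := D.N / r) (by rw [hNr]; exact hapos) _ _ hbb'
      · rw [mul_one, ← pow_mul, mul_comm, pow_mul, hζ.pow_eq_one, one_pow]
      · rw [mul_one, ← pow_mul, mul_comm, pow_mul, hζ.pow_eq_one, one_pow]
    rw [mul_one, mul_one] at h2
    exact hζ.pow_inj hb hb' h2
  have hfix : ∀ x ∈ K, (D.tw ω : Ω →+* Ω) x = x := fun x hx =>
    D.tw_lev ω hω.pow_eq_one x (hK hx)
  have hxy : ∀ b, b < r → D.ur r ≠ D.yb r ζ b := by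
    intro b hb heq
    have h3 : (D.tw ω : Ω →+* Ω) (D.yb r ζ b) = D.yb r ζ b := by
      rw [← heq]
      exact D.tw_lev ω hω.pow_eq_one _ (D.ur_mem_lev r dvd_rfl)
    rw [hstep b hb] at h3
    have h4 := hinj (Finset.mem_coe.mpr (Finset.mem_range.mpr (Nat.mod_lt _ hr.pos)))
      (Finset.mem_coe.mpr (Finset.mem_range.mpr hb)) h3
    have h5 := hr.two_le
    rcases Nat.lt_or_ge (b + 1) r with h6 | h6
    · rw [Nat.mod_eq_of_lt h6] at h4
      omega
    · have : b + 1 = r := by omega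
      rw [this, Nat.mod_self] at h4
      omega
  exact twMinpoly_eq_of_twist K (D.tw ω : Ω →+* Ω) hfix (D.psiOver K h1 r) hmonic hr.pos
    (D.ur r) (D.yb r ζ) hfac hstep hinj hxy hU

/-- Q(M): every embedding over `κ` maps `K_M` into `k((q^{1/M}))` -/
def LevProp : Prop :=
  ∀ (σ : Lifts k Ω Ω), D.IsKappa σ → ∀ {M m : ℕ}, m * M = D.N → D.KM M ≤ σ.carrier →
    ∀ {x : Ω}, x ∈ D.KM M → twVal σ x ∈ D.lev m

theorem isIntegral_ur (K : IntermediateField k Ω) (h1 : D.xj 1 ∈ K) {r : ℕ} (hr : r.Prime)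
    (hrN : r ∣ D.N) : IsIntegral K (D.ur r) := by
  have hmonic : ((D.Psi r).map (twEv (D.xj 1))).Monic :=
    D.Psi_map_monic 1 hr hrN (Dvd.dvd.mul_right hrN 1) (Nat.mul_pos D.N_pos one_pos)
  exact isIntegral_of_biv (twId K) (show D.xj 1 ∈ (twId K).carrier from h1) (D.Psi r)
    hmonic.ne_zero (D.Psi_rel hr hrN)

/-- a lift of the inclusion of `K` sending `U_r` to `y_0 = f̄_r(q^{1/r})`, when `U_r ∉ K` -/
theorem exists_lift_ur_eq_yb (K : IntermediateField k Ω) (h1 : D.xj 1 ∈ K) (hK : K ≤ D.lev D.N)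
    {r : ℕ} (hr : r.Prime) (hrN : r ∣ D.N) (hU : D.ur r ∉ K) :
    ∃ σ : Lifts k Ω Ω, twId K ≤ σ ∧ D.ur r ∈ σ.carrier ∧
      twVal σ (D.ur r) = D.Fq r 1 (D.N / r) := by
  obtain ⟨ζ, hζ⟩ := D.exists_primitiveRoot_of_dvd hrN
  have hmin := D.minpoly_ur K h1 hK hr hrN hU
  have hint := D.isIntegral_ur K h1 hr hrN
  have hy : ((minpoly (twId K).carrier (D.ur r)).map (twId K).emb.toRingHom).eval
      (D.Fq r 1 (D.N / r)) = 0 := by
    have h2 : ((D.psiOver K h1 r).map (algebraMap K Ω)).eval (D.Fq r 1 (D.N / r)) = 0 := by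
      rw [D.psiOver_map, D.psi_map_eq hr hrN hζ, eval_mul, eval_prod]
      have h0 : (0 : ℕ) ∈ Finset.range r := Finset.mem_range.mpr hr.pos
      rw [Finset.prod_eq_zero h0, mul_zero]
      rw [eval_sub, eval_X, eval_C, yb, pow_zero, one_mul, sub_self]
    rw [← hmin] at h2
    exact h2
  exact exists_lift_of_root (twId K) hint hy

/-- **Step A**: `U_r ∉ K_M` when `r ∤ M`. -/
theorem ur_not_mem_KM (hQ : D.LevProp) {M r : ℕ} (hr : r.Prime) (hrM : ¬ r ∣ M)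
    (hdiv : r * M ∣ D.N) : D.ur r ∉ D.KM M := by
  intro hmem
  have hrN : r ∣ D.N := Dvd.dvd.trans (Dvd.intro _ rfl) hdiv
  have hMN : M ∣ D.N := Dvd.dvd.trans (Dvd.intro_left _ rfl) hdiv
  -- the prime level case gives a lift of `κ → Ω` with `U_r ↦ y_0`
  have hU1 : D.ur r ∉ D.KM 1 := by
    rw [D.KM_one]
    exact D.U_not_mem hr hrN
  obtain ⟨σ₀, h0, hmem0, hval⟩ := D.exists_lift_ur_eq_yb (D.KM 1) (D.xj_one_mem_KM 1)
    (D.KM_le_lev 1) hr hrN hU1
  have hκ : D.IsKappa σ₀ :=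
    ⟨h0.1 (D.xj_one_mem_KM 1), twVal_of_twId_le h0 (D.xj_one_mem_KM 1)⟩
  obtain ⟨τ, hτ, hKτ⟩ := D.exists_lift_KM hMN σ₀ hκ
  have hm : D.N / M * M = D.N := Nat.div_mul_cancel hMN
  have h1 := hQ τ (hκ.mono D hτ) hm hKτ hmem
  have hval' : twVal τ (D.ur r) = D.Fq r 1 (D.N / r) := by
    rw [twVal_mono hτ hmem0, hval]
  rw [hval'] at h1
  have h2 := D.dvd_of_Fq_mem 1 hr hrN h1
  -- arithmetic: `N / M ∣ (r - 1) (N / r)` forces `r ∣ M`
  obtain ⟨N₃, hN₃⟩ := hdiv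
  have hMpos : 0 < M := Nat.pos_of_ne_zero (by
    rintro rfl
    have := D.N_pos
    rw [hN₃] at this
    simp at this)
  have hN₃pos : 0 < N₃ := Nat.pos_of_ne_zero (by
    rintro rfl
    have := D.N_pos
    rw [hN₃] at this
    simp at this)
  have e1 : D.N / M = r * N₃ := by
    rw [hN₃]
    have : r * M * N₃ = r * N₃ * M := by ring
    rw [this, Nat.mul_div_cancel _ hMpos]
  have e2 : D.N / r = M * N₃ := by
    rw [hN₃, mul_assoc, Nat.mul_div_cancel_left _ hr.pos]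
  rw [e1, e2] at h2
  have h3 : r ∣ (r - 1) * M := by
    have h4 : r * N₃ ∣ (r - 1) * M * N₃ := by
      have : (r - 1) * (M * N₃) = (r - 1) * M * N₃ := by ring
      rw [← this]; exact h2
    exact Nat.dvd_of_mul_dvd_mul_right hN₃pos h4
  rcases (Nat.Prime.dvd_mul hr).mp h3 with h5 | h5
  · have := Nat.le_of_dvd (by have := hr.two_le; omega) h5
    have := hr.two_le
    omega
  · exact hrM h5

/-! ### Step B: the chain at the cusp `0` -/

theorem ur_mul_Fq {r : ℕ} (hr : r.Prime) (hrN : r ∣ D.N) :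
    D.ur r * D.Fq r 1 D.N = (r : Ω) ^ 12 := D.G_mul_Fq 1 D.N hr hrN

theorem Fq_mem_of_ur_mem {K : IntermediateField k Ω} {r : ℕ} (hr : r.Prime) (hrN : r ∣ D.N)
    (hU : D.ur r ∈ K) : D.Fq r 1 D.N ∈ K := by
  have h1 := D.ur_mul_Fq hr hrN
  have hne : D.ur r ≠ 0 := by
    intro h0
    rw [h0, zero_mul] at h1
    exact pow_ne_zero 12 (D.natCast_ne_zero hr hrN) h1.symm
  have h2 : D.Fq r 1 D.N = (r : Ω) ^ 12 / D.ur r := by
    rw [← h1]
    field_simp
  rw [h2]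
  exact div_mem (pow_mem (IntermediateField.natCast_mem K r) 12) hU

/-- if `σ(U_r) = f̄_r(q^{1/r})` then `σ(r¹²/U_r) = ḡ_r(q^{1/r})` -/
theorem twVal_Fq_of_twVal_ur (σ : Lifts k Ω Ω) {r : ℕ} (hr : r.Prime) (hrN : r ∣ D.N)
    (hU : D.ur r ∈ σ.carrier) (hval : twVal σ (D.ur r) = D.Fq r 1 (D.N / r)) :
    twVal σ (D.Fq r 1 D.N) = D.G r 1 (D.N / r) := by
  have hF : D.Fq r 1 D.N ∈ σ.carrier := D.Fq_mem_of_ur_mem hr hrN hU
  have h1 := twVal_mul σ hU hF
  rw [D.ur_mul_Fq hr hrN, twVal_pow σ (IntermediateField.natCast_mem σ.carrier r), twVal_natCast,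
    hval] at h1
  have h2 := D.G_mul_Fq 1 (D.N / r) hr hrN
  have hne : D.Fq r 1 (D.N / r) ≠ 0 := by
    intro h0
    rw [h0, mul_zero] at h2
    exact pow_ne_zero 12 (D.natCast_ne_zero hr hrN) h2.symm
  apply mul_left_cancel₀ hne
  rw [← h1, ← h2, mul_comm]

/-- **first step of the chain**: `σ(U_r) = f̄_r(q^{1/r})` forces `σ(X_r) = j̄(ζ^b q^{1/r})` -/
theorem chain_one (σ : Lifts k Ω Ω) (hσ : D.IsKappa σ) {r : ℕ} (hr : r.Prime) (hrN : r ∣ D.N)
    (hU : D.ur r ∈ σ.carrier) (hX : D.xj r ∈ σ.carrier)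
    (hval : twVal σ (D.ur r) = D.Fq r 1 (D.N / r)) :
    ∃ c : kˣ, twVal σ (D.xj r) = D.J c (D.N / r) := by
  obtain ⟨ζ, hζ⟩ := D.exists_primitiveRoot_of_dvd hrN
  have hdvd : r ∣ D.N * 1 := Dvd.dvd.mul_right hrN 1
  have hpos : 0 < D.N * 1 := Nat.mul_pos D.N_pos one_pos
  have hrel := D.Phi_rel_up hr hrN (d := 1) one_pos
  rw [one_mul] at hrel
  have h3 := twVal_biv σ hσ.1 hX (D.Phi r) hrel
  have e1 : D.xj 1 = D.J ((1 : kˣ) ^ r) (D.N * 1) := by rw [one_pow]; rfl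
  rw [hσ.2, e1] at h3
  rcases D.Phi_root_cases 1 hr hrN hζ hdvd hpos h3 with h4 | ⟨b, -, h4⟩
  · -- excluded by the second `Ψ` identity
    exfalso
    have hF : D.Fq r 1 D.N ∈ σ.carrier := D.Fq_mem_of_ur_mem hr hrN hU
    have h5 := twVal_biv σ hX hF (D.Psi r) (D.Psi_rel' hr hrN)
    have e2 : D.J ((1 : kˣ) ^ r ^ 2) (D.N * 1 * r) = D.J ((1 : kˣ) ^ r) (D.N * r) := by
      rw [one_pow, one_pow, mul_one]
    rw [h4, D.twVal_Fq_of_twVal_ur σ hr hrN hU hval, e2] at h5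
    have hmem : D.G r 1 (D.N / r) ∈ D.lev D.N := by
      rcases D.Psi_root_cases 1 hr hrN hζ (Dvd.intro_left _ rfl)
        (Nat.mul_pos D.N_pos hr.pos) h5 with h6 | ⟨b, -, h6⟩
      · rw [h6]; exact D.G_mem r _ (Dvd.intro _ rfl)
      · rw [h6]
        apply D.Fq_mem r _
        rw [Nat.mul_div_cancel _ hr.pos]
    have h7 := D.dvd_of_G_mem 1 hr hrN hmem
    obtain ⟨a, ha⟩ := hrN
    have hapos : 0 < a := Nat.pos_of_ne_zero (by
      rintro rfl
      have := D.N_pos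
      rw [ha, mul_zero] at this
      exact lt_irrefl _ this)
    rw [ha, Nat.mul_div_cancel_left _ hr.pos] at h7
    have h8 : r ∣ r - 1 := Nat.dvd_of_mul_dvd_mul_right hapos h7
    have := Nat.le_of_dvd (by have := hr.two_le; omega) h8
    have := hr.two_le
    omega
  · refine ⟨ζ ^ b * 1, ?_⟩
    rw [h4, Nat.mul_one]

/-- **general step of the chain** -/
theorem chain_step (σ : Lifts k Ω Ω) {r i : ℕ} (hr : r.Prime) (hrN : r ∣ D.N)
    (h0 : D.xj (r ^ i) ∈ σ.carrier) (h1 : D.xj (r ^ (i + 1)) ∈ σ.carrier)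
    (h2 : D.xj (r ^ (i + 2)) ∈ σ.carrier) {c' c : kˣ} {n : ℕ} (hn : 0 < n) (hrn : r ∣ n)
    (hv0 : twVal σ (D.xj (r ^ i)) = D.J c' (n * r))
    (hv1 : twVal σ (D.xj (r ^ (i + 1))) = D.J c n) :
    ∃ c'' : kˣ, twVal σ (D.xj (r ^ (i + 2))) = D.J c'' (n / r) := by
  obtain ⟨ζ, hζ⟩ := D.exists_primitiveRoot_of_dvd hrN
  obtain ⟨c₀, rfl⟩ := D.exists_root c hr hrN
  have hup := D.Phi_rel_up hr hrN (d := r ^ (i + 1)) (pow_pos hr.pos _)
  rw [← pow_succ] at hup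
  have h3 := twVal_biv σ h1 h2 (D.Phi r) hup
  rw [hv1] at h3
  rcases D.Phi_root_cases c₀ hr hrN hζ hrn hn h3 with h4 | ⟨b, -, h4⟩
  · exfalso
    have hdown := D.Phi_rel_down hr hrN (d := r ^ i) (pow_pos hr.pos _)
    rw [← pow_succ] at hdown
    have h5 := twVal_biv σ h1 h0 (D.Phi r) hdown
    rw [hv1, hv0] at h5
    have hnr : 0 < n * r := Nat.mul_pos hn hr.pos
    have h6 : D.J c' (n * r) = D.J (c₀ ^ (r ^ 2)) (n * r) := by
      rcases D.Phi_root_cases c₀ hr hrN hζ hrn hn h5 with h6 | ⟨b, -, h6⟩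
      · exact h6
      · exfalso
        have h7 := (D.J_inj hnr (Nat.div_pos (Nat.le_of_dvd hn hrn) hr.pos) h6).1
        have h8 : n / r ≤ n := Nat.div_le_self n r
        have h9 : n < n * r := by
          have := hr.two_le
          nlinarith
        omega
    have h7 : twVal σ (D.xj (r ^ i)) = twVal σ (D.xj (r ^ (i + 2))) := by
      rw [hv0, h4, h6]
    have h8 := twVal_injective σ h0 h2 h7
    have h9 := (D.J_inj (Nat.mul_pos D.N_pos (pow_pos hr.pos _))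
      (Nat.mul_pos D.N_pos (pow_pos hr.pos _)) h8).1
    have h10 : r ^ i = r ^ (i + 2) := Nat.eq_of_mul_eq_mul_left D.N_pos h9
    have h11 := Nat.pow_right_injective hr.two_le h10
    omega
  · exact ⟨ζ ^ b * c₀, h4⟩

/-- the whole chain: `σ(X_{r^j}) = j̄(c_j q^{1/r^j})` for `j ≤ e` -/
theorem chain_all (σ : Lifts k Ω Ω) (hσ : D.IsKappa σ) {r e : ℕ} (hr : r.Prime) (he : 0 < e)
    (hre : r ^ e ∣ D.N) (hU : D.ur r ∈ σ.carrier)
    (hX : ∀ j, j ≤ e → D.xj (r ^ j) ∈ σ.carrier)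
    (hval : twVal σ (D.ur r) = D.Fq r 1 (D.N / r)) :
    ∀ j, j ≤ e → ∃ (c : kˣ) (n : ℕ), n * r ^ j = D.N ∧ twVal σ (D.xj (r ^ j)) = D.J c n := by
  have hrN : r ∣ D.N := Dvd.dvd.trans (dvd_pow_self r he.ne') hre
  have key : ∀ j, j + 1 ≤ e →
      (∃ (c : kˣ) (n : ℕ), n * r ^ j = D.N ∧ twVal σ (D.xj (r ^ j)) = D.J c n) ∧
      (∃ (c : kˣ) (n : ℕ), n * r ^ (j + 1) = D.N ∧
        twVal σ (D.xj (r ^ (j + 1))) = D.J c n) := by
    intro j
    induction j with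
    | zero =>
      intro _
      refine ⟨⟨1, D.N * 1, by simp, ?_⟩, ?_⟩
      · rw [pow_zero, hσ.2]; rfl
      · have hX1 : D.xj r ∈ σ.carrier := by
          have := hX 1 he
          rwa [pow_one] at this
        obtain ⟨c, hc⟩ := D.chain_one σ hσ hr hrN hU hX1 hval
        refine ⟨c, D.N / r, ?_, ?_⟩
        · rw [zero_add, pow_one]; exact Nat.div_mul_cancel hrN
        · rw [zero_add, pow_one]; exact hc
    | succ j ih =>
      intro hj
      obtain ⟨⟨c', n', hn', hv0⟩, ⟨c, n, hn, hv1⟩⟩ := ih (by omega)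
      refine ⟨⟨c, n, hn, hv1⟩, ?_⟩
      have hrpos : 0 < r ^ j := pow_pos hr.pos j
      -- `n' = n * r`
      have e1 : n' = n * r := by
        apply Nat.eq_of_mul_eq_mul_right hrpos
        rw [hn', ← hn, pow_succ]
        ring
      -- `r ∣ n`
      have hdiv : r ^ (j + 2) ∣ D.N := Dvd.dvd.trans (pow_dvd_pow r hj) hre
      have hrn : r ∣ n := by
        rw [← hn] at hdiv
        have h2 : r ^ (j + 1) * r ∣ r ^ (j + 1) * n := by
          rw [← pow_succ, mul_comm _ n]; exact hdiv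
        exact Nat.dvd_of_mul_dvd_mul_left (pow_pos hr.pos _) h2
      have hnpos : 0 < n := Nat.pos_of_ne_zero (by
        rintro rfl
        have := D.N_pos
        rw [← hn, zero_mul] at this
        exact lt_irrefl _ this)
      rw [e1] at hv0
      obtain ⟨c'', hc''⟩ := D.chain_step σ hr hrN (hX j (by omega)) (hX (j + 1) (by omega))
        (hX (j + 2) hj) hnpos hrn hv0 hv1
      refine ⟨c'', n / r, ?_, hc''⟩
      have e2 : n / r * r ^ (j + 1 + 1) = (n / r * r) * r ^ (j + 1) := by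
        rw [pow_succ]; ring
      rw [e2, Nat.div_mul_cancel hrn]
      exact hn
  intro j hj
  rcases Nat.eq_zero_or_pos j with rfl | hjpos
  · exact (key 0 (by omega)).1
  · obtain ⟨j', rfl⟩ := Nat.exists_eq_succ_of_ne_zero hjpos.ne'
    exact (key j' hj).2

/-! ### Step B: the intermediate fields and the degree count -/

/-- `BK M r 0 = K_M(U_r)`, `BK M r (i+1) = BK M r i (X_{r^(i+1)})` -/
def BK (M r : ℕ) : ℕ → IntermediateField k Ω
  | 0 => D.KM M ⊔ k⟮D.ur r⟯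
  | (i + 1) => BK M r i ⊔ k⟮D.xj (r ^ (i + 1))⟯

theorem BK_zero (M r : ℕ) : D.BK M r 0 = D.KM M ⊔ k⟮D.ur r⟯ := rfl

theorem BK_succ (M r i : ℕ) : D.BK M r (i + 1) = D.BK M r i ⊔ k⟮D.xj (r ^ (i + 1))⟯ := rfl

theorem BK_le_succ (M r i : ℕ) : D.BK M r i ≤ D.BK M r (i + 1) := le_sup_left

theorem BK_mono (M r : ℕ) {i j : ℕ} (h : i ≤ j) : D.BK M r i ≤ D.BK M r j := by
  induction j with
  | zero =>
    have : i = 0 := by omega
    rw [this]
  | succ j ih =>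
    rcases Nat.lt_or_ge i (j + 1) with h1 | h1
    · exact (ih (by omega)).trans (D.BK_le_succ M r j)
    · have : i = j + 1 := by omega
      rw [this]

theorem KM_le_BK (M r i : ℕ) : D.KM M ≤ D.BK M r i :=
  (le_sup_left : D.KM M ≤ D.BK M r 0).trans (D.BK_mono M r (Nat.zero_le i))

theorem ur_mem_BK (M r i : ℕ) : D.ur r ∈ D.BK M r i :=
  D.BK_mono M r (Nat.zero_le i)
    ((le_sup_right : k⟮D.ur r⟯ ≤ D.BK M r 0) (mem_adjoin_simple_self k _))

theorem xj_pow_mem_BK (M r : ℕ) {j i : ℕ} (h : j ≤ i) : D.xj (r ^ j) ∈ D.BK M r i := by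
  rcases Nat.eq_zero_or_pos j with rfl | hj
  · rw [pow_zero]
    exact D.KM_le_BK M r i (D.xj_one_mem_KM M)
  · obtain ⟨j', rfl⟩ := Nat.exists_eq_succ_of_ne_zero hj.ne'
    apply D.BK_mono M r h
    exact (le_sup_right : k⟮D.xj (r ^ (j' + 1))⟯ ≤ D.BK M r (j' + 1)) (mem_adjoin_simple_self k _)

/-- `BK M r e = K_{r^e M}` -/
theorem BK_eq_KM {M r e : ℕ} (hr : r.Prime) (hrM : ¬ r ∣ M) (he : 0 < e) :
    D.BK M r e = D.KM (r ^ e * M) := by
  have hcop : (r ^ e).Coprime M :=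
    Nat.Coprime.pow_left e ((Nat.Prime.coprime_iff_not_dvd hr).mpr hrM)
  apply le_antisymm
  · have hle : ∀ i, i ≤ e → D.BK M r i ≤ D.KM (r ^ e * M) := by
      intro i
      induction i with
      | zero =>
        intro _
        rw [BK_zero, sup_le_iff, adjoin_simple_le_iff]
        exact ⟨D.KM_mono (Dvd.intro_left _ rfl),
          D.ur_mem_KM hr (Dvd.dvd.mul_right (dvd_pow_self r he.ne') M)⟩
      | succ i ih =>
        intro hi
        rw [BK_succ, sup_le_iff, adjoin_simple_le_iff]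
        exact ⟨ih (by omega), D.xj_pow_mem_KM hr (Dvd.dvd.mul_right (pow_dvd_pow r hi) M)⟩
    exact hle e le_rfl
  · rw [D.KM_mul hcop, sup_le_iff]
    refine ⟨?_, D.KM_le_BK M r e⟩
    rw [KM, adjoin_le_iff]
    have h1 : D.xj 1 ∈ D.BK M r e := D.KM_le_BK M r e (D.xj_one_mem_KM M)
    exact D.towerGens_primePow_subset hr h1 (D.ur_mem_BK M r e)
      (fun j hj => D.xj_pow_mem_BK M r hj)

theorem isIntegral_xj_succ (K : IntermediateField k Ω) {r i : ℕ} (hr : r.Prime) (hrN : r ∣ D.N)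
    (h : D.xj (r ^ i) ∈ K) : IsIntegral K (D.xj (r ^ (i + 1))) := by
  have hmonic : ((D.Phi r).map (twEv (D.xj (r ^ i)))).Monic :=
    D.Phi_map_monic 1 hr hrN (Dvd.dvd.mul_right hrN _) (Nat.mul_pos D.N_pos (pow_pos hr.pos i))
  have hrel := D.Phi_rel_up hr hrN (d := r ^ i) (pow_pos hr.pos i)
  rw [← pow_succ] at hrel
  exact isIntegral_of_biv (twId K) (show D.xj (r ^ i) ∈ (twId K).carrier from h) (D.Phi r)
    hmonic.ne_zero hrel

theorem twNatDegree_prod {ι : Type*} (s : Finset ι) (a : Ω) (f : ι → Ω) :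
    ((X - C a) * ∏ b ∈ s, (X - C (f b))).natDegree = s.card + 1 := by
  rw [natDegree_mul (X_sub_C_ne_zero a)
    (Finset.prod_ne_zero_iff.mpr fun b _ => X_sub_C_ne_zero (f b)), natDegree_X_sub_C,
    natDegree_prod_of_monic _ _ (fun b _ => monic_X_sub_C (f b))]
  simp only [natDegree_X_sub_C, Finset.sum_const, smul_eq_mul, mul_one]
  omega

/-- **Step A, degree form**: `[K_M(U_r) : K_M] = r + 1` -/
theorem relfinrank_KM_BK_zero (hQ : D.LevProp) {M r : ℕ} (hr : r.Prime) (hrM : ¬ r ∣ M)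
    (hdiv : r * M ∣ D.N) : (D.KM M).relfinrank (D.BK M r 0) = r + 1 := by
  have hrN : r ∣ D.N := Dvd.dvd.trans (Dvd.intro _ rfl) hdiv
  obtain ⟨ζ, hζ⟩ := D.exists_primitiveRoot_of_dvd hrN
  rw [BK_zero, relfinrank_sup_adjoin_simple _ (D.isIntegral_ur _ (D.xj_one_mem_KM M) hr hrN),
    D.minpoly_ur _ (D.xj_one_mem_KM M) (D.KM_le_lev M) hr hrN (D.ur_not_mem_KM hQ hr hrM hdiv)]
  have h1 : ((D.psiOver (D.KM M) (D.xj_one_mem_KM M) r).map (algebraMap _ Ω)).natDegree =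
      r + 1 := by
    rw [D.psiOver_map, D.psi_map_eq hr hrN hζ, twNatDegree_prod, Finset.card_range]
  rw [natDegree_map] at h1
  exact h1

/-- **Step B, counting**: `[BK (i+1) : BK i] ≥ r` for `1 ≤ i < e`. -/
theorem relfinrank_BK_succ_ge (hQ : D.LevProp) {M r e i : ℕ} (hr : r.Prime) (hrM : ¬ r ∣ M)
    (hdiv : r ^ e * M ∣ D.N) (hi1 : 1 ≤ i) (hie : i + 1 ≤ e) :
    r ≤ (D.BK M r i).relfinrank (D.BK M r (i + 1)) := by
  have he : 0 < e := by omega
  have hreN : r ^ e ∣ D.N := Dvd.dvd.trans (Dvd.intro _ rfl) hdiv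
  have hrN : r ∣ D.N := Dvd.dvd.trans (dvd_pow_self r he.ne') hreN
  have hrMN : r * M ∣ D.N :=
    Dvd.dvd.trans (Nat.mul_dvd_mul_right (dvd_pow_self r he.ne') M) hdiv
  have hU : D.ur r ∉ D.KM M := D.ur_not_mem_KM hQ hr hrM hrMN
  obtain ⟨σ₁, hid₁, hU₁, hval₁⟩ := D.exists_lift_ur_eq_yb (D.KM M) (D.xj_one_mem_KM M)
    (D.KM_le_lev M) hr hrN hU
  have hκ₁ : D.IsKappa σ₁ :=
    ⟨hid₁.1 (D.xj_one_mem_KM M), twVal_of_twId_le hid₁ (D.xj_one_mem_KM M)⟩
  obtain ⟨σ, h1σ, hUσ, hXσ⟩ := D.exists_lift_primePow σ₁ hκ₁ hr he hreN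
  have hκ : D.IsKappa σ := hκ₁.mono D h1σ
  have hval : twVal σ (D.ur r) = D.Fq r 1 (D.N / r) := by rw [twVal_mono h1σ hU₁, hval₁]
  have hid : twId (D.KM M) ≤ σ := hid₁.trans h1σ
  have hchain := D.chain_all σ hκ hr he hreN hUσ hXσ hval
  -- the fields `BK i'` lie in the domain of `σ`
  have hBKσ : ∀ i', i' ≤ e → D.BK M r i' ≤ σ.carrier := by
    intro i'
    induction i' with
    | zero =>
      intro _
      rw [BK_zero, sup_le_iff, adjoin_simple_le_iff]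
      exact ⟨hid.1, hUσ⟩
    | succ i' ih =>
      intro hi'
      rw [BK_succ, sup_le_iff, adjoin_simple_le_iff]
      exact ⟨ih (by omega), hXσ _ hi'⟩
  -- `σ (BK i) ⊆ k((t^m))`, `m = N / r^i`
  have hriN : r ^ i ∣ D.N := Dvd.dvd.trans (pow_dvd_pow r (by omega)) hreN
  obtain ⟨m, hm⟩ := hriN
  have hmN : m ∣ D.N := ⟨r ^ i, by rw [hm, mul_comm]⟩
  have hpre : ∀ i', i' ≤ i → D.BK M r i' ≤ twPre σ (D.lev m) := by
    intro i'
    induction i' with
    | zero =>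
      intro _
      rw [BK_zero, sup_le_iff, adjoin_simple_le_iff]
      refine ⟨fun x hx => (mem_twPre σ _).mpr ⟨hid.1 hx, ?_⟩, (mem_twPre σ _).mpr ⟨hUσ, ?_⟩⟩
      · rw [twVal_of_twId_le hid hx]
        exact D.lev_anti hmN (D.KM_le_lev M hx)
      · rw [hval]
        apply D.Fq_mem
        obtain ⟨i₀, rfl⟩ := Nat.exists_eq_succ_of_ne_zero (show i ≠ 0 by omega)
        refine ⟨r ^ i₀, ?_⟩
        rw [hm, pow_succ]
        have : r ^ i₀ * r * m = r * (m * r ^ i₀) := by ring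
        rw [this, Nat.mul_div_cancel_left _ hr.pos]
    | succ i' ih =>
      intro hi'
      rw [BK_succ, sup_le_iff, adjoin_simple_le_iff]
      refine ⟨ih (by omega), (mem_twPre σ _).mpr ⟨hXσ _ (by omega), ?_⟩⟩
      obtain ⟨c, n, hn, hv⟩ := hchain (i' + 1) (by omega)
      rw [hv]
      apply D.J_mem
      obtain ⟨d, rfl⟩ := Nat.exists_eq_add_of_le hi'
      refine ⟨r ^ d, ?_⟩
      apply Nat.eq_of_mul_eq_mul_right (pow_pos hr.pos (i' + 1))
      rw [hn, hm, pow_add]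
      ring
  -- the twists
  obtain ⟨ω, hω⟩ := D.exists_primitiveRoot
  obtain ⟨c, n, hn, hv⟩ := hchain (i + 1) hie
  have hnpos : 0 < n := Nat.pos_of_ne_zero (by
    rintro rfl
    have := D.N_pos
    rw [← hn, zero_mul] at this
    exact lt_irrefl _ this)
  have hζ : IsPrimitiveRoot (ω ^ (r ^ i * n)) r := hω.pow D.N_pos (by
    rw [← hn, pow_succ]; ring)
  have hfix : ∀ a ∈ Finset.range r, ∀ x ∈ D.BK M r i,
      (D.tw ((ω ^ r ^ i) ^ a) : Ω →+* Ω) (twVal σ x) = twVal σ x := by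
    intro a _ x hx
    refine D.tw_lev _ ?_ _ ((mem_twPre σ _).mp (hpre i le_rfl hx)).2
    rw [← pow_mul, ← pow_mul]
    have : r ^ i * (a * m) = D.N * a := by rw [hm]; ring
    rw [this, pow_mul, hω.pow_eq_one, one_pow]
  have hinj : Set.InjOn (fun a => (D.tw ((ω ^ r ^ i) ^ a) : Ω →+* Ω)
      (twVal σ (D.xj (r ^ (i + 1))))) (Finset.range r) := by
    intro a ha a' ha' haa'
    rw [Finset.mem_coe, Finset.mem_range] at ha ha'
    have h2 : (D.tw ((ω ^ r ^ i) ^ a)) (D.J c n) = (D.tw ((ω ^ r ^ i) ^ a')) (D.J c n) := by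
      have := haa'
      simp only [hv] at this
      exact this
    rw [D.tw_J, D.tw_J] at h2
    have h3 := (D.J_inj hnpos hnpos h2).2
    have h4 : ((ω ^ r ^ i) ^ a) ^ n = ((ω ^ r ^ i) ^ a') ^ n := mul_left_cancel h3
    have e1 : ∀ b : ℕ, ((ω ^ r ^ i) ^ b) ^ n = (ω ^ (r ^ i * n)) ^ b := by
      intro b
      rw [← pow_mul, ← pow_mul, ← pow_mul]
      congr 1
      ring
    rw [e1, e1] at h4
    exact hζ.pow_inj ha ha' h4
  have hint : IsIntegral (D.BK M r i) (D.xj (r ^ (i + 1))) :=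
    D.isIntegral_xj_succ _ hr hrN (D.xj_pow_mem_BK M r le_rfl)
  have hcount := card_le_natDegree_minpoly σ (hBKσ i (by omega)) (hXσ (i + 1) hie) hint
    (Finset.range r) (fun a => (D.tw ((ω ^ r ^ i) ^ a) : Ω →+* Ω)) hfix hinj
  rw [Finset.card_range] at hcount
  rw [BK_succ, relfinrank_sup_adjoin_simple _ hint]
  exact hcount

/-- **The step of the tower**: `[K_{r^e M} : K_M] ≥ (r+1) r^(e-1)` for `r ∤ M`. -/
theorem relfinrank_KM_step (hQ : D.LevProp) {M r e : ℕ} (hr : r.Prime) (hrM : ¬ r ∣ M)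
    (he : 0 < e) (hdiv : r ^ e * M ∣ D.N) :
    (r + 1) * r ^ (e - 1) ≤ (D.KM M).relfinrank (D.KM (r ^ e * M)) := by
  have hreN : r ^ e ∣ D.N := Dvd.dvd.trans (Dvd.intro _ rfl) hdiv
  have hrN : r ∣ D.N := Dvd.dvd.trans (dvd_pow_self r he.ne') hreN
  have hrMN : r * M ∣ D.N :=
    Dvd.dvd.trans (Nat.mul_dvd_mul_right (dvd_pow_self r he.ne') M) hdiv
  rw [← D.BK_eq_KM hr hrM he]
  have key : ∀ i, i + 1 ≤ e → (r + 1) * r ^ i ≤ (D.KM M).relfinrank (D.BK M r (i + 1)) := by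
    intro i
    induction i with
    | zero =>
      intro _
      rw [← relfinrank_mul_relfinrank (D.KM_le_BK M r 0) (D.BK_le_succ M r 0),
        D.relfinrank_KM_BK_zero hQ hr hrM hrMN, pow_zero]
      apply Nat.mul_le_mul_left
      have hint : IsIntegral (D.BK M r 0) (D.xj (r ^ (0 + 1))) :=
        D.isIntegral_xj_succ _ hr hrN (D.xj_pow_mem_BK M r le_rfl)
      rw [BK_succ, relfinrank_sup_adjoin_simple _ hint]
      exact minpoly.natDegree_pos hint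
    | succ i ih =>
      intro hi
      rw [← relfinrank_mul_relfinrank (D.KM_le_BK M r (i + 1)) (D.BK_le_succ M r (i + 1)),
        pow_succ, ← mul_assoc]
      exact Nat.mul_le_mul (ih (by omega))
        (D.relfinrank_BK_succ_ge hQ hr hrM hdiv (by omega) hi)
  obtain ⟨e', rfl⟩ := Nat.exists_eq_succ_of_ne_zero he.ne'
  exact key e' le_rfl

end TowerData

end Fermat.Agent.Igusa
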