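/-
P9 / S28 (Igusa), package (D-d0): the abstract Puiseux tower — final statement
`ψ(N) ≤ [k(j̄)(X_{r^i}, U_r : r^i ∣ N) : k(j̄)]`.
-/
import Mathlib
import Fermat.Agent.Lib.Igusa.TowerSteps
import Fermat.Agent.Lib.Igusa.TowerLeafLev
import Fermat.Agent.Lib.Igusa.PsiStep

set_option autoImplicit false

open Polynomial IntermediateField ModularCurve

noncomputable section

namespace Fermat.Agent.Igusa

namespace TowerData

variable {k Ω : Type*} [Field k] [Field Ω] [Algebra k Ω] (D : TowerData k Ω)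

/-- Q(M) holds (leaf L2, helper9) -/
theorem levProp : D.LevProp :=
  fun σ hσ _ _ hm hK _ hx => D.twVal_mem_lev_of_mem_KM σ hσ hm hK hx

theorem twPsi_primePow_mul {M r e : ℕ} (hr : r.Prime) (hrM : ¬ r ∣ M) (he : 0 < e) :
    dedekindPsi (r ^ e * M) = (r + 1) * r ^ (e - 1) * dedekindPsi M := by
  have hcop : (r ^ e).Coprime M :=
    Nat.Coprime.pow_left e ((Nat.Prime.coprime_iff_not_dvd hr).mpr hrM)
  rw [Fermat.Agent.S24Lib.dedekindPsi_mul hcop,
    Fermat.Agent.S24Lib.dedekindPsi_prime_pow hr he.ne']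
  congr 1
  obtain ⟨e', rfl⟩ := Nat.exists_eq_succ_of_ne_zero he.ne'
  rw [Nat.succ_sub_one, pow_succ]
  ring

/-- **The tower bound at every level `M ∣ N`.** -/
theorem dedekindPsi_le_KM {M : ℕ} (hM : M ∣ D.N) :
    dedekindPsi M ≤ (D.KM 1).relfinrank (D.KM M) := by
  induction M using Nat.recOnPrimePow with
  | zero =>
    exfalso
    exact D.N_pos.ne' (Nat.eq_zero_of_zero_dvd hM)
  | one =>
    rw [dedekindPsi_one, relfinrank_self]
  | prime_pow_mul a p n hp hpa hn ih =>
    have ha : a ∣ D.N := Dvd.dvd.trans (Dvd.intro_left _ rfl) hM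
    rw [twPsi_primePow_mul hp hpa hn,
      ← relfinrank_mul_relfinrank (D.KM_mono (one_dvd a)) (D.KM_mono (Dvd.intro_left _ rfl)),
      mul_comm]
    exact Nat.mul_le_mul (ih ha) (D.relfinrank_KM_step D.levProp hp hpa hn hM)

/-- **The abstract Puiseux tower**: `ψ(N) ≤ [k(X_1)(towerGens N) : k(X_1)]`. -/
theorem dedekindPsi_le :
    dedekindPsi D.N ≤ (IntermediateField.adjoin k {D.J 1 D.N}).relfinrank
      (IntermediateField.adjoin k (D.towerGens D.N)) := by
  have h := D.dedekindPsi_le_KM (dvd_refl D.N)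
  rw [D.KM_one] at h
  exact h

end TowerData

end Fermat.Agent.Igusa
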