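/-
P9 / S28 (D-d0), leaf L1: the final induction of the Puiseux tower.

From the step bound `[K_{r^e M} : K_M] ≥ (r + 1) r^(e-1)` (`r` prime, `r ∤ M`) we get
`ψ(M) ≤ [K_M : K_1]` for every `M ∣ N`, by `Nat.recOnPrimePow` and multiplicativity of
`IntermediateField.relfinrank` in towers and of the Dedekind `ψ` function.
-/
import Fermat.Agent.Lib.Igusa.Tower
import Fermat.Agent.Lib.Igusa.PsiStep

set_option autoImplicit false

open IntermediateField ModularCurve

namespace Fermat.Agent.Igusa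

namespace TowerData

variable {k Ω : Type*} [Field k] [Field Ω] [Algebra k Ω] (D : TowerData k Ω)

/-- `ψ(r^e) = (r + 1) r^(e-1)` -/
theorem twl_dedekindPsi_prime_pow {r e : ℕ} (hr : r.Prime) (he : 0 < e) :
    dedekindPsi (r ^ e) = (r + 1) * r ^ (e - 1) := by
  rw [Fermat.Agent.S24Lib.dedekindPsi_prime_pow hr he.ne']
  obtain ⟨j, rfl⟩ := Nat.exists_eq_succ_of_ne_zero he.ne'
  rw [Nat.succ_sub_one, pow_succ]
  ring

/-- **Leaf L1**: the final induction. -/
theorem dedekindPsi_le_of_step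
    (hstep : ∀ M r e : ℕ, r.Prime → ¬ r ∣ M → 0 < e → r ^ e * M ∣ D.N →
      (r + 1) * r ^ (e - 1) ≤ (D.KM M).relfinrank (D.KM (r ^ e * M))) :
    ∀ M : ℕ, M ∣ D.N → dedekindPsi M ≤ (D.KM 1).relfinrank (D.KM M) := by
  intro M
  induction M using Nat.recOnPrimePow with
  | zero =>
    intro h0
    exact absurd (Nat.eq_zero_of_zero_dvd h0) D.N_pos.ne'
  | one =>
    intro _
    rw [dedekindPsi_one, IntermediateField.relfinrank_self]
  | prime_pow_mul a p n hp hpa hn ih =>
    intro hdvd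
    have ha : a ∣ D.N := (Dvd.intro_left _ rfl).trans hdvd
    have h1 := ih ha
    have h2 := hstep a p n hp hpa hn hdvd
    have hcop : (p ^ n).Coprime a := Nat.Coprime.pow_left n ((Nat.Prime.coprime_iff_not_dvd hp).mpr hpa)
    rw [Fermat.Agent.S24Lib.dedekindPsi_mul hcop, twl_dedekindPsi_prime_pow hp hn,
      ← IntermediateField.relfinrank_mul_relfinrank (D.KM_mono (one_dvd a))
        (D.KM_mono (Dvd.intro_left (p ^ n) rfl)), mul_comm]
    exact Nat.mul_le_mul h1 h2

/-- the tower bound in its final shape: `ψ(N) ≤ [k(towerGens N) : k(X_1)]` -/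
theorem dedekindPsi_le_of_step'
    (hstep : ∀ M r e : ℕ, r.Prime → ¬ r ∣ M → 0 < e → r ^ e * M ∣ D.N →
      (r + 1) * r ^ (e - 1) ≤ (D.KM M).relfinrank (D.KM (r ^ e * M))) :
    dedekindPsi D.N ≤ (IntermediateField.adjoin k {D.J 1 D.N}).relfinrank
      (IntermediateField.adjoin k (D.towerGens D.N)) := by
  have h := D.dedekindPsi_le_of_step hstep D.N dvd_rfl
  have h1 : D.KM 1 = IntermediateField.adjoin k {D.J 1 D.N} := by
    rw [KM, towerGens_one, xj, mul_one]
  rw [h1] at h
  exact h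

end TowerData

end Fermat.Agent.Igusa
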