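import Fermat.Agent.Lib.Igusa.ModPolyFormal

/-!
# P9 (C): a polynomial in `j` with an integral `q`-expansion has integral coefficients
-/

set_option autoImplicit false

open HahnSeries ModularCurve Polynomial

namespace Fermat.Agent.Igusa

variable (K : Type*) [CommRing K]

theorem jqModC_pow (n : ℕ) :
    jqModC K ^ n = HahnSeries.single (-(n : ℤ)) (1 : K) *
      HahnSeries.ofPowerSeries ℤ K ((jNum.map (Int.castRingHom K)) ^ n) := by
  have h : n • (-1 : ℤ) = -(n : ℤ) := by simp
  rw [jqModC, mul_pow, HahnSeries.single_pow, one_pow, h, ← map_pow]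

theorem constantCoeff_jNum_map :
    PowerSeries.constantCoeff (jNum.map (Int.castRingHom K)) = 1 := by
  rw [← PowerSeries.coeff_zero_eq_constantCoeff, PowerSeries.coeff_map,
    PowerSeries.coeff_zero_eq_constantCoeff, constantCoeff_jNum]
  simp

theorem coeff_jqModC_pow_self (n : ℕ) : (jqModC K ^ n).coeff (-(n : ℤ)) = 1 := by
  rw [jqModC_pow, HahnSeries.coeff_single_mul, one_mul, sub_neg_eq_add, neg_add_cancel,
    show (0 : ℤ) = ((0 : ℕ) : ℤ) from rfl, HahnSeries.ofPowerSeries_apply_coeff,
    PowerSeries.coeff_zero_eq_constantCoeff, map_pow, constantCoeff_jNum_map, one_pow]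

theorem coeff_jqModC_pow_of_lt {n : ℕ} {m : ℤ} (hm : m < -(n : ℤ)) :
    (jqModC K ^ n).coeff m = 0 := by
  rw [jqModC_pow, HahnSeries.coeff_single_mul, one_mul]
  exact ofPowerSeries_coeff_of_neg _ (by omega)

variable {K}

/-- evaluation of a polynomial at the formal `j` -/
noncomputable def evalJ (K : Type*) [CommRing K] : Polynomial K →+* LaurentSeries K :=
  Polynomial.eval₂RingHom (HahnSeries.C : K →+* LaurentSeries K) (jqModC K)

lemma evalJ_apply (P : Polynomial K) :
    evalJ K P = Polynomial.eval₂ (HahnSeries.C : K →+* LaurentSeries K) (jqModC K) P := rfl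

@[simp] lemma evalJ_X : evalJ K Polynomial.X = jqModC K := by
  rw [evalJ_apply, Polynomial.eval₂_X]

@[simp] lemma evalJ_C (c : K) : evalJ K (Polynomial.C c) = HahnSeries.C c := by
  rw [evalJ_apply, Polynomial.eval₂_C]

lemma evalJ_monomial (n : ℕ) (c : K) :
    evalJ K (Polynomial.monomial n c) = HahnSeries.C c * jqModC K ^ n := by
  rw [evalJ_apply, Polynomial.eval₂_monomial]

lemma lsMapHom_C {S : Type*} [CommRing S] (φ : K →+* S) (c : K) :
    lsMapHom φ (HahnSeries.C c) = HahnSeries.C (φ c) := by
  exact lsMapHom_single φ 0 c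

/-- base change of `evalJ` -/
theorem lsMapHom_evalJ {S : Type*} [CommRing S] (φ : K →+* S) (P : Polynomial K) :
    lsMapHom φ (evalJ K P) = evalJ S (P.map φ) := by
  rw [evalJ_apply, evalJ_apply, Polynomial.hom_eval₂, Polynomial.eval₂_map]
  have h1 : lsMapHom φ (jqModC K) = jqModC S := map_jqModC φ
  rw [h1]
  congr 1
  ext c : 1
  exact lsMapHom_C φ c

/-- the coefficient of `q ^ (-d)` in `P(j)` is the leading coefficient of `P` -/
theorem coeff_evalJ (P : Polynomial K) :
    (evalJ K P).coeff (-(P.natDegree : ℤ)) = P.leadingCoeff := by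
  rw [evalJ_apply, Polynomial.eval₂_eq_sum_range, HahnSeries.coeff_sum]
  rw [Finset.sum_eq_single_of_mem P.natDegree (Finset.self_mem_range_succ _)]
  · rw [HahnSeries.C_mul_eq_smul, HahnSeries.coeff_smul, coeff_jqModC_pow_self, smul_eq_mul,
      mul_one]
    rfl
  · intro k hk hne
    have hk' : k < P.natDegree :=
      lt_of_le_of_ne (Nat.lt_succ_iff.mp (Finset.mem_range.mp hk)) hne
    rw [HahnSeries.C_mul_eq_smul, HahnSeries.coeff_smul, coeff_jqModC_pow_of_lt K (by omega),
      smul_zero]

/-- **Integrality.**  If `P(j)` has integer coefficients as a Laurent series, then `P` has integer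
coefficients. -/
theorem exists_int_polynomial_of_evalJ (hK : Function.Injective (Int.castRingHom K))
    (P : Polynomial K) (g : LaurentSeries ℤ)
    (h : evalJ K P = lsMapHom (Int.castRingHom K) g) :
    ∃ Q : Polynomial ℤ, Q.map (Int.castRingHom K) = P ∧ evalJ ℤ Q = g := by
  induction' hd : P.natDegree using Nat.strong_induction_on with d ih generalizing P g
  by_cases hP : P = 0
  · refine ⟨0, by rw [hP, Polynomial.map_zero], ?_⟩
    rw [hP, map_zero] at h
    rw [map_zero]
    apply lsMapHom_injective hK
    rw [← h, map_zero]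
  -- the leading coefficient is an integer
  have hlead : P.leadingCoeff = Int.castRingHom K (g.coeff (-(P.natDegree : ℤ))) := by
    rw [← coeff_evalJ, h, lsMapHom_coeff]
  set a : ℤ := g.coeff (-(P.natDegree : ℤ)) with ha
  -- remove the leading term
  have hJ : lsMapHom (Int.castRingHom K) (jqModC ℤ) = jqModC K := map_jqModC (Int.castRingHom K)
  have h' : evalJ K P.eraseLead =
      lsMapHom (Int.castRingHom K) (g - HahnSeries.C a * jqModC ℤ ^ P.natDegree) := by
    have e1 : P.eraseLead = P - Polynomial.monomial P.natDegree P.leadingCoeff := by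
      rw [← Polynomial.self_sub_monomial_natDegree_leadingCoeff]
    rw [e1, map_sub, h, map_sub, evalJ_monomial, hlead, map_mul, map_pow, hJ, lsMapHom_C]
  have hsplit : P = P.eraseLead + Polynomial.monomial P.natDegree (Int.castRingHom K a) := by
    rw [← hlead, Polynomial.eraseLead_add_monomial_natDegree_leadingCoeff]
  rcases Polynomial.eraseLead_natDegree_lt_or_eraseLead_eq_zero P with hlt | hzero
  · obtain ⟨Q', hQ'1, hQ'2⟩ := ih _ (hd ▸ hlt) P.eraseLead _ h' rfl
    refine ⟨Q' + Polynomial.monomial P.natDegree a, ?_, ?_⟩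
    · rw [Polynomial.map_add, hQ'1, Polynomial.map_monomial]
      exact hsplit.symm
    · rw [map_add, hQ'2, evalJ_monomial, sub_add_cancel]
  · refine ⟨Polynomial.monomial P.natDegree a, ?_, ?_⟩
    · rw [Polynomial.map_monomial]
      rw [hzero, zero_add] at hsplit
      exact hsplit.symm
    · rw [hzero, map_zero] at h'
      have h0 : g - HahnSeries.C a * jqModC ℤ ^ P.natDegree = 0 := by
        apply lsMapHom_injective hK
        rw [← h', map_zero]
      rw [evalJ_monomial]
      exact (sub_eq_zero.mp h0).symm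

end Fermat.Agent.Igusa
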