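import Fermat.Agent.Lib.Igusa.ModPolyTwist
import Fermat.Agent.Lib.Igusa.ModPolyIntegral

/-!
# P9 (D-a): substitution calculus `t ↦ c · t ^ m` on Laurent series

`pzSub c m` is the ring endomorphism `f(t) ↦ f(c t ^ m)` of `k((t))` (`c` a unit, `m ≥ 1`);
it is `qExpand k m ∘ lsTwist c`.  We prove the composition laws with `lsTwist`, `qExpand` and with
itself, the coefficient formulas, and the compatibility with evaluation of polynomials
(`pzEval J P = P(J)`).
-/

set_option autoImplicit false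

open HahnSeries ModularCurve Polynomial

namespace Fermat.Agent.Igusa

section Twist

variable {S : Type*} [CommRing S]

lemma lsTwist_lsTwist (a b : Sˣ) (f : LaurentSeries S) :
    lsTwist a (lsTwist b f) = lsTwist (a * b) f := by
  ext n
  rw [lsTwist_coeff, lsTwist_coeff, lsTwist_coeff, mul_zpow, Units.val_mul, mul_assoc]

lemma lsTwist_one (f : LaurentSeries S) : lsTwist (1 : Sˣ) f = f := by
  ext n
  rw [lsTwist_coeff, one_zpow, Units.val_one, one_mul]

lemma lsTwist_injective (a : Sˣ) : Function.Injective (lsTwist a : LaurentSeries S → _) := by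
  intro f g h
  have := congrArg (lsTwist a⁻¹) h
  rwa [lsTwist_lsTwist, lsTwist_lsTwist, inv_mul_cancel, lsTwist_one, lsTwist_one] at this

lemma lsTwist_C (a : Sˣ) (x : S) : lsTwist a (HahnSeries.C x) = HahnSeries.C x := by
  ext n
  rw [lsTwist_coeff, HahnSeries.C_apply, HahnSeries.coeff_single]
  split_ifs with h
  · subst h
    rw [zpow_zero, Units.val_one, one_mul]
  · rw [mul_zero]

/-- twisting commutes with `T ↦ T ^ m` up to replacing `a` by `a ^ m` -/
lemma lsTwist_qExpand' (m : ℕ) [NeZero m] (a : Sˣ) (f : LaurentSeries S) :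
    lsTwist a (qExpand S m f) = qExpand S m (lsTwist (a ^ m) f) := by
  ext n
  rw [lsTwist_coeff]
  by_cases hd : (m : ℤ) ∣ n
  · obtain ⟨i, rfl⟩ := hd
    rw [qExpand_coeff_mul, qExpand_coeff_mul, lsTwist_coeff, zpow_mul, zpow_natCast]
  · rw [qExpand_coeff_of_not_dvd m _ hd, qExpand_coeff_of_not_dvd m _ hd, mul_zero]

end Twist

section Sub

variable {S : Type*} [CommRing S]

/-- the substitution `t ↦ c · t ^ m` -/
noncomputable def pzSub (c : Sˣ) (m : ℕ) [NeZero m] : LaurentSeries S →+* LaurentSeries S :=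
  (qExpand S m).comp (lsTwist c)

lemma pzSub_apply (c : Sˣ) (m : ℕ) [NeZero m] (f : LaurentSeries S) :
    pzSub c m f = qExpand S m (lsTwist c f) := rfl

lemma pzSub_coeff_mul (c : Sˣ) (m : ℕ) [NeZero m] (f : LaurentSeries S) (n : ℤ) :
    (pzSub c m f).coeff ((m : ℤ) * n) = ((c ^ n : Sˣ) : S) * f.coeff n := by
  rw [pzSub_apply, qExpand_coeff_mul, lsTwist_coeff]

lemma pzSub_coeff_of_not_dvd (c : Sˣ) (m : ℕ) [NeZero m] (f : LaurentSeries S) {n : ℤ}
    (hn : ¬ (m : ℤ) ∣ n) : (pzSub c m f).coeff n = 0 := by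
  rw [pzSub_apply, qExpand_coeff_of_not_dvd m _ hn]

lemma pzSub_injective (c : Sˣ) (m : ℕ) [NeZero m] :
    Function.Injective (pzSub c m : LaurentSeries S → _) :=
  (qExpand_injective m).comp (lsTwist_injective c)

lemma pzSub_C (c : Sˣ) (m : ℕ) [NeZero m] (x : S) :
    pzSub c m (HahnSeries.C x) = HahnSeries.C x := by
  rw [pzSub_apply, lsTwist_C, qExpand_C]

lemma pzSub_one_one (f : LaurentSeries S) : pzSub (1 : Sˣ) 1 f = f := by
  rw [pzSub_apply, lsTwist_one, qExpand_one_apply]

lemma pzSub_one_left (m : ℕ) [NeZero m] (f : LaurentSeries S) :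
    pzSub (1 : Sˣ) m f = qExpand S m f := by
  rw [pzSub_apply, lsTwist_one]

lemma pzSub_one_right (c : Sˣ) (f : LaurentSeries S) : pzSub c 1 f = lsTwist c f := by
  rw [pzSub_apply, qExpand_one_apply]

/-- `f(c' t^m') ∘ (t ↦ c t^m) = f(c' c^m' t^(m m'))` -/
lemma pzSub_pzSub (c c' : Sˣ) (m m' : ℕ) [NeZero m] [NeZero m'] [NeZero (m * m')]
    (f : LaurentSeries S) :
    pzSub c m (pzSub c' m' f) = pzSub (c ^ m' * c') (m * m') f := by
  rw [pzSub_apply, pzSub_apply, pzSub_apply, lsTwist_qExpand', qExpand_qExpand, lsTwist_lsTwist]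

lemma lsTwist_pzSub (ω c : Sˣ) (m : ℕ) [NeZero m] (f : LaurentSeries S) :
    lsTwist ω (pzSub c m f) = pzSub (ω ^ m * c) m f := by
  rw [pzSub_apply, pzSub_apply, lsTwist_qExpand', lsTwist_lsTwist]

lemma pzSub_lsTwist (c ω : Sˣ) (m : ℕ) [NeZero m] (f : LaurentSeries S) :
    pzSub c m (lsTwist ω f) = pzSub (c * ω) m f := by
  rw [pzSub_apply, pzSub_apply, lsTwist_lsTwist]

lemma pzSub_qExpand (c : Sˣ) (m m' : ℕ) [NeZero m] [NeZero m'] [NeZero (m * m')]
    (f : LaurentSeries S) :
    pzSub c m (qExpand S m' f) = pzSub (c ^ m') (m * m') f := by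
  rw [pzSub_apply, pzSub_apply, lsTwist_qExpand', qExpand_qExpand]

lemma qExpand_pzSub (c : Sˣ) (m m' : ℕ) [NeZero m] [NeZero m'] [NeZero (m' * m)]
    (f : LaurentSeries S) :
    qExpand S m' (pzSub c m f) = pzSub c (m' * m) f := by
  rw [pzSub_apply, pzSub_apply, qExpand_qExpand]

/-- a series in `t ^ m` has all its exponents divisible by `m` -/
lemma dvd_of_coeff_qExpand_ne_zero (m : ℕ) [NeZero m] (f : LaurentSeries S) {n : ℤ}
    (hn : (qExpand S m f).coeff n ≠ 0) : (m : ℤ) ∣ n := by
  by_contra h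
  exact hn (qExpand_coeff_of_not_dvd m f h)

lemma dvd_of_coeff_pzSub_ne_zero (c : Sˣ) (m : ℕ) [NeZero m] (f : LaurentSeries S) {n : ℤ}
    (hn : (pzSub c m f).coeff n ≠ 0) : (m : ℤ) ∣ n :=
  dvd_of_coeff_qExpand_ne_zero m _ hn

/-- membership in the image of `T ↦ T ^ m` is decided by the exponents -/
lemma mem_range_qExpand_iff (m : ℕ) [NeZero m] (g : LaurentSeries S) :
    g ∈ Set.range (qExpand S m) ↔ ∀ n : ℤ, g.coeff n ≠ 0 → (m : ℤ) ∣ n := by
  constructor
  · rintro ⟨f, rfl⟩ n hn
    exact dvd_of_coeff_qExpand_ne_zero m f hn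
  · intro h
    refine ⟨lsComp m 0 g, ?_⟩
    ext n
    by_cases hd : (m : ℤ) ∣ n
    · obtain ⟨i, rfl⟩ := hd
      rw [qExpand_coeff_mul, lsComp_coeff]
      simp
    · rw [qExpand_coeff_of_not_dvd m _ hd]
      by_contra hne
      exact hd (h n (Ne.symm hne))

/-- a series fixed by the twist with a primitive `r`-th root of unity is a series in `T ^ r` -/
lemma mem_range_qExpand_of_lsTwist_eq [IsDomain S] (r : ℕ) [NeZero r] {ζ : Sˣ}
    (hζ : IsPrimitiveRoot ζ r) (g : LaurentSeries S) (hg : lsTwist ζ g = g) :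
    g ∈ Set.range (qExpand S r) := by
  rw [mem_range_qExpand_iff]
  intro n hn
  have h1 := congrArg (fun x : LaurentSeries S => x.coeff n) hg
  simp only [lsTwist_coeff] at h1
  have h2 : (((ζ ^ n : Sˣ) : S) - 1) * g.coeff n = 0 := by rw [sub_mul, h1, one_mul, sub_self]
  rcases mul_eq_zero.mp h2 with h3 | h3
  · have h4 : ζ ^ n = 1 := Units.ext (by rw [Units.val_one]; exact sub_eq_zero.mp h3)
    exact (hζ.zpow_eq_one_iff_dvd n).mp h4
  · exact absurd h3 hn

end Sub

section Eval

variable {S : Type*} [CommRing S]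

/-- evaluation of a polynomial (with constant coefficients) at a Laurent series `J` -/
noncomputable def pzEval (J : LaurentSeries S) : Polynomial S →+* LaurentSeries S :=
  Polynomial.eval₂RingHom (HahnSeries.C : S →+* LaurentSeries S) J

lemma pzEval_apply (J : LaurentSeries S) (P : Polynomial S) :
    pzEval J P = Polynomial.eval₂ (HahnSeries.C : S →+* LaurentSeries S) J P := rfl

@[simp] lemma pzEval_X (J : LaurentSeries S) : pzEval J Polynomial.X = J := by
  rw [pzEval_apply, Polynomial.eval₂_X]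

@[simp] lemma pzEval_C (J : LaurentSeries S) (c : S) :
    pzEval J (Polynomial.C c) = HahnSeries.C c := by
  rw [pzEval_apply, Polynomial.eval₂_C]

lemma pzEval_jqModC : pzEval (jqModC S) = evalJ S := rfl

/-- a ring endomorphism fixing the constants commutes with evaluation -/
lemma map_pzEval (s : LaurentSeries S →+* LaurentSeries S)
    (hs : ∀ c : S, s (HahnSeries.C c) = HahnSeries.C c) (J : LaurentSeries S)
    (P : Polynomial S) : s (pzEval J P) = pzEval (s J) P := by
  rw [pzEval_apply, pzEval_apply, Polynomial.hom_eval₂]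
  congr 1
  ext c : 1
  exact hs c

lemma pzSub_pzEval (c : Sˣ) (m : ℕ) [NeZero m] (J : LaurentSeries S) (P : Polynomial S) :
    pzSub c m (pzEval J P) = pzEval (pzSub c m J) P :=
  map_pzEval _ (pzSub_C c m) J P

lemma lsTwist_pzEval (c : Sˣ) (J : LaurentSeries S) (P : Polynomial S) :
    lsTwist c (pzEval J P) = pzEval (lsTwist c J) P :=
  map_pzEval _ (lsTwist_C c) J P

lemma qExpand_pzEval (m : ℕ) [NeZero m] (J : LaurentSeries S) (P : Polynomial S) :
    qExpand S m (pzEval J P) = pzEval (qExpand S m J) P :=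
  map_pzEval _ (qExpand_C m) J P

/-- two-variable version: `(Φ(X, J)).map s = Φ(X, s J)` -/
lemma map_map_pzEval (s : LaurentSeries S →+* LaurentSeries S)
    (hs : ∀ c : S, s (HahnSeries.C c) = HahnSeries.C c) (J : LaurentSeries S)
    (Φ : Polynomial (Polynomial S)) :
    (Φ.map (pzEval J)).map s = Φ.map (pzEval (s J)) := by
  rw [Polynomial.map_map]
  congr 1
  refine RingHom.ext fun P => ?_
  exact map_pzEval s hs J P

lemma lsMapHom_pzEval {S' : Type*} [CommRing S'] (φ : S →+* S') (J : LaurentSeries S)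
    (P : Polynomial S) :
    lsMapHom φ (pzEval J P) = pzEval (lsMapHom φ J) (P.map φ) := by
  rw [pzEval_apply, pzEval_apply, Polynomial.hom_eval₂, Polynomial.eval₂_map]
  congr 1
  ext c : 1
  exact lsMapHom_C φ c

/-- the coefficient of `t ^ (-(m * d))` in `P(j(c t ^ m))`, `d = deg P` -/
lemma coeff_pzEval_pzSub_jqModC (c : Sˣ) (m : ℕ) [NeZero m] (P : Polynomial S) :
    (pzEval (pzSub c m (jqModC S)) P).coeff ((m : ℤ) * (-(P.natDegree : ℤ))) =
      ((c ^ (-(P.natDegree : ℤ)) : Sˣ) : S) * P.leadingCoeff := by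
  rw [← pzSub_pzEval, pzSub_coeff_mul, pzEval_jqModC, coeff_evalJ]

end Eval

section Field

variable {k : Type*} [Field k]

/-- the subfield `k(J)` of `k((t))` -/
noncomputable def pzField (J : LaurentSeries k) : Subfield (LaurentSeries k) :=
  Subfield.closure (Set.range (HahnSeries.C : k →+* LaurentSeries k) ∪ {J})

lemma C_mem_pzField (J : LaurentSeries k) (c : k) : HahnSeries.C c ∈ pzField J :=
  Subfield.subset_closure (Or.inl ⟨c, rfl⟩)

lemma self_mem_pzField (J : LaurentSeries k) : J ∈ pzField J :=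
  Subfield.subset_closure (Or.inr rfl)

lemma pzEval_mem_pzField (J : LaurentSeries k) (P : Polynomial k) : pzEval J P ∈ pzField J := by
  rw [pzEval_apply, Polynomial.eval₂_eq_sum_range]
  exact sum_mem fun i _ => mul_mem (C_mem_pzField J _) (pow_mem (self_mem_pzField J) i)

lemma pzField_le_iff (J : LaurentSeries k) (K : Subfield (LaurentSeries k)) :
    pzField J ≤ K ↔ (∀ c : k, HahnSeries.C c ∈ K) ∧ J ∈ K := by
  rw [pzField, Subfield.closure_le]
  constructor
  · intro h
    exact ⟨fun c => h (Or.inl ⟨c, rfl⟩), h (Or.inr rfl)⟩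
  · rintro ⟨h1, h2⟩ x (⟨c, rfl⟩ | hx)
    · exact h1 c
    · rw [Set.mem_singleton_iff] at hx
      rw [hx]
      exact h2

/-- every element of `k(J)` is a quotient of polynomials in `J` -/
lemma exists_pzEval_of_mem_pzField (J : LaurentSeries k) {x : LaurentSeries k}
    (hx : x ∈ pzField J) :
    ∃ A B : Polynomial k, pzEval J B ≠ 0 ∧ x * pzEval J B = pzEval J A := by
  rw [pzField] at hx
  induction hx using Subfield.closure_induction with
  | mem y hy =>
      rcases hy with ⟨c, rfl⟩ | hy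
      · exact ⟨Polynomial.C c, 1, by rw [map_one]; exact one_ne_zero, by
          rw [map_one, mul_one, pzEval_C]⟩
      · rw [Set.mem_singleton_iff] at hy
        exact ⟨Polynomial.X, 1, by rw [map_one]; exact one_ne_zero, by
          rw [map_one, mul_one, pzEval_X, hy]⟩
  | one => exact ⟨1, 1, by rw [map_one]; exact one_ne_zero, by rw [map_one, mul_one]⟩
  | add x y _ _ hx hy =>
      obtain ⟨A, B, hB, hAB⟩ := hx
      obtain ⟨A', B', hB', hAB'⟩ := hy
      refine ⟨A * B' + A' * B, B * B', ?_, ?_⟩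
      · rw [map_mul]
        exact mul_ne_zero hB hB'
      · rw [map_mul, map_add, map_mul, map_mul, ← hAB, ← hAB']
        ring
  | neg x _ hx =>
      obtain ⟨A, B, hB, hAB⟩ := hx
      exact ⟨-A, B, hB, by rw [map_neg, ← hAB, neg_mul]⟩
  | inv x _ hx =>
      obtain ⟨A, B, hB, hAB⟩ := hx
      by_cases hx0 : x = 0
      · subst hx0
        exact ⟨0, 1, by rw [map_one]; exact one_ne_zero, by rw [inv_zero, zero_mul, map_zero]⟩
      · have hA : pzEval J A ≠ 0 := by
          rw [← hAB]
          exact mul_ne_zero hx0 hB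
        refine ⟨B, A, hA, ?_⟩
        rw [← hAB]
        field_simp
  | mul x y _ _ hx hy =>
      obtain ⟨A, B, hB, hAB⟩ := hx
      obtain ⟨A', B', hB', hAB'⟩ := hy
      refine ⟨A * A', B * B', ?_, ?_⟩
      · rw [map_mul]
        exact mul_ne_zero hB hB'
      · rw [map_mul, map_mul, ← hAB, ← hAB']
        ring

/-- a ring endomorphism of `k((t))` fixing the constants and `J` fixes `k(J)` pointwise -/
lemma eq_of_mem_pzField (J : LaurentSeries k) (σ : LaurentSeries k →+* LaurentSeries k)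
    (hσC : ∀ c : k, σ (HahnSeries.C c) = HahnSeries.C c) (hσJ : σ J = J)
    {x : LaurentSeries k} (hx : x ∈ pzField J) : σ x = x := by
  have h : pzField J ≤ RingHom.eqLocusField σ (RingHom.id _) := by
    rw [pzField_le_iff]
    exact ⟨fun c => hσC c, hσJ⟩
  exact h hx

/-- the image of `k(J)` under an endomorphism fixing the constants is `k(σ J)` -/
lemma map_mem_pzField (J : LaurentSeries k) (σ : LaurentSeries k →+* LaurentSeries k)
    (hσC : ∀ c : k, σ (HahnSeries.C c) = HahnSeries.C c)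
    {x : LaurentSeries k} (hx : x ∈ pzField J) : σ x ∈ pzField (σ J) := by
  have h : pzField J ≤ (pzField (σ J)).comap σ := by
    rw [pzField_le_iff]
    refine ⟨fun c => ?_, ?_⟩
    · rw [Subfield.mem_comap, hσC]
      exact C_mem_pzField _ c
    · rw [Subfield.mem_comap]
      exact self_mem_pzField _
  exact h hx

/-- evaluation at `J` with values in `k(J)` -/
noncomputable def pzEvalK (J : LaurentSeries k) : Polynomial k →+* ↥(pzField J) :=
  (pzEval J).codRestrict (pzField J) (pzEval_mem_pzField J)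

@[simp] lemma coe_pzEvalK (J : LaurentSeries k) (P : Polynomial k) :
    ((pzEvalK J P : ↥(pzField J)) : LaurentSeries k) = pzEval J P := rfl

lemma subtype_comp_pzEvalK (J : LaurentSeries k) :
    (pzField J).subtype.comp (pzEvalK J) = pzEval J := rfl

end Field

end Fermat.Agent.Igusa
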