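import Fermat.Agent.Lib.Igusa.ModPolyPsi
import Fermat.Prelude.Def_ModularCurve_ModularUnit

/-!
# P9 (C1) + (C2): summary file

* `modPhi r hr`, `modPsi r hr : ℤ[Y][X]` (chosen once and for all) with their defining properties;
* base change of the identities to an arbitrary commutative ring `K` (for instance a field of
  characteristic `ℓ`), and the full root factorisation over a domain containing a primitive
  `r`-th root of unity;
* comparison of `deltaLS ℚ`, `unitFinLS ℚ r`, `unitInfLS ℚ r` with the Prelude's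
  `deltaSeries`, `modularUnitSeries r`.
-/

set_option autoImplicit false

open HahnSeries ModularCurve Polynomial

namespace Fermat.Agent.Igusa

/-! ### Base change of a modular-type polynomial -/

section BaseChange

variable (r : ℕ) [NeZero r]

lemma evalJ_comp_mapRingHom {K S : Type*} [CommRing K] [CommRing S] (φ : K →+* S) :
    (evalJ S).comp (Polynomial.mapRingHom φ) = (lsMapHom φ).comp (evalJ K) :=
  RingHom.ext fun P => (lsMapHom_evalJ φ P).symm

/-- base change of `Φ(X, j(T)) = (X - g) · lsChar r f` to any commutative ring -/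
theorem modTilde_baseChange {K : Type*} [CommRing K] (Φ : Polynomial (Polynomial ℤ))
    (f g : LaurentSeries ℤ) (hΦ : Φ.map (evalJ ℤ) = modTilde r f g) :
    (Φ.map (Polynomial.mapRingHom (Int.castRingHom K))).map (evalJ K) =
      (Polynomial.X - Polynomial.C (lsMapHom (Int.castRingHom K) g)) *
        lsChar r (lsMapHom (Int.castRingHom K) f) := by
  rw [Polynomial.map_map, evalJ_comp_mapRingHom, ← Polynomial.map_map, hΦ, modTilde,
    Polynomial.map_mul, Polynomial.map_sub, Polynomial.map_X, Polynomial.map_C, lsChar_map]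

/-- `Φ̄(ḡ, j̄(T)) = 0` -/
theorem modTilde_baseChange_eval_left {K : Type*} [CommRing K] (Φ : Polynomial (Polynomial ℤ))
    (f g : LaurentSeries ℤ) (hΦ : Φ.map (evalJ ℤ) = modTilde r f g) :
    (Φ.map (Polynomial.mapRingHom (Int.castRingHom K))).eval₂ (evalJ K)
      (lsMapHom (Int.castRingHom K) g) = 0 := by
  rw [Polynomial.eval₂_eq_eval_map, modTilde_baseChange r Φ f g hΦ, Polynomial.eval_mul,
    Polynomial.eval_sub, Polynomial.eval_X, Polynomial.eval_C, sub_self, zero_mul]

/-- `Φ̄(f̄, j̄(T ^ r)) = 0` -/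
theorem modTilde_baseChange_eval_right {K : Type*} [CommRing K] (Φ : Polynomial (Polynomial ℤ))
    (f g : LaurentSeries ℤ) (hΦ : Φ.map (evalJ ℤ) = modTilde r f g) :
    (Φ.map (Polynomial.mapRingHom (Int.castRingHom K))).eval₂ ((qExpand K r).comp (evalJ K))
      (lsMapHom (Int.castRingHom K) f) = 0 := by
  rw [Polynomial.eval₂_eq_eval_map, ← Polynomial.map_map, modTilde_baseChange r Φ f g hΦ,
    Polynomial.map_mul, Polynomial.eval_mul, lsChar_eval_self, mul_zero]

/-- the full root factorisation of `Φ̄(X, j̄(T ^ r))` over a domain with a primitive `r`-th root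
of unity: the roots are `ḡ(T ^ r)` and the `r` twists `f̄(ζ ^ b T)`. -/
theorem modTilde_baseChange_roots {K : Type*} [CommRing K] [IsDomain K]
    (Φ : Polynomial (Polynomial ℤ)) (f g : LaurentSeries ℤ)
    (hΦ : Φ.map (evalJ ℤ) = modTilde r f g) {ζ : Kˣ} (hζ : IsPrimitiveRoot ζ r) {n₀ : ℤ}
    (hn₀ : ((f.coeff n₀ : ℤ) : K) ≠ 0) (hcop : IsCoprime n₀ (r : ℤ)) :
    (Φ.map (Polynomial.mapRingHom (Int.castRingHom K))).map ((qExpand K r).comp (evalJ K)) =
      (Polynomial.X - Polynomial.C (qExpand K r (lsMapHom (Int.castRingHom K) g))) *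
        ∏ b ∈ Finset.range r,
          (Polynomial.X - Polynomial.C (lsTwist (ζ ^ b) (lsMapHom (Int.castRingHom K) f))) := by
  have hn₀' : (lsMapHom (Int.castRingHom K) f).coeff n₀ ≠ 0 := by
    rw [lsMapHom_coeff]
    simpa using hn₀
  rw [← Polynomial.map_map, modTilde_baseChange r Φ f g hΦ, Polynomial.map_mul,
    Polynomial.map_sub, Polynomial.map_X, Polynomial.map_C,
    lsChar_eq_prod r hζ.pow_eq_one _ (lsTwist_injOn r hζ _ hn₀' hcop)]

end BaseChange

/-! ### The polynomials `Φ_r` and `Ψ_r` -/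

section Named

variable (r : ℕ) [NeZero r] (hr : r.Prime)

/-- the modular polynomial `Φ_r ∈ ℤ[Y][X]` -/
noncomputable def modPhi : Polynomial (Polynomial ℤ) := (exists_modPhi r hr).choose

/-- the modular-unit polynomial `Ψ_r ∈ ℤ[Y][X]` -/
noncomputable def modPsi : Polynomial (Polynomial ℤ) := (exists_modPsi r hr).choose

theorem modPhi_monic : (modPhi r hr).Monic := (exists_modPhi r hr).choose_spec.1

theorem modPhi_natDegree : (modPhi r hr).natDegree = r + 1 := (exists_modPhi r hr).choose_spec.2.1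

theorem modPhi_map_evalJ :
    (modPhi r hr).map (evalJ ℤ) = modTilde r (jqModC ℤ) (qExpand ℤ r (jqModC ℤ)) :=
  (exists_modPhi r hr).choose_spec.2.2.1

theorem modPsi_monic : (modPsi r hr).Monic := (exists_modPsi r hr).choose_spec.1

theorem modPsi_natDegree : (modPsi r hr).natDegree = r + 1 := (exists_modPsi r hr).choose_spec.2.1

theorem modPsi_map_evalJ :
    (modPsi r hr).map (evalJ ℤ) = modTilde r (unitFinLS ℤ r) (unitInfLS ℤ r) :=
  (exists_modPsi r hr).choose_spec.2.2.1

variable (K : Type*) [CommRing K]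

/-- `Φ_r` with coefficients in `K` -/
noncomputable def modPhiK : Polynomial (Polynomial K) :=
  (modPhi r hr).map (Polynomial.mapRingHom (Int.castRingHom K))

/-- `Ψ_r` with coefficients in `K` -/
noncomputable def modPsiK : Polynomial (Polynomial K) :=
  (modPsi r hr).map (Polynomial.mapRingHom (Int.castRingHom K))

theorem modPhiK_monic : (modPhiK r hr K).Monic := (modPhi_monic r hr).map _

theorem modPsiK_monic : (modPsiK r hr K).Monic := (modPsi_monic r hr).map _

theorem modPhiK_natDegree [Nontrivial K] : (modPhiK r hr K).natDegree = r + 1 := by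
  rw [modPhiK, (modPhi_monic r hr).natDegree_map, modPhi_natDegree]

theorem modPsiK_natDegree [Nontrivial K] : (modPsiK r hr K).natDegree = r + 1 := by
  rw [modPsiK, (modPsi_monic r hr).natDegree_map, modPsi_natDegree]

/-- `Φ_r(X, j(T)) = (X - j(T ^ r)) · lsChar r j` over `K` -/
theorem modPhiK_map_evalJ :
    (modPhiK r hr K).map (evalJ K) =
      (Polynomial.X - Polynomial.C (qExpand K r (jqModC K))) * lsChar r (jqModC K) := by
  rw [modPhiK, modTilde_baseChange r _ _ _ (modPhi_map_evalJ r hr), lsMapHom_qExpand,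
    lsMapHom_jqModC]

/-- `Ψ_r(X, j(T)) = (X - r ^ 12 Δ(T ^ r) / Δ(T)) · lsChar r (Δ(T) / Δ(T ^ r))` over `K` -/
theorem modPsiK_map_evalJ :
    (modPsiK r hr K).map (evalJ K) =
      (Polynomial.X - Polynomial.C (unitInfLS K r)) * lsChar r (unitFinLS K r) := by
  rw [modPsiK, modTilde_baseChange r _ _ _ (modPsi_map_evalJ r hr), lsMapHom_unitInfLS,
    lsMapHom_unitFinLS]

/-- `Φ_r(j(T ^ r), j(T)) = 0` over `K` -/
theorem modPhiK_eval_left :
    (modPhiK r hr K).eval₂ (evalJ K) (qExpand K r (jqModC K)) = 0 := by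
  have h := modTilde_baseChange_eval_left (K := K) r _ _ _ (modPhi_map_evalJ r hr)
  rwa [lsMapHom_qExpand, lsMapHom_jqModC] at h

/-- `Φ_r(j(T), j(T ^ r)) = 0` over `K` -/
theorem modPhiK_eval_right :
    (modPhiK r hr K).eval₂ ((qExpand K r).comp (evalJ K)) (jqModC K) = 0 := by
  have h := modTilde_baseChange_eval_right (K := K) r _ _ _ (modPhi_map_evalJ r hr)
  rwa [lsMapHom_jqModC] at h

/-- `Ψ_r(r ^ 12 Δ(T ^ r) / Δ(T), j(T)) = 0` over `K` -/
theorem modPsiK_eval_left :
    (modPsiK r hr K).eval₂ (evalJ K) (unitInfLS K r) = 0 := by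
  have h := modTilde_baseChange_eval_left (K := K) r _ _ _ (modPsi_map_evalJ r hr)
  rwa [lsMapHom_unitInfLS] at h

/-- `Ψ_r(Δ(T) / Δ(T ^ r), j(T ^ r)) = 0` over `K` -/
theorem modPsiK_eval_right :
    (modPsiK r hr K).eval₂ ((qExpand K r).comp (evalJ K)) (unitFinLS K r) = 0 := by
  have h := modTilde_baseChange_eval_right (K := K) r _ _ _ (modPsi_map_evalJ r hr)
  rwa [lsMapHom_unitFinLS] at h

/-- the roots of `Φ_r(X, j(T ^ r))`: `j(T ^ (r²))` and the `j(ζ ^ b T)` -/
theorem modPhiK_roots [IsDomain K] {ζ : Kˣ} (hζ : IsPrimitiveRoot ζ r) :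
    (modPhiK r hr K).map ((qExpand K r).comp (evalJ K)) =
      (Polynomial.X - Polynomial.C (qExpand K r (qExpand K r (jqModC K)))) *
        ∏ b ∈ Finset.range r, (Polynomial.X - Polynomial.C (lsTwist (ζ ^ b) (jqModC K))) := by
  have h1 : (((jqModC ℤ).coeff (-1) : ℤ) : K) ≠ 0 := by
    rw [coeff_jqModC_neg_one]
    simp
  have hcop : IsCoprime (-1 : ℤ) ((r : ℕ) : ℤ) := isCoprime_one_left.neg_left
  have h := modTilde_baseChange_roots (K := K) r _ _ _ (modPhi_map_evalJ r hr) hζ h1 hcop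
  rwa [lsMapHom_qExpand, lsMapHom_jqModC] at h

/-- the roots of `Ψ_r(X, j(T ^ r))`: `r ^ 12 Δ(T ^ (r²)) / Δ(T ^ r)` and the twists of
`Δ(T) / Δ(T ^ r)` -/
theorem modPsiK_roots [IsDomain K] {ζ : Kˣ} (hζ : IsPrimitiveRoot ζ r) :
    (modPsiK r hr K).map ((qExpand K r).comp (evalJ K)) =
      (Polynomial.X - Polynomial.C (qExpand K r (unitInfLS K r))) *
        ∏ b ∈ Finset.range r, (Polynomial.X - Polynomial.C (lsTwist (ζ ^ b) (unitFinLS K r))) := by
  have h1 : (((unitFinLS ℤ r).coeff (1 - (r : ℤ)) : ℤ) : K) ≠ 0 := by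
    rw [unitFinLS_coeff]
    simp
  have hcop : IsCoprime (1 - (r : ℤ)) ((r : ℕ) : ℤ) := ⟨1, 1, by ring⟩
  have h := modTilde_baseChange_roots (K := K) r _ _ _ (modPsi_map_evalJ r hr) hζ h1 hcop
  rwa [lsMapHom_unitInfLS, lsMapHom_unitFinLS] at h

end Named

/-! ### Comparison with the Prelude's `deltaSeries`, `modularUnitSeries` -/

section Prelude

theorem deltaLS_rat : deltaLS ℚ = deltaSeries := rfl

theorem lsMapHom_deltaLS_int : lsMapHom (Int.castRingHom ℚ) (deltaLS ℤ) = deltaSeries := by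
  rw [lsMapHom_deltaLS, deltaLS_rat]

theorem deltaInvLS_rat : deltaInvLS ℚ = deltaSeries⁻¹ := by
  rw [eq_comm, inv_eq_iff_eq_inv, ← deltaLS_rat]
  exact (eq_inv_of_mul_eq_one_left (deltaLS_mul_deltaInvLS ℚ))

theorem unitFinLS_rat (r : ℕ) [NeZero r] : unitFinLS ℚ r = modularUnitSeries r := by
  rw [unitFinLS, modularUnitSeries, deltaSeriesN, deltaInvLS_rat, map_inv₀, deltaLS_rat]

theorem unitInfLS_rat (r : ℕ) [NeZero r] :
    unitInfLS ℚ r = HahnSeries.C ((r : ℚ) ^ 12) * (modularUnitSeries r)⁻¹ := by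
  rw [unitInfLS, modularUnitSeries, deltaSeriesN, deltaInvLS_rat, deltaLS_rat, mul_inv, inv_inv,
    mul_assoc, mul_comm (deltaSeries)⁻¹]

theorem lsMapHom_unitFinLS_int (r : ℕ) [NeZero r] :
    lsMapHom (Int.castRingHom ℚ) (unitFinLS ℤ r) = modularUnitSeries r := by
  rw [lsMapHom_unitFinLS, unitFinLS_rat]

theorem lsMapHom_unitInfLS_int (r : ℕ) [NeZero r] :
    lsMapHom (Int.castRingHom ℚ) (unitInfLS ℤ r) =
      HahnSeries.C ((r : ℚ) ^ 12) * (modularUnitSeries r)⁻¹ := by
  rw [lsMapHom_unitInfLS, unitInfLS_rat]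

end Prelude

end Fermat.Agent.Igusa
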