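import Fermat.Agent.Lib.Igusa.ModPolyPhi
import Fermat.Agent.Lib.S24.JExpansion

/-!
# P9 (C2), formal part: the formal `Δ` and the modular units `Δ(T) / Δ(T ^ r)`,
`r ^ 12 Δ(T ^ r) / Δ(T)` as Laurent series over any commutative ring; analytic `Δ`, `Δ⁻¹`.
-/

set_option autoImplicit false

open HahnSeries ModularCurve Polynomial UpperHalfPlane
open Fermat.Agent.ES Fermat.Agent.S24Lib
open scoped MatrixGroups Manifold

namespace Fermat.Agent.Igusa

section Formal

variable (K : Type*) [CommRing K]

/-- the formal `Δ = T ∏ (1 - T ^ n) ^ 24` -/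
noncomputable def deltaLS : LaurentSeries K :=
  HahnSeries.single (1 : ℤ) (1 : K) *
    HahnSeries.ofPowerSeries ℤ K (dedekindEtaUnit.map (Int.castRingHom K))

/-- the formal `Δ⁻¹` -/
noncomputable def deltaInvLS : LaurentSeries K :=
  HahnSeries.single (-1 : ℤ) (1 : K) *
    HahnSeries.ofPowerSeries ℤ K (dedekindEtaUnitInv.map (Int.castRingHom K))

theorem deltaLS_mul_deltaInvLS : deltaLS K * deltaInvLS K = 1 := by
  have e1 : HahnSeries.ofPowerSeries ℤ K (dedekindEtaUnit.map (Int.castRingHom K)) *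
      HahnSeries.ofPowerSeries ℤ K (dedekindEtaUnitInv.map (Int.castRingHom K)) = 1 := by
    rw [← map_mul, ← map_mul, dedekindEtaUnit_mul_inv, map_one, map_one]
  have e2 : HahnSeries.single (1 : ℤ) (1 : K) * HahnSeries.single (-1 : ℤ) (1 : K) = 1 := by
    rw [HahnSeries.single_mul_single]
    simp
  calc deltaLS K * deltaInvLS K
      = (HahnSeries.single (1 : ℤ) (1 : K) * HahnSeries.single (-1 : ℤ) (1 : K)) *
        (HahnSeries.ofPowerSeries ℤ K (dedekindEtaUnit.map (Int.castRingHom K)) *
          HahnSeries.ofPowerSeries ℤ K (dedekindEtaUnitInv.map (Int.castRingHom K))) := by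
        rw [deltaLS, deltaInvLS]; ring
    _ = 1 := by rw [e1, e2, one_mul]

theorem deltaInvLS_mul_deltaLS : deltaInvLS K * deltaLS K = 1 := by
  rw [mul_comm, deltaLS_mul_deltaInvLS]

variable {K}

lemma lsMapHom_ofPowerSeries {S : Type*} [CommRing S] (φ : K →+* S) (u : PowerSeries K) :
    lsMapHom φ (HahnSeries.ofPowerSeries ℤ K u) = HahnSeries.ofPowerSeries ℤ S (u.map φ) := by
  ext k
  rw [lsMapHom_coeff]
  rcases le_or_gt 0 k with hk | hk
  · lift k to ℕ using hk
    rw [HahnSeries.ofPowerSeries_apply_coeff, HahnSeries.ofPowerSeries_apply_coeff,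
      PowerSeries.coeff_map]
  · rw [ofPowerSeries_coeff_of_neg _ hk, ofPowerSeries_coeff_of_neg _ hk, map_zero]

lemma powerSeries_map_map_intCast {S : Type*} [CommRing S] (φ : K →+* S) (u : PowerSeries ℤ) :
    (u.map (Int.castRingHom K)).map φ = u.map (Int.castRingHom S) := by
  ext n
  rw [PowerSeries.coeff_map, PowerSeries.coeff_map, PowerSeries.coeff_map]
  simp

theorem lsMapHom_deltaLS {S : Type*} [CommRing S] (φ : K →+* S) :
    lsMapHom φ (deltaLS K) = deltaLS S := by
  rw [deltaLS, deltaLS, map_mul, lsMapHom_single, map_one, lsMapHom_ofPowerSeries,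
    powerSeries_map_map_intCast]

theorem lsMapHom_deltaInvLS {S : Type*} [CommRing S] (φ : K →+* S) :
    lsMapHom φ (deltaInvLS K) = deltaInvLS S := by
  rw [deltaInvLS, deltaInvLS, map_mul, lsMapHom_single, map_one, lsMapHom_ofPowerSeries,
    powerSeries_map_map_intCast]

variable (K)

/-- `r ^ 12 Δ(T ^ r) / Δ(T)` -/
noncomputable def unitInfLS (r : ℕ) [NeZero r] : LaurentSeries K :=
  HahnSeries.C ((r : K) ^ 12) * qExpand K r (deltaLS K) * deltaInvLS K

/-- `Δ(T) / Δ(T ^ r)` -/
noncomputable def unitFinLS (r : ℕ) [NeZero r] : LaurentSeries K :=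
  deltaLS K * qExpand K r (deltaInvLS K)

theorem unitFinLS_mul_unitInfLS (r : ℕ) [NeZero r] :
    unitFinLS K r * unitInfLS K r = HahnSeries.C ((r : K) ^ 12) := by
  have h1 : qExpand K r (deltaInvLS K) * qExpand K r (deltaLS K) = 1 := by
    rw [← map_mul, deltaInvLS_mul_deltaLS, map_one]
  calc unitFinLS K r * unitInfLS K r
      = HahnSeries.C ((r : K) ^ 12) * (deltaLS K * deltaInvLS K) *
          (qExpand K r (deltaInvLS K) * qExpand K r (deltaLS K)) := by
        rw [unitFinLS, unitInfLS]; ring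
    _ = _ := by rw [h1, deltaLS_mul_deltaInvLS, mul_one, mul_one]

variable {K}

theorem lsMapHom_unitInfLS {S : Type*} [CommRing S] (φ : K →+* S) (r : ℕ) [NeZero r] :
    lsMapHom φ (unitInfLS K r) = unitInfLS S r := by
  rw [unitInfLS, unitInfLS, map_mul, map_mul, lsMapHom_C, lsMapHom_qExpand, lsMapHom_deltaLS,
    lsMapHom_deltaInvLS, map_pow, map_natCast]

theorem lsMapHom_unitFinLS {S : Type*} [CommRing S] (φ : K →+* S) (r : ℕ) [NeZero r] :
    lsMapHom φ (unitFinLS K r) = unitFinLS S r := by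
  rw [unitFinLS, unitFinLS, map_mul, lsMapHom_qExpand, lsMapHom_deltaLS, lsMapHom_deltaInvLS]

variable (K)

/-- constant coefficient of a product of two Laurent series without polar part -/
lemma coeff_zero_mul_of_nonneg {P Q : LaurentSeries K} (hP : ∀ n : ℤ, n < 0 → P.coeff n = 0)
    (hQ : ∀ n : ℤ, n < 0 → Q.coeff n = 0) : (P * Q).coeff 0 = P.coeff 0 * Q.coeff 0 := by
  rw [HahnSeries.coeff_mul]
  apply Finset.sum_eq_single (0, 0)
  · rintro ⟨i, j⟩ hij hne
    rw [Finset.mem_antidiagonal] at hij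
    obtain ⟨-, -, hij⟩ := hij
    simp only at hij
    rcases lt_trichotomy i 0 with hi | hi | hi
    · rw [hP i hi, zero_mul]
    · exfalso
      apply hne
      subst hi
      simp only [zero_add] at hij
      rw [hij]
    · have hj : j < 0 := by omega
      rw [hQ j hj, mul_zero]
  · intro h
    rw [Finset.mem_antidiagonal] at h
    by_contra hne
    apply h
    refine ⟨?_, ?_, by simp⟩
    · rw [HahnSeries.mem_support]
      intro h0
      exact hne (by rw [h0, zero_mul])
    · rw [HahnSeries.mem_support]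
      intro h0
      exact hne (by rw [h0, mul_zero])

/-- the leading coefficient of `Δ(T) / Δ(T ^ r)` -/
theorem unitFinLS_coeff (r : ℕ) [NeZero r] : (unitFinLS K r).coeff (1 - (r : ℤ)) = 1 := by
  have e : unitFinLS K r = HahnSeries.single (1 - (r : ℤ)) (1 : K) *
      (HahnSeries.ofPowerSeries ℤ K (dedekindEtaUnit.map (Int.castRingHom K)) *
        qExpand K r (HahnSeries.ofPowerSeries ℤ K
          (dedekindEtaUnitInv.map (Int.castRingHom K)))) := by
    rw [unitFinLS, deltaLS, deltaInvLS, map_mul, qExpand_single]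
    have : HahnSeries.single (1 - (r : ℤ)) (1 : K) =
        HahnSeries.single (1 : ℤ) (1 : K) * HahnSeries.single ((r : ℤ) * (-1)) (1 : K) := by
      rw [HahnSeries.single_mul_single, one_mul, mul_neg_one, ← sub_eq_add_neg]
    rw [this]
    ring
  rw [e, HahnSeries.coeff_single_mul, one_mul, sub_self, coeff_zero_mul_of_nonneg]
  · have h1 : (HahnSeries.ofPowerSeries ℤ K
        (dedekindEtaUnit.map (Int.castRingHom K))).coeff 0 = 1 := by
      rw [show (0 : ℤ) = ((0 : ℕ) : ℤ) from rfl, HahnSeries.ofPowerSeries_apply_coeff,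
        PowerSeries.coeff_map, PowerSeries.coeff_zero_eq_constantCoeff,
        constantCoeff_dedekindEtaUnit]
      simp
    have h2 : (qExpand K r (HahnSeries.ofPowerSeries ℤ K
        (dedekindEtaUnitInv.map (Int.castRingHom K)))).coeff 0 = 1 := by
      have := qExpand_coeff_mul (R := K) r (HahnSeries.ofPowerSeries ℤ K
        (dedekindEtaUnitInv.map (Int.castRingHom K))) 0
      rw [mul_zero] at this
      rw [this, show (0 : ℤ) = ((0 : ℕ) : ℤ) from rfl, HahnSeries.ofPowerSeries_apply_coeff,
        PowerSeries.coeff_map, PowerSeries.coeff_zero_eq_constantCoeff,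
        constantCoeff_dedekindEtaUnitInv]
      simp
    rw [h1, h2, one_mul]
  · intro n hn
    exact ofPowerSeries_coeff_of_neg _ hn
  · intro j hj
    by_cases hd : (r : ℤ) ∣ j
    · obtain ⟨m, rfl⟩ := hd
      rw [qExpand_coeff_mul]
      apply ofPowerSeries_coeff_of_neg
      have hr : (0 : ℤ) < r := by exact_mod_cast Nat.pos_of_ne_zero (NeZero.ne r)
      by_contra hm
      rw [not_lt] at hm
      have := mul_nonneg hr.le hm
      omega
    · exact qExpand_coeff_of_not_dvd r _ hd

end Formal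

end Fermat.Agent.Igusa
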