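/-
P9 / S28, package (C3'): the formal modular units `unitFinLS ℚ r = Δ(q)/Δ(q^r)` and
`unitInfLS ℚ r = r^12 Δ(q^r)/Δ(q)` (helper2's `ModPoly.lean` vocabulary) lie in the
Prelude field `modularFunctionFieldFull N` whenever `r ∣ N`.
-/
import Fermat.Agent.Lib.Igusa.DeltaQuot
import Fermat.Agent.Lib.Igusa.ModPoly

namespace Fermat.Agent.Igusa

open ModularCurve

/-- `unitFinLS ℚ r = Δ(q)/Δ(q^r)` lies in `modularFunctionFieldFull N` for `r ∣ N`. -/
theorem unitFinLS_mem_full (N : ℕ) [NeZero N] {r : ℕ} [NeZero r] (hr : r ∣ N) :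
    unitFinLS ℚ r ∈ modularFunctionFieldFull N := by
  rw [unitFinLS_rat]
  exact modularUnitSeries_mem N hr

/-- `unitInfLS ℚ r = r^12 Δ(q^r)/Δ(q)` lies in `modularFunctionFieldFull N` for `r ∣ N`. -/
theorem unitInfLS_mem_full (N : ℕ) [NeZero N] {r : ℕ} [NeZero r] (hr : r ∣ N) :
    unitInfLS ℚ r ∈ modularFunctionFieldFull N := by
  rw [unitInfLS_rat]
  refine (modularFunctionFieldFull N).mul_mem ?_
    ((modularFunctionFieldFull N).inv_mem (modularUnitSeries_mem N hr))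
  have h : HahnSeries.C ((r : ℚ) ^ 12) = ((r : LaurentSeries ℚ)) ^ 12 := by
    rw [map_pow, map_natCast]
  rw [h]
  exact pow_mem (_root_.natCast_mem (modularFunctionFieldFull N) r) 12

/-- The hypothesis `hC3` of (D-f), in helper6's exact form. -/
theorem unitInfLS_mem_full_of_prime (N : ℕ) [NeZero N] :
    ∀ (r : ℕ) [NeZero r], r.Prime → r ∣ N → unitInfLS ℚ r ∈ modularFunctionFieldFull N :=
  fun _ _ _ hr => unitInfLS_mem_full N hr

end Fermat.Agent.Igusa
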