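import Fermat.Agent.Lib.Igusa.ModPolyDelta

/-!
# P9 (C2): the integral modular-unit polynomial `Ψ_r` for a prime `r`

`uMat A = det A · (Δ ∣[12] A) / Δ` for integer matrices of positive determinant; the `r + 1`
functions of determinant `r` are permuted by `SL(2, ℤ)`; their expansions are `g(T ^ r)` and the
twists of `f`, with `g = r ^ 12 Δ(T ^ r) / Δ(T)` and `f = Δ(T) / Δ(T ^ r)`.
-/

set_option autoImplicit false

open HahnSeries ModularCurve Polynomial UpperHalfPlane ModularForm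
open Fermat.Agent.ES Fermat.Agent.S24Lib
open Fermat.Agent.S22Lib (intGL)
open scoped MatrixGroups Manifold ModularForm

namespace Fermat.Agent.Igusa

local notation "Δ" => ModularForm.discriminant

theorem isQLaurentable_discriminant : IsQLaurentable 1 (Δ : ℍ → ℂ) :=
  (isNice_discriminant 1).isQLaurentable

theorem qLaurent_discriminant : qLaurent 1 (Δ : ℍ → ℂ) = deltaLS ℂ := by
  rw [qLaurent_of_nice (isNice_discriminant 1)]
  have hc1 : (((1 : ℕ) : ℝ)) = 1 := Nat.cast_one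
  rw [hc1, qExpansion_discriminant, map_mul, HahnSeries.ofPowerSeries_X, deltaLS]

theorem isQLaurentable_discriminant_inv : IsQLaurentable 1 (fun z : ℍ => (Δ z)⁻¹) where
  mdiff := by
    have h : MDiff (fun z : ℍ => (1 : ℂ) / Δ z) :=
      (mdifferentiable_const (c := (1 : ℂ))).div (CuspForm.discriminant.holo') discriminant_ne_zero
    have e : (fun z : ℍ => (Δ z)⁻¹) = fun z : ℍ => (1 : ℂ) / Δ z := by
      funext z
      rw [one_div]
    rw [e]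
    exact h
  periodic z := by rw [discriminant_vadd_nat]
  mero := by
    refine ⟨1, ?_⟩
    refine isBoundedAtImInfty_congr (IsNice.const 1 (1 : ℂ)).bdd (fun z => ?_)
    rw [pow_one, inv_mul_cancel₀ (discriminant_ne_zero z)]

theorem qLaurent_discriminant_inv : qLaurent 1 (fun z : ℍ => (Δ z)⁻¹) = deltaInvLS ℂ := by
  have h1 : qLaurent 1 (fun z : ℍ => (Δ z)⁻¹ * Δ z) =
      qLaurent 1 (fun z : ℍ => (Δ z)⁻¹) * qLaurent 1 (Δ : ℍ → ℂ) :=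
    qLaurent_mul isQLaurentable_discriminant_inv isQLaurentable_discriminant
  have e : (fun z : ℍ => (Δ z)⁻¹ * Δ z) = fun _ => (1 : ℂ) := by
    funext z
    rw [inv_mul_cancel₀ (discriminant_ne_zero z)]
  rw [e, qLaurent_const, qLaurent_discriminant, map_one] at h1
  calc qLaurent 1 (fun z : ℍ => (Δ z)⁻¹)
      = qLaurent 1 (fun z : ℍ => (Δ z)⁻¹) * (deltaLS ℂ * deltaInvLS ℂ) := by
        rw [deltaLS_mul_deltaInvLS, mul_one]
    _ = deltaInvLS ℂ := by rw [← mul_assoc, ← h1, one_mul]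

/-- `τ ↦ det A · (Δ ∣[12] A)(τ) / Δ(τ)` -/
noncomputable def uMat (A : Matrix (Fin 2) (Fin 2) ℤ) (hA : 0 < A.det) : ℍ → ℂ :=
  fun τ => (A.det : ℂ) * ((Δ : ℍ → ℂ) ∣[(12 : ℤ)] intGL A hA) τ / Δ τ

theorem uMat_apply (A : Matrix (Fin 2) (Fin 2) ℤ) (hA : 0 < A.det) (τ : ℍ) :
    uMat A hA τ = (A.det : ℂ) * ((Δ : ℍ → ℂ) ∣[(12 : ℤ)] intGL A hA) τ / Δ τ := rfl

theorem uMat_congr {A B : Matrix (Fin 2) (Fin 2) ℤ} (h : A = B) (hA : 0 < A.det)
    (hB : 0 < B.det) : uMat A hA = uMat B hB := by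
  subst h; rfl

theorem discriminant_slash_SL (γ : SL(2, ℤ)) : (Δ : ℍ → ℂ) ∣[(12 : ℤ)] γ = Δ :=
  SlashInvariantForm.slash_action_generators_SL2Z discriminant_S_invariant
    discriminant_T_invariant γ

theorem discriminant_slash_intGL_SL (γ : SL(2, ℤ)) :
    (Δ : ℍ → ℂ) ∣[(12 : ℤ)] intGL (γ : Matrix (Fin 2) (Fin 2) ℤ) (det_SL_pos γ) = Δ := by
  rw [Fermat.Agent.S22Lib.intGL_coe_SL]
  exact discriminant_slash_SL γ

theorem discriminant_smul_SL (γ : SL(2, ℤ)) (τ : ℍ) :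
    Δ (γ • τ) = Δ τ * denom γ τ ^ (12 : ℤ) := by
  have h := congrFun (discriminant_slash_SL γ) τ
  rw [SL_slash_apply] at h
  have hd : denom γ τ ^ (12 : ℤ) ≠ 0 := zpow_ne_zero _ (denom_ne_zero γ τ)
  rw [← h, mul_assoc, ← zpow_add₀ (denom_ne_zero γ τ)]
  simp

theorem uMat_SL_mul (γ : SL(2, ℤ)) (A : Matrix (Fin 2) (Fin 2) ℤ) (hA : 0 < A.det) :
    uMat ((γ : Matrix (Fin 2) (Fin 2) ℤ) * A) (det_SL_mul_pos γ hA) = uMat A hA := by
  funext τ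
  rw [uMat_apply, uMat_apply, Fermat.Agent.S22Lib.intGL_mul _ _ (det_SL_pos γ) hA,
    SlashAction.slash_mul, discriminant_slash_intGL_SL, Matrix.det_mul, γ.det_coe, one_mul]

theorem uMat_mul_SL (A : Matrix (Fin 2) (Fin 2) ℤ) (hA : 0 < A.det) (γ : SL(2, ℤ)) (τ : ℍ) :
    uMat (A * (γ : Matrix (Fin 2) (Fin 2) ℤ)) (det_mul_SL_pos hA γ) τ = uMat A hA (γ • τ) := by
  rw [uMat_apply, uMat_apply, Fermat.Agent.S22Lib.intGL_mul _ _ hA (det_SL_pos γ),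
    SlashAction.slash_mul, Matrix.det_mul, γ.det_coe, mul_one,
    Fermat.Agent.S22Lib.intGL_coe_SL]
  have h1 : ((((Δ : ℍ → ℂ) ∣[(12 : ℤ)] intGL A hA)) ∣[(12 : ℤ)]
      (Matrix.SpecialLinearGroup.mapGL ℝ γ)) τ =
      (((Δ : ℍ → ℂ) ∣[(12 : ℤ)] intGL A hA)) (γ • τ) * denom γ τ ^ (-(12 : ℤ)) :=
    SL_slash_apply (f := ((Δ : ℍ → ℂ) ∣[(12 : ℤ)] intGL A hA)) (k := 12) γ τ
  rw [h1, discriminant_smul_SL]
  have hd : denom γ τ ≠ 0 := denom_ne_zero γ τ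
  have hΔ := discriminant_ne_zero τ
  rw [zpow_neg]
  field_simp

/-- Hermite normal form for `uMat` -/
theorem uMat_eq_upper (A : Matrix (Fin 2) (Fin 2) ℤ) (hA : 0 < A.det) :
    ∃ (a b d : ℤ) (_ : 0 < a) (_ : 0 < d)
      (hU : 0 < (!![a, b; 0, d] : Matrix (Fin 2) (Fin 2) ℤ).det),
      A.det = a * d ∧ uMat A hA = uMat !![a, b; 0, d] hU := by
  obtain ⟨g, a, b, d, ha, hd, hAeq⟩ := Fermat.Agent.S22Lib.exists_SL2Z_mul_eq_upper A hA
  have hU : 0 < (!![a, b; 0, d] : Matrix (Fin 2) (Fin 2) ℤ).det := by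
    rw [Fermat.Agent.S22Lib.upper_det]; exact mul_pos ha hd
  refine ⟨a, b, d, ha, hd, hU, ?_, ?_⟩
  · rw [hAeq, Matrix.det_mul, g.det_coe, one_mul, Fermat.Agent.S22Lib.upper_det]
  · rw [uMat_congr hAeq hA (det_SL_mul_pos g hU), uMat_SL_mul]

theorem uMat_upper_add (a b d k : ℤ)
    (h1 : 0 < (!![a, b + k * d; 0, d] : Matrix (Fin 2) (Fin 2) ℤ).det)
    (h2 : 0 < (!![a, b; 0, d] : Matrix (Fin 2) (Fin 2) ℤ).det) :
    uMat !![a, b + k * d; 0, d] h1 = uMat !![a, b; 0, d] h2 := by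
  have e : (!![a, b + k * d; 0, d] : Matrix (Fin 2) (Fin 2) ℤ) =
      ((transSL k : SL(2, ℤ)) : Matrix (Fin 2) (Fin 2) ℤ) * !![a, b; 0, d] := by
    rw [transSL_coe]
    ext i j
    fin_cases i <;> fin_cases j <;> simp [Matrix.mul_apply, Fin.sum_univ_two]
  rw [uMat_congr e h1 (det_SL_mul_pos (transSL k) h2), uMat_SL_mul]

/-- explicit formula for upper triangular matrices: `a ^ 12 Δ((a τ + b) / d) / Δ(τ)` -/
theorem uMat_upper_apply (a b d : ℤ) (hd : 0 < d)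
    (hU : 0 < (!![a, b; 0, d] : Matrix (Fin 2) (Fin 2) ℤ).det) (τ : ℍ) :
    uMat !![a, b; 0, d] hU τ =
      (a : ℂ) ^ 12 * Δ (intGL !![a, b; 0, d] hU • τ) * (Δ τ)⁻¹ := by
  rw [uMat_apply, Fermat.Agent.S22Lib.slash_intGL_upper_apply, Fermat.Agent.S22Lib.upper_det]
  have hdc : (d : ℂ) ≠ 0 := by exact_mod_cast hd.ne'
  have hΔ := discriminant_ne_zero τ
  have e1 : ((a : ℂ) * (d : ℂ)) ^ ((12 : ℤ) - 1) = ((a : ℂ) * (d : ℂ)) ^ (11 : ℕ) := by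
    rw [show ((12 : ℤ) - 1) = ((11 : ℕ) : ℤ) by norm_num, zpow_natCast]
  have e2 : (d : ℂ) ^ (-(12 : ℤ)) = ((d : ℂ) ^ (12 : ℕ))⁻¹ := by
    rw [zpow_neg, show (12 : ℤ) = ((12 : ℕ) : ℤ) by norm_num, zpow_natCast]
  rw [e1, e2]
  push_cast
  field_simp


/-- Laurent expansion of `uMat` of an upper triangular matrix -/
theorem uMat_upper_qLaurent (a b d : ℕ) (hd : 0 < d)
    (hU : 0 < (!![((a : ℕ) : ℤ), ((b : ℕ) : ℤ); 0, ((d : ℕ) : ℤ)] :
      Matrix (Fin 2) (Fin 2) ℤ).det)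
    (N : ℕ) [NeZero N] (e : ℕ) (he : 0 < e) (hed : e * d = N * a) (X : LaurentSeries ℂ)
    (hX : ∀ m : ℤ, X.coeff m =
      if (e : ℤ) ∣ m then Complex.exp (2 * Real.pi * Complex.I * ((b : ℝ) : ℂ) / (d : ℂ)) ^ (m / e) *
        (deltaLS ℂ).coeff (m / e) else 0) :
    IsQLaurentable N (uMat !![((a : ℕ) : ℤ), ((b : ℕ) : ℤ); 0, ((d : ℕ) : ℤ)] hU) ∧
      qLaurent N (uMat !![((a : ℕ) : ℤ), ((b : ℕ) : ℤ); 0, ((d : ℕ) : ℤ)] hU) =
        HahnSeries.C ((a : ℂ) ^ 12) * X * qExpand ℂ N (deltaInvLS ℂ) := by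
  have hdpos : (0 : ℤ) < ((d : ℕ) : ℤ) := by exact_mod_cast hd
  set s : ℍ → ℍ := fun τ => intGL !![((a : ℕ) : ℤ), ((b : ℕ) : ℤ); 0, ((d : ℕ) : ℤ)] hU • τ with hs
  have hscoe : ∀ z : ℍ, (s z : ℂ) = ((a : ℂ) * z + ((b : ℝ) : ℂ)) / (d : ℂ) := by
    intro z
    rw [hs]
    simp only
    rw [Fermat.Agent.S22Lib.coe_intGL_upper_smul]
    push_cast
    rfl
  obtain ⟨h1, h2⟩ := qLaurent_comp_upper (N := N) (a := a) (d := d) (e := e) hd he (b : ℝ) hed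
    isQLaurentable_discriminant s hscoe
  have h3 := qLaurent_change_period N isQLaurentable_discriminant_inv
  have hfun : uMat !![((a : ℕ) : ℤ), ((b : ℕ) : ℤ); 0, ((d : ℕ) : ℤ)] hU =
      fun τ => (fun _ : ℍ => ((a : ℂ) ^ 12)) τ * (fun τ => Δ (s τ)) τ * (fun z : ℍ => (Δ z)⁻¹) τ := by
    funext τ
    rw [uMat_upper_apply _ _ _ hdpos]
    push_cast
    rfl
  have hc := IsQLaurentable.const N ((a : ℂ) ^ 12)
  have h12 : IsQLaurentable N (fun τ => (fun _ : ℍ => ((a : ℂ) ^ 12)) τ * (fun τ => Δ (s τ)) τ) :=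
    hc.mul h1
  rw [hfun]
  refine ⟨h12.mul h3.1, ?_⟩
  rw [qLaurent_mul h12 h3.1, qLaurent_mul hc h1, qLaurent_const, h3.2, qLaurent_discriminant_inv]
  congr 2
  ext m
  rw [h2 m, hX m, qLaurent_discriminant]

/-- `τ ↦ r ^ 12 Δ(r τ) / Δ(τ)` -/
noncomputable def psiInf (r : ℕ) [NeZero r] : ℍ → ℂ :=
  uMat !![((r : ℕ) : ℤ), 0; 0, 1] (det_phiInf r)

/-- `τ ↦ Δ((τ + b) / r) / Δ(τ)` -/
noncomputable def psiFin (r : ℕ) [NeZero r] (b : ℤ) : ℍ → ℂ :=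
  uMat !![1, b; 0, ((r : ℕ) : ℤ)] (det_phiFin r b)

theorem psiInf_qLaurent (r : ℕ) [NeZero r] :
    IsQLaurentable r (psiInf r) ∧
      qLaurent r (psiInf r) = qExpand ℂ r (lsMapHom (Int.castRingHom ℂ) (unitInfLS ℤ r)) := by
  have hU : 0 < (!![((r : ℕ) : ℤ), ((0 : ℕ) : ℤ); 0, ((1 : ℕ) : ℤ)] :
      Matrix (Fin 2) (Fin 2) ℤ).det := by
    have := det_phiInf r
    simpa using this
  have e0 : (!![((r : ℕ) : ℤ), 0; 0, 1] : Matrix (Fin 2) (Fin 2) ℤ) =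
      !![((r : ℕ) : ℤ), ((0 : ℕ) : ℤ); 0, ((1 : ℕ) : ℤ)] := by simp
  have hr0 : 0 < r := Nat.pos_of_ne_zero (NeZero.ne r)
  have key := uMat_upper_qLaurent r 0 1 one_pos hU r (r * r) (Nat.mul_pos hr0 hr0) (by ring)
    (qExpand ℂ r (qExpand ℂ r (deltaLS ℂ))) ?_
  · rw [psiInf, uMat_congr e0 (det_phiInf r) hU]
    refine ⟨key.1, ?_⟩
    rw [key.2, lsMapHom_unitInfLS, unitInfLS, map_mul, map_mul, qExpand_C]
  · intro m
    rw [qExpand_qExpand]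
    by_cases hm : (((r * r : ℕ) : ℕ) : ℤ) ∣ m
    · rw [if_pos hm]
      obtain ⟨k, rfl⟩ := hm
      have hne : (((r * r : ℕ) : ℕ) : ℤ) ≠ 0 := by
        have := NeZero.ne r
        positivity
      rw [qExpand_coeff_mul, Int.mul_ediv_cancel_left _ hne]
      simp
    · rw [if_neg hm, qExpand_coeff_of_not_dvd _ _ hm]

theorem psiFin_qLaurent (r : ℕ) [NeZero r] (b : ℕ) :
    IsQLaurentable r (psiFin r b) ∧
      qLaurent r (psiFin r b) =
        lsTwist (zetaC r ^ b) (lsMapHom (Int.castRingHom ℂ) (unitFinLS ℤ r)) := by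
  have hU : 0 < (!![((1 : ℕ) : ℤ), ((b : ℕ) : ℤ); 0, ((r : ℕ) : ℤ)] :
      Matrix (Fin 2) (Fin 2) ℤ).det := by
    have := det_phiFin r b
    simpa using this
  have e0 : (!![1, ((b : ℕ) : ℤ); 0, ((r : ℕ) : ℤ)] : Matrix (Fin 2) (Fin 2) ℤ) =
      !![((1 : ℕ) : ℤ), ((b : ℕ) : ℤ); 0, ((r : ℕ) : ℤ)] := by simp
  have hr0 : 0 < r := Nat.pos_of_ne_zero (NeZero.ne r)
  have key := uMat_upper_qLaurent 1 b r hr0 hU r 1 one_pos (by ring)
    (lsTwist (zetaC r ^ b) (deltaLS ℂ)) ?_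
  · rw [psiFin, uMat_congr e0 (det_phiFin r b) hU]
    refine ⟨key.1, ?_⟩
    rw [key.2, lsMapHom_unitFinLS, unitFinLS, map_mul,
      lsTwist_qExpand r (by rw [← pow_mul, mul_comm, pow_mul, (zetaC_isPrimitiveRoot r).pow_eq_one,
        one_pow])]
    simp
  · intro m
    rw [lsTwist_coeff, if_pos (by simp), Units.val_zpow_eq_zpow_val, zetaC_pow_val]
    simp

theorem uMat_det_prime (r : ℕ) [NeZero r] (hr : r.Prime) (A : Matrix (Fin 2) (Fin 2) ℤ)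
    (hA : 0 < A.det) (hdet : A.det = r) :
    uMat A hA = psiInf r ∨ ∃ b : ℕ, b < r ∧ uMat A hA = psiFin r b := by
  obtain ⟨a, b, d, ha, hd, hU, hdet', heq⟩ := uMat_eq_upper A hA
  rw [hdet] at hdet'
  have hrpos : (0 : ℤ) < ((r : ℕ) : ℤ) := by exact_mod_cast hr.pos
  -- `a * d = r`
  have hanat : ((a.toNat : ℕ) : ℤ) = a := Int.toNat_of_nonneg ha.le
  have hdnat : ((d.toNat : ℕ) : ℤ) = d := Int.toNat_of_nonneg hd.le
  have hmul : a.toNat * d.toNat = r := by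
    have : ((a.toNat * d.toNat : ℕ) : ℤ) = ((r : ℕ) : ℤ) := by
      push_cast
      rw [hanat, hdnat, hdet']
    exact_mod_cast this
  have hdvd : a.toNat ∣ r := ⟨d.toNat, hmul.symm⟩
  rcases (Nat.dvd_prime hr).mp hdvd with h1 | h1
  · -- a = 1, d = r
    right
    have ha1 : a = 1 := by rw [← hanat, h1]; rfl
    have hdr : d = r := by
      rw [h1, one_mul] at hmul
      rw [← hdnat, hmul]
    subst ha1
    subst hdr
    refine ⟨(b % ((r : ℕ) : ℤ)).toNat, ?_, ?_⟩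
    · have := Int.emod_lt_of_pos b hrpos
      have h0 := Int.emod_nonneg b hrpos.ne'
      omega
    · rw [heq, psiFin]
      have hb : ((((b % ((r : ℕ) : ℤ)).toNat : ℕ) : ℤ)) = b % ((r : ℕ) : ℤ) :=
        Int.toNat_of_nonneg (Int.emod_nonneg b hrpos.ne')
      have e : (!![1, b; 0, ((r : ℕ) : ℤ)] : Matrix (Fin 2) (Fin 2) ℤ) =
          !![1, (((b % ((r : ℕ) : ℤ)).toNat : ℕ) : ℤ) + (b / ((r : ℕ) : ℤ)) * ((r : ℕ) : ℤ); 0,
            ((r : ℕ) : ℤ)] := by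
        rw [hb, Int.emod_add_ediv_mul]
      have hpos : 0 < (!![1, (((b % ((r : ℕ) : ℤ)).toNat : ℕ) : ℤ) +
          (b / ((r : ℕ) : ℤ)) * ((r : ℕ) : ℤ); 0, ((r : ℕ) : ℤ)] :
            Matrix (Fin 2) (Fin 2) ℤ).det := by
        rw [← e]; exact hU
      rw [uMat_congr e hU hpos, uMat_upper_add]
  · -- a = r, d = 1
    left
    have har : a = r := by rw [← hanat, h1]
    have hd1 : d = 1 := by
      rw [h1] at hmul
      have : d.toNat = 1 := by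
        have := Nat.eq_of_mul_eq_mul_left hr.pos (hmul.trans (mul_one r).symm)
        exact this
      rw [← hdnat, this]; rfl
    subst har
    subst hd1
    rw [heq, psiInf]
    have e : (!![((r : ℕ) : ℤ), b; 0, 1] : Matrix (Fin 2) (Fin 2) ℤ) =
        !![((r : ℕ) : ℤ), 0 + b * 1; 0, 1] := by
      rw [zero_add, mul_one]
    have hpos : 0 < (!![((r : ℕ) : ℤ), 0 + b * 1; 0, 1] : Matrix (Fin 2) (Fin 2) ℤ).det := by
      rw [← e]; exact hU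
    rw [uMat_congr e hU hpos, uMat_upper_add]

theorem psi_perm (r : ℕ) [NeZero r] (hr : r.Prime) (γ : SL(2, ℤ)) (x : ℍ → ℂ)
    (hx : x = psiInf r ∨ ∃ b : ℕ, b < r ∧ x = psiFin r b) :
    ((fun τ => x (γ • τ)) = psiInf r ∨ ∃ b : ℕ, b < r ∧ (fun τ => x (γ • τ)) = psiFin r b) := by
  have key : ∀ (A : Matrix (Fin 2) (Fin 2) ℤ) (hA : 0 < A.det), A.det = r →
      ((fun τ => uMat A hA (γ • τ)) = psiInf r ∨
        ∃ b : ℕ, b < r ∧ (fun τ => uMat A hA (γ • τ)) = psiFin r b) := by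
    intro A hA hdet
    have e : (fun τ => uMat A hA (γ • τ)) =
        uMat (A * (γ : Matrix (Fin 2) (Fin 2) ℤ)) (det_mul_SL_pos hA γ) := by
      funext τ
      rw [uMat_mul_SL]
    rw [e]
    apply uMat_det_prime r hr
    rw [Matrix.det_mul, γ.det_coe, mul_one, hdet]
  rcases hx with rfl | ⟨b, -, rfl⟩
  · exact key _ _ (by rw [Fermat.Agent.S22Lib.upper_det, mul_one])
  · exact key _ _ (by rw [Fermat.Agent.S22Lib.upper_det, one_mul])



/-- **(C2)** the integral modular-unit polynomial `Ψ_r` (`r` prime):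
`Ψ_r(X, j(T)) = (X - r ^ 12 Δ(T ^ r) / Δ(T)) · lsChar r (Δ(T) / Δ(T ^ r))`, so that
`Ψ_r(r ^ 12 Δ(T ^ r) / Δ(T), j(T)) = 0` and `Ψ_r(Δ(T) / Δ(T ^ r), j(T ^ r)) = 0`. -/
theorem exists_modPsi (r : ℕ) [NeZero r] (hr : r.Prime) :
    ∃ Ψ : Polynomial (Polynomial ℤ), Ψ.Monic ∧ Ψ.natDegree = r + 1 ∧
      Ψ.map (evalJ ℤ) = modTilde r (unitFinLS ℤ r) (unitInfLS ℤ r) ∧
      Ψ.eval₂ (evalJ ℤ) (unitInfLS ℤ r) = 0 ∧
      Ψ.eval₂ ((qExpand ℤ r).comp (evalJ ℤ)) (unitFinLS ℤ r) = 0 := by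
  have h1 : (unitFinLS ℤ r).coeff (1 - (r : ℤ)) ≠ 0 := by
    rw [unitFinLS_coeff]
    exact one_ne_zero
  have hcop : IsCoprime (1 - (r : ℤ)) ((r : ℕ) : ℤ) := ⟨1, 1, by ring⟩
  have hmod := exists_polynomial_of_orbit r hr.two_le (zetaC r) (zetaC_isPrimitiveRoot r)
    (unitFinLS ℤ r) (unitInfLS ℤ r) h1 hcop (psiInf r) (fun b => psiFin r b)
    (psiInf_qLaurent r).1 (fun b _ => (psiFin_qLaurent r b).1) (psiInf_qLaurent r).2
    (fun b _ => (psiFin_qLaurent r b).2) (psi_perm r hr)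
  exact exists_modular_polynomial r (RingHom.injective_int (Int.castRingHom ℂ)) _ _ hmod

end Fermat.Agent.Igusa
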