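import Fermat.Agent.Lib.Igusa.ModPolyAssembly
import Fermat.Agent.Lib.S24.JLaurent
import Fermat.Agent.Lib.S24.JPolynomial

/-!
# P9 (C): the analytic input for modular-type polynomials

`r + 1` holomorphic functions `G∞, G_0, …, G_{r-1}` on `ℍ` which are permuted by `SL(2, ℤ)` and
whose `q_r`-expansions are `g(T ^ r)` and the twists `f(ζ^b T)` (with `f, g` integral Laurent
series): then the coefficients of `(X - g) · lsChar r f` are polynomials in `j`.
-/

set_option autoImplicit false

open HahnSeries ModularCurve Polynomial UpperHalfPlane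
open Fermat.Agent.ES Fermat.Agent.S24Lib
open scoped MatrixGroups Manifold

namespace Fermat.Agent.Igusa

/-- `q`-expansion of a polynomial in `j` -/
theorem qLaurent_eval_jFun (P : Polynomial ℂ) :
    IsQLaurentable 1 (fun τ => P.eval (jFun τ)) ∧
      qLaurent 1 (fun τ => P.eval (jFun τ)) = evalJ ℂ P := by
  induction P using Polynomial.induction_on' with
  | add p q hp hq =>
    have e : (fun τ => (p + q).eval (jFun τ)) =
        (fun τ => p.eval (jFun τ) + q.eval (jFun τ)) := by
      funext τ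
      simp
    rw [e]
    refine ⟨hp.1.add hq.1, ?_⟩
    rw [qLaurent_add hp.1 hq.1, hp.2, hq.2, map_add]
  | monomial n a =>
    have e : (fun τ => (Polynomial.monomial n a).eval (jFun τ)) =
        (fun τ => a * jFun τ ^ n) := by
      funext τ
      simp
    rw [e]
    have h1 : IsQLaurentable 1 (fun τ => jFun τ ^ n) := isQLaurentable_jFun.pow n
    refine ⟨(IsQLaurentable.const 1 a).mul h1, ?_⟩
    rw [qLaurent_mul (IsQLaurentable.const 1 a) h1, qLaurent_const, qLaurent_pow isQLaurentable_jFun,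
      qLaurent_jFun, evalJ_monomial]

/-- composition with the action of `γ` as a ring endomorphism of the functions on `ℍ` -/
noncomputable def compSL (γ : SL(2, ℤ)) : (ℍ → ℂ) →+* (ℍ → ℂ) where
  toFun f := fun τ => f (γ • τ)
  map_one' := rfl
  map_mul' _ _ := rfl
  map_zero' := rfl
  map_add' _ _ := rfl

@[simp] lemma compSL_apply (γ : SL(2, ℤ)) (f : ℍ → ℂ) (τ : ℍ) : compSL γ f τ = f (γ • τ) := rfl

lemma compSL_injective (γ : SL(2, ℤ)) : Function.Injective (compSL γ) := by
  intro f g h
  funext τ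
  have := congrFun h (γ⁻¹ • τ)
  simpa using this

/-- **The analytic input.** -/
theorem exists_polynomial_of_orbit (r : ℕ) [NeZero r] (hr : 2 ≤ r)
    (ζ : ℂˣ) (hζ : IsPrimitiveRoot ζ r)
    (f g : LaurentSeries ℤ) {n₀ : ℤ} (hn₀ : f.coeff n₀ ≠ 0) (hcop : IsCoprime n₀ (r : ℤ))
    (Ginf : ℍ → ℂ) (G : ℕ → ℍ → ℂ)
    (hGinf : IsQLaurentable r Ginf) (hG : ∀ b, b < r → IsQLaurentable r (G b))
    (hqinf : qLaurent r Ginf = qExpand ℂ r (lsMapHom (Int.castRingHom ℂ) g))
    (hqG : ∀ b, b < r → qLaurent r (G b) = lsTwist (ζ ^ b) (lsMapHom (Int.castRingHom ℂ) f))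
    (hperm : ∀ (γ : SL(2, ℤ)) (x : ℍ → ℂ), (x = Ginf ∨ ∃ b, b < r ∧ x = G b) →
      ((fun τ => x (γ • τ)) = Ginf ∨ ∃ b, b < r ∧ (fun τ => x (γ • τ)) = G b)) (k : ℕ) :
    ∃ P : Polynomial ℂ,
      lsMapHom (Int.castRingHom ℂ) ((modTilde r f g).coeff k) = evalJ ℂ P := by
  classical
  set ι := Int.castRingHom ℂ with hι
  set fC := lsMapHom ι f with hfC
  set gC := lsMapHom ι g with hgC
  have hn₀' : fC.coeff n₀ ≠ 0 := by
    rw [hfC, lsMapHom_coeff]
    simpa using hn₀
  have hinj := lsTwist_injOn r hζ fC hn₀' hcop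
  have hrn : ¬ (r : ℤ) ∣ n₀ := by
    intro hdvd
    have h1 : IsUnit (r : ℤ) := hcop.symm.isUnit_of_dvd' dvd_rfl hdvd
    rw [Int.isUnit_iff] at h1
    omega
  -- distinctness
  have hGinj : Set.InjOn G (Finset.range r : Set ℕ) := by
    intro b hb b' hb' h
    apply hinj hb hb'
    show lsTwist (ζ ^ b) fC = lsTwist (ζ ^ b') fC
    rw [← hqG b (Finset.mem_range.mp hb), ← hqG b' (Finset.mem_range.mp hb'), h]
  have hnot : Ginf ∉ (Finset.range r).image G := by
    intro hmem
    obtain ⟨b, hb, hbe⟩ := Finset.mem_image.mp hmem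
    have h1 : qExpand ℂ r gC = lsTwist (ζ ^ b) fC := by
      rw [← hqinf, ← hqG b (Finset.mem_range.mp hb), hbe]
    have h2 := congrArg (fun x : LaurentSeries ℂ => x.coeff n₀) h1
    simp only [lsTwist_coeff] at h2
    rw [qExpand_coeff_of_not_dvd r _ hrn] at h2
    exact (mul_ne_zero (Units.ne_zero _) hn₀') h2.symm
  set S : Finset (ℍ → ℂ) := insert Ginf ((Finset.range r).image G) with hS
  have hSmem : ∀ x, x ∈ S ↔ (x = Ginf ∨ ∃ b, b < r ∧ x = G b) := by
    intro x
    rw [hS, Finset.mem_insert, Finset.mem_image]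
    constructor
    · rintro (h | ⟨b, hb, rfl⟩)
      · exact Or.inl h
      · exact Or.inr ⟨b, Finset.mem_range.mp hb, rfl⟩
    · rintro (h | ⟨b, hb, rfl⟩)
      · exact Or.inl h
      · exact Or.inr ⟨b, Finset.mem_range.mpr hb, rfl⟩
  set F0 : Polynomial (ℍ → ℂ) := ∏ x ∈ S, (Polynomial.X - Polynomial.C x) with hF0
  have hF0' : F0 = (Polynomial.X - Polynomial.C Ginf) *
      ∏ b ∈ Finset.range r, (Polynomial.X - Polynomial.C (G b)) := by
    rw [hF0, hS, Finset.prod_insert hnot, Finset.prod_image (fun a ha b hb h => hGinj ha hb h)]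
  -- invariance
  have hinvF : ∀ γ : SL(2, ℤ), F0.map (compSL γ) = F0 := by
    intro γ
    have himg : S.image (compSL γ) = S := by
      apply Finset.eq_of_subset_of_card_le
      · intro y hy
        obtain ⟨x, hx, rfl⟩ := Finset.mem_image.mp hy
        exact (hSmem _).mpr (hperm γ x ((hSmem x).mp hx))
      · rw [Finset.card_image_of_injective _ (compSL_injective γ)]
    rw [hF0, Polynomial.map_prod]
    conv_rhs => rw [← himg, Finset.prod_image (fun a _ b _ h => compSL_injective γ h)]
    refine Finset.prod_congr rfl fun x _ => ?_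
    rw [Polynomial.map_sub, Polynomial.map_X, Polynomial.map_C]
  -- lift to the ring of Laurentable functions
  set xinf : qLaurentSubring r := ⟨Ginf, hGinf⟩ with hxinf
  set xb : ℕ → qLaurentSubring r := fun b => if h : b < r then ⟨G b, hG b h⟩ else 0 with hxb
  set F1 : Polynomial (qLaurentSubring r) := (Polynomial.X - Polynomial.C xinf) *
      ∏ b ∈ Finset.range r, (Polynomial.X - Polynomial.C (xb b)) with hF1
  have hF10 : F1.map (qLaurentSubring r).subtype = F0 := by
    rw [hF0', hF1, Polynomial.map_mul, Polynomial.map_sub, Polynomial.map_X, Polynomial.map_C,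
      Polynomial.map_prod]
    congr 1
    refine Finset.prod_congr rfl fun b hb => ?_
    rw [Polynomial.map_sub, Polynomial.map_X, Polynomial.map_C, hxb]
    simp only [dif_pos (Finset.mem_range.mp hb)]
    rfl
  have hF1q : F1.map (qLaurentHom r) =
      ((modTilde r f g).map (lsMapHom ι)).map (qExpand ℂ r) := by
    rw [hF1, Polynomial.map_mul, Polynomial.map_sub, Polynomial.map_X, Polynomial.map_C,
      Polynomial.map_prod]
    rw [modTilde, Polynomial.map_mul, Polynomial.map_mul, Polynomial.map_sub, Polynomial.map_sub,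
      Polynomial.map_X, Polynomial.map_X, Polynomial.map_C, Polynomial.map_C, lsChar_map,
      lsChar_eq_prod r (hζ.pow_eq_one) fC hinj]
    congr 1
    · rw [qLaurentHom_apply]
      show Polynomial.X - Polynomial.C (qLaurent r Ginf) = _
      rw [hqinf]
    · refine Finset.prod_congr rfl fun b hb => ?_
      rw [Polynomial.map_sub, Polynomial.map_X, Polynomial.map_C, qLaurentHom_apply, hxb]
      simp only [dif_pos (Finset.mem_range.mp hb)]
      rw [hqG b (Finset.mem_range.mp hb)]
  -- the coefficient function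
  set c : ℍ → ℂ := F0.coeff k with hc
  have hc1 : c = (F1.coeff k).1 := by
    rw [hc, ← hF10, Polynomial.coeff_map]
    rfl
  have hcq : IsQLaurentable r c := by
    rw [hc1]
    exact (F1.coeff k).2
  have hcinv : ∀ (γ : SL(2, ℤ)) (τ : ℍ), c (γ • τ) = c τ := by
    intro γ τ
    have h1 : compSL γ c = c := by
      rw [hc, ← Polynomial.coeff_map, hinvF γ]
    exact congrFun h1 τ
  have hper : ∀ z : ℍ, c (((1 : ℕ) : ℝ) +ᵥ z) = c z := by
    intro z
    rw [Nat.cast_one, ← UpperHalfPlane.modular_T_smul, hcinv]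
  have hq1 : IsQLaurentable 1 c := ⟨hcq.mdiff, hper, hcq.mero⟩
  obtain ⟨m, hm⟩ := hcq.mero
  obtain ⟨P, -, -, hP⟩ := exists_polynomial_jFun c hcq.mdiff hcinv m hm ⊤ (fun _ => trivial)
  refine ⟨P, ?_⟩
  have hcP : c = fun τ => P.eval (jFun τ) := funext hP
  have e1 : qLaurent 1 c = evalJ ℂ P := by
    rw [hcP]
    exact (qLaurent_eval_jFun P).2
  have e2 : qLaurent r c = qExpand ℂ r (evalJ ℂ P) := by
    rw [(qLaurent_change_period r hq1).2, e1]
  have e3 : qLaurent r c = qExpand ℂ r (lsMapHom ι ((modTilde r f g).coeff k)) := by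
    have : qLaurent r c = qLaurentHom r (F1.coeff k) := by
      rw [qLaurentHom_apply, ← hc1]
    rw [this, ← Polynomial.coeff_map, hF1q, Polynomial.coeff_map, Polynomial.coeff_map]
  exact qExpand_injective r (e3.symm.trans e2)

end Fermat.Agent.Igusa
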