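import Fermat.Agent.Lib.Igusa.ModPolyFormal

/-!
# P9 (C), formal part 2: the substitutions `T ↦ ζ T` and the factorisation of the norm polynomial

`lsTwist ζ` is the ring endomorphism `f(T) ↦ f(ζ T)` of `S((T))`.  If `ζ ^ r = 1` it fixes the
image of `qExpand S r`, so the twists of `f` are roots of `lsChar r f`; if they are pairwise distinct
(e.g. `ζ` primitive and `f` has a nonzero coefficient of index prime to `r`) then
`lsChar r f = ∏_b (X - f(ζ^b T))`.
-/

set_option autoImplicit false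
open HahnSeries ModularCurve Polynomial
namespace Fermat.Agent.Igusa

variable {S : Type*} [CommRing S]

lemma lsTwist_aux (ζ : Sˣ) (f : LaurentSeries S) :
    BddBelow (Function.support (fun n : ℤ => ((ζ ^ n : Sˣ) : S) * f.coeff n)) := by
  refine ⟨f.order, ?_⟩
  intro m hm
  by_contra hlt
  push Not at hlt
  apply hm
  show ((ζ ^ m : Sˣ) : S) * f.coeff m = 0
  rw [HahnSeries.coeff_eq_zero_of_lt_order hlt, mul_zero]

/-- the substitution `T ↦ ζ T` on Laurent series -/
noncomputable def lsTwistFun (ζ : Sˣ) (f : LaurentSeries S) : LaurentSeries S :=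
  HahnSeries.ofSuppBddBelow (fun n : ℤ => ((ζ ^ n : Sˣ) : S) * f.coeff n) (lsTwist_aux ζ f)

@[simp] lemma lsTwistFun_coeff (ζ : Sˣ) (f : LaurentSeries S) (n : ℤ) :
    (lsTwistFun ζ f).coeff n = ((ζ ^ n : Sˣ) : S) * f.coeff n := by
  rw [lsTwistFun, HahnSeries.coeff_ofSuppBddBelow]

lemma lsTwistFun_support (ζ : Sˣ) (f : LaurentSeries S) :
    (lsTwistFun ζ f).support = f.support := by
  ext n
  rw [HahnSeries.mem_support, HahnSeries.mem_support, lsTwistFun_coeff]
  exact (Units.mul_right_eq_zero _).not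

lemma lsTwistFun_mul (ζ : Sˣ) (f g : LaurentSeries S) :
    lsTwistFun ζ (f * g) = lsTwistFun ζ f * lsTwistFun ζ g := by
  ext n
  rw [lsTwistFun_coeff, HahnSeries.coeff_mul, HahnSeries.coeff_mul, Finset.mul_sum]
  have hset : Finset.antidiagonal (lsTwistFun ζ f).isPWO_support (lsTwistFun ζ g).isPWO_support n
      = Finset.antidiagonal f.isPWO_support g.isPWO_support n := by
    ext ij
    simp only [Finset.mem_antidiagonal, lsTwistFun_support]
  rw [hset]
  refine Finset.sum_congr rfl fun ij hij => ?_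
  rw [Finset.mem_antidiagonal] at hij
  rw [lsTwistFun_coeff, lsTwistFun_coeff, ← hij.2.2, zpow_add, Units.val_mul]
  ring

/-- the substitution `T ↦ ζ T` as a ring homomorphism -/
noncomputable def lsTwist (ζ : Sˣ) : LaurentSeries S →+* LaurentSeries S where
  toFun := lsTwistFun ζ
  map_one' := by
    ext n
    rw [lsTwistFun_coeff, HahnSeries.coeff_one]
    split_ifs with h
    · subst h
      simp
    · simp
  map_mul' := lsTwistFun_mul ζ
  map_zero' := by
    ext n
    simp
  map_add' x y := by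
    ext n
    simp [mul_add]

@[simp] lemma lsTwist_coeff (ζ : Sˣ) (f : LaurentSeries S) (n : ℤ) :
    (lsTwist ζ f).coeff n = ((ζ ^ n : Sˣ) : S) * f.coeff n := lsTwistFun_coeff ζ f n

lemma lsTwist_qExpand (r : ℕ) [NeZero r] {ζ : Sˣ} (hζ : ζ ^ r = 1) (g : LaurentSeries S) :
    lsTwist ζ (qExpand S r g) = qExpand S r g := by
  ext n
  rw [lsTwist_coeff]
  by_cases hd : (r : ℤ) ∣ n
  · obtain ⟨k, rfl⟩ := hd
    rw [zpow_mul, zpow_natCast, hζ, one_zpow, Units.val_one, one_mul]
  · rw [qExpand_coeff_of_not_dvd r _ hd, mul_zero]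

/-- the twists of `f` are roots of the norm polynomial of `f` -/
theorem lsChar_eval_twist (r : ℕ) [NeZero r] {ζ : Sˣ} (hζ : ζ ^ r = 1) (f : LaurentSeries S) :
    ((lsChar r f).map (qExpand S r)).eval (lsTwist ζ f) = 0 := by
  have h := lsChar_eval_self r f
  have h2 := congrArg (lsTwist ζ) h
  rw [map_zero, ← Polynomial.eval₂_at_apply, Polynomial.eval₂_map] at h2
  rw [Polynomial.eval_map]
  have hcomp : (lsTwist ζ).comp (qExpand S r) = qExpand S r := by
    ext g : 1
    exact lsTwist_qExpand r hζ g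
  rw [hcomp] at h2
  exact h2

/-- **Factorisation of the norm polynomial** over a domain containing enough roots of unity. -/
theorem lsChar_eq_prod [IsDomain S] (r : ℕ) [NeZero r] {ζ : Sˣ} (hζ : ζ ^ r = 1)
    (f : LaurentSeries S)
    (hinj : Set.InjOn (fun b : ℕ => lsTwist (ζ ^ b) f) (Finset.range r : Set ℕ)) :
    (lsChar r f).map (qExpand S r) =
      ∏ b ∈ Finset.range r, (Polynomial.X - Polynomial.C (lsTwist (ζ ^ b) f)) := by
  classical
  set P := (lsChar r f).map (qExpand S r) with hP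
  have hPm : P.Monic := (lsChar_monic r f).map _
  have hPd : P.natDegree = r := by
    rw [hP, (lsChar_monic r f).natDegree_map, lsChar_natDegree]
  set s : Multiset (LaurentSeries S) := (Finset.range r).val.map (fun b : ℕ => lsTwist (ζ ^ b) f)
    with hs
  have hnd : s.Nodup := Multiset.Nodup.map_on (fun a ha b hb h => hinj ha hb h) (Finset.range r).nodup
  have hsub : s ≤ P.roots := by
    rw [Multiset.le_iff_subset hnd]
    intro x hx
    rw [hs, Multiset.mem_map] at hx
    obtain ⟨b, -, rfl⟩ := hx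
    rw [Polynomial.mem_roots hPm.ne_zero, Polynomial.IsRoot.def]
    exact lsChar_eval_twist r (by rw [← pow_mul, mul_comm, pow_mul, hζ, one_pow]) f
  have hdvd := (Multiset.prod_X_sub_C_dvd_iff_le_roots hPm.ne_zero s).2 hsub
  have hQ : (s.map fun a => Polynomial.X - Polynomial.C a).prod = ∏ b ∈ Finset.range r, (Polynomial.X - Polynomial.C (lsTwist (ζ ^ b) f)) := by
    rw [hs, Multiset.map_map]
    rfl
  rw [hQ] at hdvd
  have hQm : (∏ b ∈ Finset.range r, (Polynomial.X - Polynomial.C (lsTwist (ζ ^ b) f))).Monic :=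
    Polynomial.monic_prod_of_monic _ _ fun b _ => Polynomial.monic_X_sub_C _
  have hQd : (∏ b ∈ Finset.range r, (Polynomial.X - Polynomial.C (lsTwist (ζ ^ b) f))).natDegree = r := by
    rw [Polynomial.natDegree_prod_of_monic _ _ fun b _ => Polynomial.monic_X_sub_C _]
    simp
  exact Polynomial.eq_of_monic_of_dvd_of_natDegree_le hQm hPm hdvd (by rw [hPd, hQd])

/-- the twists by the powers of a primitive `r`-th root of unity are pairwise distinct as soon as
some coefficient of index prime to `r` does not vanish -/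
theorem lsTwist_injOn [IsDomain S] (r : ℕ) [NeZero r] {ζ : Sˣ} (hζ : IsPrimitiveRoot ζ r)
    (f : LaurentSeries S) {n₀ : ℤ} (hn₀ : f.coeff n₀ ≠ 0) (hcop : IsCoprime n₀ (r : ℤ)) :
    Set.InjOn (fun b : ℕ => lsTwist (ζ ^ b) f) (Finset.range r : Set ℕ) := by
  intro b hb b' hb' h
  have hb1 : b < r := Finset.mem_range.mp hb
  have hb2 : b' < r := Finset.mem_range.mp hb'
  have h1 := congrArg (fun g : LaurentSeries S => g.coeff n₀) h
  simp only [lsTwist_coeff] at h1
  have h2 : (((ζ ^ b) ^ n₀ : Sˣ) : S) = (((ζ ^ b') ^ n₀ : Sˣ) : S) := mul_right_cancel₀ hn₀ h1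
  have h3 : ζ ^ (((b : ℤ) - b') * n₀) = 1 := by
    have h4 : (ζ ^ b) ^ n₀ = (ζ ^ b') ^ n₀ := Units.ext h2
    rw [← zpow_natCast, ← zpow_natCast, ← zpow_mul, ← zpow_mul] at h4
    rw [sub_mul, zpow_sub, h4, mul_inv_cancel]
  rw [hζ.zpow_eq_one_iff_dvd] at h3
  have h5 : (r : ℤ) ∣ (b : ℤ) - b' := (hcop.symm.dvd_of_dvd_mul_right h3)
  have h6 : ((b : ℤ) - b') = 0 := by
    apply Int.eq_zero_of_abs_lt_dvd h5
    rw [abs_lt]
    constructor <;> omega
  omega

end Fermat.Agent.Igusa
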