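import Fermat.Agent.Lib.Igusa.ModPolyIntegral
import Fermat.Agent.Lib.Igusa.ModPolyTwist

/-!
# P9 (C): formal assembly of modular-type polynomials

Given `f ∈ ℤ((T))` and `g ∈ ℤ((q))`, put `Φ̃ = (X - g) · lsChar r f ∈ ℤ((q))[X]`.  If every
coefficient of `Φ̃` becomes a polynomial in `j` over some ring `K ⊇ ℤ`, then `Φ̃` comes from a
polynomial `Φ ∈ ℤ[Y][X]`, monic of degree `r + 1` in `X`, with `Φ(g, j(q)) = 0` and
`Φ(f(T), j(T ^ r)) = 0`.
-/

set_option autoImplicit false

open HahnSeries ModularCurve Polynomial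

namespace Fermat.Agent.Igusa

variable (r : ℕ) [NeZero r]

/-- the formal candidate `(X - g) · χ_f` -/
noncomputable def modTilde (f g : LaurentSeries ℤ) : Polynomial (LaurentSeries ℤ) :=
  (Polynomial.X - Polynomial.C g) * lsChar r f

theorem modTilde_monic (f g : LaurentSeries ℤ) : (modTilde r f g).Monic :=
  (Polynomial.monic_X_sub_C g).mul (lsChar_monic r f)

theorem modTilde_natDegree (f g : LaurentSeries ℤ) : (modTilde r f g).natDegree = r + 1 := by
  rw [modTilde, (Polynomial.monic_X_sub_C g).natDegree_mul (lsChar_monic r f),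
    Polynomial.natDegree_X_sub_C, lsChar_natDegree, add_comm]

theorem modTilde_eval_left (f g : LaurentSeries ℤ) : (modTilde r f g).eval g = 0 := by
  rw [modTilde, Polynomial.eval_mul, Polynomial.eval_sub, Polynomial.eval_X, Polynomial.eval_C,
    sub_self, zero_mul]

theorem modTilde_eval_right (f g : LaurentSeries ℤ) :
    ((modTilde r f g).map (qExpand ℤ r)).eval f = 0 := by
  rw [modTilde, Polynomial.map_mul, Polynomial.eval_mul, lsChar_eval_self, mul_zero]

/-- **Formal assembly.** -/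
theorem exists_modular_polynomial {K : Type*} [CommRing K]
    (hK : Function.Injective (Int.castRingHom K)) (f g : LaurentSeries ℤ)
    (hmod : ∀ k, ∃ P : Polynomial K,
      lsMapHom (Int.castRingHom K) ((modTilde r f g).coeff k) = evalJ K P) :
    ∃ Φ : Polynomial (Polynomial ℤ), Φ.Monic ∧ Φ.natDegree = r + 1 ∧
      Φ.map (evalJ ℤ) = modTilde r f g ∧
      Φ.eval₂ (evalJ ℤ) g = 0 ∧
      Φ.eval₂ ((qExpand ℤ r).comp (evalJ ℤ)) f = 0 := by
  classical
  have hcoef : ∀ k, ∃ Q : Polynomial ℤ, evalJ ℤ Q = (modTilde r f g).coeff k := by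
    intro k
    obtain ⟨P, hP⟩ := hmod k
    obtain ⟨Q, -, hQ⟩ := exists_int_polynomial_of_evalJ hK P _ hP.symm
    exact ⟨Q, hQ⟩
  choose Q hQ using hcoef
  set Φ : Polynomial (Polynomial ℤ) :=
    Polynomial.X ^ (r + 1) + ∑ k ∈ Finset.range (r + 1), Polynomial.C (Q k) * Polynomial.X ^ k
    with hΦ
  have hlow : (∑ k ∈ Finset.range (r + 1),
      Polynomial.C (Q k) * Polynomial.X ^ k : Polynomial (Polynomial ℤ)).degree < ((r + 1 : ℕ) : WithBot ℕ) := by
    refine (Polynomial.degree_sum_le _ _).trans_lt ?_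
    rw [Finset.sup_lt_iff (WithBot.bot_lt_coe _)]
    intro k hk
    refine (Polynomial.degree_C_mul_X_pow_le _ _).trans_lt ?_
    exact_mod_cast Finset.mem_range.mp hk
  have hmonic : Φ.Monic := Polynomial.monic_X_pow_add hlow
  have hdeg : Φ.natDegree = r + 1 := by
    rw [hΦ, Polynomial.natDegree_add_eq_left_of_degree_lt]
    · exact Polynomial.natDegree_X_pow _
    · rw [Polynomial.degree_X_pow]
      exact hlow
  have hmap : Φ.map (evalJ ℤ) = modTilde r f g := by
    have h1 : modTilde r f g = Polynomial.X ^ (r + 1) +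
        ∑ k ∈ Finset.range (r + 1), Polynomial.C ((modTilde r f g).coeff k) * Polynomial.X ^ k := by
      conv_lhs => rw [(modTilde_monic r f g).as_sum, modTilde_natDegree]
    rw [h1, hΦ, Polynomial.map_add, Polynomial.map_pow, Polynomial.map_X, Polynomial.map_sum]
    congr 1
    refine Finset.sum_congr rfl fun k _ => ?_
    rw [Polynomial.map_mul, Polynomial.map_C, Polynomial.map_pow, Polynomial.map_X, hQ]
  refine ⟨Φ, hmonic, hdeg, hmap, ?_, ?_⟩
  · rw [Polynomial.eval₂_eq_eval_map, hmap, modTilde_eval_left]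
  · rw [Polynomial.eval₂_eq_eval_map, ← Polynomial.map_map, hmap, modTilde_eval_right]

end Fermat.Agent.Igusa
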