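import Mathlib
import Fermat.Prelude.Def_ModularCurve_JqCoeff

/-!
# P9 (C), formal part: the "norm polynomial" of a Laurent series for `T ↦ T ^ r`

For a commutative ring `R`, `r ≥ 1` and `f ∈ R((T))`, the ring `R((T))` is free of rank `r` over the
image `R((T ^ r))` of `qExpand R r`.  We write the matrix `lsMat r f` of multiplication by `f` in the
basis `1, T, …, T ^ (r - 1)` (entries in `R((q))`, `q = T ^ r`), its characteristic polynomial
`lsChar r f`, and prove the Cayley–Hamilton identity `lsChar r f (f) = 0` (coefficients substituted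
`q = T ^ r`), compatibility with base change, and, over a domain containing a primitive `r`-th
root of unity `ζ`, the factorisation `lsChar r f = ∏_b (X - f(ζ^b T))`.
-/

set_option autoImplicit false

open HahnSeries ModularCurve Polynomial

namespace Fermat.Agent.Igusa

variable {R : Type*} [CommRing R] (r : ℕ) [NeZero r]

lemma lsComp_aux (s : ℕ) (f : LaurentSeries R) :
    BddBelow (Function.support (fun n : ℤ => f.coeff ((r : ℤ) * n + s))) := by
  refine ⟨min f.order 0 - s, ?_⟩
  intro m hm
  by_contra hlt
  push Not at hlt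
  apply hm
  apply HahnSeries.coeff_eq_zero_of_lt_order
  have hr : (1 : ℤ) ≤ r := by exact_mod_cast Nat.pos_of_ne_zero (NeZero.ne r)
  have hm0 : m < 0 := by
    have := min_le_right f.order 0
    have hs : (0 : ℤ) ≤ s := Int.natCast_nonneg s
    omega
  have h1 : (r : ℤ) * m ≤ m := by nlinarith
  have := min_le_left f.order 0
  omega

/-- the `s`-th component of a Laurent series with respect to `T ↦ T ^ r` -/
noncomputable def lsComp (s : ℕ) (f : LaurentSeries R) : LaurentSeries R :=
  HahnSeries.ofSuppBddBelow (fun n : ℤ => f.coeff ((r : ℤ) * n + s)) (lsComp_aux r s f)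

@[simp] lemma lsComp_coeff (s : ℕ) (f : LaurentSeries R) (n : ℤ) :
    (lsComp r s f).coeff n = f.coeff ((r : ℤ) * n + s) := by
  rw [lsComp, HahnSeries.coeff_ofSuppBddBelow]

/-- decomposition of a Laurent series into its `r` components -/
theorem sum_single_mul_qExpand_lsComp (f : LaurentSeries R) :
    ∑ s ∈ Finset.range r, HahnSeries.single (s : ℤ) (1 : R) * qExpand R r (lsComp r s f) = f := by
  ext n
  rw [HahnSeries.coeff_sum]
  have hr : (0 : ℤ) < r := by exact_mod_cast Nat.pos_of_ne_zero (NeZero.ne r)
  have key : ∀ s ∈ Finset.range r,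
      (HahnSeries.single (s : ℤ) (1 : R) * qExpand R r (lsComp r s f)).coeff n =
        if (s : ℤ) = n % r then f.coeff n else 0 := by
    intro s hs
    rw [HahnSeries.coeff_single_mul, one_mul]
    have hs' : (s : ℤ) < r := by exact_mod_cast Finset.mem_range.mp hs
    by_cases hd : (r : ℤ) ∣ n - s
    · obtain ⟨k, hk⟩ := hd
      rw [hk, qExpand_coeff_mul, lsComp_coeff]
      have hn : n = r * k + s := by omega
      have hmod : n % r = s := by
        rw [hn, add_comm, Int.add_mul_emod_self_left]
        exact Int.emod_eq_of_lt (Int.natCast_nonneg s) hs'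
      rw [if_pos hmod.symm, hn]
    · rw [qExpand_coeff_of_not_dvd r _ hd, if_neg]
      intro h
      apply hd
      rw [h]
      exact Int.dvd_self_sub_emod
  rw [Finset.sum_congr rfl key]
  have hmem : (n % r).toNat ∈ Finset.range r := by
    rw [Finset.mem_range]
    have h1 := Int.emod_nonneg n hr.ne'
    have h2 := Int.emod_lt_of_pos n hr
    omega
  rw [Finset.sum_eq_single_of_mem _ hmem]
  · rw [if_pos]
    exact Int.toNat_of_nonneg (Int.emod_nonneg n hr.ne')
  · intro s _ hne
    rw [if_neg]
    intro h
    apply hne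
    rw [← h]
    simp

/-- the matrix of multiplication by `f` in the basis `1, T, …, T ^ (r - 1)` of `R((T))` over
`R((T ^ r))` -/
noncomputable def lsMat (f : LaurentSeries R) : Matrix (Fin r) (Fin r) (LaurentSeries R) :=
  fun i i' => lsComp r i (HahnSeries.single ((i' : ℕ) : ℤ) (1 : R) * f)

/-- the characteristic polynomial of multiplication by `f` on `R((T))` over `R((T ^ r))` -/
noncomputable def lsChar (f : LaurentSeries R) : Polynomial (LaurentSeries R) :=
  (lsMat r f).charpoly

theorem lsChar_monic (f : LaurentSeries R) : (lsChar r f).Monic := Matrix.charpoly_monic _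

theorem lsChar_natDegree [Nontrivial R] (f : LaurentSeries R) : (lsChar r f).natDegree = r := by
  rw [lsChar, Matrix.charpoly_natDegree_eq_dim, Fintype.card_fin]

/-- eigenvector criterion over a commutative ring -/
theorem eval_charpoly_eq_zero_of_mulVec {S : Type*} [CommRing S] {n : Type*} [Fintype n]
    [DecidableEq n] (A : Matrix n n S) (v : n → S) (μ : S) (h : A.mulVec v = μ • v) (i₀ : n)
    (hv : v i₀ = 1) : A.charpoly.eval μ = 0 := by
  have h1 : (Matrix.scalar n μ - A).mulVec v = 0 := by
    rw [Matrix.sub_mulVec, h]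
    ext i
    simp [Matrix.scalar_apply]
  have h2 : (Matrix.scalar n μ - A).det • v = 0 := by
    have := congrArg (fun w => (Matrix.adjugate (Matrix.scalar n μ - A)).mulVec w) h1
    simp only [Matrix.mulVec_mulVec, Matrix.adjugate_mul, Matrix.mulVec_zero] at this
    rw [Matrix.smul_mulVec, Matrix.one_mulVec] at this
    exact this
  have h3 : (Matrix.scalar n μ - A).det = 0 := by
    have := congrFun h2 i₀
    simpa [hv] using this
  rw [Matrix.eval_charpoly]
  exact h3

/-- **Cayley–Hamilton**: `f` is a root of its norm polynomial (coefficients substituted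
`q = T ^ r`). -/
theorem lsChar_eval_self (f : LaurentSeries R) :
    ((lsChar r f).map (qExpand R r)).eval f = 0 := by
  have hr : 0 < r := Nat.pos_of_ne_zero (NeZero.ne r)
  set N : Matrix (Fin r) (Fin r) (LaurentSeries R) := ((lsMat r f).transpose).map (qExpand R r)
    with hN
  have hchar : N.charpoly = (lsChar r f).map (qExpand R r) := by
    rw [hN, Matrix.charpoly_map, Matrix.charpoly_transpose, lsChar]
  rw [← hchar]
  refine eval_charpoly_eq_zero_of_mulVec N
    (fun i : Fin r => HahnSeries.single ((i : ℕ) : ℤ) (1 : R)) f ?_ ⟨0, hr⟩ ?_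
  · funext i'
    have := sum_single_mul_qExpand_lsComp r (HahnSeries.single ((i' : ℕ) : ℤ) (1 : R) * f)
    rw [Finset.sum_range (f := fun s : ℕ => HahnSeries.single (s : ℤ) (1 : R) *
      qExpand R r (lsComp r s (HahnSeries.single ((i' : ℕ) : ℤ) (1 : R) * f)))] at this
    show ∑ i : Fin r, N i' i * HahnSeries.single ((i : ℕ) : ℤ) (1 : R) =
      f * HahnSeries.single ((i' : ℕ) : ℤ) (1 : R)
    rw [mul_comm f, ← this]
    refine Finset.sum_congr rfl fun i _ => ?_
    rw [hN, Matrix.map_apply, Matrix.transpose_apply, lsMat, mul_comm]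
  · show HahnSeries.single (((0 : ℕ)) : ℤ) (1 : R) = 1
    simp

/-! ### Base change -/

section BaseChange

variable {S : Type*} [CommRing S]

/-- coefficientwise map of Laurent series as a ring homomorphism -/
noncomputable def lsMapHom (φ : R →+* S) : LaurentSeries R →+* LaurentSeries S where
  toFun f := f.map φ
  map_one' := by
    ext n
    rw [HahnSeries.map_coeff, HahnSeries.coeff_one, HahnSeries.coeff_one, apply_ite φ, map_one,
      map_zero]
  map_mul' x y := HahnSeries.map_mul φ.toNonUnitalRingHom
  map_zero' := by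
    ext n
    simp
  map_add' x y := by
    ext n
    simp

@[simp] lemma lsMapHom_coeff (φ : R →+* S) (f : LaurentSeries R) (n : ℤ) :
    (lsMapHom φ f).coeff n = φ (f.coeff n) := by
  show (f.map φ).coeff n = _
  rw [HahnSeries.map_coeff]

lemma lsMapHom_injective {φ : R →+* S} (hφ : Function.Injective φ) :
    Function.Injective (lsMapHom φ) := by
  intro f g h
  ext n
  apply hφ
  rw [← lsMapHom_coeff, ← lsMapHom_coeff, h]

lemma lsMapHom_single (φ : R →+* S) (n : ℤ) (a : R) :
    lsMapHom φ (HahnSeries.single n a) = HahnSeries.single n (φ a) := by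
  ext m
  rw [lsMapHom_coeff, HahnSeries.coeff_single, HahnSeries.coeff_single, apply_ite φ, map_zero]

lemma lsMapHom_qExpand (φ : R →+* S) (f : LaurentSeries R) :
    lsMapHom φ (qExpand R r f) = qExpand S r (lsMapHom φ f) := by
  ext n
  rw [lsMapHom_coeff]
  by_cases hd : (r : ℤ) ∣ n
  · obtain ⟨k, rfl⟩ := hd
    rw [qExpand_coeff_mul, qExpand_coeff_mul, lsMapHom_coeff]
  · rw [qExpand_coeff_of_not_dvd r _ hd, qExpand_coeff_of_not_dvd r _ hd, map_zero]

lemma lsMapHom_lsComp (φ : R →+* S) (s : ℕ) (f : LaurentSeries R) :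
    lsMapHom φ (lsComp r s f) = lsComp r s (lsMapHom φ f) := by
  ext n
  rw [lsMapHom_coeff, lsComp_coeff, lsComp_coeff, lsMapHom_coeff]

lemma lsMat_map (φ : R →+* S) (f : LaurentSeries R) :
    (lsMat r f).map (lsMapHom φ) = lsMat r (lsMapHom φ f) := by
  ext i i' : 2
  rw [Matrix.map_apply, lsMat, lsMat, lsMapHom_lsComp, map_mul, lsMapHom_single, map_one]

theorem lsChar_map (φ : R →+* S) (f : LaurentSeries R) :
    (lsChar r f).map (lsMapHom φ) = lsChar r (lsMapHom φ f) := by
  rw [lsChar, lsChar, ← Matrix.charpoly_map, lsMat_map]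

end BaseChange

end Fermat.Agent.Igusa
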