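import Fermat.Agent.Lib.Igusa.ModPolyAnalytic
import Fermat.Agent.Lib.S24.ModRing

/-!
# P9 (C1): the integral modular polynomial `Φ_r` for a prime `r`

`Φ_r ∈ ℤ[Y][X]`, monic of `X`-degree `r + 1`, with
`Φ_r(X, j(T)) = (X - j(T ^ r)) · lsChar r j`; in particular
`Φ_r(j(T ^ r), j(T)) = 0` and `Φ_r(j(T), j(T ^ r)) = 0`.
-/

set_option autoImplicit false

open HahnSeries ModularCurve Polynomial UpperHalfPlane
open Fermat.Agent.ES Fermat.Agent.S24Lib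
open Fermat.Agent.S22Lib (intGL)
open scoped MatrixGroups Manifold

namespace Fermat.Agent.Igusa

/-- `exp(2πi/r)` as a unit of `ℂ` -/
noncomputable def zetaC (r : ℕ) : ℂˣ :=
  Units.mk0 (Complex.exp (2 * Real.pi * Complex.I / r)) (Complex.exp_ne_zero _)

lemma zetaC_val (r : ℕ) : ((zetaC r : ℂˣ) : ℂ) = Complex.exp (2 * Real.pi * Complex.I / r) := rfl

lemma zetaC_isPrimitiveRoot (r : ℕ) [NeZero r] : IsPrimitiveRoot (zetaC r) r := by
  rw [← IsPrimitiveRoot.coe_units_iff, zetaC_val]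
  exact Complex.isPrimitiveRoot_exp r (NeZero.ne r)

lemma zetaC_pow_val (r : ℕ) [NeZero r] (b : ℕ) :
    (((zetaC r) ^ b : ℂˣ) : ℂ) = Complex.exp (2 * Real.pi * Complex.I * (b : ℤ) / ((r : ℕ) : ℤ)) := by
  rw [Units.val_pow_eq_pow_val, zetaC_val, ← Complex.exp_nat_mul]
  congr 1
  push_cast
  ring

lemma lsMapHom_jqModC {K S : Type*} [CommRing K] [CommRing S] (φ : K →+* S) :
    lsMapHom φ (jqModC K) = jqModC S := map_jqModC φ

lemma det_phiInf (r : ℕ) [NeZero r] :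
    0 < (!![((r : ℕ) : ℤ), 0; 0, 1] : Matrix (Fin 2) (Fin 2) ℤ).det := by
  rw [Fermat.Agent.S22Lib.upper_det, mul_one]
  exact_mod_cast Nat.pos_of_ne_zero (NeZero.ne r)

lemma det_phiFin (r : ℕ) [NeZero r] (b : ℤ) :
    0 < (!![1, b; 0, ((r : ℕ) : ℤ)] : Matrix (Fin 2) (Fin 2) ℤ).det := by
  rw [Fermat.Agent.S22Lib.upper_det, one_mul]
  exact_mod_cast Nat.pos_of_ne_zero (NeZero.ne r)

/-- `τ ↦ j(r τ)` -/
noncomputable def phiInf (r : ℕ) [NeZero r] : ℍ → ℂ := jMat !![((r : ℕ) : ℤ), 0; 0, 1] (det_phiInf r)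

/-- `τ ↦ j((τ + b) / r)` -/
noncomputable def phiFin (r : ℕ) [NeZero r] (b : ℤ) : ℍ → ℂ :=
  jMat !![1, b; 0, ((r : ℕ) : ℤ)] (det_phiFin r b)

theorem phiInf_qLaurent (r : ℕ) [NeZero r] :
    IsQLaurentable r (phiInf r) ∧
      qLaurent r (phiInf r) =
        qExpand ℂ r (lsMapHom (Int.castRingHom ℂ) (qExpand ℤ r (jqModC ℤ))) := by
  have hrpos : (0 : ℤ) < ((r : ℕ) : ℤ) := by exact_mod_cast Nat.pos_of_ne_zero (NeZero.ne r)
  have he : (((r * r : ℕ) : ℕ) : ℤ) * 1 = ((r : ℕ) : ℤ) * ((r : ℕ) : ℤ) := by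
    push_cast
    ring
  have h := qLaurent_jFun_comp_upper ((r : ℕ) : ℤ) 0 1 hrpos one_pos (det_phiInf r) r (r * r) he
  refine ⟨h.1, ?_⟩
  rw [lsMapHom_qExpand, lsMapHom_jqModC, qExpand_qExpand]
  ext m
  have h2 := h.2 m
  show (qLaurent r (fun τ => jFun (intGL !![((r : ℕ) : ℤ), 0; 0, 1] (det_phiInf r) • τ))).coeff m = _
  rw [h2]
  by_cases hm : (((r * r : ℕ) : ℕ) : ℤ) ∣ m
  · rw [if_pos hm]
    obtain ⟨k, rfl⟩ := hm
    have hne : (((r * r : ℕ) : ℕ) : ℤ) ≠ 0 := by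
      have := NeZero.ne r
      positivity
    rw [qExpand_coeff_mul, Int.mul_ediv_cancel_left _ hne]
    simp
  · rw [if_neg hm, qExpand_coeff_of_not_dvd _ _ hm]

theorem phiFin_qLaurent (r : ℕ) [NeZero r] (b : ℕ) :
    IsQLaurentable r (phiFin r b) ∧
      qLaurent r (phiFin r b) =
        lsTwist (zetaC r ^ b) (lsMapHom (Int.castRingHom ℂ) (jqModC ℤ)) := by
  have hrpos : (0 : ℤ) < ((r : ℕ) : ℤ) := by exact_mod_cast Nat.pos_of_ne_zero (NeZero.ne r)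
  have he : (((1 : ℕ) : ℕ) : ℤ) * ((r : ℕ) : ℤ) = ((r : ℕ) : ℤ) * 1 := by
    push_cast
    ring
  have h := qLaurent_jFun_comp_upper 1 (b : ℤ) ((r : ℕ) : ℤ) one_pos hrpos (det_phiFin r b) r 1 he
  refine ⟨h.1, ?_⟩
  rw [lsMapHom_jqModC]
  ext m
  have h2 := h.2 m
  show (qLaurent r (fun τ => jFun (intGL !![1, (b : ℤ); 0, ((r : ℕ) : ℤ)] (det_phiFin r b) • τ))).coeff m
    = _
  rw [h2, lsTwist_coeff, if_pos (by simp)]
  rw [Units.val_zpow_eq_zpow_val, zetaC_pow_val]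
  simp

/-- the translation matrix `(1 k; 0 1)` -/
def transSL (k : ℤ) : SL(2, ℤ) := ⟨!![1, k; 0, 1], by simp [Matrix.det_fin_two_of]⟩

lemma transSL_coe (k : ℤ) : ((transSL k : SL(2, ℤ)) : Matrix (Fin 2) (Fin 2) ℤ) = !![1, k; 0, 1] := rfl

/-- `jMat` of an upper triangular matrix only depends on `b` modulo `d` -/
theorem jMat_upper_add (a b d k : ℤ)
    (h1 : 0 < (!![a, b + k * d; 0, d] : Matrix (Fin 2) (Fin 2) ℤ).det)
    (h2 : 0 < (!![a, b; 0, d] : Matrix (Fin 2) (Fin 2) ℤ).det) :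
    jMat !![a, b + k * d; 0, d] h1 = jMat !![a, b; 0, d] h2 := by
  have e : (!![a, b + k * d; 0, d] : Matrix (Fin 2) (Fin 2) ℤ) =
      ((transSL k : SL(2, ℤ)) : Matrix (Fin 2) (Fin 2) ℤ) * !![a, b; 0, d] := by
    rw [transSL_coe]
    ext i j
    fin_cases i <;> fin_cases j <;> simp [Matrix.mul_apply, Fin.sum_univ_two]
  rw [jMat_congr e h1 (det_SL_mul_pos (transSL k) h2), jMat_SL_mul]

theorem jMat_det_prime (r : ℕ) [NeZero r] (hr : r.Prime) (A : Matrix (Fin 2) (Fin 2) ℤ)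
    (hA : 0 < A.det) (hdet : A.det = r) :
    jMat A hA = phiInf r ∨ ∃ b : ℕ, b < r ∧ jMat A hA = phiFin r b := by
  obtain ⟨a, b, d, ha, hd, hU, hdet', heq⟩ := jMat_eq_upper A hA
  rw [hdet] at hdet'
  have hrpos : (0 : ℤ) < ((r : ℕ) : ℤ) := by exact_mod_cast hr.pos
  -- `a * d = r`
  have hanat : ((a.toNat : ℕ) : ℤ) = a := Int.toNat_of_nonneg ha.le
  have hdnat : ((d.toNat : ℕ) : ℤ) = d := Int.toNat_of_nonneg hd.le
  have hmul : a.toNat * d.toNat = r := by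
    have : ((a.toNat * d.toNat : ℕ) : ℤ) = ((r : ℕ) : ℤ) := by
      push_cast
      rw [hanat, hdnat, hdet']
    exact_mod_cast this
  have hdvd : a.toNat ∣ r := ⟨d.toNat, hmul.symm⟩
  rcases (Nat.dvd_prime hr).mp hdvd with h1 | h1
  · -- a = 1, d = r
    right
    have ha1 : a = 1 := by rw [← hanat, h1]; rfl
    have hdr : d = r := by
      rw [h1, one_mul] at hmul
      rw [← hdnat, hmul]
    subst ha1
    subst hdr
    refine ⟨(b % ((r : ℕ) : ℤ)).toNat, ?_, ?_⟩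
    · have := Int.emod_lt_of_pos b hrpos
      have h0 := Int.emod_nonneg b hrpos.ne'
      omega
    · rw [heq, phiFin]
      have hb : ((((b % ((r : ℕ) : ℤ)).toNat : ℕ) : ℤ)) = b % ((r : ℕ) : ℤ) :=
        Int.toNat_of_nonneg (Int.emod_nonneg b hrpos.ne')
      have e : (!![1, b; 0, ((r : ℕ) : ℤ)] : Matrix (Fin 2) (Fin 2) ℤ) =
          !![1, (((b % ((r : ℕ) : ℤ)).toNat : ℕ) : ℤ) + (b / ((r : ℕ) : ℤ)) * ((r : ℕ) : ℤ); 0,
            ((r : ℕ) : ℤ)] := by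
        rw [hb, Int.emod_add_ediv_mul]
      have hpos : 0 < (!![1, (((b % ((r : ℕ) : ℤ)).toNat : ℕ) : ℤ) +
          (b / ((r : ℕ) : ℤ)) * ((r : ℕ) : ℤ); 0, ((r : ℕ) : ℤ)] :
            Matrix (Fin 2) (Fin 2) ℤ).det := by
        rw [← e]; exact hU
      rw [jMat_congr e hU hpos, jMat_upper_add]
  · -- a = r, d = 1
    left
    have har : a = r := by rw [← hanat, h1]
    have hd1 : d = 1 := by
      rw [h1] at hmul
      have : d.toNat = 1 := by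
        have := Nat.eq_of_mul_eq_mul_left hr.pos (hmul.trans (mul_one r).symm)
        exact this
      rw [← hdnat, this]; rfl
    subst har
    subst hd1
    rw [heq, phiInf]
    have e : (!![((r : ℕ) : ℤ), b; 0, 1] : Matrix (Fin 2) (Fin 2) ℤ) =
        !![((r : ℕ) : ℤ), 0 + b * 1; 0, 1] := by
      rw [zero_add, mul_one]
    have hpos : 0 < (!![((r : ℕ) : ℤ), 0 + b * 1; 0, 1] : Matrix (Fin 2) (Fin 2) ℤ).det := by
      rw [← e]; exact hU
    rw [jMat_congr e hU hpos, jMat_upper_add]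

theorem phi_perm (r : ℕ) [NeZero r] (hr : r.Prime) (γ : SL(2, ℤ)) (x : ℍ → ℂ)
    (hx : x = phiInf r ∨ ∃ b : ℕ, b < r ∧ x = phiFin r b) :
    ((fun τ => x (γ • τ)) = phiInf r ∨ ∃ b : ℕ, b < r ∧ (fun τ => x (γ • τ)) = phiFin r b) := by
  have key : ∀ (A : Matrix (Fin 2) (Fin 2) ℤ) (hA : 0 < A.det), A.det = r →
      ((fun τ => jMat A hA (γ • τ)) = phiInf r ∨
        ∃ b : ℕ, b < r ∧ (fun τ => jMat A hA (γ • τ)) = phiFin r b) := by
    intro A hA hdet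
    have e : (fun τ => jMat A hA (γ • τ)) =
        jMat (A * (γ : Matrix (Fin 2) (Fin 2) ℤ)) (det_mul_SL_pos hA γ) := by
      funext τ
      rw [jMat_mul_SL]
    rw [e]
    apply jMat_det_prime r hr
    rw [Matrix.det_mul, γ.det_coe, mul_one, hdet]
  rcases hx with rfl | ⟨b, -, rfl⟩
  · exact key _ _ (by rw [Fermat.Agent.S22Lib.upper_det, mul_one])
  · exact key _ _ (by rw [Fermat.Agent.S22Lib.upper_det, one_mul])


lemma coeff_jqModC_neg_one (K : Type*) [CommRing K] : (jqModC K).coeff (-1) = 1 := by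
  have h := coeff_jqModC_pow_self (K := K) 1
  simpa using h

/-- **(C1)** the integral modular polynomial `Φ_r` (`r` prime):
`Φ_r(X, j(T)) = (X - j(T ^ r)) · lsChar r j`, so that `Φ_r(j(T ^ r), j(T)) = 0` and
`Φ_r(j(T), j(T ^ r)) = 0`. -/
theorem exists_modPhi (r : ℕ) [NeZero r] (hr : r.Prime) :
    ∃ Φ : Polynomial (Polynomial ℤ), Φ.Monic ∧ Φ.natDegree = r + 1 ∧
      Φ.map (evalJ ℤ) = modTilde r (jqModC ℤ) (qExpand ℤ r (jqModC ℤ)) ∧
      Φ.eval₂ (evalJ ℤ) (qExpand ℤ r (jqModC ℤ)) = 0 ∧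
      Φ.eval₂ ((qExpand ℤ r).comp (evalJ ℤ)) (jqModC ℤ) = 0 := by
  have h1 : (jqModC ℤ).coeff (-1) ≠ 0 := by
    rw [coeff_jqModC_neg_one]
    exact one_ne_zero
  have hcop : IsCoprime (-1 : ℤ) ((r : ℕ) : ℤ) := isCoprime_one_left.neg_left
  have hmod := exists_polynomial_of_orbit r hr.two_le (zetaC r) (zetaC_isPrimitiveRoot r)
    (jqModC ℤ) (qExpand ℤ r (jqModC ℤ)) h1 hcop (phiInf r) (fun b => phiFin r b)
    (phiInf_qLaurent r).1 (fun b _ => (phiFin_qLaurent r b).1) (phiInf_qLaurent r).2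
    (fun b _ => (phiFin_qLaurent r b).2) (phi_perm r hr)
  exact exists_modular_polynomial r (RingHom.injective_int (Int.castRingHom ℂ)) _ _ hmod

end Fermat.Agent.Igusa
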