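import Fermat.Agent.Lib.Igusa.ModPolyGauss
import Fermat.Agent.Lib.Igusa.DeltaQuotUnit
import Fermat.Agent.Lib.Igusa.BaseChangeDeg
import Fermat.Agent.Lib.Igusa.Instantiate

/-!
# P9 (D-g): Igusa's residue degree bound in the shape consumed by `Instantiate.lean`

From the Puiseux tower over an algebraically closed field `k ⊇ 𝔽_ℓ`
(`ψ(N) ≤ [k(j̄)(X_d, U_r) : k(j̄)]` inside `k((q))`) we deduce the bound over `𝔽_ℓ(j̄)` for the
residues of the Gauss ring, and hence S28.
-/

set_option autoImplicit false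

open HahnSeries ModularCurve ModularCurve.IgusaScheme

namespace Fermat.Agent.Igusa

section

variable (ℓ : ℕ) [Fact ℓ.Prime] (N : ℕ) [NeZero N]

/-- the set of elements of the Gauss ring whose residues are the Igusa generators -/
def igGaussGens : Set ↥(gaussRing ℓ N) := gaussRho ℓ N ⁻¹' igGenSet (ZMod ℓ) N

theorem ig_image_igGaussGens :
    gaussRho ℓ N '' igGaussGens ℓ N = igGenSet (ZMod ℓ) N :=
  Set.image_preimage_eq_of_subset
    (igGenSet_subset_range_gaussRho ℓ N (unitInfLS_mem_full_of_prime N))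

omit [NeZero N] in
theorem ig_natCast_ne_zero_algebraicClosure (hℓN : ¬ ℓ ∣ N) :
    ((N : ℕ) : AlgebraicClosure (ZMod ℓ)) ≠ 0 := by
  intro h
  exact hℓN ((CharP.cast_eq_zero_iff (AlgebraicClosure (ZMod ℓ)) ℓ N).mp h)

/-- **(D-g)**: descent of the tower bound from `k = 𝔽̄_ℓ` to `𝔽_ℓ`, in the shape of
`isIntegral_pullback_of_le_finrank`. -/
theorem ig_le_finrank_residue_of_tower
    (htower : dedekindPsi N ≤ Module.finrank ↥(kappaJ (AlgebraicClosure (ZMod ℓ)))
      ↥(IntermediateField.adjoin ↥(kappaJ (AlgebraicClosure (ZMod ℓ)))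
        (igGenSet (AlgebraicClosure (ZMod ℓ)) N))) :
    dedekindPsi N ≤ Module.finrank ↥(kappa ℓ)
      ↥(IntermediateField.adjoin ↥(kappa ℓ) (gaussRho ℓ N '' igGaussGens ℓ N)) := by
  rw [ig_image_igGaussGens]
  have := finiteDimensional_adjoin_igGenSet (K := ZMod ℓ) N
  have h := bcd_finrank_lsMapHom_le (algebraMap (ZMod ℓ) (AlgebraicClosure (ZMod ℓ)))
    (igGenSet (ZMod ℓ) N)
  rw [image_lsMapHom_igGenSet] at h
  exact htower.trans h

end

end Fermat.Agent.Igusa
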