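import Fermat.Agent.Lib.Igusa.TwistIrred
import Fermat.Agent.Lib.Igusa.ModPoly

/-!
# P9 (D-b): root structure of modular-type polynomials after the substitution `t ↦ c t^m`

Let `k` be a field, `P0 ∈ k[Y][X]` with `P0(X, j(T)) = (X - G) · lsChar r F` in `k((T))[X]`
(helper2's shape: `modPhiK_map_evalJ`, `modPsiK_map_evalJ`).  Then for a primitive `r`-th root of
unity `ζ`, `c ∈ kˣ`, `m ≥ 1`:
`P0(X, j(c^r t^(m r))) = (X - G(c^r t^(m r))) ∏_{b<r} (X - F(c ζ^b t^m))` in `k((t))[X]`,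
together with the two vanishing identities and the prime level irreducibility statement (3a).
Specialisations to `modPhiK`, `modPsiK`.
-/

set_option autoImplicit false

open ModularCurve Polynomial

namespace Fermat.Agent.Igusa

variable {k : Type*} [Field k]

section Generic

variable (r : ℕ) [NeZero r] (P0 : Polynomial (Polynomial k)) (F G : LaurentSeries k)

/-- **root structure** after the substitution `t ↦ c t^m`. -/
theorem pzRoots_of_map_evalJ
    (h0 : P0.map (evalJ k) = (Polynomial.X - Polynomial.C G) * lsChar r F)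
    {ζ : kˣ} (hζ : IsPrimitiveRoot ζ r) {n₀ : ℤ} (hn₀ : F.coeff n₀ ≠ 0)
    (hcop : IsCoprime n₀ (r : ℤ)) (c : kˣ) (m : ℕ) [NeZero m] [NeZero (m * r)] :
    P0.map (pzEval (pzSub (c ^ r) (m * r) (jqModC k))) =
      (Polynomial.X - Polynomial.C (pzSub (c ^ r) (m * r) G)) *
        ∏ b ∈ Finset.range r, (Polynomial.X - Polynomial.C (pzSub (c * ζ ^ b) m F)) := by
  have h2 := congrArg (Polynomial.map (qExpand k r)) h0
  rw [← pzEval_jqModC, map_map_pzEval _ (qExpand_C r), Polynomial.map_mul, Polynomial.map_sub,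
    Polynomial.map_X, Polynomial.map_C,
    lsChar_eq_prod r (hζ.pow_eq_one) F (lsTwist_injOn r hζ _ hn₀ hcop)] at h2
  have h3 := congrArg (Polynomial.map (pzSub c m)) h2
  rw [map_map_pzEval _ (pzSub_C c m), Polynomial.map_mul, Polynomial.map_sub,
    Polynomial.map_X, Polynomial.map_C, Polynomial.map_prod, pzSub_qExpand, pzSub_qExpand] at h3
  rw [h3]
  congr 1
  refine Finset.prod_congr rfl fun b _ => ?_
  rw [Polynomial.map_sub, Polynomial.map_X, Polynomial.map_C, pzSub_lsTwist]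

/-- `P0(G(c t^m), j(c t^m)) = 0`. -/
theorem pzEval_left_of_map_evalJ
    (h0 : P0.map (evalJ k) = (Polynomial.X - Polynomial.C G) * lsChar r F)
    (c : kˣ) (m : ℕ) [NeZero m] :
    (P0.map (pzEval (pzSub c m (jqModC k)))).eval (pzSub c m G) = 0 := by
  have h3 := congrArg (Polynomial.map (pzSub c m)) h0
  rw [← pzEval_jqModC, map_map_pzEval _ (pzSub_C c m), Polynomial.map_mul, Polynomial.map_sub,
    Polynomial.map_X, Polynomial.map_C] at h3
  rw [h3, Polynomial.eval_mul, Polynomial.eval_sub, Polynomial.eval_X, Polynomial.eval_C,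
    sub_self, zero_mul]

/-- `P0(F(c t^m), j(c^r t^(m r))) = 0`. -/
theorem pzEval_right_of_map_evalJ
    (h0 : P0.map (evalJ k) = (Polynomial.X - Polynomial.C G) * lsChar r F)
    (c : kˣ) (m : ℕ) [NeZero m] [NeZero (m * r)] :
    (P0.map (pzEval (pzSub (c ^ r) (m * r) (jqModC k)))).eval (pzSub c m F) = 0 := by
  have h2 : ((P0.map (evalJ k)).map (qExpand k r)).eval F = 0 := by
    rw [h0, Polynomial.map_mul, Polynomial.eval_mul, lsChar_eval_self, mul_zero]
  rw [← pzEval_jqModC, map_map_pzEval _ (qExpand_C r)] at h2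
  have h3 := congrArg (pzSub c m) h2
  rw [map_zero, ← Polynomial.eval₂_at_apply, Polynomial.eval₂_eq_eval_map,
    map_map_pzEval _ (pzSub_C c m), pzSub_qExpand] at h3
  exact h3

/-- distinctness of the conjugates `F(c ζ^b t^m)` -/
theorem pzSub_injOn {ζ : kˣ} (hζ : IsPrimitiveRoot ζ r)
    {n₀ : ℤ} (hn₀ : F.coeff n₀ ≠ 0) (hcop : IsCoprime n₀ (r : ℤ))
    (c : kˣ) (m : ℕ) [NeZero m] :
    Set.InjOn (fun b : ℕ => pzSub (c * ζ ^ b) m F) (Finset.range r : Set ℕ) := by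
  intro b hb b' hb' h
  apply lsTwist_injOn r hζ F hn₀ hcop hb hb'
  apply pzSub_injective c m
  show pzSub c m (lsTwist (ζ ^ b) F) = pzSub c m (lsTwist (ζ ^ b') F)
  rw [pzSub_lsTwist, pzSub_lsTwist]
  exact h

/-- positivity of exponents is preserved by substitution -/
lemma pzSub_coeff_eq_zero_of_nonpos (c : kˣ) (m : ℕ) [NeZero m]
    (hG : ∀ i : ℤ, i ≤ 0 → G.coeff i = 0) (i : ℤ) (hi : i ≤ 0) : (pzSub c m G).coeff i = 0 := by
  by_cases hd : (m : ℤ) ∣ i
  · obtain ⟨i', rfl⟩ := hd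
    rw [pzSub_coeff_mul]
    have hm : (0 : ℤ) < m := by exact_mod_cast Nat.pos_of_ne_zero (NeZero.ne m)
    have hi' : i' ≤ 0 := by
      by_contra hpos
      rw [not_le] at hpos
      have : 0 < (m : ℤ) * i' := mul_pos hm hpos
      omega
    rw [hG i' hi', mul_zero]
  · exact pzSub_coeff_of_not_dvd c m G hd

/-- **Prime level (3a)**, for a polynomial `P0` of `modTilde` type whose "cusp root" `G` is
nonzero with only positive exponents (the modular unit).  Over `k(J)`, `J = j(c^r t^(m r))`, the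
polynomial `P0(X, J)` is irreducible; it is the minimal polynomial of `G(c^r t^(m r))`, and the
`F(c ζ^b t^m)` are its other roots. -/
theorem pz_prime_level (hP0 : P0.Monic)
    (h0 : P0.map (evalJ k) = (Polynomial.X - Polynomial.C G) * lsChar r F)
    {ζ : kˣ} (hζ : IsPrimitiveRoot ζ r) {n₀ : ℤ} (hn₀ : F.coeff n₀ ≠ 0)
    (hcop : IsCoprime n₀ (r : ℤ)) (hG0 : G ≠ 0) (hGpos : ∀ i : ℤ, i ≤ 0 → G.coeff i = 0)
    (c : kˣ) (m : ℕ) [NeZero m] [NeZero (m * r)] (ω : kˣ) (hω : ω ^ m = ζ) :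
    Irreducible (P0.map (pzEvalK (pzSub (c ^ r) (m * r) (jqModC k)))) ∧
    minpoly (pzField (pzSub (c ^ r) (m * r) (jqModC k))) (pzSub (c ^ r) (m * r) G) =
      P0.map (pzEvalK (pzSub (c ^ r) (m * r) (jqModC k))) ∧
    ∀ b < r, Polynomial.aeval (pzSub (c * ζ ^ b) m F)
      (minpoly (pzField (pzSub (c ^ r) (m * r) (jqModC k))) (pzSub (c ^ r) (m * r) G)) = 0 := by
  have hr : 0 < r := Nat.pos_of_ne_zero (NeZero.ne r)
  refine irreducible_map_pzEvalK (pzSub (c ^ r) (m * r) (jqModC k))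
    (exists_coeff_pzEval_pzSub_jqModC_ne_zero (c ^ r) (m * r)) P0 hP0 r hr
    (pzSub (c ^ r) (m * r) G) (fun b => pzSub (c * ζ ^ b) m F)
    (pzRoots_of_map_evalJ r P0 F G h0 hζ hn₀ hcop c m) ?_
    (pzSub_injOn r F hζ hn₀ hcop c m) ?_ ?_
  · intro b hb
    refine ⟨lsTwist (ω ^ b), fun a => lsTwist_C _ a, ?_, ?_⟩
    · rw [lsTwist_pzSub]
      have h1 : (ω ^ b) ^ (m * r) = 1 := by
        rw [← pow_mul, mul_comm b, pow_mul, pow_mul, hω, hζ.pow_eq_one, one_pow]
      rw [h1, one_mul]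
    · show lsTwist (ω ^ b) (pzSub (c * ζ ^ 0) m F) = pzSub (c * ζ ^ b) m F
      rw [lsTwist_pzSub, pow_zero, mul_one, ← pow_mul, mul_comm b, pow_mul, hω, mul_comm]
  · intro h
    apply hG0
    apply pzSub_injective (c ^ r) (m * r)
    rw [h, map_zero]
  · exact pzSub_coeff_eq_zero_of_nonpos G _ _ hGpos

end Generic

/-! ### `Φ_r` -/

section Phi

variable (r : ℕ) [NeZero r] (hr : r.Prime)

lemma coeff_jqModC_neg_one_ne_zero : (jqModC k).coeff (-1) ≠ 0 := by
  rw [coeff_jqModC_neg_one]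
  exact one_ne_zero

/-- **(RΦ)** roots of `Φ̄_r(X, j(c^r t^(m r)))`: the "forward" root `j(c^(r²) t^(m r²))` and the
`r` "backward" roots `j(c ζ^b t^m)`. -/
theorem modPhiK_pzRoots {ζ : kˣ} (hζ : IsPrimitiveRoot ζ r)
    (c : kˣ) (m : ℕ) [NeZero m] [NeZero (m * r)] [NeZero (m * r * r)] :
    (modPhiK r hr k).map (pzEval (pzSub (c ^ r) (m * r) (jqModC k))) =
      (Polynomial.X - Polynomial.C (pzSub ((c ^ r) ^ r) (m * r * r) (jqModC k))) *
        ∏ b ∈ Finset.range r, (Polynomial.X - Polynomial.C (pzSub (c * ζ ^ b) m (jqModC k))) := by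
  have h := pzRoots_of_map_evalJ r (modPhiK r hr k) _ _ (modPhiK_map_evalJ r hr k) hζ
    (n₀ := -1) coeff_jqModC_neg_one_ne_zero isCoprime_one_left.neg_left c m
  rw [h, pzSub_qExpand]

/-- `Φ̄_r(j(c^r t^(m r)), j(c t^m)) = 0` -/
theorem modPhiK_pzEval_forward (c : kˣ) (m : ℕ) [NeZero m] [NeZero (m * r)] :
    ((modPhiK r hr k).map (pzEval (pzSub c m (jqModC k)))).eval
      (pzSub (c ^ r) (m * r) (jqModC k)) = 0 := by
  have h := pzEval_left_of_map_evalJ r (modPhiK r hr k) _ _ (modPhiK_map_evalJ r hr k) c m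
  rwa [pzSub_qExpand] at h

/-- `Φ̄_r(j(c t^m), j(c^r t^(m r))) = 0` -/
theorem modPhiK_pzEval_backward (c : kˣ) (m : ℕ) [NeZero m] [NeZero (m * r)] :
    ((modPhiK r hr k).map (pzEval (pzSub (c ^ r) (m * r) (jqModC k)))).eval
      (pzSub c m (jqModC k)) = 0 :=
  pzEval_right_of_map_evalJ r (modPhiK r hr k) _ _ (modPhiK_map_evalJ r hr k) c m

end Phi

/-! ### `Ψ_r` -/

section Psi

variable (r : ℕ) [NeZero r] (hr : r.Prime)

omit [NeZero r] in
lemma isCoprime_one_sub_natCast : IsCoprime (1 - (r : ℤ)) (r : ℤ) := ⟨1, 1, by ring⟩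

lemma unitFinLS_coeff_ne_zero : (unitFinLS k r).coeff (1 - (r : ℤ)) ≠ 0 := by
  rw [unitFinLS_coeff]
  exact one_ne_zero

/-- **(RΨ)** roots of `Ψ̄_r(X, j(c^r t^(m r)))`: `U_r(c^r t^(m r))` and the `r` conjugates
`(Δ(T)/Δ(T^r))(c ζ^b t^m)`. -/
theorem modPsiK_pzRoots {ζ : kˣ} (hζ : IsPrimitiveRoot ζ r)
    (c : kˣ) (m : ℕ) [NeZero m] [NeZero (m * r)] :
    (modPsiK r hr k).map (pzEval (pzSub (c ^ r) (m * r) (jqModC k))) =
      (Polynomial.X - Polynomial.C (pzSub (c ^ r) (m * r) (unitInfLS k r))) *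
        ∏ b ∈ Finset.range r,
          (Polynomial.X - Polynomial.C (pzSub (c * ζ ^ b) m (unitFinLS k r))) :=
  pzRoots_of_map_evalJ r (modPsiK r hr k) _ _ (modPsiK_map_evalJ r hr k) hζ
    (unitFinLS_coeff_ne_zero r) (isCoprime_one_sub_natCast r) c m

/-- `Ψ̄_r(U_r(c t^m), j(c t^m)) = 0` -/
theorem modPsiK_pzEval_left (c : kˣ) (m : ℕ) [NeZero m] :
    ((modPsiK r hr k).map (pzEval (pzSub c m (jqModC k)))).eval
      (pzSub c m (unitInfLS k r)) = 0 :=
  pzEval_left_of_map_evalJ r (modPsiK r hr k) _ _ (modPsiK_map_evalJ r hr k) c m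

/-- `Ψ̄_r((Δ(T)/Δ(T^r))(c t^m), j(c^r t^(m r))) = 0` -/
theorem modPsiK_pzEval_right (c : kˣ) (m : ℕ) [NeZero m] [NeZero (m * r)] :
    ((modPsiK r hr k).map (pzEval (pzSub (c ^ r) (m * r) (jqModC k)))).eval
      (pzSub c m (unitFinLS k r)) = 0 :=
  pzEval_right_of_map_evalJ r (modPsiK r hr k) _ _ (modPsiK_map_evalJ r hr k) c m

/-- a product of Laurent series has no coefficients below the sum of the lower bounds -/
lemma coeff_mul_eq_zero_of_lt {S : Type*} [CommRing S] {P Q : LaurentSeries S} {a b : ℤ}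
    (hP : ∀ n : ℤ, n < a → P.coeff n = 0) (hQ : ∀ n : ℤ, n < b → Q.coeff n = 0) {n : ℤ}
    (hn : n < a + b) : (P * Q).coeff n = 0 := by
  rw [HahnSeries.coeff_mul]
  refine Finset.sum_eq_zero ?_
  rintro ⟨i, j⟩ hij
  rw [Finset.mem_antidiagonal] at hij
  obtain ⟨-, -, hij⟩ := hij
  simp only at hij
  by_cases hi : i < a
  · rw [hP i hi, zero_mul]
  · have hj : j < b := by omega
    rw [hQ j hj, mul_zero]

/-- `U_r = r^12 Δ(T^r)/Δ(T)` has no coefficients below `r - 1` -/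
lemma unitInfLS_coeff_eq_zero_of_lt {n : ℤ} (hn : n < (r : ℤ) - 1) :
    (unitInfLS k r).coeff n = 0 := by
  have h1 : ∀ i : ℤ, i < 0 → (HahnSeries.C ((r : k) ^ 12) : LaurentSeries k).coeff i = 0 := by
    intro i hi
    rw [HahnSeries.C_apply, HahnSeries.coeff_single_of_ne (ne_of_lt hi)]
  have h2 : ∀ i : ℤ, i < (r : ℤ) → (qExpand k r (deltaLS k)).coeff i = 0 := by
    intro i hi
    by_cases hd : (r : ℤ) ∣ i
    · obtain ⟨i', rfl⟩ := hd
      rw [qExpand_coeff_mul, deltaLS, HahnSeries.coeff_single_mul, one_mul]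
      have hr0 : (0 : ℤ) < r := by exact_mod_cast Nat.pos_of_ne_zero (NeZero.ne r)
      have hi' : i' < 1 := by
        by_contra h
        rw [not_lt] at h
        have : (r : ℤ) * 1 ≤ (r : ℤ) * i' := mul_le_mul_of_nonneg_left h hr0.le
        omega
      exact ModularCurve.ofPowerSeries_coeff_of_neg _ (by omega)
    · exact qExpand_coeff_of_not_dvd r _ hd
  have h3 : ∀ i : ℤ, i < -1 → (deltaInvLS k).coeff i = 0 := by
    intro i hi
    rw [deltaInvLS, HahnSeries.coeff_single_mul, one_mul]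
    exact ModularCurve.ofPowerSeries_coeff_of_neg _ (by omega)
  rw [unitInfLS]
  have h12 : ∀ i : ℤ, i < 0 + (r : ℤ) →
      (HahnSeries.C ((r : k) ^ 12) * qExpand k r (deltaLS k)).coeff i = 0 :=
    fun i hi => coeff_mul_eq_zero_of_lt h1 h2 hi
  exact coeff_mul_eq_zero_of_lt h12 h3 (by omega)

lemma unitInfLS_ne_zero (hrk : (r : k) ≠ 0) : unitInfLS k r ≠ 0 := by
  intro h
  have h1 := unitFinLS_mul_unitInfLS k r
  rw [h, mul_zero] at h1
  have h2 : (HahnSeries.C ((r : k) ^ 12) : LaurentSeries k) ≠ 0 := by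
    rw [Ne, map_eq_zero]
    exact pow_ne_zero _ hrk
  exact h2 h1.symm

/-- **Prime level (3a) for `Ψ_r`**: over `k(J)`, `J = j(c^r t^(m r))`, the polynomial
`Ψ̄_r(X, J)` is irreducible, it is the minimal polynomial of `U_r(c^r t^(m r))`, and the
`(Δ(T)/Δ(T^r))(c ζ^b t^m)` are its other roots. -/
theorem modPsiK_prime_level {ζ : kˣ} (hζ : IsPrimitiveRoot ζ r)
    (c : kˣ) (m : ℕ) [NeZero m] [NeZero (m * r)] (ω : kˣ) (hω : ω ^ m = ζ) :
    Irreducible ((modPsiK r hr k).map (pzEvalK (pzSub (c ^ r) (m * r) (jqModC k)))) ∧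
    minpoly (pzField (pzSub (c ^ r) (m * r) (jqModC k)))
        (pzSub (c ^ r) (m * r) (unitInfLS k r)) =
      (modPsiK r hr k).map (pzEvalK (pzSub (c ^ r) (m * r) (jqModC k))) ∧
    ∀ b < r, Polynomial.aeval (pzSub (c * ζ ^ b) m (unitFinLS k r))
      (minpoly (pzField (pzSub (c ^ r) (m * r) (jqModC k)))
        (pzSub (c ^ r) (m * r) (unitInfLS k r))) = 0 := by
  have hrk : (r : k) ≠ 0 := by
    have hζ' : IsPrimitiveRoot (ζ : k) r := IsPrimitiveRoot.coe_units_iff.mpr hζ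
    have := hζ'.neZero'
    exact NeZero.ne ((r : ℕ) : k)
  refine pz_prime_level r (modPsiK r hr k) _ _ (modPsiK_monic r hr k) (modPsiK_map_evalJ r hr k)
    hζ (unitFinLS_coeff_ne_zero r) (isCoprime_one_sub_natCast r) (unitInfLS_ne_zero r hrk) ?_
    c m ω hω
  intro i hi
  apply unitInfLS_coeff_eq_zero_of_lt
  have h2 : (2 : ℤ) ≤ r := by exact_mod_cast hr.two_le
  omega

end Psi

end Fermat.Agent.Igusa
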