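import Fermat.Agent.Lib.Igusa.RootStruct
import Fermat.Agent.Lib.Igusa.Tower
import Fermat.Agent.Lib.Igusa.ModPolyGauss
import Fermat.Prelude.Def_ModularCurve_X0ModL

/-!
# P9 (D): the concrete Puiseux tower `Ω = k((t))`

The instance `pzTowerData k N hN : TowerData k (LaurentSeries k)` of helper1's abstract tower for
an algebraically closed field `k` with `(N : k) ≠ 0`:
`J c n = j̄(c tⁿ)`, `G r c n = U_r(c tⁿ)`, `Fq r c n = (Δ(T)/Δ(T^r))(c tⁿ)`, `lev m = k((t^m))`,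
`tw ω = (t ↦ ω t)`, `Phi r = modPhiK`, `Psi r = modPsiK`.
-/

set_option autoImplicit false

open ModularCurve Polynomial

namespace Fermat.Agent.Igusa

variable {k : Type*} [Field k]

/-! ### Dictionary `algebraMap = C`, `twEv = pzEval` -/

lemma pz_algebraMap_eq_C (c : k) :
    algebraMap k (LaurentSeries k) c = (HahnSeries.C c : LaurentSeries k) := by
  rw [ModularCurve.algebraMap_laurentSeries_eq_single, HahnSeries.C_apply]

lemma pz_algebraMap_eq_C' :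
    algebraMap k (LaurentSeries k) = (HahnSeries.C : k →+* LaurentSeries k) :=
  RingHom.ext pz_algebraMap_eq_C

lemma twEv_eq_pzEval (J : LaurentSeries k) : twEv (k := k) J = pzEval J := by
  refine RingHom.ext fun P => ?_
  show Polynomial.aeval J P = pzEval J P
  rw [Polynomial.aeval_def, pzEval_apply, pz_algebraMap_eq_C']

lemma pz_natCast_eq_C (n : ℕ) : ((n : ℕ) : LaurentSeries k) = HahnSeries.C (n : k) := by
  rw [map_natCast]

/-! ### Substitution with a junk value at `n = 0` -/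

/-- `f(c tⁿ)`, with value `0` for `n = 0` -/
noncomputable def pzAt (f : LaurentSeries k) (c : kˣ) (n : ℕ) : LaurentSeries k :=
  if h : n = 0 then 0 else haveI : NeZero n := ⟨h⟩; pzSub c n f

lemma pzAt_zero (f : LaurentSeries k) (c : kˣ) : pzAt f c 0 = 0 := by
  rw [pzAt, dif_pos rfl]

lemma pzAt_of_neZero (f : LaurentSeries k) (c : kˣ) (n : ℕ) [NeZero n] :
    pzAt f c n = pzSub c n f := by
  rw [pzAt, dif_neg (NeZero.ne n)]

lemma pzAt_coeff_mul (f : LaurentSeries k) (c : kˣ) (n : ℕ) (hn : 0 < n) (i : ℤ) :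
    (pzAt f c n).coeff ((n : ℤ) * i) = ((c ^ i : kˣ) : k) * f.coeff i := by
  have : NeZero n := ⟨hn.ne'⟩
  rw [pzAt_of_neZero, pzSub_coeff_mul]

lemma dvd_of_coeff_pzAt_ne_zero (f : LaurentSeries k) (c : kˣ) (n : ℕ) {i : ℤ}
    (hi : (pzAt f c n).coeff i ≠ 0) : (n : ℤ) ∣ i := by
  rcases Nat.eq_zero_or_pos n with rfl | hn
  · rw [pzAt_zero] at hi
    exact absurd rfl hi
  · have : NeZero n := ⟨hn.ne'⟩
    rw [pzAt_of_neZero] at hi
    exact dvd_of_coeff_pzSub_ne_zero c n f hi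

/-! ### The levels `k((t^m))` -/

/-- `lev m = k((t^m))` (and `⊥` for `m = 0`) -/
noncomputable def pzLev (k : Type*) [Field k] (m : ℕ) :
    IntermediateField k (LaurentSeries k) :=
  if h : m = 0 then ⊥ else haveI : NeZero m := ⟨h⟩; (qExpandAlgHomC k m).fieldRange

lemma mem_pzLev_zero_iff {x : LaurentSeries k} :
    x ∈ pzLev k 0 ↔ ∃ a : k, HahnSeries.C a = x := by
  rw [pzLev, dif_pos rfl, IntermediateField.mem_bot]
  constructor
  · rintro ⟨a, rfl⟩
    exact ⟨a, (pz_algebraMap_eq_C a).symm⟩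
  · rintro ⟨a, rfl⟩
    exact ⟨a, pz_algebraMap_eq_C a⟩

lemma mem_pzLev_iff (m : ℕ) [NeZero m] {x : LaurentSeries k} :
    x ∈ pzLev k m ↔ ∀ i : ℤ, x.coeff i ≠ 0 → (m : ℤ) ∣ i := by
  rw [pzLev, dif_neg (NeZero.ne m), AlgHom.mem_fieldRange, ← mem_range_qExpand_iff]
  rfl

lemma mem_pzLev_of_coeff {m : ℕ} {x : LaurentSeries k}
    (h : ∀ i : ℤ, x.coeff i ≠ 0 → (m : ℤ) ∣ i) : x ∈ pzLev k m := by
  rcases Nat.eq_zero_or_pos m with rfl | hm
  · rw [mem_pzLev_zero_iff]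
    refine ⟨x.coeff 0, ?_⟩
    ext i
    rw [HahnSeries.C_apply, HahnSeries.coeff_single]
    split_ifs with hi
    · rw [hi]
    · by_contra hne
      have := h i (Ne.symm hne)
      rw [Nat.cast_zero, zero_dvd_iff] at this
      exact hi this
  · have : NeZero m := ⟨hm.ne'⟩
    exact (mem_pzLev_iff m).mpr h

lemma coeff_dvd_of_mem_pzLev {m : ℕ} {x : LaurentSeries k} (hx : x ∈ pzLev k m) {i : ℤ}
    (hi : x.coeff i ≠ 0) : (m : ℤ) ∣ i := by
  rcases Nat.eq_zero_or_pos m with rfl | hm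
  · rw [mem_pzLev_zero_iff] at hx
    obtain ⟨a, rfl⟩ := hx
    rw [HahnSeries.C_apply, HahnSeries.coeff_single] at hi
    split_ifs at hi with h0
    · rw [h0]
      exact dvd_zero _
    · exact absurd rfl hi
  · have : NeZero m := ⟨hm.ne'⟩
    exact (mem_pzLev_iff m).mp hx i hi

lemma pzLev_anti {m m' : ℕ} (h : m ∣ m') : pzLev k m' ≤ pzLev k m := by
  intro x hx
  refine mem_pzLev_of_coeff fun i hi => ?_
  exact (Int.natCast_dvd_natCast.mpr h).trans (coeff_dvd_of_mem_pzLev hx hi)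

lemma pzAt_mem_pzLev (f : LaurentSeries k) (c : kˣ) {m n : ℕ} (h : m ∣ n) :
    pzAt f c n ∈ pzLev k m :=
  mem_pzLev_of_coeff fun _ hi =>
    (Int.natCast_dvd_natCast.mpr h).trans (dvd_of_coeff_pzAt_ne_zero f c n hi)

/-! ### The twist as an algebra automorphism -/

/-- `t ↦ ω t` as a `k`-algebra automorphism of `k((t))` -/
noncomputable def pzTw (ω : kˣ) : LaurentSeries k ≃ₐ[k] LaurentSeries k :=
  AlgEquiv.ofRingEquiv (f := RingEquiv.ofRingHom (lsTwist ω) (lsTwist ω⁻¹)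
    (RingHom.ext fun f => by
      show lsTwist ω (lsTwist ω⁻¹ f) = f
      rw [lsTwist_lsTwist, mul_inv_cancel, lsTwist_one])
    (RingHom.ext fun f => by
      show lsTwist ω⁻¹ (lsTwist ω f) = f
      rw [lsTwist_lsTwist, inv_mul_cancel, lsTwist_one]))
    (fun c => by
      show lsTwist ω (algebraMap k (LaurentSeries k) c) = algebraMap k (LaurentSeries k) c
      rw [pz_algebraMap_eq_C, lsTwist_C])

@[simp] lemma pzTw_apply (ω : kˣ) (f : LaurentSeries k) : pzTw ω f = lsTwist ω f := rfl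

lemma pzTw_pzAt (ω c : kˣ) (f : LaurentSeries k) (n : ℕ) :
    pzTw ω (pzAt f c n) = pzAt f (c * ω ^ n) n := by
  rcases Nat.eq_zero_or_pos n with rfl | hn
  · rw [pzAt_zero, pzAt_zero, map_zero]
  · have : NeZero n := ⟨hn.ne'⟩
    rw [pzAt_of_neZero, pzAt_of_neZero, pzTw_apply, lsTwist_pzSub, mul_comm]

lemma pzTw_eq_of_mem_pzLev (ω : kˣ) {m : ℕ} (hω : ω ^ m = 1) {x : LaurentSeries k}
    (hx : x ∈ pzLev k m) : pzTw ω x = x := by
  rw [pzTw_apply]
  ext i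
  rw [lsTwist_coeff]
  by_cases hi : x.coeff i = 0
  · rw [hi, mul_zero]
  · obtain ⟨i', rfl⟩ := coeff_dvd_of_mem_pzLev hx hi
    rw [zpow_mul, zpow_natCast, hω, one_zpow, Units.val_one, one_mul]

/-! ### The three families -/

/-- `J c n = j̄(c tⁿ)` -/
noncomputable def pzJ (k : Type*) [Field k] (c : kˣ) (n : ℕ) : LaurentSeries k :=
  pzAt (jqModC k) c n

/-- `G r c n = U_r(c tⁿ)`, `U_r = r¹² Δ(Tʳ)/Δ(T)` (junk values: `0` for `r = 0`, the constant
`r¹²` for `n = 0`) -/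
noncomputable def pzG (k : Type*) [Field k] (r : ℕ) (c : kˣ) (n : ℕ) : LaurentSeries k :=
  if h : r = 0 then 0 else haveI : NeZero r := ⟨h⟩
    if n = 0 then HahnSeries.C ((r : k) ^ 12) else pzAt (unitInfLS k r) c n

/-- `Fq r c n = (Δ(T)/Δ(Tʳ))(c tⁿ)` (junk values: `0` for `r = 0`, `1` for `n = 0`) -/
noncomputable def pzFq (k : Type*) [Field k] (r : ℕ) (c : kˣ) (n : ℕ) : LaurentSeries k :=
  if h : r = 0 then 0 else haveI : NeZero r := ⟨h⟩
    if n = 0 then 1 else pzAt (unitFinLS k r) c n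

lemma pzG_of_pos (r : ℕ) [NeZero r] (c : kˣ) {n : ℕ} (hn : 0 < n) :
    pzG k r c n = pzAt (unitInfLS k r) c n := by
  rw [pzG, dif_neg (NeZero.ne r), if_neg hn.ne']

lemma pzFq_of_pos (r : ℕ) [NeZero r] (c : kˣ) {n : ℕ} (hn : 0 < n) :
    pzFq k r c n = pzAt (unitFinLS k r) c n := by
  rw [pzFq, dif_neg (NeZero.ne r), if_neg hn.ne']

lemma pzG_zero (r : ℕ) [NeZero r] (c : kˣ) : pzG k r c 0 = HahnSeries.C ((r : k) ^ 12) := by
  rw [pzG, dif_neg (NeZero.ne r), if_pos rfl]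

lemma pzFq_zero (r : ℕ) [NeZero r] (c : kˣ) : pzFq k r c 0 = 1 := by
  rw [pzFq, dif_neg (NeZero.ne r), if_pos rfl]

lemma pzG_mem_pzLev (r : ℕ) (c : kˣ) {m n : ℕ} (h : m ∣ n) : pzG k r c n ∈ pzLev k m := by
  rcases Nat.eq_zero_or_pos r with rfl | hr
  · rw [pzG, dif_pos rfl]
    exact zero_mem _
  · have : NeZero r := ⟨hr.ne'⟩
    rcases Nat.eq_zero_or_pos n with rfl | hn
    · rw [pzG_zero, ← pz_algebraMap_eq_C]
      exact (pzLev k m).algebraMap_mem _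
    · rw [pzG_of_pos r c hn]
      exact pzAt_mem_pzLev _ c h

lemma pzFq_mem_pzLev (r : ℕ) (c : kˣ) {m n : ℕ} (h : m ∣ n) : pzFq k r c n ∈ pzLev k m := by
  rcases Nat.eq_zero_or_pos r with rfl | hr
  · rw [pzFq, dif_pos rfl]
    exact zero_mem _
  · have : NeZero r := ⟨hr.ne'⟩
    rcases Nat.eq_zero_or_pos n with rfl | hn
    · rw [pzFq_zero]
      exact one_mem _
    · rw [pzFq_of_pos r c hn]
      exact pzAt_mem_pzLev _ c h

/-- the coefficient of `t^(-n)` in `j̄(c tⁿ)` -/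
lemma pzJ_coeff_neg (c : kˣ) {n : ℕ} (hn : 0 < n) :
    (pzJ k c n).coeff (-(n : ℤ)) = ((c⁻¹ : kˣ) : k) := by
  have h := pzAt_coeff_mul (jqModC k) c n hn (-1)
  rw [mul_neg_one, coeff_jqModC_neg_one, mul_one, zpow_neg_one] at h
  exact h

lemma pzJ_coeff_of_lt (c : kˣ) {n : ℕ} (hn : 0 < n) {i : ℤ} (hi : i < -(n : ℤ)) :
    (pzJ k c n).coeff i = 0 := by
  by_contra hne
  obtain ⟨i', rfl⟩ := dvd_of_coeff_pzAt_ne_zero _ c n hne
  apply hne
  rw [pzJ, pzAt_coeff_mul _ c n hn]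
  have hn' : (0 : ℤ) < n := by exact_mod_cast hn
  have hi' : i' < -1 := by
    by_contra h
    rw [not_lt] at h
    have : (n : ℤ) * (-1) ≤ (n : ℤ) * i' := mul_le_mul_of_nonneg_left h hn'.le
    omega
  rw [ModularCurve.coeff_jqModC_of_lt k hi', mul_zero]

lemma pzJ_inj {c c' : kˣ} {n n' : ℕ} (hn : 0 < n) (hn' : 0 < n')
    (h : pzJ k c n = pzJ k c' n') : n = n' ∧ c = c' := by
  have h1 : n ≤ n' := by
    by_contra hlt
    rw [not_le] at hlt
    have h2 := pzJ_coeff_neg (k := k) c hn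
    rw [h, pzJ_coeff_of_lt c' hn' (by omega)] at h2
    exact (Units.ne_zero _) h2.symm
  have h1' : n' ≤ n := by
    by_contra hlt
    rw [not_le] at hlt
    have h2 := pzJ_coeff_neg (k := k) c' hn'
    rw [← h, pzJ_coeff_of_lt c hn (by omega)] at h2
    exact (Units.ne_zero _) h2.symm
  have hnn : n = n' := le_antisymm h1 h1'
  subst hnn
  refine ⟨rfl, ?_⟩
  have h2 := pzJ_coeff_neg (k := k) c hn
  rw [h, pzJ_coeff_neg c' hn] at h2
  exact inv_injective (Units.ext h2.symm)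

/-- the coefficient of `t^(n (1-r))` in `(Δ(T)/Δ(T^r))(c tⁿ)` -/
lemma pzFq_coeff (r : ℕ) [NeZero r] (c : kˣ) {n : ℕ} (hn : 0 < n) :
    (pzFq k r c n).coeff ((n : ℤ) * (1 - (r : ℤ))) = ((c ^ (1 - (r : ℤ)) : kˣ) : k) := by
  rw [pzFq_of_pos r c hn, pzAt_coeff_mul _ c n hn, unitFinLS_coeff, mul_one]

lemma pzFq_dvd_of_mem {r : ℕ} (hr : r.Prime) (c : kˣ) {m n : ℕ}
    (h : pzFq k r c n ∈ pzLev k m) : m ∣ (r - 1) * n := by
  rcases Nat.eq_zero_or_pos n with rfl | hn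
  · rw [mul_zero]
    exact dvd_zero _
  · have : NeZero r := ⟨hr.ne_zero⟩
    have h1 : (pzFq k r c n).coeff ((n : ℤ) * (1 - (r : ℤ))) ≠ 0 := by
      rw [pzFq_coeff r c hn]
      exact Units.ne_zero _
    have h2 := coeff_dvd_of_mem_pzLev h h1
    have h3 : (n : ℤ) * (1 - (r : ℤ)) = -(((r - 1) * n : ℕ) : ℤ) := by
      rw [Nat.cast_mul, Nat.cast_sub hr.one_lt.le]
      push_cast
      ring
    rw [h3, dvd_neg] at h2
    exact Int.natCast_dvd_natCast.mp h2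

lemma pzG_mul_pzFq (r : ℕ) [NeZero r] (c : kˣ) (n : ℕ) :
    pzG k r c n * pzFq k r c n = ((r : ℕ) : LaurentSeries k) ^ 12 := by
  rcases Nat.eq_zero_or_pos n with rfl | hn
  · rw [pzG_zero, pzFq_zero, mul_one, map_pow, map_natCast]
  · have : NeZero n := ⟨hn.ne'⟩
    rw [pzG_of_pos r c hn, pzFq_of_pos r c hn, pzAt_of_neZero, pzAt_of_neZero, ← map_mul,
      mul_comm (unitInfLS k r), unitFinLS_mul_unitInfLS, pzSub_C, map_pow, map_natCast]

lemma pzFq_inj {r : ℕ} (hr : r.Prime) {c c' : kˣ} {n : ℕ} (hn : 0 < n) (hc : c ^ r = 1)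
    (hc' : c' ^ r = 1) (h : pzFq k r c n = pzFq k r c' n) : c = c' := by
  have : NeZero r := ⟨hr.ne_zero⟩
  have h1 := pzFq_coeff (k := k) r c hn
  rw [h, pzFq_coeff r c' hn] at h1
  have h2 : c' ^ (1 - (r : ℤ)) = c ^ (1 - (r : ℤ)) := Units.ext h1
  have e : ∀ a : kˣ, a ^ r = 1 → a ^ (1 - (r : ℤ)) = a := by
    intro a ha
    rw [zpow_sub, zpow_one, zpow_natCast, ha, inv_one, mul_one]
  rw [e c hc, e c' hc'] at h2
  exact h2.symm

lemma pz_natCast_ne_zero {N r : ℕ} (hN : (N : k) ≠ 0) (hr : r ∣ N) :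
    ((r : ℕ) : LaurentSeries k) ≠ 0 := by
  have h1 : (r : k) ≠ 0 := by
    intro h
    obtain ⟨d, rfl⟩ := hr
    apply hN
    rw [Nat.cast_mul, h, zero_mul]
  rw [← map_natCast (HahnSeries.C : k →+* LaurentSeries k), Ne, map_eq_zero]
  exact h1

lemma pzG_dvd_of_mem {N r : ℕ} (hN : (N : k) ≠ 0) (hr : r.Prime) (hrN : r ∣ N) (c : kˣ)
    {m n : ℕ} (h : pzG k r c n ∈ pzLev k m) : m ∣ (r - 1) * n := by
  rcases Nat.eq_zero_or_pos n with rfl | hn
  · rw [mul_zero]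
    exact dvd_zero _
  · have : NeZero r := ⟨hr.ne_zero⟩
    apply pzFq_dvd_of_mem hr c
    have h1 := pzG_mul_pzFq (k := k) r c n
    have h2 : ((r : ℕ) : LaurentSeries k) ^ 12 ≠ 0 := pow_ne_zero _ (pz_natCast_ne_zero hN hrN)
    have hG : pzG k r c n ≠ 0 := by
      intro h0
      rw [h0, zero_mul] at h1
      exact h2 h1.symm
    have h3 : pzFq k r c n = ((r : ℕ) : LaurentSeries k) ^ 12 * (pzG k r c n)⁻¹ := by
      rw [← h1]
      field_simp
    rw [h3]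
    exact mul_mem (pow_mem (natCast_mem _ r) 12) (inv_mem h)

/-! ### The polynomials -/

/-- `Φ_r` over `k` (zero if `r` is not prime) -/
noncomputable def pzPhiFam (k : Type*) [Field k] (r : ℕ) : Polynomial (Polynomial k) :=
  if hr : r.Prime then haveI : NeZero r := ⟨hr.ne_zero⟩; modPhiK r hr k else 0

/-- `Ψ_r` over `k` (zero if `r` is not prime) -/
noncomputable def pzPsiFam (k : Type*) [Field k] (r : ℕ) : Polynomial (Polynomial k) :=
  if hr : r.Prime then haveI : NeZero r := ⟨hr.ne_zero⟩; modPsiK r hr k else 0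

lemma pzPhiFam_of_prime {r : ℕ} [NeZero r] (hr : r.Prime) : pzPhiFam k r = modPhiK r hr k := by
  rw [pzPhiFam, dif_pos hr]

lemma pzPsiFam_of_prime {r : ℕ} [NeZero r] (hr : r.Prime) : pzPsiFam k r = modPsiK r hr k := by
  rw [pzPsiFam, dif_pos hr]

lemma pzPhiFam_roots {r : ℕ} (hr : r.Prime) (c : kˣ) {ζ : kˣ} (hζ : IsPrimitiveRoot ζ r)
    {n : ℕ} (hrn : r ∣ n) (hn : 0 < n) :
    (pzPhiFam k r).map (twEv (pzJ k (c ^ r) n)) =
      (Polynomial.X - Polynomial.C (pzJ k (c ^ (r ^ 2)) (n * r))) *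
        ∏ b ∈ Finset.range r, (Polynomial.X - Polynomial.C (pzJ k (ζ ^ b * c) (n / r))) := by
  have : NeZero r := ⟨hr.ne_zero⟩
  obtain ⟨m, rfl⟩ := hrn
  have hm : 0 < m := by
    rcases Nat.eq_zero_or_pos m with rfl | hm
    · rw [mul_zero] at hn
      exact absurd hn (lt_irrefl _)
    · exact hm
  have : NeZero m := ⟨hm.ne'⟩
  have : NeZero (m * r) := ⟨Nat.mul_ne_zero hm.ne' hr.ne_zero⟩
  have : NeZero (m * r * r) := ⟨Nat.mul_ne_zero (Nat.mul_ne_zero hm.ne' hr.ne_zero) hr.ne_zero⟩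
  have e1 : r * m = m * r := mul_comm _ _
  have e2 : r * m / r = m := Nat.mul_div_cancel_left m hr.pos
  rw [e2, e1, pzPhiFam_of_prime hr, twEv_eq_pzEval, pzJ, pzAt_of_neZero,
    modPhiK_pzRoots r hr hζ c m, pzJ, pzAt_of_neZero, ← pow_mul, ← pow_two]
  congr 1
  refine Finset.prod_congr rfl fun b _ => ?_
  rw [pzJ, pzAt_of_neZero, mul_comm c]

lemma pzPsiFam_roots {r : ℕ} (hr : r.Prime) (c : kˣ) {ζ : kˣ} (hζ : IsPrimitiveRoot ζ r)
    {n : ℕ} (hrn : r ∣ n) (hn : 0 < n) :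
    (pzPsiFam k r).map (twEv (pzJ k (c ^ r) n)) =
      (Polynomial.X - Polynomial.C (pzG k r (c ^ r) n)) *
        ∏ b ∈ Finset.range r, (Polynomial.X - Polynomial.C (pzFq k r (ζ ^ b * c) (n / r))) := by
  have : NeZero r := ⟨hr.ne_zero⟩
  obtain ⟨m, rfl⟩ := hrn
  have hm : 0 < m := by
    rcases Nat.eq_zero_or_pos m with rfl | hm
    · rw [mul_zero] at hn
      exact absurd hn (lt_irrefl _)
    · exact hm
  have : NeZero m := ⟨hm.ne'⟩
  have : NeZero (m * r) := ⟨Nat.mul_ne_zero hm.ne' hr.ne_zero⟩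
  have e1 : r * m = m * r := mul_comm _ _
  have e2 : r * m / r = m := Nat.mul_div_cancel_left m hr.pos
  rw [e2, e1, pzPsiFam_of_prime hr, twEv_eq_pzEval, pzJ, pzAt_of_neZero,
    modPsiK_pzRoots r hr hζ c m, pzG_of_pos r _ (Nat.mul_pos hm hr.pos), pzAt_of_neZero]
  congr 1
  refine Finset.prod_congr rfl fun b _ => ?_
  rw [pzFq_of_pos r _ hm, pzAt_of_neZero, mul_comm c]

/-! ### Prime level -/

lemma pzG_not_mem_adjoin {r : ℕ} (hr : r.Prime) {N : ℕ} (hN : (N : k) ≠ 0) (hrN : r ∣ N) :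
    pzG k r 1 N ∉ IntermediateField.adjoin k {pzJ k 1 N} := by
  have : NeZero r := ⟨hr.ne_zero⟩
  have hN0 : N ≠ 0 := by
    rintro rfl
    exact hN Nat.cast_zero
  have : NeZero N := ⟨hN0⟩
  have hrk : (r : k) ≠ 0 := by
    intro h
    obtain ⟨d, rfl⟩ := hrN
    apply hN
    rw [Nat.cast_mul, h, zero_mul]
  intro hmem
  have hmem' : pzG k r 1 N ∈ (IntermediateField.adjoin k {pzJ k 1 N}).toSubfield := hmem
  rw [IntermediateField.adjoin_toSubfield, pz_algebraMap_eq_C', pzJ, pzAt_of_neZero,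
    pzG_of_pos r 1 (Nat.pos_of_ne_zero hN0), pzAt_of_neZero] at hmem'
  refine not_mem_pzField_of_isRoot (pzSub 1 N (jqModC k))
    (exists_coeff_pzEval_pzSub_jqModC_ne_zero 1 N) (modPsiK r hr k) (modPsiK_monic r hr k)
    (pzSub 1 N (unitInfLS k r)) (modPsiK_pzEval_left r hr 1 N) ?_ ?_ hmem'
  · intro h
    apply unitInfLS_ne_zero (k := k) r hrk
    apply pzSub_injective 1 N
    rw [h, map_zero]
  · refine pzSub_coeff_eq_zero_of_nonpos _ 1 N fun i hi => ?_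
    apply unitInfLS_coeff_eq_zero_of_lt
    have h2 : (2 : ℤ) ≤ r := by exact_mod_cast hr.two_le
    omega

/-! ### The instance -/

/-- **The concrete Puiseux tower.** -/
noncomputable def pzTowerData (k : Type*) [Field k] [IsAlgClosed k] (N : ℕ) (hN : (N : k) ≠ 0) :
    TowerData k (LaurentSeries k) where
  N := N
  N_pos := by
    rcases Nat.eq_zero_or_pos N with rfl | h
    · exact absurd Nat.cast_zero hN
    · exact h
  J := pzJ k
  G := pzG k
  Fq := pzFq k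
  lev := pzLev k
  tw := pzTw
  Phi := pzPhiFam k
  Psi := pzPsiFam k
  lev_anti := fun h => pzLev_anti h
  J_mem := fun c _ _ h => pzAt_mem_pzLev _ c h
  G_mem := fun r c _ _ h => pzG_mem_pzLev r c h
  Fq_mem := fun r c _ _ h => pzFq_mem_pzLev r c h
  J_inj := fun hn hn' h => pzJ_inj hn hn' h
  dvd_of_Fq_mem := fun c _ _ hr _ h => pzFq_dvd_of_mem hr c h
  dvd_of_G_mem := fun c _ _ hr hrN h => pzG_dvd_of_mem hN hr hrN c h
  Fq_inj := fun hr _ hn hc hc' h => pzFq_inj hr hn hc hc' h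
  G_mul_Fq := by
    intro r c n hr _
    have : NeZero r := ⟨hr.ne_zero⟩
    exact pzG_mul_pzFq r c n
  natCast_ne_zero := fun _ hrN => pz_natCast_ne_zero hN hrN
  tw_J := fun ω c n => pzTw_pzAt ω c _ n
  tw_Fq := by
    intro r ω c n
    rcases Nat.eq_zero_or_pos r with rfl | hr
    · show pzTw ω (pzFq k 0 c n) = pzFq k 0 (c * ω ^ n) n
      rw [pzFq, dif_pos rfl, pzFq, dif_pos rfl, map_zero]
    · have : NeZero r := ⟨hr.ne'⟩
      show pzTw ω (pzFq k r c n) = pzFq k r (c * ω ^ n) n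
      rcases Nat.eq_zero_or_pos n with rfl | hn
      · rw [pzFq_zero, pzFq_zero, map_one]
      · rw [pzFq_of_pos r _ hn, pzFq_of_pos r _ hn, pzTw_pzAt]
  tw_lev := fun ω _ hω _ hx => pzTw_eq_of_mem_pzLev ω hω hx
  Phi_roots := fun c _ _ hr _ hζ hrn hn => pzPhiFam_roots hr c hζ hrn hn
  Psi_roots := fun c _ _ hr _ hζ hrn hn => pzPsiFam_roots hr c hζ hrn hn
  exists_primitiveRoot := by
    have : NeZero (N : k) := ⟨hN⟩
    obtain ⟨ζ, hζ⟩ := HasEnoughRootsOfUnity.exists_primitiveRoot k N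
    have hN0 : N ≠ 0 := by
      rintro rfl
      exact hN Nat.cast_zero
    obtain ⟨u, rfl⟩ := hζ.isUnit hN0
    exact ⟨u, IsPrimitiveRoot.coe_units_iff.mp hζ⟩
  exists_root := by
    intro r c hr _
    obtain ⟨z, hz⟩ := IsAlgClosed.exists_pow_nat_eq (c : k) hr.pos
    have hz0 : z ≠ 0 := by
      rintro rfl
      rw [zero_pow hr.ne_zero] at hz
      exact c.ne_zero hz.symm
    refine ⟨Units.mk0 z hz0, Units.ext ?_⟩
    rw [Units.val_pow_eq_pow_val, Units.val_mk0, hz]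
  U_not_mem := fun hr hrN => pzG_not_mem_adjoin hr hN hrN

/-! ### Dictionary: the generators are the images under `q ↦ t^N` of the `q`-series -/

section Dictionary

variable [IsAlgClosed k] (N : ℕ) (hN : (N : k) ≠ 0)

@[simp] lemma pzTowerData_N : (pzTowerData k N hN).N = N := rfl

lemma pzTowerData_J (c : kˣ) (n : ℕ) : (pzTowerData k N hN).J c n = pzJ k c n := rfl

lemma pzTowerData_G (r : ℕ) (c : kˣ) (n : ℕ) : (pzTowerData k N hN).G r c n = pzG k r c n := rfl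

lemma pzTowerData_Fq (r : ℕ) (c : kˣ) (n : ℕ) :
    (pzTowerData k N hN).Fq r c n = pzFq k r c n := rfl

lemma pzTowerData_lev (m : ℕ) : (pzTowerData k N hN).lev m = pzLev k m := rfl

omit [IsAlgClosed k] in
/-- `X_d = j̄(q^d)` as a series in `t`, `q = t^N` -/
lemma pzJ_one_mul [NeZero N] (d : ℕ) [NeZero d] :
    pzJ k 1 (N * d) = qExpand k N (qExpand k d (jqModC k)) := by
  have : NeZero (N * d) := ⟨Nat.mul_ne_zero (NeZero.ne N) (NeZero.ne d)⟩
  rw [pzJ, pzAt_of_neZero, pzSub_one_left, qExpand_qExpand]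

omit [IsAlgClosed k] in
/-- `X_1 = j̄(q)` as a series in `t` -/
lemma pzJ_one_self [NeZero N] : pzJ k 1 N = qExpand k N (jqModC k) := by
  rw [pzJ, pzAt_of_neZero, pzSub_one_left]

omit [IsAlgClosed k] in
/-- `U_r` as a series in `t` -/
lemma pzG_one_self [NeZero N] (r : ℕ) [NeZero r] :
    pzG k r 1 N = qExpand k N (unitInfLS k r) := by
  rw [pzG_of_pos r 1 (Nat.pos_of_ne_zero (NeZero.ne N)), pzAt_of_neZero, pzSub_one_left]

/-- `X_1 = j̄(q)` in the tower -/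
lemma pzTowerData_xj_one [NeZero N] :
    (pzTowerData k N hN).xj 1 = qExpand k N (jqModC k) := by
  show pzJ k 1 (N * 1) = _
  rw [mul_one, pzJ_one_self]

lemma pzTowerData_J_one_self [NeZero N] :
    (pzTowerData k N hN).J 1 (pzTowerData k N hN).N = qExpand k N (jqModC k) :=
  pzJ_one_self N

/-- `X_d = j̄(q^d)` in the tower -/
lemma pzTowerData_xj [NeZero N] (d : ℕ) [NeZero d] :
    (pzTowerData k N hN).xj d = qExpand k N (qExpand k d (jqModC k)) :=
  pzJ_one_mul N d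

/-- `U_r` in the tower -/
lemma pzTowerData_ur [NeZero N] (r : ℕ) [NeZero r] :
    (pzTowerData k N hN).ur r = qExpand k N (unitInfLS k r) :=
  pzG_one_self N r

/-- the tower generators are the images under `q ↦ t^N` of helper2's generators -/
theorem pzTowerData_towerGens_subset [NeZero N] (M : ℕ) :
    (pzTowerData k N hN).towerGens M ⊆ qExpand k N '' igGenSet k M := by
  rintro x ((hx | ⟨r, i, hr, hi, hri, rfl⟩) | ⟨r, hr, hrM, rfl⟩)
  · rw [Set.mem_singleton_iff] at hx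
    rw [hx, pzTowerData_xj_one]
    exact ⟨_, jqModC_mem_igGenSet M, rfl⟩
  · have : NeZero (r ^ i) := ⟨pow_ne_zero _ hr.ne_zero⟩
    rw [pzTowerData_xj]
    exact ⟨_, qExpand_jqModC_mem_igGenSet hri, rfl⟩
  · have : NeZero r := ⟨hr.ne_zero⟩
    rw [pzTowerData_ur]
    exact ⟨_, unitInfLS_mem_igGenSet hr hrM, rfl⟩

end Dictionary

end Fermat.Agent.Igusa
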