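import Fermat.Agent.Lib.Igusa.Puiseux

/-!
# P9 (D-c): the twist lemma and the prime-level irreducibility

* `irreducible_of_twist`: `K ⊆ Ω` fields, `P ∈ K[X]` monic with
  `P = (X - x') ∏_{b<r} (X - y_b)` over `Ω`, the `y_b` pairwise distinct and conjugate to `y_0`
  under ring endomorphisms of `Ω` fixing `K`; if `x' ∉ K` then `P` is irreducible over `K`.
* `not_mem_pzField_of_isRoot`: a nonzero series `x'` with only positive exponents which is a root
  of a monic polynomial with coefficients in `k[J]` does not lie in `k(J)` (provided nonzero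
  polynomials in `J` have a nonzero coefficient of index `≤ 0`): "a unit vanishing at the cusp
  is not a polynomial in `j`".
-/

set_option autoImplicit false

open ModularCurve Polynomial

namespace Fermat.Agent.Igusa

section Abstract

variable {Ω : Type*} [Field Ω]

/-- a ring endomorphism fixing `K` pointwise commutes with evaluation of polynomials over `K` -/
lemma map_aeval_of_fixes (K : Subfield Ω) (σ : Ω →+* Ω) (hσ : ∀ x ∈ K, σ x = x)
    (p : Polynomial K) (z : Ω) : σ (Polynomial.aeval z p) = Polynomial.aeval (σ z) p := by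
  rw [Polynomial.aeval_def, Polynomial.aeval_def, Polynomial.hom_eval₂]
  congr 1
  refine RingHom.ext fun x => ?_
  exact hσ _ x.2

/-- **Twist lemma.** -/
theorem irreducible_of_twist (K : Subfield Ω) (P : Polynomial K) (hP : P.Monic) (r : ℕ)
    (hr : 0 < r) (x' : Ω) (y : ℕ → Ω)
    (hfac : P.map K.subtype = (X - C x') * ∏ b ∈ Finset.range r, (X - C (y b)))
    (hconj : ∀ b < r, ∃ σ : Ω →+* Ω, (∀ x ∈ K, σ x = x) ∧ σ (y 0) = y b)
    (hinj : Set.InjOn y (Finset.range r : Set ℕ))
    (hx' : x' ∉ K) : Irreducible P := by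
  classical
  set Q : Polynomial Ω := ∏ b ∈ Finset.range r, (X - C (y b)) with hQ
  have hQm : Q.Monic := Polynomial.monic_prod_of_monic _ _ fun b _ => Polynomial.monic_X_sub_C _
  have hQd : Q.natDegree = r := by
    rw [hQ, Polynomial.natDegree_prod_of_monic _ _ fun b _ => Polynomial.monic_X_sub_C _]
    simp
  have hPd : P.natDegree = r + 1 := by
    have h1 : (P.map K.subtype).natDegree = P.natDegree := hP.natDegree_map _
    rw [← h1, hfac, (Polynomial.monic_X_sub_C x').natDegree_mul hQm, Polynomial.natDegree_X_sub_C,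
      hQd, add_comm]
  -- `y 0` is a root of `P`
  have hroot : ∀ b < r, Polynomial.aeval (y b) P = 0 := by
    intro b hb
    rw [Polynomial.aeval_def, Polynomial.eval₂_eq_eval_map]
    show (P.map K.subtype).eval (y b) = 0
    rw [hfac, Polynomial.eval_mul, hQ, Polynomial.eval_prod,
      Finset.prod_eq_zero (Finset.mem_range.mpr hb) (by simp), mul_zero]
  have hint : IsIntegral K (y 0) := ⟨P, hP, by
    have := hroot 0 hr
    rwa [Polynomial.aeval_def] at this⟩
  set m := minpoly K (y 0) with hm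
  have hmm : m.Monic := minpoly.monic hint
  have hmP : m ∣ P := minpoly.dvd K (y 0) (hroot 0 hr)
  -- all `y b` are roots of `m`
  have hmroot : ∀ b < r, Polynomial.aeval (y b) m = 0 := by
    intro b hb
    obtain ⟨σ, hσ, hσy⟩ := hconj b hb
    rw [← hσy, ← map_aeval_of_fixes K σ hσ, minpoly.aeval, map_zero]
  -- hence `Q ∣ m` over `Ω`
  have hmΩ : (m.map K.subtype).Monic := hmm.map _
  have hQm' : Q ∣ m.map K.subtype := by
    set s : Multiset Ω := (Finset.range r).val.map y with hs
    have hnd : s.Nodup :=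
      Multiset.Nodup.map_on (fun a ha b hb h => hinj ha hb h) (Finset.range r).nodup
    have hsub : s ≤ (m.map K.subtype).roots := by
      rw [Multiset.le_iff_subset hnd]
      intro z hz
      rw [hs, Multiset.mem_map] at hz
      obtain ⟨b, hb, rfl⟩ := hz
      rw [Polynomial.mem_roots hmΩ.ne_zero, Polynomial.IsRoot.def, Polynomial.eval_map]
      have := hmroot b (Finset.mem_range.mp hb)
      rwa [Polynomial.aeval_def] at this
    have hdvd := (Multiset.prod_X_sub_C_dvd_iff_le_roots hmΩ.ne_zero s).2 hsub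
    have hQs : (s.map fun a => X - C a).prod = Q := by
      rw [hs, Multiset.map_map]
      rfl
    rwa [hQs] at hdvd
  have hmd1 : r ≤ m.natDegree := by
    have h1 := Polynomial.natDegree_le_of_dvd hQm' hmΩ.ne_zero
    rwa [hQd, hmm.natDegree_map] at h1
  have hmd2 : m.natDegree ≤ r + 1 := by
    rw [← hPd]
    exact Polynomial.natDegree_le_of_dvd hmP hP.ne_zero
  rcases Nat.lt_or_ge r m.natDegree with hlt | hge
  · -- `m = P`
    have hmP' : P = m :=
      Polynomial.eq_of_monic_of_dvd_of_natDegree_le hmm hP hmP (by rw [hPd]; omega)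
    rw [hmP']
    exact minpoly.irreducible hint
  · -- `m` has degree `r`: then `x' ∈ K`
    exfalso
    have hmd : m.natDegree = r := le_antisymm hge hmd1
    obtain ⟨R, hR⟩ := hmP
    have hRm : R.Monic := hmm.of_mul_monic_left (hR ▸ hP)
    have hRd : R.natDegree = 1 := by
      have h1 : P.natDegree = m.natDegree + R.natDegree := by
        rw [hR, hmm.natDegree_mul hRm]
      omega
    have hmQ : m.map K.subtype = Q :=
      Polynomial.eq_of_monic_of_dvd_of_natDegree_le hQm hmΩ hQm'
        (by rw [hQd, hmm.natDegree_map, hmd])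
    have hR' : R = X + C (R.coeff 0) := hRm.eq_X_add_C hRd
    have h2 : Q * (X - C x') = Q * (R.map K.subtype) := by
      rw [mul_comm, ← hfac, hR, Polynomial.map_mul, hmQ]
    have h3 : X - C x' = R.map K.subtype := mul_left_cancel₀ hQm.ne_zero h2
    have h4 : -x' = K.subtype (R.coeff 0) := by
      have := congrArg (fun p : Polynomial Ω => p.coeff 0) h3
      simp only [Polynomial.coeff_sub, Polynomial.coeff_X_zero, Polynomial.coeff_C_zero,
        Polynomial.coeff_map, zero_sub] at this
      exact this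
    apply hx'
    have h5 : x' = -(K.subtype (R.coeff 0)) := by rw [← h4, neg_neg]
    rw [h5]
    exact neg_mem (R.coeff 0).2

/-- in the situation of the twist lemma, `P` is the minimal polynomial of `x'` -/
theorem minpoly_eq_of_twist (K : Subfield Ω) (P : Polynomial K) (hP : P.Monic) (r : ℕ)
    (hr : 0 < r) (x' : Ω) (y : ℕ → Ω)
    (hfac : P.map K.subtype = (X - C x') * ∏ b ∈ Finset.range r, (X - C (y b)))
    (hconj : ∀ b < r, ∃ σ : Ω →+* Ω, (∀ x ∈ K, σ x = x) ∧ σ (y 0) = y b)
    (hinj : Set.InjOn y (Finset.range r : Set ℕ))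
    (hx' : x' ∉ K) : minpoly K x' = P := by
  have hirr := irreducible_of_twist K P hP r hr x' y hfac hconj hinj hx'
  have hroot : Polynomial.aeval x' P = 0 := by
    rw [Polynomial.aeval_def, Polynomial.eval₂_eq_eval_map]
    show (P.map K.subtype).eval x' = 0
    rw [hfac, Polynomial.eval_mul, Polynomial.eval_sub, Polynomial.eval_X, Polynomial.eval_C,
      sub_self, zero_mul]
  exact (minpoly.eq_of_irreducible_of_monic hirr hroot hP).symm

/-- in the situation of the twist lemma, every `y b` is a root of the minimal polynomial of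
`x'`: the input for extending embeddings with `x' ↦ y b` -/
theorem aeval_minpoly_of_twist (K : Subfield Ω) (P : Polynomial K) (hP : P.Monic) (r : ℕ)
    (hr : 0 < r) (x' : Ω) (y : ℕ → Ω)
    (hfac : P.map K.subtype = (X - C x') * ∏ b ∈ Finset.range r, (X - C (y b)))
    (hconj : ∀ b < r, ∃ σ : Ω →+* Ω, (∀ x ∈ K, σ x = x) ∧ σ (y 0) = y b)
    (hinj : Set.InjOn y (Finset.range r : Set ℕ))
    (hx' : x' ∉ K) (b : ℕ) (hb : b < r) : Polynomial.aeval (y b) (minpoly K x') = 0 := by
  rw [minpoly_eq_of_twist K P hP r hr x' y hfac hconj hinj hx', Polynomial.aeval_def,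
    Polynomial.eval₂_eq_eval_map]
  show (P.map K.subtype).eval (y b) = 0
  rw [hfac, Polynomial.eval_mul, Polynomial.eval_prod,
    Finset.prod_eq_zero (Finset.mem_range.mpr hb) (by simp), mul_zero]

end Abstract

section Cusp

variable {k : Type*} [Field k]

/-- **A unit vanishing at the cusp is not a rational function of `j`.**  Let `J ∈ k((t))` be such
that every nonzero polynomial in `J` has a nonzero coefficient of index `≤ 0`, and let `x' ≠ 0`
have only positive exponents.  If `x'` is a root of a monic polynomial with coefficients in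
`k[J]` then `x' ∉ k(J)`. -/
theorem not_mem_pzField_of_isRoot (J : LaurentSeries k)
    (hJ : ∀ Q : Polynomial k, Q ≠ 0 → ∃ i : ℤ, i ≤ 0 ∧ (pzEval J Q).coeff i ≠ 0)
    (P0 : Polynomial (Polynomial k)) (hP0 : P0.Monic) (x' : LaurentSeries k)
    (hroot : (P0.map (pzEval J)).eval x' = 0) (hx0 : x' ≠ 0)
    (hxpos : ∀ i : ℤ, i ≤ 0 → x'.coeff i = 0) : x' ∉ pzField J := by
  intro hmem
  obtain ⟨A, B, hB, hAB⟩ := exists_pzEval_of_mem_pzField J hmem
  have hinj : Function.Injective (pzEval J) := by
    rw [injective_iff_map_eq_zero]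
    intro Q hQ
    by_contra hne
    obtain ⟨i, -, hi⟩ := hJ Q hne
    rw [hQ] at hi
    exact hi rfl
  set φ : RatFunc k →+* LaurentSeries k := IsFractionRing.lift (K := RatFunc k) hinj with hφ
  have hφalg : ∀ Q : Polynomial k, φ (algebraMap (Polynomial k) (RatFunc k) Q) = pzEval J Q :=
    fun Q => IsFractionRing.lift_algebraMap hinj Q
  have hB0 : B ≠ 0 := by
    rintro rfl
    exact hB (map_zero _)
  have hB' : algebraMap (Polynomial k) (RatFunc k) B ≠ 0 := by
    intro h
    apply hB
    rw [← hφalg, h, map_zero]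
  set ξ : RatFunc k := algebraMap (Polynomial k) (RatFunc k) A /
    algebraMap (Polynomial k) (RatFunc k) B with hξ
  have hφξ : φ ξ = x' := by
    rw [hξ, map_div₀, hφalg, hφalg, ← hAB]
    field_simp
  have hξroot : Polynomial.aeval ξ P0 = 0 := by
    apply φ.injective
    rw [map_zero, Polynomial.aeval_def, Polynomial.hom_eval₂, hφξ]
    have hcomp : φ.comp (algebraMap (Polynomial k) (RatFunc k)) = pzEval J :=
      RingHom.ext fun Q => hφalg Q
    rw [hcomp, Polynomial.eval₂_eq_eval_map]
    exact hroot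
  obtain ⟨Q, hQ⟩ := isInteger_of_is_root_of_monic hP0 hξroot
  have hx'Q : x' = pzEval J Q := by
    rw [← hφξ, ← hQ, hφalg]
  by_cases hQ0 : Q = 0
  · apply hx0
    rw [hx'Q, hQ0, map_zero]
  · obtain ⟨i, hi, hne⟩ := hJ Q hQ0
    apply hne
    rw [← hx'Q]
    exact hxpos i hi

/-- the hypothesis `hJ` of `not_mem_pzField_of_isRoot` holds for `J = j(c · t ^ m)` -/
theorem exists_coeff_pzEval_pzSub_jqModC_ne_zero (c : kˣ) (m : ℕ) [NeZero m]
    (Q : Polynomial k) (hQ : Q ≠ 0) :
    ∃ i : ℤ, i ≤ 0 ∧ (pzEval (pzSub c m (jqModC k)) Q).coeff i ≠ 0 := by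
  refine ⟨(m : ℤ) * (-(Q.natDegree : ℤ)), ?_, ?_⟩
  · have h1 : (0 : ℤ) ≤ m := Int.natCast_nonneg m
    have h2 : (0 : ℤ) ≤ Q.natDegree := Int.natCast_nonneg _
    nlinarith
  · rw [coeff_pzEval_pzSub_jqModC]
    exact mul_ne_zero (Units.ne_zero _) (Polynomial.leadingCoeff_ne_zero.mpr hQ)

/-- **Prime level, abstract form.**  `J = j(c t^m)`-like, `P0 ∈ k[Y][X]` monic with
`P0(X, J) = (X - x') ∏_{b<r} (X - y_b)` in `k((t))[X]`, the `y_b` pairwise distinct and conjugate
to `y_0` under endomorphisms of `k((t))` fixing the constants and `J`; `x' ≠ 0` has only positive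
exponents.  Then `P0(X, J)` is irreducible over `k(J)`. -/
theorem irreducible_map_pzEvalK (J : LaurentSeries k)
    (hJ : ∀ Q : Polynomial k, Q ≠ 0 → ∃ i : ℤ, i ≤ 0 ∧ (pzEval J Q).coeff i ≠ 0)
    (P0 : Polynomial (Polynomial k)) (hP0 : P0.Monic) (r : ℕ) (hr : 0 < r)
    (x' : LaurentSeries k) (y : ℕ → LaurentSeries k)
    (hfac : P0.map (pzEval J) =
      (Polynomial.X - Polynomial.C x') * ∏ b ∈ Finset.range r, (Polynomial.X - Polynomial.C (y b)))
    (hconj : ∀ b < r, ∃ σ : LaurentSeries k →+* LaurentSeries k,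
      (∀ a : k, σ (HahnSeries.C a) = HahnSeries.C a) ∧ σ J = J ∧ σ (y 0) = y b)
    (hinj : Set.InjOn y (Finset.range r : Set ℕ))
    (hx0 : x' ≠ 0) (hxpos : ∀ i : ℤ, i ≤ 0 → x'.coeff i = 0) :
    Irreducible (P0.map (pzEvalK J)) ∧ minpoly (pzField J) x' = P0.map (pzEvalK J) ∧
      ∀ b < r, Polynomial.aeval (y b) (minpoly (pzField J) x') = 0 := by
  have hmap : (P0.map (pzEvalK J)).map (pzField J).subtype = P0.map (pzEval J) := by
    rw [Polynomial.map_map, subtype_comp_pzEvalK]
  have hroot : (P0.map (pzEval J)).eval x' = 0 := by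
    rw [hfac, Polynomial.eval_mul, Polynomial.eval_sub, Polynomial.eval_X, Polynomial.eval_C,
      sub_self, zero_mul]
  have hx' : x' ∉ pzField J := not_mem_pzField_of_isRoot J hJ P0 hP0 x' hroot hx0 hxpos
  have hconj' : ∀ b < r, ∃ σ : LaurentSeries k →+* LaurentSeries k,
      (∀ x ∈ pzField J, σ x = x) ∧ σ (y 0) = y b := by
    intro b hb
    obtain ⟨σ, h1, h2, h3⟩ := hconj b hb
    exact ⟨σ, fun x hx => eq_of_mem_pzField J σ h1 h2 hx, h3⟩
  have hfac' : (P0.map (pzEvalK J)).map (pzField J).subtype =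
      (Polynomial.X - Polynomial.C x') *
        ∏ b ∈ Finset.range r, (Polynomial.X - Polynomial.C (y b)) := by
    rw [hmap, hfac]
  exact ⟨irreducible_of_twist _ _ (hP0.map _) r hr x' y hfac' hconj' hinj hx',
    minpoly_eq_of_twist _ _ (hP0.map _) r hr x' y hfac' hconj' hinj hx',
    fun b hb => aeval_minpoly_of_twist _ _ (hP0.map _) r hr x' y hfac' hconj' hinj hx' b hb⟩

end Cusp

end Fermat.Agent.Igusa
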