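/-
P9 / S28, package (D-c): the abstract twist lemma (irreducibility from a cyclic permutation of
the roots by an automorphism fixing the base field), its variant bounding degrees from below, and
the prime-level lemma "a unit vanishing at the cusp is not a rational function of `j`".
-/
import Mathlib

set_option autoImplicit false

open Polynomial

namespace Fermat.Agent.Igusa

section twist

variable {K Ω : Type*} [Field K] [Field Ω] [Algebra K Ω]

/-- powers of an automorphism fixing `K` pointwise fix `K` pointwise -/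
lemma ti_pow_fix (τ : Ω →+* Ω) (hτ : ∀ a : K, τ (algebraMap K Ω a) = algebraMap K Ω a) (n : ℕ)
    (a : K) : (τ ^ n) (algebraMap K Ω a) = algebraMap K Ω a := by
  induction n with
  | zero => rfl
  | succ n ih =>
    rw [pow_succ, RingHom.mul_def, RingHom.comp_apply, hτ, ih]

/-- an automorphism of `Ω` fixing `K` pointwise maps roots of `P ∈ K[X]` to roots -/
lemma ti_aeval_apply_eq_zero (τ : Ω →+* Ω)
    (hτ : ∀ a : K, τ (algebraMap K Ω a) = algebraMap K Ω a) (P : K[X]) {y : Ω}
    (hy : aeval y P = 0) : aeval (τ y) P = 0 := by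
  have h1 : τ.comp (algebraMap K Ω) = algebraMap K Ω := by
    ext a
    exact hτ a
  have h2 : τ (aeval y P) = aeval (τ y) P := by
    rw [aeval_def, aeval_def]
    have := Polynomial.hom_eval₂ P (algebraMap K Ω) τ y
    rw [h1] at this
    exact this
  rw [← h2, hy, map_zero]

lemma ti_aeval_pow_apply_eq_zero (τ : Ω →+* Ω)
    (hτ : ∀ a : K, τ (algebraMap K Ω a) = algebraMap K Ω a) (P : K[X]) {y : Ω}
    (hy : aeval y P = 0) (n : ℕ) : aeval ((τ ^ n) y) P = 0 :=
  ti_aeval_apply_eq_zero (τ ^ n) (ti_pow_fix τ hτ n) P hy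

/-- **Case B variant**: if `ρ` has `s.card` pairwise distinct images under powers of an
automorphism fixing `K` pointwise, every nonzero `m ∈ K[X]` vanishing at `ρ` has degree at least
`s.card`. -/
theorem ti_card_le_natDegree (τ : Ω →+* Ω)
    (hτ : ∀ a : K, τ (algebraMap K Ω a) = algebraMap K Ω a) (ρ : Ω) (s : Finset ℕ)
    (hinj : Set.InjOn (fun i : ℕ => (τ ^ i) ρ) s) {m : K[X]} (hm : m ≠ 0)
    (hroot : aeval ρ m = 0) : s.card ≤ m.natDegree := by
  classical
  have hm' : m.map (algebraMap K Ω) ≠ 0 :=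
    (Polynomial.map_ne_zero_iff (algebraMap K Ω).injective).mpr hm
  have hsub : (s.image fun i : ℕ => (τ ^ i) ρ).val ≤ (m.map (algebraMap K Ω)).roots := by
    rw [Finset.val_le_iff_val_subset]
    intro z hz
    obtain ⟨i, _, rfl⟩ := Finset.mem_image.mp hz
    rw [mem_roots hm', IsRoot, eval_map, ← aeval_def]
    exact ti_aeval_pow_apply_eq_zero τ hτ m hroot i
  calc s.card = (s.image fun i : ℕ => (τ ^ i) ρ).card := (Finset.card_image_of_injOn hinj).symm
    _ = Multiset.card (s.image fun i : ℕ => (τ ^ i) ρ).val := rfl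
    _ ≤ Multiset.card (m.map (algebraMap K Ω)).roots := Multiset.card_le_card hsub
    _ ≤ (m.map (algebraMap K Ω)).natDegree := card_roots' _
    _ = m.natDegree := natDegree_map _

/-- degree form of the Case B variant -/
theorem ti_card_le_finrank_adjoin (τ : Ω →+* Ω)
    (hτ : ∀ a : K, τ (algebraMap K Ω a) = algebraMap K Ω a) (ρ : Ω) (s : Finset ℕ)
    (hinj : Set.InjOn (fun i : ℕ => (τ ^ i) ρ) s) (hρ : IsIntegral K ρ) :
    s.card ≤ Module.finrank K (IntermediateField.adjoin K {ρ}) := by
  rw [IntermediateField.adjoin.finrank hρ]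
  exact ti_card_le_natDegree τ hτ ρ s hinj (minpoly.ne_zero hρ) (minpoly.aeval K ρ)

/-- degree form of the Case B variant for any finite-dimensional intermediate field `L ∋ ρ` -/
theorem ti_card_le_finrank (τ : Ω →+* Ω)
    (hτ : ∀ a : K, τ (algebraMap K Ω a) = algebraMap K Ω a) (ρ : Ω) (s : Finset ℕ)
    (hinj : Set.InjOn (fun i : ℕ => (τ ^ i) ρ) s) (L : IntermediateField K Ω)
    [FiniteDimensional K L] (hρL : ρ ∈ L) : s.card ≤ Module.finrank K L := by
  have hρ : IsIntegral K ρ := by
    have h1 : IsIntegral K (⟨ρ, hρL⟩ : L) := IsIntegral.of_finite K _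
    have h2 := h1.map (IsScalarTower.toAlgHom K L Ω)
    exact h2
  have hle : IntermediateField.adjoin K {ρ} ≤ L := by
    rw [IntermediateField.adjoin_simple_le_iff]
    exact hρL
  calc s.card ≤ Module.finrank K (IntermediateField.adjoin K {ρ}) :=
        ti_card_le_finrank_adjoin τ hτ ρ s hinj hρ
    _ ≤ Module.finrank K L := IntermediateField.finrank_le_of_le_right hle

/-- **The twist lemma.**  `P ∈ K[X]` monic with `P = (X - x') ∏_{b<r} (X - y_b)` over `Ω`, the
`y_b` pairwise distinct and all conjugate to `y_0` under powers of an automorphism `τ` of `Ω`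
fixing `K` pointwise, and `x' ∉ K`: then `P` is irreducible over `K`. -/
theorem ti_irreducible_of_twist (τ : Ω →+* Ω)
    (hτ : ∀ a : K, τ (algebraMap K Ω a) = algebraMap K Ω a) (P : K[X]) (hPm : P.Monic) (r : ℕ)
    (x' : Ω) (y : ℕ → Ω)
    (hfac : P.map (algebraMap K Ω) = (X - C x') * ∏ b ∈ Finset.range r, (X - C (y b)))
    (hconj : ∀ b < r, ∃ n : ℕ, y b = (τ ^ n) (y 0))
    (hinj : Set.InjOn y (Finset.range r)) (hr : 0 < r)
    (hx' : x' ∉ Set.range (algebraMap K Ω)) : Irreducible P := by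
  classical
  set Q : (Polynomial Ω) := ∏ b ∈ Finset.range r, (X - C (y b)) with hQ
  have hQm : Q.Monic := monic_prod_of_monic _ _ (fun b _ => monic_X_sub_C (y b))
  have hQdeg : Q.natDegree = r := by
    rw [hQ, natDegree_prod_of_monic _ _ (fun b _ => monic_X_sub_C (y b))]
    simp
  have hPdeg : P.natDegree = r + 1 := by
    rw [← natDegree_map (algebraMap K Ω), hfac,
      (monic_X_sub_C x').natDegree_mul hQm, natDegree_X_sub_C, hQdeg, add_comm]
  -- `y 0` is a root of `P`
  have hy0 : aeval (y 0) P = 0 := by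
    rw [aeval_def, ← eval_map, hfac, eval_mul, hQ, eval_prod,
      Finset.prod_eq_zero (Finset.mem_range.mpr hr) (by simp), mul_zero]
  have hint : IsIntegral K (y 0) := ⟨P, hPm, hy0⟩
  set m := minpoly K (y 0) with hm
  have hmm : m.Monic := minpoly.monic hint
  have hmP : m ∣ P := minpoly.dvd K (y 0) hy0
  have hm0 : m.map (algebraMap K Ω) ≠ 0 :=
    (Polynomial.map_ne_zero_iff (algebraMap K Ω).injective).mpr hmm.ne_zero
  -- all `y b` are roots of `m`
  have hroots : ∀ b < r, aeval (y b) m = 0 := by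
    intro b hb
    obtain ⟨n, hn⟩ := hconj b hb
    rw [hn]
    exact ti_aeval_pow_apply_eq_zero τ hτ m (minpoly.aeval K (y 0)) n
  -- hence `Q ∣ m` over `Ω`
  have hQm' : Q ∣ m.map (algebraMap K Ω) := by
    have hval : ((Finset.range r).image y).val ≤ (m.map (algebraMap K Ω)).roots := by
      rw [Finset.val_le_iff_val_subset]
      intro z hz
      obtain ⟨b, hb, rfl⟩ := Finset.mem_image.mp (Finset.mem_val.mp hz)
      rw [mem_roots hm0, IsRoot, eval_map, ← aeval_def]
      exact hroots b (Finset.mem_range.mp hb)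
    have h1 := (Multiset.prod_X_sub_C_dvd_iff_le_roots hm0 ((Finset.range r).image y).val).mpr hval
    have h2 : (Multiset.map (fun a => X - C a) ((Finset.range r).image y).val).prod = Q := by
      change ∏ a ∈ (Finset.range r).image y, (X - C a : Polynomial Ω) = Q
      rw [hQ, Finset.prod_image]
      intro b hb c hc hbc
      exact hinj hb hc hbc
    rwa [h2] at h1
  have hmdeg : r ≤ m.natDegree := by
    have := natDegree_le_of_dvd hQm' hm0
    rwa [hQdeg, natDegree_map] at this
  obtain ⟨c, hc⟩ := hmP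
  have hc0 : c ≠ 0 := by
    rintro rfl
    rw [mul_zero] at hc
    exact hPm.ne_zero hc
  have hcm : c.Monic := by
    have := hPm
    rw [hc] at this
    exact hmm.of_mul_monic_left this
  have hdeg : m.natDegree + c.natDegree = r + 1 := by
    rw [← hPdeg, hc, hmm.natDegree_mul hcm]
  have hirr : Irreducible m := minpoly.irreducible hint
  by_cases hcd : c.natDegree = 0
  · have : c = 1 := (Polynomial.Monic.natDegree_eq_zero hcm).mp hcd
    rw [hc, this, mul_one]
    exact hirr
  · exfalso
    have hc1 : c.natDegree = 1 := by omega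
    have hmr : m.natDegree = r := by omega
    -- `m = Q` over `Ω`
    have hmQ : m.map (algebraMap K Ω) = Q := by
      apply eq_of_monic_of_dvd_of_natDegree_le hQm (hmm.map _) hQm'
      rw [natDegree_map, hmr, hQdeg]
    -- `c = X - C a`
    have hcX : c = X - C (-c.coeff 0) := by
      have h1 := hcm.eq_X_add_C hc1
      rw [h1]
      simp
    have hmap : P.map (algebraMap K Ω) =
        (X - C (algebraMap K Ω (-c.coeff 0))) * Q := by
      rw [hc, Polynomial.map_mul, hmQ, mul_comm, hcX, Polynomial.map_sub, map_X, map_C]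
      simp
    rw [hfac] at hmap
    have hQ0 : Q ≠ 0 := hQm.ne_zero
    have := mul_right_cancel₀ hQ0 hmap
    have hx : x' = algebraMap K Ω (-c.coeff 0) := by
      have h := congrArg (fun p : (Polynomial Ω) => p.coeff 0) this
      simp only [coeff_sub, coeff_X_zero, coeff_C_zero, zero_sub, neg_inj] at h
      exact h
    exact hx' ⟨_, hx.symm⟩

/-- under the hypotheses of the twist lemma, `[K(x') : K] = r + 1` -/
theorem ti_finrank_adjoin_of_twist (τ : Ω →+* Ω)
    (hτ : ∀ a : K, τ (algebraMap K Ω a) = algebraMap K Ω a) (P : K[X]) (hPm : P.Monic) (r : ℕ)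
    (x' : Ω) (y : ℕ → Ω)
    (hfac : P.map (algebraMap K Ω) = (X - C x') * ∏ b ∈ Finset.range r, (X - C (y b)))
    (hconj : ∀ b < r, ∃ n : ℕ, y b = (τ ^ n) (y 0))
    (hinj : Set.InjOn y (Finset.range r)) (hr : 0 < r)
    (hx' : x' ∉ Set.range (algebraMap K Ω)) :
    Module.finrank K (IntermediateField.adjoin K {x'}) = r + 1 := by
  have hirr := ti_irreducible_of_twist τ hτ P hPm r x' y hfac hconj hinj hr hx'
  have hroot : aeval x' P = 0 := by
    rw [aeval_def, ← eval_map, hfac, eval_mul]
    simp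
  have hint : IsIntegral K x' := ⟨P, hPm, hroot⟩
  have hmin : P = minpoly K x' := minpoly.eq_of_irreducible_of_monic hirr hroot hPm
  rw [IntermediateField.adjoin.finrank hint, ← hmin, ← natDegree_map (algebraMap K Ω), hfac]
  have hQm : (∏ b ∈ Finset.range r, (X - C (y b)) : (Polynomial Ω)).Monic :=
    monic_prod_of_monic _ _ (fun b _ => monic_X_sub_C (y b))
  rw [(monic_X_sub_C x').natDegree_mul hQm, natDegree_X_sub_C,
    natDegree_prod_of_monic _ _ (fun b _ => monic_X_sub_C (y b))]
  simp [add_comm]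

/-- the hypothesis `hconj` of the twist lemma from `τ (y b) = y (b + 1)` -/
lemma ti_conj_of_step (τ : Ω →+* Ω) (y : ℕ → Ω) (hstep : ∀ b, τ (y b) = y (b + 1)) (b : ℕ) :
    y b = (τ ^ b) (y 0) := by
  induction b with
  | zero => rfl
  | succ b ih =>
    rw [pow_succ', RingHom.mul_def, RingHom.comp_apply, ← ih, hstep]

/-- the hypothesis `hconj` of the twist lemma from `τ (y b) = y ((b + 1) % r)` -/
lemma ti_conj_of_step_mod (τ : Ω →+* Ω) (y : ℕ → Ω) (r : ℕ)
    (hstep : ∀ b < r, τ (y b) = y ((b + 1) % r)) (b : ℕ) (hb : b < r) :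
    y b = (τ ^ b) (y 0) := by
  induction b with
  | zero => rfl
  | succ b ih =>
    have hb' : b < r := by omega
    rw [pow_succ', RingHom.mul_def, RingHom.comp_apply, ← ih hb', hstep b hb', Nat.mod_eq_of_lt hb]

/-- powers of a ring automorphism, as powers of the underlying ring endomorphism -/
lemma ti_ringEquiv_pow_apply (τ : Ω ≃+* Ω) (n : ℕ) (x : Ω) :
    (τ ^ n) x = ((τ : Ω →+* Ω) ^ n) x := by
  induction n generalizing x with
  | zero => rfl
  | succ n ih =>
    rw [pow_succ, pow_succ, RingAut.mul_apply, RingHom.mul_def, RingHom.comp_apply, ih]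
    rfl

/-- the twist lemma for a ring automorphism -/
theorem ti_irreducible_of_twist_equiv (τ : Ω ≃+* Ω)
    (hτ : ∀ a : K, τ (algebraMap K Ω a) = algebraMap K Ω a) (P : K[X]) (hPm : P.Monic) (r : ℕ)
    (x' : Ω) (y : ℕ → Ω)
    (hfac : P.map (algebraMap K Ω) = (X - C x') * ∏ b ∈ Finset.range r, (X - C (y b)))
    (hconj : ∀ b < r, ∃ n : ℕ, y b = (τ ^ n) (y 0))
    (hinj : Set.InjOn y (Finset.range r)) (hr : 0 < r)
    (hx' : x' ∉ Set.range (algebraMap K Ω)) : Irreducible P :=
  ti_irreducible_of_twist (τ : Ω →+* Ω) hτ P hPm r x' y hfac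
    (fun b hb => by
      obtain ⟨n, hn⟩ := hconj b hb
      exact ⟨n, hn.trans (ti_ringEquiv_pow_apply τ n _)⟩) hinj hr hx'

/-- the degree statement of the twist lemma for a ring automorphism -/
theorem ti_finrank_adjoin_of_twist_equiv (τ : Ω ≃+* Ω)
    (hτ : ∀ a : K, τ (algebraMap K Ω a) = algebraMap K Ω a) (P : K[X]) (hPm : P.Monic) (r : ℕ)
    (x' : Ω) (y : ℕ → Ω)
    (hfac : P.map (algebraMap K Ω) = (X - C x') * ∏ b ∈ Finset.range r, (X - C (y b)))
    (hconj : ∀ b < r, ∃ n : ℕ, y b = (τ ^ n) (y 0))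
    (hinj : Set.InjOn y (Finset.range r)) (hr : 0 < r)
    (hx' : x' ∉ Set.range (algebraMap K Ω)) :
    Module.finrank K (IntermediateField.adjoin K {x'}) = r + 1 :=
  ti_finrank_adjoin_of_twist (τ : Ω →+* Ω) hτ P hPm r x' y hfac
    (fun b hb => by
      obtain ⟨n, hn⟩ := hconj b hb
      exact ⟨n, hn.trans (ti_ringEquiv_pow_apply τ n _)⟩) hinj hr hx'

/-- the Case B variant for a ring automorphism -/
theorem ti_card_le_finrank_equiv (τ : Ω ≃+* Ω)
    (hτ : ∀ a : K, τ (algebraMap K Ω a) = algebraMap K Ω a) (ρ : Ω) (s : Finset ℕ)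
    (hinj : Set.InjOn (fun i : ℕ => (τ ^ i) ρ) s) (L : IntermediateField K Ω)
    [FiniteDimensional K L] (hρL : ρ ∈ L) : s.card ≤ Module.finrank K L := by
  refine ti_card_le_finrank (τ : Ω →+* Ω) hτ ρ s ?_ L hρL
  intro i hi j hj hij
  apply hinj hi hj
  simp only [] at hij ⊢
  rw [ti_ringEquiv_pow_apply, ti_ringEquiv_pow_apply]
  exact hij

end twist

section primeLevel

open scoped IntermediateField.algebraAdjoinAdjoin

variable {k Ω : Type*} [Field k] [Field Ω] [Algebra k Ω]

/-- the valuation of `p(J)` when `J` has negative valuation `a` and the constants are units: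
`v (p(J)) = deg p · a`. -/
lemma ti_addVal_aeval (v : AddValuation Ω (WithTop ℤ))
    (hvk : ∀ c : k, c ≠ 0 → v (algebraMap k Ω c) = 0) {J : Ω} {a : ℤ}
    (hJ : v J = (a : WithTop ℤ)) (ha : a < 0) :
    ∀ (n : ℕ) (p : k[X]), p ≠ 0 → p.natDegree = n →
      v (aeval J p) = (((n : ℤ) * a : ℤ) : WithTop ℤ) := by
  intro n
  induction n using Nat.strong_induction_on with
  | _ n ih =>
    intro p hp hn
    have hlc : p.leadingCoeff ≠ 0 := leadingCoeff_ne_zero.mpr hp
    have hdec := p.eraseLead_add_C_mul_X_pow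
    have hlead : v (aeval J (C p.leadingCoeff * X ^ p.natDegree)) =
        (((n : ℤ) * a : ℤ) : WithTop ℤ) := by
      rw [map_mul, aeval_C, map_pow, aeval_X, AddValuation.map_mul, hvk _ hlc, zero_add,
        AddValuation.map_pow, hJ, hn]
      rw [← WithTop.coe_nsmul, nsmul_eq_mul]
    by_cases he : p.eraseLead = 0
    · rw [he, zero_add] at hdec
      rw [← hdec]
      exact hlead
    · have hlt : p.eraseLead.natDegree < n := by
        have h1 := p.eraseLead_natDegree_le
        rcases Nat.eq_zero_or_pos n with h0 | h0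
        · exfalso
          apply he
          have hpC : p = C (p.coeff 0) := eq_C_of_natDegree_eq_zero (hn.trans h0)
          rw [hpC, eraseLead_C]
        · have := p.eraseLead_natDegree_lt_or_eraseLead_eq_zero
          rcases this with h2 | h2
          · rwa [hn] at h2
          · exact absurd h2 he
      have hE := ih _ hlt p.eraseLead he rfl
      have hcmp : v (aeval J (C p.leadingCoeff * X ^ p.natDegree)) < v (aeval J p.eraseLead) := by
        rw [hlead, hE, WithTop.coe_lt_coe]
        have : (p.eraseLead.natDegree : ℤ) < n := by exact_mod_cast hlt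
        nlinarith
      rw [← hdec, map_add, add_comm, AddValuation.map_add_eq_of_lt_left v hcmp, hlead]

/-- **Prime level, abstract form**: let `v` be a `ℤ`-valued additive valuation of `Ω`, trivial on
the constants `k`, `J ∈ Ω` with `v J < 0`, and `x' ≠ 0` integral over `k[J]` with `0 < v x'`.
Then `x' ∉ k(J)`. -/
theorem ti_not_mem_adjoin_of_pos_val (v : AddValuation Ω (WithTop ℤ))
    (hvk : ∀ c : k, c ≠ 0 → v (algebraMap k Ω c) = 0) {J x' : Ω} (hJ : v J < 0)
    (hx' : 0 < v x') (hx'0 : x' ≠ 0)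
    (hint : IsIntegral (Algebra.adjoin k {J}) x') :
    x' ∉ IntermediateField.adjoin k {J} := by
  intro hmem
  -- the valuation of `J` is an integer
  have hJ0 : J ≠ 0 := by
    rintro rfl
    rw [AddValuation.map_zero] at hJ
    exact absurd hJ (not_lt.mpr le_top)
  obtain ⟨a, ha⟩ : ∃ a : ℤ, v J = (a : WithTop ℤ) := by
    have : v J ≠ ⊤ := fun h => hJ0 ((AddValuation.top_iff v).mp h)
    exact ⟨(v J).untop this, (WithTop.coe_untop _ this).symm⟩
  have ha0 : a < 0 := by
    rw [ha] at hJ
    exact_mod_cast hJ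
  have hval := ti_addVal_aeval v hvk ha ha0
  -- `J` is transcendental over `k`
  have htr : Transcendental k J := by
    intro halg
    obtain ⟨p, hp, hp0⟩ := halg
    have := hval p.natDegree p hp rfl
    rw [hp0, AddValuation.map_zero] at this
    exact WithTop.top_ne_coe this
  -- `k[J]` is integrally closed, with fraction field `k(J)`
  let e : k[X] ≃ₐ[k] Algebra.adjoin k {J} := Polynomial.algEquivOfTranscendental k J htr
  have : IsIntegrallyClosed (Algebra.adjoin k {J}) :=
    IsIntegrallyClosed.of_equiv e.toRingEquiv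
  -- descend the integrality of `x'` to the fraction field `k(J)`
  have hintL : IsIntegral (Algebra.adjoin k {J})
      (⟨x', hmem⟩ : IntermediateField.adjoin k {J}) := by
    have hinj : Function.Injective (algebraMap (IntermediateField.adjoin k {J}) Ω) :=
      (algebraMap (IntermediateField.adjoin k {J}) Ω).injective
    exact (isIntegral_algHom_iff (IsScalarTower.toAlgHom (Algebra.adjoin k {J})
      (IntermediateField.adjoin k {J}) Ω) hinj).mp hint
  obtain ⟨z, hz⟩ := IsIntegrallyClosed.algebraMap_eq_of_integral hintL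
  -- so `x' = p(J)` for a polynomial `p`
  obtain ⟨p, hp⟩ : ∃ p : k[X], aeval J p = x' := by
    refine ⟨e.symm z, ?_⟩
    have h1 : ((e (e.symm z) : Algebra.adjoin k {J}) : Ω) = aeval J (e.symm z) := by
      simp only [e, Polynomial.algEquivOfTranscendental_apply]
      exact Polynomial.aeval_subalgebra_coe _ _ _
    rw [← h1, AlgEquiv.apply_symm_apply]
    have := congrArg (fun w : IntermediateField.adjoin k {J} => (w : Ω)) hz
    exact this
  have hp0 : p ≠ 0 := by
    rintro rfl
    rw [map_zero] at hp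
    exact hx'0 hp.symm
  have := hval p.natDegree p hp0 rfl
  rw [hp] at this
  rw [this] at hx'
  have h2 : (0 : ℤ) < (p.natDegree : ℤ) * a := by exact_mod_cast hx'
  have h3 : (p.natDegree : ℤ) * a ≤ 0 :=
    mul_nonpos_of_nonneg_of_nonpos (Int.natCast_nonneg _) ha0.le
  omega

/-- integrality over `k[J]` from a monic bivariate polynomial relation `Ψ(x', J) = 0`; the ring
homomorphism `φ : k[Y] → Ω` is any map with `φ (C c) = c`, `φ Y = J` (e.g. `evalJ`). -/
lemma ti_isIntegral_adjoin_of_eval₂ {J x' : Ω} (Ψ : Polynomial (Polynomial k)) (hΨ : Ψ.Monic)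
    (φ : k[X] →+* Ω) (hφC : ∀ c : k, φ (C c) = algebraMap k Ω c) (hφX : φ X = J)
    (h0 : Ψ.eval₂ φ x' = 0) : IsIntegral (Algebra.adjoin k {J}) x' := by
  let J' : Algebra.adjoin k {J} := ⟨J, Algebra.self_mem_adjoin_singleton k J⟩
  let φ' : k[X] →+* Algebra.adjoin k {J} := (aeval J' : k[X] →ₐ[k] Algebra.adjoin k {J})
  have hcomp : (algebraMap (Algebra.adjoin k {J}) Ω).comp φ' = φ := by
    apply Polynomial.ringHom_ext
    · intro c
      rw [hφC]
      simp [φ']
    · rw [hφX]
      simp [φ', J']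
  refine ⟨Ψ.map φ', hΨ.map φ', ?_⟩
  rw [eval₂_map, hcomp]
  exact h0

/-- **Prime level, bivariate form**: `Ψ ∈ k[Y][X]` monic in `X`, `Ψ(x', J) = 0`, `v J < 0 < v x'`,
`x' ≠ 0`: then `x' ∉ k(J)`. -/
theorem ti_not_mem_adjoin_of_eval₂ (v : AddValuation Ω (WithTop ℤ))
    (hvk : ∀ c : k, c ≠ 0 → v (algebraMap k Ω c) = 0) {J x' : Ω} (hJ : v J < 0)
    (hx' : 0 < v x') (hx'0 : x' ≠ 0) (Ψ : Polynomial (Polynomial k)) (hΨ : Ψ.Monic)
    (φ : k[X] →+* Ω) (hφC : ∀ c : k, φ (C c) = algebraMap k Ω c) (hφX : φ X = J)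
    (h0 : Ψ.eval₂ φ x' = 0) : x' ∉ IntermediateField.adjoin k {J} :=
  ti_not_mem_adjoin_of_pos_val v hvk hJ hx' hx'0
    (ti_isIntegral_adjoin_of_eval₂ Ψ hΨ φ hφC hφX h0)

end primeLevel

section laurent

variable {k : Type*} [Field k]

/-- **Prime level for Laurent series**: `J ∈ k((q))` of negative order, `x' ∈ k((q))` of positive
order with `Ψ(x', J) = 0` for some `Ψ ∈ k[Y][X]` monic in `X`: then `x' ∉ k(J)`. -/
theorem ti_laurent_not_mem_adjoin {J x' : LaurentSeries k} (hJ0 : J ≠ 0) (hJ : J.order < 0)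
    (hx' : 0 < x'.order) (Ψ : Polynomial (Polynomial k)) (hΨ : Ψ.Monic)
    (φ : k[X] →+* LaurentSeries k)
    (hφC : ∀ c : k, φ (C c) = algebraMap k (LaurentSeries k) c) (hφX : φ X = J)
    (h0 : Ψ.eval₂ φ x' = 0) : x' ∉ IntermediateField.adjoin k {J} := by
  have hx'0 : x' ≠ 0 := by
    rintro rfl
    simp at hx'
  refine ti_not_mem_adjoin_of_eval₂ (HahnSeries.addVal ℤ k) ?_ ?_ ?_ hx'0 Ψ hΨ φ hφC hφX h0
  · intro c hc
    have h1 : algebraMap k (LaurentSeries k) c = HahnSeries.C c :=
      LaurentSeries.algebraMap_apply k c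
    have h2 : (HahnSeries.C c : LaurentSeries k) ≠ 0 := by
      simpa using hc
    rw [h1, HahnSeries.addVal_apply_of_ne h2, HahnSeries.order_C]
    rfl
  · rw [HahnSeries.addVal_apply_of_ne hJ0]
    exact_mod_cast hJ
  · rw [HahnSeries.addVal_apply_of_ne hx'0]
    exact_mod_cast hx'

/-- the same with `φ (C c) = HahnSeries.C c` (the shape of `evalJ_C`) -/
theorem ti_laurent_not_mem_adjoin' {J x' : LaurentSeries k} (hJ0 : J ≠ 0) (hJ : J.order < 0)
    (hx' : 0 < x'.order) (Ψ : Polynomial (Polynomial k)) (hΨ : Ψ.Monic)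
    (φ : k[X] →+* LaurentSeries k)
    (hφC : ∀ c : k, φ (C c) = HahnSeries.C c) (hφX : φ X = J)
    (h0 : Ψ.eval₂ φ x' = 0) : x' ∉ IntermediateField.adjoin k {J} :=
  ti_laurent_not_mem_adjoin hJ0 hJ hx' Ψ hΨ φ
    (fun c => (hφC c).trans (LaurentSeries.algebraMap_apply k c).symm) hφX h0

end laurent

end Fermat.Agent.Igusa
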